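import Fermat.Agent.ResidualThree.ThetaInduction.GaussPrime

/-!
# The Gauss sum of the norm form modulo an unramified divisor

If `e(l N x)` has exact period `Lat (ω + D)` on `Lat ω`, with `D` unramified, then the Gauss sum
over the quotient is `∏ (± N v) ^ (D v)`: squares of places are removed by averaging, distinct
places separate, and one place is a binary Gauss sum over the residue field.
-/

noncomputable section

open NumberField Module IsDedekindDomain

namespace Fermat.Agent.ResidualThree.ThetaInduction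

open Fermat.Agent.CFT (OrdGE ord below ram baseU)

variable {L M : Type} [Field L] [NumberField L] [Field M] [NumberField M]
  [Algebra L M] [Algebra.IsQuadraticExtension L M]

theorem gBound_add (D D₁ : FPlace L →₀ ℤ) (ω : FPlace M →₀ ℤ) (P : FPlace M) :
    gBound D (ω + pullD M D₁) P = gBound (D + D₁) ω P - (ram L P : ℤ) * D₁ (below L P) := by
  simp only [gBound, Finsupp.add_apply, pullD_apply, below_tauP, ram_tauP]
  ring

/-- The hypotheses on a Gauss sum pass to a coprime factor. -/
theorem GaussRel.shift {l : L} {D₁ D₂ : FPlace L →₀ ℤ} {ω : FPlace M →₀ ℤ}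
    (h : GaussRel l (D₁ + D₂) ω) (h1 : 0 ≤ D₁) (h2 : 0 ≤ D₂)
    (hdisj : ∀ v, D₁ v = 0 ∨ D₂ v = 0) : GaussRel l D₁ (ω + pullD M D₂) where
  nonneg := h1
  unram v hv := h.unram v (by rw [Finsupp.add_apply, (hdisj v).resolve_left hv, add_zero]; exact hv)
  le P := (h.le P).mono (by
    rw [gBound_add]
    have := mul_nonneg (Int.natCast_nonneg (ram L P))
      (show (0 : ℤ) ≤ D₂ (below L P) by simpa using h2 (below L P))
    omega)
  exact_at P hP := by
    have h0 := (hdisj (below L P)).resolve_left hP
    rw [gBound_add, h0, mul_zero, sub_zero]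
    exact h.exact_at P (by rw [Finsupp.add_apply, h0, add_zero]; exact hP)

/-- The hypotheses on a Gauss sum pass to the divisor less two copies of a place. -/
theorem GaussRel.step {l : L} {D : FPlace L →₀ ℤ} {v : FPlace L} {ω : FPlace M →₀ ℤ}
    (h : GaussRel l (D + (Finsupp.single v 1 + Finsupp.single v 1)) ω) (hD : 0 ≤ D) :
    GaussRel l D (ω + pullD M (Finsupp.single v 1)) := by
  classical
  have key : ∀ P, gBound D (ω + pullD M (Finsupp.single v 1)) P =
      gBound (D + (Finsupp.single v 1 + Finsupp.single v 1)) ω P := fun P => by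
    rw [gBound_add]
    simp only [gBound, Finsupp.add_apply]
    ring
  refine ⟨hD, fun w hw => h.unram w ?_, fun P => by rw [key]; exact h.le P, fun P hP => ?_⟩
  · intro h0
    have h1 : (0 : ℤ) ≤ D w := by simpa using hD w
    have h2 : (0 : ℤ) ≤ Finsupp.single v (1 : ℤ) w := by
      rw [Finsupp.single_apply]; split_ifs <;> norm_num
    simp only [Finsupp.add_apply] at h0
    omega
  · rw [key]
    refine h.exact_at P fun h0 => hP ?_
    have h1 : (0 : ℤ) ≤ D (below L P) := by simpa using hD (below L P)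
    have h2 : (0 : ℤ) ≤ Finsupp.single v (1 : ℤ) (below L P) := by
      rw [Finsupp.single_apply]; split_ifs <;> norm_num
    simp only [Finsupp.add_apply] at h0
    omega

/-- Some coefficient is exact at one place. -/
theorem exists_coeff_exact {v : FPlace L} (hv : Unram M v) (α : FPlace M →₀ ℤ) :
    ∃ l : L, GaussRel l (Finsupp.single v 1) α := by
  classical
  -- the coefficient: exact at the places above `v`, small elsewhere
  obtain ⟨P₀, hP₀⟩ := Fermat.Agent.CFT.exists_below_eq (L := M) v
  choose P hP using fun w : FPlace L => Fermat.Agent.CFT.exists_below_eq (L := M) w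
  let F : FPlace L → ℤ := fun w => if w = v then -(cond v + 1) - α P₀ - α (tauP L P₀)
    else (α (P w)).natAbs + (α (tauP L (P w))).natAbs
  have hfin : (Function.support F).Finite := by
    refine ((Set.finite_singleton v).union ((α.support.finite_toSet.image (below L)))).subset
      fun w hw => ?_
    by_cases hwv : w = v
    · exact Or.inl hwv
    · refine Or.inr ?_
      simp only [Function.mem_support, F, if_neg hwv] at hw
      by_cases h1 : α (P w) = 0
      · have h2 : α (tauP L (P w)) ≠ 0 := fun h2 => hw (by simp [h1, h2])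
        exact ⟨tauP L (P w), Finsupp.mem_support_iff.mpr h2, by rw [below_tauP, hP]⟩
      · exact ⟨P w, Finsupp.mem_support_iff.mpr h1, hP w⟩
  obtain ⟨x, hx, hxv⟩ := exists_unit_ord_eq_on (Finsupp.ofSupportFinite F hfin) {v}
  have hxv' : ord v x = F v := by
    rw [hxv v (Finset.mem_singleton_self v), Finsupp.ofSupportFinite_coe]
  have hFv : F v = -(cond v + 1) - α P₀ - α (tauP L P₀) := if_pos rfl
  refine ⟨x, ⟨fun w => ?_, fun w hw => ?_, fun Q => ?_, fun Q hQ => ?_⟩⟩
  · rw [Finsupp.single_apply]; split_ifs <;> simp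
  · rw [Finsupp.single_apply] at hw
    split_ifs at hw with h
    · exact h ▸ hv
    · exact absurd rfl hw
  · rw [show algebraMap L M (x : L) = ((baseU L M x : Mˣ) : M) from rfl,
      Fermat.Agent.CFT.ordGE_iff, Fermat.Agent.CFT.ord_baseU]
    have h1 := (mem_Lat_iff_ord x).mp hx (below L Q)
    rw [Finsupp.ofSupportFinite_coe] at h1
    have hsym : ∀ R : FPlace M, below L R = below L Q →
        α R + α (tauP L R) = α Q + α (tauP L Q) := by
      intro R hR
      rcases eq_or_eq_tauP hR with rfl | rfl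
      · rfl
      · rw [tauP_tauP, add_comm]
    by_cases hw : below L Q = v
    · rw [hw] at h1
      simp only [gBound, hw, hv Q hw, Finsupp.single_eq_same, Nat.cast_one, one_mul]
      rw [hFv] at h1
      have := hsym P₀ (hP₀.trans hw.symm)
      omega
    · simp only [gBound, Finsupp.single_eq_of_ne hw, add_zero]
      simp only [F, if_neg hw] at h1
      have hs := hsym (P (below L Q)) (hP _)
      have hc := cond_nonneg (below L Q)
      have hr : (1 : ℤ) ≤ ram L Q := by exact_mod_cast Fermat.Agent.CFT.ram_pos Q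
      nlinarith [le_abs_self (α (P (below L Q))), neg_abs_le (α (P (below L Q))),
        le_abs_self (α (tauP L (P (below L Q)))), neg_abs_le (α (tauP L (P (below L Q)))),
        Int.natCast_natAbs (α (P (below L Q))), Int.natCast_natAbs (α (tauP L (P (below L Q))))]
  · have hw : below L Q = v := by
      by_contra hw
      exact hQ (Finsupp.single_eq_of_ne hw)
    rw [show algebraMap L M (x : L) = ((baseU L M x : Mˣ) : M) from rfl,
      Fermat.Agent.CFT.ordGE_iff, Fermat.Agent.CFT.ord_baseU]
    simp only [gBound, hw, hv Q hw, Finsupp.single_eq_same, Nat.cast_one, one_mul, hxv', hFv]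
    rcases eq_or_eq_tauP (hw.trans hP₀.symm) with rfl | rfl
    · omega
    · rw [tauP_tauP]; omega

/-- The index of a lattice in the one shrunk at the places above an unramified place. -/
theorem relIndex_pull_single {v : FPlace L} (hv : Unram M v) (α : FPlace M →₀ ℤ) :
    (Lat (α + pullD M (Finsupp.single v 1))).relIndex (Lat α) =
      Ideal.absNorm v.asIdeal ^ 2 := by
  obtain ⟨l, hl⟩ := exists_coeff_exact hv α
  exact (gaussSum_single hv l α hl).2

theorem ne_zero_of_exact {l : L} {D : FPlace L →₀ ℤ} {ω : FPlace M →₀ ℤ} (h : GaussRel l D ω)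
    {P : FPlace M} (hP : D (below L P) ≠ 0) : l ≠ 0 := fun h0 => h.exact_at P hP (by
  rw [h0, map_zero]; exact Fermat.Agent.CFT.ordGE_zero _)

/-- The pairing with `Lat (ω + D + v)` detects `Lat ω` modulo `Lat (ω + v)`. -/
theorem exists_cross_ne_one {l : L} {D : FPlace L →₀ ℤ} {v : FPlace L} {ω : FPlace M →₀ ℤ}
    (h : GaussRel l (D + (Finsupp.single v 1 + Finsupp.single v 1)) ω) (hD : 0 ≤ D) {x : M}
    (hx : x ∈ Lat ω) (hx1 : x ∉ Lat (ω + pullD M (Finsupp.single v 1))) :
    ∃ a ∈ Lat (ω + pullD M (D + Finsupp.single v 1)),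
      traceExp (l * Algebra.trace L M (x * conjM L M a)) ≠ 1 := by
  classical
  set s := Finsupp.single v (1 : ℤ) with hs
  have hDv : (D + (s + s)) v ≠ 0 := by
    have : (0 : ℤ) ≤ D v := by simpa using hD v
    simp only [Finsupp.add_apply, hs, Finsupp.single_eq_same]
    omega
  have hv : Unram M v := h.unram v hDv
  have hdv : ∀ P : FPlace M, below L P = v → pullD M s P = 1 := fun P hP => by
    rw [pullD_apply, hP, hv P hP, hs, Finsupp.single_eq_same]; simp
  have hdv0 : ∀ P : FPlace M, below L P ≠ v → pullD M s P = 0 := fun P hP => by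
    rw [pullD_apply, hs, Finsupp.single_eq_of_ne hP, mul_zero]
  obtain ⟨P, hP⟩ : ∃ P, ¬ OrdGE P ((ω + pullD M s) P) x := by
    by_contra! hh; exact hx1 hh
  have hPv : below L P = v := by
    by_contra hh
    exact hP (by rw [Finsupp.add_apply, hdv0 P hh, add_zero]; exact hx P)
  rw [Finsupp.add_apply, hdv P hPv] at hP
  have hx0 : x ≠ 0 := fun h0 => hP (by rw [h0]; exact Fermat.Agent.CFT.ordGE_zero _)
  have hl0 : l ≠ 0 := ne_zero_of_exact h (P := P) (by rw [hPv]; exact hDv)
  set xu := Units.mk0 x hx0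
  set lu := Units.mk0 (algebraMap L M l) ((map_ne_zero _).mpr hl0)
  have hxP : ord P xu = ω P := by
    have h1 := (Fermat.Agent.CFT.ordGE_iff P xu _).mp (hx P)
    have h2 : ¬ (ω P + 1 ≤ ord P xu) := fun hh => hP ((Fermat.Agent.CFT.ordGE_iff P xu _).mpr hh)
    omega
  have hlP : ord P lu = gBound (D + (s + s)) ω P := by
    have h1 := (Fermat.Agent.CFT.ordGE_iff P lu _).mp (h.le P)
    have h2 : ¬ (gBound (D + (s + s)) ω P + 1 ≤ ord P lu) := fun hh =>
      h.exact_at P (by rw [hPv]; exact hDv) ((Fermat.Agent.CFT.ordGE_iff P lu _).mpr hh)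
    omega
  set β := divisor (lu * xu) + tauD L (ω + pullD M (D + s)) with hβ
  obtain ⟨z, hz, hzo, hne⟩ := exists_traceExp_ne_one P (Finsupp.mapRange Int.toNat rfl β)
  set q : M := z * (((lu * xu)⁻¹ : Mˣ) : M) with hq
  refine ⟨conjM L M q, fun Q => ?_, ?_⟩
  · rw [ordGE_conjM]
    have hinv : OrdGE (tauP L Q) (-ord (tauP L Q) (lu * xu)) (((lu * xu)⁻¹ : Mˣ) : M) := by
      rw [Fermat.Agent.CFT.ordGE_iff, Fermat.Agent.CFT.ord_inv]
    by_cases hQ : tauP L Q = P
    · subst hQ
      refine (hz.mul hinv).mono ?_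
      have hc := cond_le_of_unram hv hPv
      rw [Fermat.Agent.CFT.ord_mul, hxP, hlP]
      have hbQ : below L Q = v := by rw [← below_tauP]; exact hPv
      simp only [gBound, pullD_apply, pullD_add, Finsupp.add_apply, below_tauP, ram_tauP, hbQ,
        hv Q hbQ, tauP_tauP, hs, Finsupp.single_eq_same]
      omega
    · refine ((hzo _ hQ).mul hinv).mono ?_
      simp only [Finsupp.mapRange_apply, hβ, Finsupp.add_apply, tauD_apply, tauP_tauP,
        divisor_apply]
      omega
  · show traceExp (l * Algebra.trace L M (x * conjM L M (conjM L M q))) ≠ 1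
    rw [conjM_conjM, ← smul_eq_mul, ← map_smul, Algebra.smul_def, ← traceExp_eq_trace]
    convert hne using 2
    rw [hq, show algebraMap L M l * (x * (z * (((lu * xu)⁻¹ : Mˣ) : M))) =
      z * (((lu * xu : Mˣ) : M) * (((lu * xu)⁻¹ : Mˣ) : M)) by
        rw [Units.val_mul]; simp only [lu, xu, Units.val_mk0]; ring, Units.mul_inv, mul_one]

/-- Two powers of one place can be removed. -/
theorem gaussSum_square {l : L} {D : FPlace L →₀ ℤ} {v : FPlace L} {ω : FPlace M →₀ ℤ}
    (h : GaussRel l (D + (Finsupp.single v 1 + Finsupp.single v 1)) ω) (hD : 0 ≤ D) :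
    gaussSum l (D + (Finsupp.single v 1 + Finsupp.single v 1)) ω =
      (Ideal.absNorm v.asIdeal : ℂ) ^ 2 * gaussSum l D (ω + pullD M (Finsupp.single v 1)) := by
  classical
  have hsv : (0 : FPlace L →₀ ℤ) ≤ Finsupp.single v 1 := fun w => by
    rw [Finsupp.single_apply]; split_ifs <;> simp
  set s := Finsupp.single v (1 : ℤ) with hs
  have hDv : (D + (s + s)) v ≠ 0 := by
    have : (0 : ℤ) ≤ D v := by simpa using hD v
    simp only [Finsupp.add_apply, hs, Finsupp.single_eq_same]
    omega
  have hv : Unram M v := h.unram v hDv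
  have hpD := pullD_nonneg (M := M) hD
  have hps := pullD_nonneg (M := M) hsv
  set B := Lat ω
  set C := Lat (ω + pullD M (D + (s + s))) with hC
  set W := Lat (ω + pullD M (D + s)) with hW
  set B₁ := Lat (ω + pullD M s) with hB₁
  have hle : ∀ {a : FPlace M →₀ ℤ}, 0 ≤ a → Lat (ω + a) ≤ B := fun {a} ha =>
    Lat_anti fun P => by
      have : (0 : ℤ) ≤ a P := by simpa using ha P
      simp only [Finsupp.add_apply]; omega
  have hWB : W ≤ B := hle (by rw [pullD_add]; exact add_nonneg hpD hps)
  have hCW : C ≤ W := Lat_anti fun P => by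
    have : (0 : ℤ) ≤ pullD M s P := by simpa using hps P
    simp only [Finsupp.add_apply, pullD_add]; omega
  have hB₁B : B₁ ≤ B := hle hps
  have hCB₁ : C ≤ B₁ := Lat_anti fun P => by
    have h1 : (0 : ℤ) ≤ pullD M s P := by simpa using hps P
    have h2 : (0 : ℤ) ≤ pullD M D P := by simpa using hpD P
    simp only [Finsupp.add_apply, pullD_add]; omega
  set f := gTerm (M := M) l with hf
  have hper : ∀ x ∈ B, ∀ c ∈ C, f (x + c) = f x := fun x hx c hc => gTerm_periodic h hx hc
  set χ : M → M → ℂ := fun x a => traceExp (l * Algebra.trace L M (x * conjM L M a)) with hχ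
  have hχadd : ∀ x a b : M, χ x (a + b) = χ x a * χ x b := fun x a b => by
    simp only [hχ, map_add, mul_add, traceExp_add]
  -- translating by `W`
  have hsum : ∀ x ∈ B, ∀ a ∈ W, f (x + a) = f x * χ x a := fun x hx a ha => by
    rw [hf, gTerm_add, traceExp_normTerm h ha fun P => ?_, mul_one]
    have h0 : (0 : ℤ) ≤ pullD M D P := by simpa using hpD P
    rw [Finsupp.add_apply, Finsupp.add_apply, pullD_tau, pullD_add, Finsupp.add_apply]
    simp only [pullD_add, Finsupp.add_apply]
    omega
  have htriv : ∀ x ∈ B₁, ∀ a ∈ W, χ x a = 1 := fun x hx a ha => traceExp_cross h hx ha fun P => by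
    rw [Finsupp.add_apply, Finsupp.add_apply, pullD_tau]
    simp only [pullD_add, Finsupp.add_apply]
    omega
  have hχC : ∀ x ∈ B, ∀ c ∈ C, χ x c = 1 := fun x hx c hc => traceExp_cross h hx hc fun P => by
    rw [Finsupp.add_apply, pullD_tau]
    linarith
  have hnontriv : ∀ x ∈ B, x ∉ B₁ → ∃ a ∈ W, χ x a ≠ 1 := fun x hx hx1 =>
    exists_cross_ne_one h hD hx hx1
  -- averaging
  have hrW : C.relIndex W ≠ 0 := relIndex_Lat_ne_zero fun P => by
    have : (0 : ℤ) ≤ pullD M s P := by simpa using hps P
    simp only [Finsupp.add_apply, pullD_add]; omega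
  have hrB : C.relIndex B ≠ 0 := relIndex_Lat_ne_zero fun P => by
    have h1 : (0 : ℤ) ≤ pullD M s P := by simpa using hps P
    have h2 : (0 : ℤ) ≤ pullD M D P := by simpa using hpD P
    simp only [Finsupp.add_apply, pullD_add]; omega
  have := finite_of_relIndex hrW
  have := finite_of_relIndex hrB
  let := Fintype.ofFinite (W ⧸ C.addSubgroupOf W)
  let := Fintype.ofFinite (B ⧸ C.addSubgroupOf B)
  have havg : (C.relIndex W : ℂ) * qsum B C f = qsum B C fun x => f x * qsum W C (χ x) := by
    have h1 : ∀ a : W ⧸ C.addSubgroupOf W,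
        qsum B C f = qsum B C fun x => f x * χ x (a.out : M) := fun a => by
      rw [← qsum_translate hper (hWB a.out.2)]
      exact qsum_congr fun x hx => hsum x hx _ a.out.2
    calc (C.relIndex W : ℂ) * qsum B C f
        = ∑ a : W ⧸ C.addSubgroupOf W, qsum B C fun x => f x * χ x (a.out : M) := by
          rw [← Finset.sum_congr rfl fun a _ => h1 a, Finset.sum_const, nsmul_eq_mul]
          simp [AddSubgroup.relIndex, AddSubgroup.index_eq_card, Nat.card_eq_fintype_card]
      _ = _ := by
          simp only [qsum, finsum_eq_sum_of_fintype]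
          rw [Finset.sum_comm]
          simp [Finset.mul_sum]
  have hin : ∀ x ∈ B₁, qsum W C (χ x) = (C.relIndex W : ℂ) := fun x hx => by
    rw [qsum_congr (f' := fun _ => 1) fun a ha => htriv x hx a ha, qsum, finsum_eq_sum_of_fintype,
      Finset.sum_const, nsmul_eq_mul, mul_one]
    simp [AddSubgroup.relIndex, AddSubgroup.index_eq_card, Nat.card_eq_fintype_card]
  have hout : ∀ x ∈ B, x ∉ B₁ → qsum W C (χ x) = 0 := fun x hx hx1 => by
    obtain ⟨a, ha, hne⟩ := hnontriv x hx hx1
    exact qsum_char_eq_zero (fun a _ b _ => hχadd x a b) (fun c hc => hχC x hx c hc) ha hne hCW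
  have hmain : qsum B C f = qsum B₁ C f := by
    refine mul_left_cancel₀ (Nat.cast_ne_zero.mpr hrW : (C.relIndex W : ℂ) ≠ 0) ?_
    rw [havg, qsum_congr (f' := fun x => (C.relIndex W : ℂ) * if x ∈ B₁ then f x else 0)
      fun x hx => by
      by_cases hx1 : x ∈ B₁
      · rw [if_pos hx1, hin x hx1, mul_comm]
      · rw [if_neg hx1, hout x hx hx1, mul_zero, mul_zero]]
    rw [qsum, ← mul_finsum]
    congr 1
    change qsum B C (fun x => if x ∈ B₁ then f x else 0) = qsum B₁ C f
    rw [qsum_of_support hB₁B (fun x hx c hc => ?_) fun x _ hx => if_neg hx]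
    · exact qsum_congr fun x hx => if_pos hx
    · by_cases hx1 : x ∈ B₁
      · rw [if_pos hx1, if_pos (add_mem hx1 (hCB₁ hc)), hper x hx c hc]
      · rw [if_neg hx1,
          if_neg fun hh => hx1 ((AddSubgroup.add_mem_cancel_right B₁ (hCB₁ hc)).mp hh)]
  rw [gaussSum, hmain]
  set ω₂ := ω + pullD M s + pullD M D with hω₂
  have e : ω + pullD M (D + (s + s)) = ω₂ + pullD M s := by
    rw [hω₂, pullD_add, pullD_add]; abel
  have hidx : C.relIndex (Lat ω₂) = Ideal.absNorm v.asIdeal ^ 2 := by
    rw [hC, e, relIndex_pull_single hv ω₂]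
  rw [qsum_refine (C := Lat ω₂) ?_ ?_ ?_ ?_
    (fun x hx c hc => gTerm_periodic (h.step hD) hx hc), hidx, gaussSum, Nat.cast_pow]
  · rw [hC, e]
    exact Lat_anti fun P => by
      have : (0 : ℤ) ≤ pullD M s P := by simpa using hps P
      simp only [Finsupp.add_apply]; omega
  · exact Lat_anti fun P => by
      have : (0 : ℤ) ≤ pullD M D P := by simpa using hpD P
      simp only [hω₂, hs, Finsupp.add_apply]; omega
  · exact relIndex_Lat_ne_zero fun P => by
      have : (0 : ℤ) ≤ pullD M D P := by simpa using hpD P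
      simp only [hω₂, hs, Finsupp.add_apply]; omega
  · rw [hidx]
    exact pow_ne_zero 2 fun h0 => v.ne_bot (Ideal.absNorm_eq_zero_iff.mp h0)

/-- An element split along disjoint supports. -/
theorem exists_split {ω d₁ d₂ : FPlace M →₀ ℤ} (hd₁ : 0 ≤ d₁) (hd₂ : 0 ≤ d₂)
    (hdisj : ∀ P, d₁ P = 0 ∨ d₂ P = 0) {x : M} (hx : x ∈ Lat ω) :
    ∃ y ∈ Lat (ω + d₂), ∃ z ∈ Lat (ω + d₁), x = y + z := by
  classical
  let c : ∀ P : FPlace M, P.adicCompletion M := fun P =>
    if P ∈ d₁.support then algebraMap M _ x else 0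
  have hc : ∀ᶠ P : FPlace M in Filter.cofinite, valv P (c P) ≤ 1 := by
    refine Filter.mem_of_superset d₁.support.finite_toSet.compl_mem_cofinite fun P hP => ?_
    simp only [Set.mem_compl_iff, Finset.mem_coe] at hP
    show valv P (c P) ≤ 1
    rw [show c P = 0 from if_neg hP, map_zero]
    exact zero_le
  obtain ⟨y, hy⟩ := exists_forall_sub_le c hc (Finsupp.mapRange Int.toNat rfl (ω + d₁ + d₂))
  have hn : ∀ P : FPlace M, (ω P + d₁ P + d₂ P) ≤
      ((Finsupp.mapRange Int.toNat rfl (ω + d₁ + d₂) P : ℕ) : ℤ) := fun P => by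
    simp only [Finsupp.mapRange_apply, Finsupp.add_apply]; omega
  have h0 : ∀ P, 0 ≤ d₁ P ∧ 0 ≤ d₂ P := fun P => ⟨by simpa using hd₁ P, by simpa using hd₂ P⟩
  have hat : ∀ P, (P ∈ d₁.support → OrdGE P (ω P + d₁ P + d₂ P) (y - x)) ∧
      (P ∉ d₁.support → OrdGE P (ω P + d₁ P + d₂ P) y) := fun P => by
    have h := hy P
    constructor
    · intro hP
      rw [show c P = algebraMap M _ x from if_pos hP, ← map_sub, valv_algebraMap] at h
      exact OrdGE.mono h (hn P)
    · intro hP
      rw [show c P = 0 from if_neg hP, sub_zero, valv_algebraMap] at h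
      exact OrdGE.mono h (hn P)
  refine ⟨y, fun P => ?_, x - y, fun P => ?_, (add_sub_cancel y x).symm⟩
  · have := h0 P
    rw [Finsupp.add_apply]
    by_cases hP : P ∈ d₁.support
    · have hd2 : d₂ P = 0 := (hdisj P).resolve_left (Finsupp.mem_support_iff.mp hP)
      rw [hd2, add_zero, show y = (y - x) + x by ring]
      exact (((hat P).1 hP).mono (by omega)).add (hx P)
    · exact ((hat P).2 hP).mono (by omega)
  · have := h0 P
    rw [Finsupp.add_apply]
    by_cases hP : P ∈ d₁.support
    · rw [show x - y = -(y - x) by ring]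
      exact (((hat P).1 hP).mono (by omega)).neg
    · have hd1 : d₁ P = 0 := Finsupp.notMem_support_iff.mp hP
      rw [hd1, add_zero]
      exact (hx P).sub (((hat P).2 hP).mono (by omega))

/-- Coprime divisors separate. -/
theorem gaussSum_coprime {l : L} {D₁ D₂ : FPlace L →₀ ℤ} {ω : FPlace M →₀ ℤ}
    (h : GaussRel l (D₁ + D₂) ω) (h1 : 0 ≤ D₁) (h2 : 0 ≤ D₂)
    (hdisj : ∀ v, D₁ v = 0 ∨ D₂ v = 0) :
    gaussSum l (D₁ + D₂) ω =
      gaussSum l D₁ (ω + pullD M D₂) * gaussSum l D₂ (ω + pullD M D₁) := by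
  have hp1 : ∀ P, (0 : ℤ) ≤ pullD M D₁ P := fun P => by
    simpa using pullD_nonneg (M := M) h1 P
  have hp2 : ∀ P, (0 : ℤ) ≤ pullD M D₂ P := fun P => by
    simpa using pullD_nonneg (M := M) h2 P
  have hd : ∀ P : FPlace M, pullD M D₁ P = 0 ∨ pullD M D₂ P = 0 := fun P => by
    rcases hdisj (below L P) with h0 | h0
    · exact Or.inl (by rw [pullD_apply, h0, mul_zero])
    · exact Or.inr (by rw [pullD_apply, h0, mul_zero])
  rw [gaussSum, qsum_prod (B₁ := Lat (ω + pullD M D₂)) (B₂ := Lat (ω + pullD M D₁))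
    (f₁ := gTerm l) (f₂ := gTerm l), gaussSum, gaussSum]
  · rw [pullD_add, show ω + (pullD M D₁ + pullD M D₂) = ω + pullD M D₂ + pullD M D₁ by abel]
    rw [show ω + pullD M D₂ + pullD M D₁ = ω + pullD M D₁ + pullD M D₂ by abel]
  · exact Lat_anti fun P => by simp only [Finsupp.add_apply]; linarith [hp2 P]
  · exact Lat_anti fun P => by simp only [Finsupp.add_apply]; linarith [hp1 P]
  · exact Lat_anti fun P => by simp only [pullD_add, Finsupp.add_apply]; linarith [hp2 P]
  · rintro x ⟨hx1, hx2⟩ P
    simp only [pullD_add, Finsupp.add_apply]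
    rcases hd P with h0 | h0
    · exact (hx1 P).mono (by simp only [Finsupp.add_apply]; omega)
    · exact (hx2 P).mono (by simp only [Finsupp.add_apply]; omega)
  · exact fun x hx => exists_split (pullD_nonneg h1) (pullD_nonneg h2) hd hx
  · exact relIndex_Lat_ne_zero fun P => by
      simp only [pullD_add, Finsupp.add_apply]; linarith [hp1 P]
  · exact relIndex_Lat_ne_zero fun P => by
      simp only [pullD_add, Finsupp.add_apply]; linarith [hp2 P]
  · exact fun x hx c hc => gTerm_periodic h hx hc
  · intro y hy z hz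
    rw [gTerm_add, traceExp_cross h hy hz fun P => ?_, mul_one]
    simp only [pullD_add, Finsupp.add_apply, pullD_tau]
    omega

/-- The Gauss sum of the norm form. -/
theorem gaussSum_eq {l : L} {D : FPlace L →₀ ℤ} {ω : FPlace M →₀ ℤ} (h : GaussRel l D ω) :
    gaussSum l D ω = gaussVal M D := by
  classical
  generalize hn : ∑ v ∈ D.support, (D v).toNat = n
  induction n using Nat.strong_induction_on generalizing D ω with
  | _ n ih =>
    subst hn
    by_cases h0 : D = 0
    · subst h0; rw [gaussSum_zero h, gaussVal_zero]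
    obtain ⟨v, hv⟩ : ∃ v, D v ≠ 0 := by
      by_contra! hh; exact h0 (Finsupp.ext hh)
    have hpos : 1 ≤ D v := by
      have : (0 : ℤ) ≤ D v := by simpa using h.nonneg v
      omega
    have hmeas : ∀ D' : FPlace L →₀ ℤ, (∀ w, 0 ≤ D' w ∧ D' w ≤ D w) → D' v < D v →
        ∑ w ∈ D'.support, (D' w).toNat < ∑ w ∈ D.support, (D w).toNat := by
      intro D' hb hlt
      have hsub : D'.support ⊆ D.support := fun w hw => by
        rw [Finsupp.mem_support_iff] at hw ⊢
        have := hb w
        omega
      rw [Finset.sum_subset hsub fun w _ hw => by rw [Finsupp.notMem_support_iff.mp hw]; rfl]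
      refine Finset.sum_lt_sum (fun w _ => by have := hb w; omega)
        ⟨v, Finsupp.mem_support_iff.mpr hv, by have := hb v; omega⟩
    by_cases h2 : 2 ≤ D v
    · obtain ⟨D', rfl⟩ : ∃ D', D = D' + (Finsupp.single v 1 + Finsupp.single v 1) :=
        ⟨D - (Finsupp.single v 1 + Finsupp.single v 1), by abel⟩
      have hD' : 0 ≤ D' := fun w => by
        have hw : (0 : ℤ) ≤ D' w + (Finsupp.single v (1 : ℤ) w + Finsupp.single v (1 : ℤ) w) := by
          simpa using h.nonneg w
        rcases eq_or_ne w v with rfl | hne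
        · simp only [Finsupp.add_apply, Finsupp.single_eq_same] at h2
          simp; omega
        · simpa [Finsupp.single_eq_of_ne hne] using hw
      rw [gaussSum_square h hD', ih _ (hmeas D' (fun w => ⟨by simpa using hD' w, by
        simp only [Finsupp.add_apply]
        rw [Finsupp.single_apply]; split_ifs <;> omega⟩) (by simp)) (h.step hD') rfl,
        gaussVal_add, gaussVal_add, gaussVal_single, zpow_one, sq]
      linear_combination (-(gaussVal M D') * (Ideal.absNorm v.asIdeal : ℂ) ^ 2) *
        vSign_mul_self (M := M) v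
    · obtain ⟨D₂, rfl⟩ : ∃ D₂, D = Finsupp.single v 1 + D₂ := ⟨D - Finsupp.single v 1, by abel⟩
      have hv2 : D₂ v = 0 := by simp at h2 hpos; omega
      have hs : (0 : FPlace L →₀ ℤ) ≤ Finsupp.single v 1 := fun w => by
        rw [Finsupp.single_apply]; split_ifs <;> simp
      have hD₂ : 0 ≤ D₂ := fun w => by
        rcases eq_or_ne w v with rfl | hne
        · simp [hv2]
        · simpa [Finsupp.single_eq_of_ne hne] using h.nonneg w
      have hdisj : ∀ w, Finsupp.single v (1 : ℤ) w = 0 ∨ D₂ w = 0 := fun w => by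
        rcases eq_or_ne w v with rfl | hne
        · exact Or.inr hv2
        · exact Or.inl (Finsupp.single_eq_of_ne hne)
      have hr1 := h.shift hs hD₂ hdisj
      have hr2 : GaussRel l D₂ (ω + pullD M (Finsupp.single v 1)) :=
        GaussRel.shift (by rw [add_comm]; exact h) hD₂ hs fun w => (hdisj w).symm
      rw [gaussSum_coprime h hs hD₂ hdisj,
        (gaussSum_single (h.unram v hv) l _ hr1).1,
        ih _ (hmeas D₂ (fun w => ⟨by simpa using hD₂ w, by
          simp only [Finsupp.add_apply]
          rw [Finsupp.single_apply]; split_ifs <;> omega⟩) (by simp)) hr2 rfl,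
        gaussVal_add, gaussVal_single, zpow_one]

end Fermat.Agent.ResidualThree.ThetaInduction
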