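import Fermat.Agent.ResidualThree.Automorphic.Height
import Fermat.Agent.ResidualThree.ThetaInduction.Gauss

/-!
# Hecke characters of the quadratic extension and the attached periodic functions

A `HeckeChar L M` is a character of the ideals of `M` prime to `S`, trivial on the ray of exponent
`m`, equal to the quadratic character on ideals of `L`, and not invariant under conjugation.  For
an idele `t`, a coefficient `β` and a divisor `o` it gives the periodic function `phi t β o` on `M`
whose theta sums make up the automorphic induction of the character.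
-/

noncomputable section

open NumberField Module IsDedekindDomain
open scoped WithZero

namespace Fermat.Agent.ResidualThree.ThetaInduction

open Fermat.Agent.CFT (OrdGE ord below ram baseU congr)

/-! ### Ideles through their components and orders -/

/-- An idele: nonzero components, units almost everywhere. -/
structure Idl (L : Type) [Field L] [NumberField L] where
  /-- The components. -/
  val : ∀ v : FPlace L, v.adicCompletion L
  ne_zero : ∀ v, val v ≠ 0
  eventually : ∀ᶠ v : FPlace L in Filter.cofinite, valv v (val v) = 1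

variable {L : Type} [Field L] [NumberField L]

/-- The order of a component. -/
def Idl.ordD (t : Idl L) : FPlace L →₀ ℤ :=
  Finsupp.ofSupportFinite (fun v => -WithZero.log (valv v (t.val v))) <| by
    refine (Filter.eventually_cofinite.mp t.eventually).subset fun v hv h => hv ?_
    simp [h]

theorem Idl.ordD_apply (t : Idl L) (v : FPlace L) :
    t.ordD v = -WithZero.log (valv v (t.val v)) := rfl

theorem Idl.valv_eq (t : Idl L) (v : FPlace L) :
    valv v (t.val v) = WithZero.exp (-t.ordD v) := by
  rw [t.ordD_apply, neg_neg, WithZero.exp_log ((Valuation.ne_zero_iff _).mpr (t.ne_zero v))]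

/-- The absolute norm of a divisor. -/
def normD (D : FPlace L →₀ ℤ) : ℝ := D.prod fun v n => (Ideal.absNorm v.asIdeal : ℝ) ^ n

theorem absNorm_real_ne_zero (v : FPlace L) : (Ideal.absNorm v.asIdeal : ℝ) ≠ 0 := by
  exact_mod_cast fun h => v.ne_bot (Ideal.absNorm_eq_zero_iff.mp h)

theorem normD_add (D D' : FPlace L →₀ ℤ) : normD (D + D') = normD D * normD D' :=
  Finsupp.prod_add_index' (fun _ => zpow_zero _) fun v a b =>
    zpow_add₀ (absNorm_real_ne_zero v) a b

theorem normD_pos (D : FPlace L →₀ ℤ) : 0 < normD D :=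
  Finset.prod_pos fun v _ =>
    zpow_pos (lt_of_le_of_ne (Nat.cast_nonneg _) (absNorm_real_ne_zero v).symm) _

@[simp] theorem normD_zero : normD (0 : FPlace L →₀ ℤ) = 1 := Finsupp.prod_zero_index

theorem normD_single (v : FPlace L) (n : ℤ) :
    normD (Finsupp.single v n) = (Ideal.absNorm v.asIdeal : ℝ) ^ n :=
  Finsupp.prod_single_index (zpow_zero _)

/-- The product formula. -/
theorem normD_divisor [IsTotallyComplex L] (x : Lˣ) :
    normD (divisor x) = ∏ w : InfinitePlace L, ‖w.embedding (x : L)‖ ^ 2 := by
  have h := prod_norm_eq_one (F := L) x.ne_zero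
  have hloc : ∀ v : FPlace L, ‖algebraMap L (v.adicCompletion L) (x : L)‖ =
      ((Ideal.absNorm v.asIdeal : ℝ) ^ ord v x)⁻¹ := by
    intro v
    rw [FinitePlace.norm_def]
    show ((WithZeroMulInt.toNNReal _ (valv v (algebraMap L (v.adicCompletion L) (x : L))) :
      NNReal) : ℝ) = _
    rw [valv_algebraMap, Fermat.Agent.CFT.valuation_eq_exp]
    rw [WithZeroMulInt.toNNReal_neg_apply _ WithZero.exp_ne_zero,
      show WithZero.unzero (WithZero.exp_ne_zero (a := -ord v x)) = Multiplicative.ofAdd (-ord v x)
        from WithZero.unzero_coe _]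
    simp [zpow_neg]
  rw [finprod_congr hloc, finprod_inv_distrib] at h
  have e : normD (divisor x) = ∏ᶠ v : FPlace L, (Ideal.absNorm v.asIdeal : ℝ) ^ ord v x := by
    rw [finprod_eq_prod_of_mulSupport_subset _ (s := (divisor x).support) fun v hv => ?_]
    · rfl
    · simp only [Function.mem_mulSupport, Finset.mem_coe, Finsupp.mem_support_iff] at hv ⊢
      intro h0
      rw [divisor_apply] at h0
      exact hv (by rw [h0, zpow_zero])
  rw [← e, inv_mul_eq_one₀ (normD_pos _).ne'] at h
  exact h

/-! ### The character -/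

variable (L)

/-- A character of the ideals of `M` prime to `S`, trivial on the ray, compatible with the quadratic
character, and not fixed by the conjugation. -/
structure HeckeChar (M : Type) [Field M] [NumberField M] [Algebra L M]
    [Algebra.IsQuadraticExtension L M] where
  /-- The exceptional places. -/
  S : Finset (FPlace L)
  /-- The exponent of the modulus. -/
  m : ℕ
  m_pos : 0 < m
  /-- The values at the places. -/
  ψ : FPlace M → ℂ
  norm_ψ : ∀ P, ‖ψ P‖ = 1
  unram : ∀ v ∉ S, Unram M v
  ray : ∀ x : Mˣ, (∀ P, below L P ∈ S → x ∈ congr P m) →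
    ((divisor x).prod fun P n => ψ P ^ n) = 1
  split : ∀ P, below L P ∉ S → tauP L P ≠ P → ψ P * ψ (tauP L P) = 1
  inert : ∀ P, below L P ∉ S → tauP L P = P → ψ P = -1
  nontriv : ∀ T : Finset (FPlace L), ∃ P : FPlace M,
    below L P ∉ T ∧ below L P ∉ S ∧ ψ (tauP L P) ≠ ψ P

variable {L} {M : Type} [Field M] [NumberField M] [Algebra L M] [Algebra.IsQuadraticExtension L M]

namespace HeckeChar

variable (H : HeckeChar L M)

theorem ψ_ne_zero (P : FPlace M) : H.ψ P ≠ 0 := fun h => by simpa [h] using H.norm_ψ P

/-- The value on a divisor. -/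
def psiDiv (d : FPlace M →₀ ℤ) : ℂ := d.prod fun P n => H.ψ P ^ n

theorem psiDiv_add (d d' : FPlace M →₀ ℤ) : H.psiDiv (d + d') = H.psiDiv d * H.psiDiv d' :=
  Finsupp.prod_add_index' (fun _ => zpow_zero _) fun P a b => zpow_add₀ (H.ψ_ne_zero P) a b

@[simp] theorem psiDiv_zero : H.psiDiv 0 = 1 := Finsupp.prod_zero_index

theorem psiDiv_single (P : FPlace M) (n : ℤ) : H.psiDiv (Finsupp.single P n) = H.ψ P ^ n :=
  Finsupp.prod_single_index (zpow_zero _)

theorem norm_psiDiv (d : FPlace M →₀ ℤ) : ‖H.psiDiv d‖ = 1 := by
  simp [psiDiv, Finsupp.prod, norm_prod, norm_zpow, H.norm_ψ]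

theorem psiDiv_sub (d d' : FPlace M →₀ ℤ) : H.psiDiv (d - d') = H.psiDiv d / H.psiDiv d' := by
  rw [eq_div_iff (fun h => by simpa [h] using H.norm_psiDiv d'), ← psiDiv_add, sub_add_cancel]

open Classical in
theorem pullD_single_eq {v : FPlace L} (hv : Unram M v) {P : FPlace M} (hP : below L P = v)
    (n : ℤ) :
    pullD M (Finsupp.single v n) =
      if tauP L P = P then Finsupp.single P n
      else Finsupp.single P n + Finsupp.single (tauP L P) n := by
  classical
  ext Q
  rw [pullD_apply]
  by_cases hQ : below L Q = v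
  · rw [hQ, hv Q hQ, Finsupp.single_eq_same, Nat.cast_one, one_mul]
    rcases eq_or_eq_tauP (hQ.trans hP.symm) with rfl | rfl
    · split_ifs with h
      · simp
      · simp [Finsupp.single_eq_of_ne (Ne.symm h)]
    · split_ifs with h
      · rw [h]; simp
      · simp [Finsupp.single_eq_of_ne h]
  · rw [Finsupp.single_eq_of_ne hQ, mul_zero]
    have h1 : Q ≠ P := fun h => hQ (h ▸ hP)
    have h2 : Q ≠ tauP L P := fun h => hQ (by rw [h, below_tauP, hP])
    split_ifs <;> simp [Finsupp.single_eq_of_ne h1, Finsupp.single_eq_of_ne h2]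

/-- On divisors from `L` the character is the quadratic character. -/
theorem psiDiv_pullD (D : FPlace L →₀ ℤ) (hD : ∀ v, D v ≠ 0 → v ∉ H.S) :
    H.psiDiv (pullD M D) = D.prod fun v n => vSign M v ^ n := by
  classical
  induction D using Finsupp.induction with
  | zero => simp
  | single_add v n D hv hn ih =>
    have hDv : D v = 0 := Finsupp.notMem_support_iff.mp hv
    have hvS : v ∉ H.S := hD v (by simp [hDv, hn])
    have hD' : ∀ w, D w ≠ 0 → w ∉ H.S := fun w hw => hD w (by
      rw [Finsupp.add_apply, Finsupp.single_eq_of_ne (fun h => hw (by rw [h]; exact hDv)), zero_add]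
      exact hw)
    have hs : ∀ a : FPlace L, vSign M a ≠ 0 := fun a h => by
      simpa [h] using vSign_mul_self (M := M) a
    rw [pullD_add, H.psiDiv_add, ih hD', Finsupp.prod_add_index' (fun a => zpow_zero _)
      fun a b c => zpow_add₀ (hs a) b c, Finsupp.prod_single_index (zpow_zero _)]
    congr 1
    obtain ⟨P, hP⟩ := Fermat.Agent.CFT.exists_below_eq (L := M) v
    rw [pullD_single_eq (H.unram v hvS) hP]
    split_ifs with hs
    · have hns : ¬ SplitAt M v := fun h => h P hP hs
      rw [psiDiv_single, vSign, if_neg hns, H.inert P (hP ▸ hvS) hs]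
    · have hsp : SplitAt M v := fun Q hQ h => by
        rcases eq_or_eq_tauP (hQ.trans hP.symm) with rfl | rfl
        · exact hs h
        · exact hs (by rwa [tauP_tauP, eq_comm] at h)
      rw [H.psiDiv_add, psiDiv_single, psiDiv_single, vSign, if_pos hsp, ← mul_zpow,
        H.split P (hP ▸ hvS) hs]

/-- The Gauss value times the character of the same divisor is the norm. -/
theorem psiDiv_mul_gaussVal (D : FPlace L →₀ ℤ) (hD : ∀ v, D v ≠ 0 → v ∉ H.S) :
    H.psiDiv (pullD M D) * gaussVal M D = (normD D : ℂ) := by
  rw [H.psiDiv_pullD D hD, gaussVal, normD]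
  simp only [Finsupp.prod]
  push_cast
  rw [← Finset.prod_mul_distrib]
  refine Finset.prod_congr rfl fun v _ => ?_
  rw [← mul_zpow, ← mul_assoc, vSign_mul_self, one_mul]

open Classical in
/-- The divisor `2 m` at the places above `S`. -/
def modD : FPlace M →₀ ℤ :=
  Finsupp.ofSupportFinite (fun P => if below L P ∈ H.S then 2 * (H.m : ℤ) else 0) <| by
    refine (H.S.finite_toSet.biUnion
      fun v _ => Fermat.Agent.CFT.finite_below_fibre (L := M) v).subset fun P hP => ?_
    simp only [Function.mem_support, ne_eq, ite_eq_right_iff, not_forall] at hP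
    exact Set.mem_biUnion (x := below L P) hP.1 rfl

theorem modD_of_mem {P : FPlace M} (h : below L P ∈ H.S) : H.modD P = 2 * (H.m : ℤ) := if_pos h

theorem modD_of_notMem {P : FPlace M} (h : below L P ∉ H.S) : H.modD P = 0 := if_neg h

theorem modD_nonneg : 0 ≤ H.modD := fun P => by
  by_cases h : below L P ∈ H.S
  · rw [H.modD_of_mem h]; simp
  · rw [H.modD_of_notMem h]; simp

theorem modD_tau (P : FPlace M) : H.modD (tauP L P) = H.modD P := by
  by_cases h : below L P ∈ H.S
  · rw [H.modD_of_mem h, H.modD_of_mem (by rwa [below_tauP])]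
  · rw [H.modD_of_notMem h, H.modD_of_notMem (by rwa [below_tauP])]

/-- The reference element at a place, of order `-cond`. -/
def condElt (v : FPlace L) : Lˣ := (Fermat.Agent.CFT.exists_ord_eq v (-cond v)).choose

theorem ord_condElt (v : FPlace L) : ord v (condElt v) = -cond v :=
  (Fermat.Agent.CFT.exists_ord_eq v (-cond v)).choose_spec

/-- The congruence condition on a coefficient. -/
def Cong (t : Idl L) (ξ : L) : Prop :=
  ∀ v ∈ H.S, valv v (algebraMap L (v.adicCompletion L) ξ * t.val v /
    algebraMap L (v.adicCompletion L) (condElt v : L) - 1) ≤ WithZero.exp (-(H.m : ℤ))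

/-- The relation between a coefficient and a divisor of `M`. -/
def PairRel (t : Idl L) (β : Lˣ) (o : FPlace M →₀ ℤ) : Prop :=
  ∀ P : FPlace M, (ram L P : ℤ) * ord (below L P) β + o P + o (tauP L P) =
    -((ram L P : ℤ) * (t.ordD (below L P) + cond (below L P)))

open Classical in
/-- The periodic function attached to a pair. -/
def phi (t : Idl L) (β : Lˣ) (o : FPlace M →₀ ℤ) (x : M) : ℂ :=
  if x ∈ Lat o ∧ H.Cong t ((β : L) * Algebra.norm L x) then
    (if h : x = 0 then H.psiDiv (-o) else H.psiDiv (divisor (Units.mk0 x h) - o))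
  else 0

theorem norm_phi_le (t : Idl L) (β : Lˣ) (o : FPlace M →₀ ℤ) (x : M) : ‖H.phi t β o x‖ ≤ 1 := by
  unfold phi
  split_ifs <;> simp [norm_psiDiv]

theorem phi_of_notMem {t : Idl L} {β : Lˣ} {o : FPlace M →₀ ℤ} {x : M} (h : x ∉ Lat o) :
    H.phi t β o x = 0 := if_neg fun hh => h hh.1

/-- At an exceptional place, the congruence pins the order. -/
theorem ord_eq_of_cong {t : Idl L} {β : Lˣ} {o : FPlace M →₀ ℤ} (hrel : PairRel t β o) {x : Mˣ}
    (hx : (x : M) ∈ Lat o) (hc : H.Cong t ((β : L) * Algebra.norm L (x : M))) {P : FPlace M}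
    (hP : below L P ∈ H.S) : ord P x = o P := by
  set Nx : Lˣ := Units.map (Algebra.norm L : M →* L) x
  have h1 := hc _ hP
  have hlt : valv (below L P) (algebraMap L ((below L P).adicCompletion L)
      ((β : L) * Algebra.norm L (x : M)) * t.val (below L P) /
      algebraMap L ((below L P).adicCompletion L) (condElt (below L P) : L) - 1) < 1 := by
    refine lt_of_le_of_lt h1 ?_
    rw [← WithZero.exp_zero, WithZero.exp_lt_exp]
    have := H.m_pos; omega
  have heq := Valuation.map_eq_of_sub_lt (valv (below L P)) (x := 1) (by rw [map_one]; exact hlt)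
  rw [map_one, map_div₀, map_mul, valv_algebraMap, valv_algebraMap, t.valv_eq,
    show (β : L) * Algebra.norm L (x : M) = ((β * Nx : Lˣ) : L) from rfl,
    Fermat.Agent.CFT.valuation_eq_exp, Fermat.Agent.CFT.valuation_eq_exp,
    Fermat.Agent.CFT.ord_mul, ord_condElt, ← WithZero.exp_add, ← WithZero.exp_sub,
    ← WithZero.exp_zero, WithZero.exp_inj] at heq
  have h2 := (mem_Lat_iff_ord x).mp hx
  have hn : (ram L P : ℤ) * ord (below L P) Nx = ord P x + ord (tauP L P) x :=
    ord_norm (L := L) P x
  have h3 := hrel P
  have h4 : (ram L P : ℤ) * ord (below L P) Nx = o P + o (tauP L P) := by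
    rw [show ord (below L P) Nx = -(ord (below L P) β) - (t.ordD (below L P) + cond (below L P)) by
      omega]
    linear_combination -h3
  have := h2 P
  have := h2 (tauP L P)
  omega

/-- Zero satisfies the congruence only without exceptional places. -/
theorem cong_zero {t : Idl L} {β : Lˣ} (h : H.Cong t ((β : L) * Algebra.norm L (0 : M))) :
    H.S = ∅ := by
  refine Finset.eq_empty_of_forall_notMem fun v hv => ?_
  have := h v hv
  rw [Algebra.norm_zero, mul_zero, map_zero, zero_mul, zero_div, zero_sub, Valuation.map_neg,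
    map_one, ← WithZero.exp_zero, WithZero.exp_le_exp] at this
  have := H.m_pos
  omega

/-- `phi t β o` is periodic modulo `Lat (o + modD)`. -/
theorem phi_add {t : Idl L} {β : Lˣ} {o : FPlace M →₀ ℤ} (hrel : PairRel t β o) (x : M) {a : M}
    (ha : a ∈ Lat (o + H.modD)) : H.phi t β o (x + a) = H.phi t β o x := by
  classical
  have key : ∀ y b : M, b ∈ Lat (o + H.modD) → y ∈ Lat o ∧ H.Cong t ((β : L) * Algebra.norm L y) →
      (y + b ∈ Lat o ∧ H.Cong t ((β : L) * Algebra.norm L (y + b))) ∧
        H.phi t β o (y + b) = H.phi t β o y := by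
    intro y b hb ⟨hy, hyc⟩
    have hbo : b ∈ Lat o := Lat_anti (fun P => by
      have := H.modD_nonneg P
      simp only [Finsupp.coe_zero, Pi.zero_apply] at this
      rw [Finsupp.add_apply]; omega) hb
    by_cases hS : H.S = ∅
    · have hc : ∀ z : M, H.Cong t ((β : L) * Algebra.norm L z) := fun z v hv => by simp [hS] at hv
      have hval : ∀ z : M, z ∈ Lat o → H.phi t β o z = H.psiDiv (-o) := fun z hz => by
        rw [phi, if_pos ⟨hz, hc z⟩]
        split_ifs with h0
        · rfl
        · rw [sub_eq_add_neg, H.psiDiv_add,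
            show H.psiDiv (divisor (Units.mk0 z h0)) = 1 from
              H.ray _ (fun P hP => by simp [hS] at hP), one_mul]
      exact ⟨⟨add_mem hy hbo, hc _⟩, by rw [hval _ (add_mem hy hbo), hval _ hy]⟩
    · have hy0 : y ≠ 0 := fun h0 => hS (H.cong_zero (t := t) (β := β) (by rwa [h0] at hyc))
      set yu := Units.mk0 y hy0
      have hu : ∀ P : FPlace M,
          below L P ∈ H.S → OrdGE P (2 * (H.m : ℤ)) (b * y⁻¹) := fun P hP => by
        have h1 := H.ord_eq_of_cong hrel (x := yu) hy hyc hP
        rw [show y⁻¹ = ((yu⁻¹ : Mˣ) : M) by rw [Units.val_inv_eq_inv_val]; rfl]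
        refine ((hb P).mul ((Fermat.Agent.CFT.ordGE_iff P yu⁻¹ (-ord P yu)).mpr
          (by rw [Fermat.Agent.CFT.ord_inv]))).mono ?_
        rw [Finsupp.add_apply, H.modD_of_mem hP]
        omega
      have e : y + b = y * (1 + b * y⁻¹) := by field_simp
      have hne : y + b ≠ 0 := by
        obtain ⟨v, hv⟩ := Finset.nonempty_iff_ne_empty.mpr hS
        obtain ⟨P, hP⟩ := Fermat.Agent.CFT.exists_below_eq (L := M) v
        intro h0
        have h1 := hu P (hP ▸ hv)
        rw [e, mul_eq_zero, or_iff_right hy0] at h0
        rw [show b * y⁻¹ = -((1 : Mˣ) : M) by rw [Units.val_one]; linear_combination h0] at h1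
        have h2 := (Fermat.Agent.CFT.ordGE_iff P (1 : Mˣ) _).mp (by simpa using h1.neg)
        rw [Fermat.Agent.CFT.ord_one] at h2
        have := H.m_pos
        omega
      have hcong : H.Cong t ((β : L) * Algebra.norm L (y + b)) := by
        intro v hv
        obtain ⟨P, hP⟩ := Fermat.Agent.CFT.exists_below_eq (L := M) v
        subst hP
        have hu1 := hu P hv
        have hu2 := hu (tauP L P) (by rwa [below_tauP])
        have hN : OrdGE (below L P) (H.m : ℤ) (Algebra.norm L (1 + b * y⁻¹) - 1) := by
          refine ordGE_of_algebraMap_of_lt (m := 2 * (H.m : ℤ)) ?_ ?_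
          · rw [map_sub, map_one, ← mul_conjM, map_add, map_one,
              show (1 + b * y⁻¹) * (1 + conjM L M (b * y⁻¹)) - 1 =
                b * y⁻¹ * (1 + conjM L M (b * y⁻¹)) + conjM L M (b * y⁻¹) by ring]
            have hc2 : OrdGE P (2 * (H.m : ℤ)) (conjM L M (b * y⁻¹)) := ordGE_conjM.mpr hu2
            refine OrdGE.add ?_ hc2
            exact (hu1.mul (OrdGE.add (n := 0) Fermat.Agent.CFT.ordGE_one
              (hc2.mono (by omega)))).mono (by omega)
          · rcases ram_le_two (L := L) P with h | h <;> rw [h] <;> push_cast <;> omega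
        have h1 := hyc _ hv
        set K := (below L P).adicCompletion L
        set A : K := algebraMap L K ((β : L) * Algebra.norm L y) * t.val (below L P) /
          algebraMap L K (condElt (below L P) : L) with hA
        have e2 : algebraMap L K ((β : L) * Algebra.norm L (y + b)) * t.val (below L P) /
            algebraMap L K (condElt (below L P) : L) - 1 =
            (A - 1) + A * algebraMap L K (Algebra.norm L (1 + b * y⁻¹) - 1) := by
          rw [hA, e, map_mul (Algebra.norm L), map_sub, map_one, map_mul, map_mul, map_mul]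
          ring
        rw [e2]
        refine (valv (below L P)).map_add_le h1 ?_
        rw [map_mul]
        have hA1 : valv (below L P) A ≤ 1 := by
          have h2 := (valv (below L P)).map_add (A - 1) 1
          rw [sub_add_cancel] at h2
          refine h2.trans (max_le (h1.trans ?_) (by rw [map_one]))
          rw [← WithZero.exp_zero, WithZero.exp_le_exp]; omega
        calc valv (below L P) A *
              valv (below L P) (algebraMap L K (Algebra.norm L (1 + b * y⁻¹) - 1))
            ≤ 1 * WithZero.exp (-(H.m : ℤ)) := mul_le_mul' hA1 (by rw [valv_algebraMap]; exact hN)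
          _ = _ := one_mul _
      refine ⟨⟨add_mem hy hbo, hcong⟩, ?_⟩
      rw [phi, phi, if_pos ⟨add_mem hy hbo, hcong⟩, if_pos ⟨hy, hyc⟩, dif_neg hne, dif_neg hy0]
      have hq : (1 : M) + b * y⁻¹ ≠ 0 := fun h0 => hne (by rw [e, h0, mul_zero])
      rw [show Units.mk0 (y + b) hne = yu * Units.mk0 _ hq from Units.ext e, divisor_mul,
        add_sub_right_comm, H.psiDiv_add,
        show H.psiDiv (divisor (Units.mk0 _ hq)) = 1 from H.ray _ fun P hP =>
          Fermat.Agent.CFT.mem_congr_of_pos P H.m_pos (by
            rw [Units.val_mk0, add_sub_cancel_left]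
            exact (hu P hP).mono (by omega)), mul_one]
  by_cases hx : x ∈ Lat o ∧ H.Cong t ((β : L) * Algebra.norm L x)
  · exact (key x a ha hx).2
  · rw [phi, phi, if_neg hx, if_neg fun h => hx ?_]
    have := (key (x + a) (-a) (neg_mem ha) h).1
    rwa [add_neg_cancel_right] at this

end HeckeChar

end Fermat.Agent.ResidualThree.ThetaInduction
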