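import Mathlib

/-!
# Gaussian decay on lattices

Gaussians are summable on `ℤ^ι`, and on a lattice in a finite-dimensional space they are summable
uniformly in a bounded shift.  This is the majorant for all theta series on lattices.
-/

noncomputable section

open scoped Real

namespace Fermat.Agent.ResidualThree.ThetaInduction

/-- A Gaussian is summable on `ℤ`. -/
theorem summable_exp_neg_sq_int {δ : ℝ} (hδ : 0 < δ) :
    Summable fun n : ℤ => Real.exp (-(δ * (n : ℝ) ^ 2)) := by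
  have h : Summable fun n : ℕ => Real.exp (-(δ * (n : ℝ) ^ 2)) := by
    refine Summable.of_nonneg_of_le (fun n => (Real.exp_pos _).le) (fun n => ?_)
      (Real.summable_exp_nat_mul_iff.mpr (neg_neg_iff_pos.mpr hδ))
    refine Real.exp_le_exp.mpr ?_
    have : (n : ℝ) ≤ (n : ℝ) ^ 2 := by
      rcases Nat.eq_zero_or_pos n with h | h
      · simp [h]
      · exact le_self_pow₀ (by exact_mod_cast h) two_ne_zero
    nlinarith
  exact Summable.of_nat_of_neg (by simpa using h) (by simpa using h)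

/-- A Gaussian is summable on `ℤ^ι`. -/
theorem summable_exp_neg_sum_sq (ι : Type*) [Fintype ι] {δ : ℝ} (hδ : 0 < δ) :
    Summable fun n : ι → ℤ => Real.exp (-(δ * ∑ i, (n i : ℝ) ^ 2)) := by
  refine Fintype.induction_empty_option
    (P := fun α _ => Summable fun n : α → ℤ => Real.exp (-(δ * ∑ i, (n i : ℝ) ^ 2))) ?_ ?_ ?_ ι
  · intro α β _ e h
    let := Fintype.ofEquiv β e.symm
    refine ((Equiv.arrowCongr e (Equiv.refl ℤ)).summable_iff).mp (h.congr fun n => ?_)
    simp only [Function.comp_apply, Equiv.arrowCongr_apply, Equiv.coe_refl, id_eq]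
    rw [← e.sum_comp]
    simp
  · have : Finite (PEmpty → ℤ) := Finite.of_subsingleton
    exact Summable.of_finite
  · intro α _ h
    refine ((Equiv.piOptionEquivProd (α := α) (β := fun _ => ℤ)).symm.summable_iff).mp ?_
    refine ((summable_exp_neg_sq_int hδ).mul_of_nonneg h (fun _ => (Real.exp_pos _).le)
      (fun _ => (Real.exp_pos _).le)).congr fun p => ?_
    rw [Function.comp_apply, ← Real.exp_add, Fintype.sum_option]
    congr 1
    simp [mul_add, add_comm]

/-- A Gaussian on a linearly independent image of `ℤ^ι` is summable, uniformly for bounded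
shifts. -/
theorem exists_summable_gauss {ι : Type*} [Fintype ι] {E : Type*} [NormedAddCommGroup E]
    [NormedSpace ℝ E] {T : (ι → ℝ) →ₗ[ℝ] E} (hT : Function.Injective T)
    {ε : ℝ} (hε : 0 < ε) (R : ℝ) :
    ∃ u : (ι → ℤ) → ℝ, Summable u ∧ ∀ v : E, ‖v‖ ≤ R → ∀ n : ι → ℤ,
      Real.exp (-(ε * ‖v + T (fun i => (n i : ℝ))‖ ^ 2)) ≤ u n := by
  obtain ⟨K, hK, hanti⟩ := LinearMap.exists_antilipschitzWith T (LinearMap.ker_eq_bot.mpr hT)
  set c : ℝ := ε / (2 * (K : ℝ) ^ 2 * (Fintype.card ι + 1)) with hc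
  have hK' : (0 : ℝ) < K := by exact_mod_cast hK
  have hcpos : 0 < c := by positivity
  refine ⟨fun n => Real.exp (ε * R ^ 2) * Real.exp (-(c * ∑ i, (n i : ℝ) ^ 2)),
    (summable_exp_neg_sum_sq ι hcpos).mul_left _, fun v hv n => ?_⟩
  set x : ι → ℝ := fun i => (n i : ℝ)
  simp only [← Real.exp_add]
  refine Real.exp_le_exp.mpr ?_
  have h1 : ‖x‖ ≤ K * ‖T x‖ := by
    simpa [dist_eq_norm] using hanti.le_mul_dist x 0
  have h2 : ‖T x‖ ≤ ‖v + T x‖ + R := by
    have := norm_add_le (v + T x) (-v)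
    rw [norm_neg, add_neg_cancel_comm] at this
    linarith
  have h3 : ∑ i, (n i : ℝ) ^ 2 ≤ (Fintype.card ι + 1) * ‖x‖ ^ 2 := by
    calc ∑ i, (n i : ℝ) ^ 2 ≤ ∑ _i : ι, ‖x‖ ^ 2 := Finset.sum_le_sum fun i _ => by
          rw [← sq_abs]
          exact pow_le_pow_left₀ (abs_nonneg _) (norm_le_pi_norm x i) 2
      _ = Fintype.card ι * ‖x‖ ^ 2 := by simp
      _ ≤ _ := by nlinarith [sq_nonneg ‖x‖]
  have hR : 0 ≤ R := (norm_nonneg v).trans hv
  have h5 : ‖x‖ ^ 2 ≤ (K : ℝ) ^ 2 * (2 * ‖v + T x‖ ^ 2 + 2 * R ^ 2) := by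
    calc ‖x‖ ^ 2 ≤ ((K : ℝ) * (‖v + T x‖ + R)) ^ 2 :=
          pow_le_pow_left₀ (norm_nonneg _) (h1.trans (mul_le_mul_of_nonneg_left h2 hK'.le)) 2
      _ ≤ _ := by
        rw [mul_pow]
        exact mul_le_mul_of_nonneg_left (by nlinarith [sq_nonneg (‖v + T x‖ - R)]) (sq_nonneg _)
  have h4 : c * ∑ i, (n i : ℝ) ^ 2 ≤ ε * ‖v + T x‖ ^ 2 + ε * R ^ 2 := by
    calc c * ∑ i, (n i : ℝ) ^ 2
        ≤ c * ((Fintype.card ι + 1) * ((K : ℝ) ^ 2 * (2 * ‖v + T x‖ ^ 2 + 2 * R ^ 2))) :=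
          mul_le_mul_of_nonneg_left (h3.trans (mul_le_mul_of_nonneg_left h5 (by positivity)))
            hcpos.le
      _ = _ := by rw [hc]; field_simp
  linarith

end Fermat.Agent.ResidualThree.ThetaInduction
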