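import Fermat.Agent.ResidualThree.ThetaInduction.Kernel

/-!
# A quadratic extension of a totally complex field at infinity

For a quadratic extension `M/L` with `L` totally complex, `conjM` is the nontrivial automorphism
and `embM` embeds `M` into pairs of complex numbers, one pair for every infinite place of `L`.  The
pairing `pairInf` is the rational trace form in these coordinates; the theta series of `M` live on
this space.
-/

noncomputable section

open NumberField Module
open scoped Real ComplexConjugate

namespace Fermat.Agent.ResidualThree.ThetaInduction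

variable (L M : Type) [Field L] [NumberField L] [Field M] [NumberField M] [Algebra L M]

theorem exists_conjM [Algebra.IsQuadraticExtension L M] : ∃ τ : M ≃ₐ[L] M, τ ≠ 1 := by
  have : IsGalois L M := inferInstance
  have h : Nat.card (M ≃ₐ[L] M) = 2 :=
    (IsGalois.card_aut_eq_finrank L M).trans (Algebra.IsQuadraticExtension.finrank_eq_two L M)
  have : Nontrivial (M ≃ₐ[L] M) := by
    rw [← Finite.one_lt_card_iff_nontrivial]
    omega
  exact exists_ne 1

/-- The nontrivial automorphism of a quadratic extension. -/
def conjM [Algebra.IsQuadraticExtension L M] : M ≃ₐ[L] M := (exists_conjM L M).choose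

/-- The space at infinity: a pair of complex numbers for every place of `L`. -/
abbrev InfSpace : Type := InfinitePlace L → ℂ × ℂ

variable {L}

/-- An extension to `M` of the distinguished embedding at a place of `L`. -/
def lift1 (w : InfinitePlace L) : M →+* ℂ :=
  letI := w.embedding.toAlgebra
  (IsAlgClosed.lift : M →ₐ[L] ℂ).toRingHom

variable {M}

theorem lift1_algebraMap (w : InfinitePlace L) (l : L) :
    lift1 M w (algebraMap L M l) = w.embedding l := by
  let := w.embedding.toAlgebra
  exact (IsAlgClosed.lift : M →ₐ[L] ℂ).commutes l

variable [Algebra.IsQuadraticExtension L M]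

theorem automorphisms_eq [DecidableEq (M ≃ₐ[L] M)] :
    (Finset.univ : Finset (M ≃ₐ[L] M)) = {1, conjM L M} := by
  have : IsGalois L M := inferInstance
  have hne : conjM L M ≠ 1 := (exists_conjM L M).choose_spec
  refine (Finset.eq_univ_of_card _ ?_).symm
  rw [Finset.card_pair hne.symm, Fintype.card_eq_nat_card, IsGalois.card_aut_eq_finrank,
    Algebra.IsQuadraticExtension.finrank_eq_two L M]

/-- The product of conjugates is the norm. -/
theorem mul_conjM (x : M) : x * conjM L M x = algebraMap L M (Algebra.norm L x) := by
  classical
  have : IsGalois L M := inferInstance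
  have hne : (1 : M ≃ₐ[L] M) ≠ conjM L M := (exists_conjM L M).choose_spec.symm
  rw [Algebra.norm_eq_prod_automorphisms, automorphisms_eq, Finset.prod_pair hne]
  rfl

/-- The sum of conjugates is the trace. -/
theorem add_conjM (x : M) : x + conjM L M x = algebraMap L M (Algebra.trace L M x) := by
  classical
  have : IsGalois L M := inferInstance
  have hne : (1 : M ≃ₐ[L] M) ≠ conjM L M := (exists_conjM L M).choose_spec.symm
  rw [trace_eq_sum_automorphisms, automorphisms_eq, Finset.sum_pair hne]
  rfl

theorem conjM_conjM (x : M) : conjM L M (conjM L M x) = x := by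
  classical
  have : IsGalois L M := inferInstance
  have hne : conjM L M ≠ 1 := (exists_conjM L M).choose_spec
  have h : conjM L M * conjM L M ∈ ({1, conjM L M} : Finset (M ≃ₐ[L] M)) := by
    rw [← automorphisms_eq]; exact Finset.mem_univ _
  rcases Finset.mem_insert.mp h with h1 | h1
  · exact DFunLike.congr_fun h1 x
  · exact absurd (mul_left_cancel ((Finset.mem_singleton.mp h1).trans (mul_one _).symm)) hne

theorem norm_conjM (x : M) : Algebra.norm L (conjM L M x) = Algebra.norm L x := by
  apply (algebraMap L M).injective
  rw [← mul_conjM, ← mul_conjM, conjM_conjM, mul_comm]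

variable (L) in
/-- The embedding of `M` into the space at infinity. -/
def embM : M →+ InfSpace L where
  toFun x w := (lift1 M w x, lift1 M w (conjM L M x))
  map_zero' := by ext w <;> simp
  map_add' x y := by ext w <;> simp

theorem embM_apply (x : M) (w : InfinitePlace L) :
    embM L x w = (lift1 M w x, lift1 M w (conjM L M x)) := rfl

theorem embM_prod (x : M) (w : InfinitePlace L) :
    (embM L x w).1 * (embM L x w).2 = w.embedding (Algebra.norm L x) := by
  rw [embM_apply, ← map_mul, mul_conjM, lift1_algebraMap]

/-- The pairing on the space at infinity. -/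
def pairInf (β : L) (x η : InfSpace L) : ℝ :=
  ∑ w : InfinitePlace L, pair1 (w.embedding β) (x w) (η w)

variable [IsTotallyComplex L]

omit [Algebra L M] [Algebra.IsQuadraticExtension L M] in
/-- The rational trace of `L` from its complex places. -/
theorem trace_rat_eq_sum (l : L) :
    (Algebra.trace ℚ L l : ℝ) = ∑ w : InfinitePlace L, 2 * (w.embedding l).re := by
  classical
  have h := trace_eq_sum_embeddings (K := ℚ) (L := L) ℂ (x := l)
  have h' : ((Algebra.trace ℚ L l : ℝ) : ℂ) = ∑ φ : L →+* ℂ, φ l := by
    rw [Complex.ofReal_ratCast, ← eq_ratCast (algebraMap ℚ ℂ), h]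
    exact Equiv.sum_comp (RingHom.equivRatAlgHom L ℂ).symm fun φ : L →+* ℂ => φ l
  rw [← Finset.sum_fiberwise Finset.univ InfinitePlace.mk] at h'
  have hfib : ∀ w : InfinitePlace L, ∑ φ ∈ Finset.univ.filter (fun φ => InfinitePlace.mk φ = w),
      φ l = ((2 * (w.embedding l).re : ℝ) : ℂ) := by
    intro w
    have hne : w.embedding ≠ ComplexEmbedding.conjugate w.embedding := fun h =>
      InfinitePlace.isComplex_iff.mp (IsTotallyComplex.isComplex w)
        (ComplexEmbedding.isReal_iff.mpr h.symm)
    rw [show Finset.univ.filter (fun φ => InfinitePlace.mk φ = w) =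
        ({w.embedding, ComplexEmbedding.conjugate w.embedding} : Finset (L →+* ℂ)) from ?_,
      Finset.sum_pair hne]
    · rw [ComplexEmbedding.conjugate_coe_eq, Complex.add_conj]
    · symm
      refine Finset.eq_of_subset_of_card_le ?_ ?_
      · intro φ hφ
        simp only [Finset.mem_insert, Finset.mem_singleton] at hφ
        rcases hφ with rfl | rfl <;> simp
      · rw [InfinitePlace.card_filter_mk_eq, Finset.card_pair hne, InfinitePlace.mult,
          if_neg (InfinitePlace.not_isReal_iff_isComplex.mpr (IsTotallyComplex.isComplex w))]
  rw [Finset.sum_congr rfl fun w _ => hfib w] at h'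
  exact_mod_cast h'

/-- The pairing is the trace form `Tr_{M/ℚ} (β x ȳ)`. -/
theorem pairInf_embM (β : L) (x y : M) :
    pairInf β (embM L x) (embM L y) =
      (Algebra.trace ℚ M (algebraMap L M β * (x * conjM L M y)) : ℝ) := by
  rw [← Algebra.trace_trace (R := ℚ) (S := L), trace_rat_eq_sum, pairInf]
  refine Finset.sum_congr rfl fun w _ => ?_
  rw [pair1, embM_apply, embM_apply, ← map_mul, ← map_mul, ← map_add,
    ← lift1_algebraMap (M := M) w β, ← map_mul, ← lift1_algebraMap (M := M) w (Algebra.trace L M _),
    ← add_conjM]
  congr 3
  rw [map_mul, map_mul, AlgEquiv.commutes, conjM_conjM]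
  ring

/-- The space at infinity has the dimension of `M` over `ℚ`. -/
theorem finrank_infSpace : finrank ℝ (InfSpace L) = finrank ℚ M := by
  have h1 : finrank ℝ (InfSpace L) = Fintype.card (InfinitePlace L) * 4 := by
    rw [finrank_pi_fintype]
    simp [Complex.finrank_real_complex]
  have h2 : finrank ℚ L = Fintype.card (InfinitePlace L) * 2 := by
    rw [← InfinitePlace.sum_mult_eq (K := L)]
    simp [InfinitePlace.mult,
      InfinitePlace.not_isReal_iff_isComplex.mpr (IsTotallyComplex.isComplex _)]
  rw [h1, ← Module.finrank_mul_finrank ℚ L M, h2, Algebra.IsQuadraticExtension.finrank_eq_two L M]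
  omega

end Fermat.Agent.ResidualThree.ThetaInduction
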