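import Fermat.Agent.ResidualThree.Spherical.Basic

/-!
# The theta kernel at one complex place

For the binary form `x ↦ β x₁ x₂` the kernel at the point `(z, y)` of hyperbolic space is
`y exp (-2π‖β‖ y (‖x₁‖² s + ‖x₂‖² / s)) e(2 Re (β z x₁ x₂))`.  It transforms simply under
translations and dilations, and its Fourier transform is the kernel at the inverted point; this is
the local input of the modularity of theta series of a quadratic extension.
-/

noncomputable section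

open MeasureTheory Complex
open scoped Real ComplexConjugate

namespace Fermat.Agent.ResidualThree.ThetaInduction

/-- The character `exp (2 π i t)`. -/
def eR (t : ℝ) : ℂ := Complex.exp (2 * (π : ℂ) * I * (t : ℂ))

theorem eR_add (s t : ℝ) : eR (s + t) = eR s * eR t := by
  rw [eR, eR, eR, ← Complex.exp_add]
  push_cast
  ring_nf

@[simp] theorem eR_zero : eR 0 = 1 := by simp [eR]

theorem norm_eR (t : ℝ) : ‖eR t‖ = 1 := by
  rw [eR, Complex.norm_exp]
  simp

theorem eR_int (n : ℤ) : eR (n : ℝ) = 1 := by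
  rw [eR]
  convert Complex.exp_int_mul_two_pi_mul_I n using 2
  push_cast
  ring

theorem continuous_eR : Continuous eR := by
  unfold eR
  fun_prop

/-- The theta kernel at one complex place, with form `β` and parameter `s`. -/
def ker1 (β : ℂ) (s : ℝ) (p : H3) (x : ℂ × ℂ) : ℂ :=
  ((p.y * Real.exp (-(2 * π * ‖β‖ * p.y * (‖x.1‖ ^ 2 * s + ‖x.2‖ ^ 2 / s))) : ℝ) : ℂ) *
    eR (2 * (β * p.z * (x.1 * x.2)).re)

/-- The real bilinear form attached to `β` at one place. -/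
def pair1 (β : ℂ) (x η : ℂ × ℂ) : ℝ := 2 * (β * (x.1 * η.2 + x.2 * η.1)).re

theorem pair1_comm (β : ℂ) (x η : ℂ × ℂ) : pair1 β x η = pair1 β η x := by
  simp only [pair1]; congr 2; ring

theorem norm_ker1 (β : ℂ) (s : ℝ) (p : H3) (x : ℂ × ℂ) :
    ‖ker1 β s p x‖ =
      p.y * Real.exp (-(2 * π * ‖β‖ * p.y * (‖x.1‖ ^ 2 * s + ‖x.2‖ ^ 2 / s))) := by
  rw [ker1, norm_mul, norm_eR, mul_one, Complex.norm_real, Real.norm_eq_abs,
    abs_of_pos (mul_pos p.y_pos (Real.exp_pos _))]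

/-- A translation of the point multiplies the kernel by a phase. -/
theorem ker1_translate (β : ℂ) (s : ℝ) (p : H3) (b : ℂ) (x : ℂ × ℂ) :
    ker1 β s ⟨p.z + b, p.y, p.y_pos⟩ x = eR (2 * (β * b * (x.1 * x.2)).re) * ker1 β s p x := by
  simp only [ker1]
  rw [show 2 * (β * (p.z + b) * (x.1 * x.2)).re =
    2 * (β * b * (x.1 * x.2)).re + 2 * (β * p.z * (x.1 * x.2)).re by
      rw [← mul_add, ← Complex.add_re]; congr 2; ring, eR_add]
  ring

/-- A dilation of the point changes the form. -/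
theorem ker1_scale (β : ℂ) (s : ℝ) (p : H3) {a : ℂ} (ha : a ≠ 0) (x : ℂ × ℂ) :
    ker1 β s ⟨a * p.z, ‖a‖ * p.y, mul_pos (norm_pos_iff.mpr ha) p.y_pos⟩ x =
      (‖a‖ : ℂ) * ker1 (a * β) s p x := by
  simp only [ker1, norm_mul]
  rw [show 2 * π * ‖β‖ * (‖a‖ * p.y) = 2 * π * (‖a‖ * ‖β‖) * p.y by ring,
    show β * (a * p.z) * (x.1 * x.2) = a * β * p.z * (x.1 * x.2) by ring]
  push_cast
  ring

/-- A dilation by a pair with product one moves only the parameter. -/
theorem ker1_units (β : ℂ) (s : ℝ) (p : H3) (m : ℂ × ℂ) (hm : m.1 * m.2 = 1) (x : ℂ × ℂ) :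
    ker1 β s p (m.1 * x.1, m.2 * x.2) = ker1 β (‖m.1‖ ^ 2 * s) p x := by
  have h1 : m.1 ≠ 0 := fun h => by simp [h] at hm
  have h2 : ‖m.2‖ = ‖m.1‖⁻¹ := by
    rw [eq_inv_of_mul_eq_one_right hm, norm_inv]
  simp only [ker1, norm_mul, h2]
  rw [show m.1 * x.1 * (m.2 * x.2) = (m.1 * m.2) * (x.1 * x.2) by ring, hm, one_mul,
    show (‖m.1‖ * ‖x.1‖) ^ 2 * s + (‖m.1‖⁻¹ * ‖x.2‖) ^ 2 / s =
      ‖x.1‖ ^ 2 * (‖m.1‖ ^ 2 * s) + ‖x.2‖ ^ 2 / (‖m.1‖ ^ 2 * s) by
    simp only [mul_pow, inv_pow, div_eq_mul_inv, mul_inv]; ring]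

/-- The image of a point under the inversion. -/
def invPoint (p : H3) : H3 :=
  ⟨-conj p.z / ((‖p.z‖ ^ 2 + p.y ^ 2 : ℝ) : ℂ), p.y / (‖p.z‖ ^ 2 + p.y ^ 2), by
    have := p.y_pos; positivity⟩

/-- The Fourier transform of a Gaussian on `ℂ`. -/
theorem integral_gauss_phase {A : ℝ} (hA : 0 < A) (a : ℂ) :
    ∫ v : ℂ, ((Real.exp (-(A * ‖v‖ ^ 2)) : ℝ) : ℂ) * eR (2 * (a * v).re) =
      ((π / A * Real.exp (-(4 * π ^ 2 * ‖a‖ ^ 2 / A)) : ℝ) : ℂ) := by
  have h := GaussianFourier.integral_cexp_neg_mul_sq_norm_add (V := ℂ) (b := (A : ℂ))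
    (by simpa using hA) (4 * (π : ℂ) * I) (conj a)
  rw [Complex.finrank_real_complex] at h
  have e : ∀ v : ℂ, ((Real.exp (-(A * ‖v‖ ^ 2)) : ℝ) : ℂ) * eR (2 * (a * v).re) =
      cexp (-(A : ℂ) * ((‖v‖ : ℝ) : ℂ) ^ 2 +
        4 * (π : ℂ) * I * ((inner ℝ (conj a) v : ℝ) : ℂ)) := by
    intro v
    rw [Complex.inner, Complex.conj_conj, mul_comm v a, eR, Complex.ofReal_exp, ← Complex.exp_add]
    congr 1
    push_cast
    ring
  rw [integral_congr_ae (Filter.Eventually.of_forall e), h]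
  push_cast
  rw [div_self (two_ne_zero : (2 : ℂ) ≠ 0), Complex.cpow_one, RCLike.norm_conj]
  congr 2
  have hA' : (A : ℂ) ≠ 0 := by exact_mod_cast hA.ne'
  field_simp
  rw [I_sq]
  ring

theorem integrable_ker1 {β : ℂ} (hβ : β ≠ 0) {s : ℝ} (hs : 0 < s) (p : H3) :
    Integrable (fun x : ℂ × ℂ => ker1 β s p x) := by
  have hb := norm_pos_iff.mpr hβ
  have hy := p.y_pos
  have hg : ∀ {A : ℝ}, 0 < A → Integrable (fun v : ℂ => Real.exp (-(A * ‖v‖ ^ 2))) := by
    intro A hA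
    have := (GaussianFourier.integrable_cexp_neg_mul_sq_norm_add (V := ℂ) (b := (A : ℂ))
      (by simpa using hA) 0 0).norm
    refine this.congr (Filter.Eventually.of_forall fun v => ?_)
    simp only [Complex.norm_exp]
    congr 1
    simp [sq]
  have h := ((hg (show 0 < 2 * π * ‖β‖ * p.y * s by positivity)).mul_prod
    (hg (show 0 < 2 * π * ‖β‖ * p.y / s by positivity))).const_mul p.y
  refine h.mono' ?_ (Filter.Eventually.of_forall fun x => le_of_eq ?_)
  · refine Continuous.aestronglyMeasurable ?_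
    unfold ker1 eR
    fun_prop
  · rw [norm_ker1, ← Real.exp_add]
    congr 2
    ring

/-- The Fourier transform of the kernel is the kernel at the inverted point. -/
theorem integral_ker1 {β : ℂ} (hβ : β ≠ 0) {s : ℝ} (hs : 0 < s) (p : H3) (η : ℂ × ℂ) :
    ∫ x : ℂ × ℂ, ker1 β s p x * eR (-pair1 β x η) =
      ((1 / (4 * ‖β‖ ^ 2) : ℝ) : ℂ) * ker1 β s (invPoint p) η := by
  have hb := norm_pos_iff.mpr hβ
  have hy := p.y_pos
  have hint : Integrable (fun x : ℂ × ℂ => ker1 β s p x * eR (-pair1 β x η)) :=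
    (integrable_ker1 hβ hs p).mul_bdd (c := 1) (by
      refine Continuous.aestronglyMeasurable ?_
      unfold pair1 eR
      fun_prop) (Filter.Eventually.of_forall fun x => (norm_eR _).le)
  rw [Measure.volume_eq_prod, integral_prod _ hint]
  set A : ℝ := 2 * π * ‖β‖ * p.y / s with hA_def
  have hA : 0 < A := by positivity
  set A₁ : ℝ := 2 * π * ‖β‖ * p.y * s with hA₁_def
  have hinner : ∀ x₁ : ℂ, ∫ x₂ : ℂ, ker1 β s p (x₁, x₂) * eR (-pair1 β (x₁, x₂) η) =
      ((p.y * (π / A) * Real.exp (-(A₁ * ‖x₁‖ ^ 2)) *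
          Real.exp (-(4 * π ^ 2 * ‖β * (p.z * x₁ - η.1)‖ ^ 2 / A)) : ℝ) : ℂ) *
        eR (-(2 * (β * η.2 * x₁).re)) := by
    intro x₁
    have e : ∀ x₂ : ℂ, ker1 β s p (x₁, x₂) * eR (-pair1 β (x₁, x₂) η) =
        (((p.y * Real.exp (-(A₁ * ‖x₁‖ ^ 2)) : ℝ) : ℂ) * eR (-(2 * (β * η.2 * x₁).re))) *
        (((Real.exp (-(A * ‖x₂‖ ^ 2)) : ℝ) : ℂ) *
          eR (2 * (β * (p.z * x₁ - η.1) * x₂).re)) := by
      intro x₂
      have hexp : Real.exp (-(2 * π * ‖β‖ * p.y * (‖x₁‖ ^ 2 * s + ‖x₂‖ ^ 2 / s))) =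
          Real.exp (-(A₁ * ‖x₁‖ ^ 2)) * Real.exp (-(A * ‖x₂‖ ^ 2)) := by
        rw [← Real.exp_add]
        congr 1
        rw [hA_def, hA₁_def]
        ring
      have hph : eR (2 * (β * p.z * (x₁ * x₂)).re) * eR (-pair1 β (x₁, x₂) η) =
          eR (-(2 * (β * η.2 * x₁).re)) * eR (2 * (β * (p.z * x₁ - η.1) * x₂).re) := by
        rw [← eR_add, ← eR_add]
        congr 1
        simp only [pair1, Complex.mul_re, Complex.mul_im, Complex.sub_re, Complex.sub_im,
          Complex.add_re, Complex.add_im]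
        ring
      simp only [ker1, hexp]
      push_cast
      rw [show ∀ a b c d g : ℂ, a * (b * c) * d * g = a * b * c * (d * g) by intros; ring, hph]
      ring
    rw [integral_congr_ae (Filter.Eventually.of_forall e), integral_const_mul,
      integral_gauss_phase hA]
    push_cast
    ring
  rw [integral_congr_ae (Filter.Eventually.of_forall hinner)]
  set D : ℝ := ‖p.z‖ ^ 2 + p.y ^ 2 with hD_def
  have hD : 0 < D := by positivity
  set B : ℝ := 2 * π * ‖β‖ * s * D / p.y with hB_def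
  have hB : 0 < B := by positivity
  set c : ℂ := conj p.z * η.1 / (D : ℂ) with hc_def
  rw [← integral_add_right_eq_self _ c]
  have houter : ∀ u : ℂ,
      ((p.y * (π / A) * Real.exp (-(A₁ * ‖u + c‖ ^ 2)) *
          Real.exp (-(4 * π ^ 2 * ‖β * (p.z * (u + c) - η.1)‖ ^ 2 / A)) : ℝ) : ℂ) *
        eR (-(2 * (β * η.2 * (u + c)).re)) =
      (((p.y * (π / A) * Real.exp (-(2 * π * ‖β‖ * s * ‖η.1‖ ^ 2 * p.y / D)) : ℝ) : ℂ) *
          eR (-(2 * (β * η.2 * c).re))) *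
        (((Real.exp (-(B * ‖u‖ ^ 2)) : ℝ) : ℂ) * eR (2 * (-(β * η.2) * u).re)) := by
    intro u
    have hexp : Real.exp (-(A₁ * ‖u + c‖ ^ 2)) *
        Real.exp (-(4 * π ^ 2 * ‖β * (p.z * (u + c) - η.1)‖ ^ 2 / A)) =
        Real.exp (-(2 * π * ‖β‖ * s * ‖η.1‖ ^ 2 * p.y / D)) * Real.exp (-(B * ‖u‖ ^ 2)) := by
      rw [← Real.exp_add, ← Real.exp_add]
      congr 1
      rw [norm_mul, mul_pow, hA_def, hA₁_def, hB_def]
      have key : p.y ^ 2 * ‖u + c‖ ^ 2 + ‖p.z * (u + c) - η.1‖ ^ 2 =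
          D * ‖u‖ ^ 2 + ‖η.1‖ ^ 2 * p.y ^ 2 / D := by
        have hD' : (D : ℂ) ≠ 0 := by exact_mod_cast hD.ne'
        apply Complex.ofReal_injective
        push_cast
        simp only [← Complex.normSq_eq_norm_sq, ← Complex.ofReal_pow]
        push_cast
        simp only [Complex.normSq_eq_conj_mul_self, map_add, map_mul, map_sub, map_div₀,
          Complex.conj_conj, Complex.conj_ofReal, hc_def]
        have hz : (D : ℂ) = conj p.z * p.z + (p.y : ℂ) ^ 2 := by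
          rw [hD_def, ← Complex.normSq_eq_norm_sq]
          push_cast
          rw [Complex.normSq_eq_conj_mul_self]
        field_simp
        rw [hz]
        ring
      calc _ = -(2 * π * ‖β‖ * s / p.y *
            (p.y ^ 2 * ‖u + c‖ ^ 2 + ‖p.z * (u + c) - η.1‖ ^ 2)) := by field_simp; ring
        _ = _ := by rw [key]; field_simp; ring
    have hph : eR (-(2 * (β * η.2 * (u + c)).re)) =
        eR (-(2 * (β * η.2 * c).re)) * eR (2 * (-(β * η.2) * u).re) := by
      rw [← eR_add]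
      congr 1
      rw [mul_add (β * η.2), Complex.add_re, neg_mul, Complex.neg_re]
      ring
    rw [hph, mul_assoc (p.y * (π / A)), hexp]
    push_cast
    ring
  rw [integral_congr_ae (Filter.Eventually.of_forall houter), integral_const_mul,
    integral_gauss_phase hB]
  have hexp : Real.exp (-(2 * π * ‖β‖ * (invPoint p).y * (‖η.1‖ ^ 2 * s + ‖η.2‖ ^ 2 / s))) =
      Real.exp (-(2 * π * ‖β‖ * s * ‖η.1‖ ^ 2 * p.y / D)) *
        Real.exp (-(4 * π ^ 2 * ‖-(β * η.2)‖ ^ 2 / B)) := by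
    rw [← Real.exp_add]
    congr 1
    simp only [invPoint, norm_neg, norm_mul, mul_pow, hB_def, ← hD_def]
    field_simp
    ring
  have hph : eR (2 * (β * (invPoint p).z * (η.1 * η.2)).re) = eR (-(2 * (β * η.2 * c).re)) := by
    congr 1
    rw [← mul_neg, ← Complex.neg_re]
    congr 2
    simp only [invPoint, hc_def, ← hD_def]
    ring
  have hconst : (1 / (4 * ‖β‖ ^ 2)) * (invPoint p).y = p.y * (π / A) * (π / B) := by
    simp only [invPoint, hA_def, hB_def, ← hD_def]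
    field_simp
    ring
  simp only [ker1, hexp, hph]
  have hconst' := congrArg (fun r : ℝ => (r : ℂ)) hconst
  push_cast at hconst' ⊢
  linear_combination (-((Complex.exp (-(2 * (π : ℂ) * (‖β‖ : ℂ) * (s : ℂ) * (‖η.1‖ : ℂ) ^ 2 *
      (p.y : ℂ) / (D : ℂ)))) *
      Complex.exp (-(4 * (π : ℂ) ^ 2 * (‖-(β * η.2)‖ : ℂ) ^ 2 / (B : ℂ))) *
      eR (-(2 * (β * η.2 * c).re)))) * hconst'

end Fermat.Agent.ResidualThree.ThetaInduction
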