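import Mathlib
import Fermat.Agent.ResidualThree.ThetaInduction.Kernel

/-!
# Poisson summation in several variables

For a continuous integrable function on `ℝ^d` whose translates by `ℤ^d` are locally uniformly
summable and whose Fourier coefficients are summable, `∑ n, f (v + n)` is its Fourier series.  It
is used for theta sums on lattices of a number field.
-/

noncomputable section

open MeasureTheory Complex
open scoped Real

namespace Fermat.Agent.ResidualThree.ThetaInduction

variable {d : Type*} [Fintype d]

/-- An integral vector as a real vector. -/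
def intVec (n : d → ℤ) : d → ℝ := fun i => (n i : ℝ)

/-- The Fourier transform at integral frequencies. -/
def piFourier (f : (d → ℝ) → ℂ) (m : d → ℤ) : ℂ :=
  ∫ x, f x * eR (-∑ i, (m i : ℝ) * x i)

theorem mFourier_coe (m : d → ℤ) (x : d → ℝ) :
    UnitAddTorus.mFourier m (fun i => (x i : UnitAddCircle)) = eR (∑ i, (m i : ℝ) * x i) := by
  show ∏ i, fourier (m i) ((x i : UnitAddCircle)) = _
  rw [eR]
  push_cast
  rw [Finset.mul_sum, Complex.exp_sum]
  refine Finset.prod_congr rfl fun i _ => ?_
  rw [fourier_coe_apply]
  congr 1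
  push_cast
  ring

/-- **Poisson summation** over `ℤ^d`. -/
theorem poisson_pi {f : (d → ℝ) → ℂ} (hc : Continuous f) (hint : Integrable f)
    (hb : ∀ R : ℝ, ∃ u : (d → ℤ) → ℝ, Summable u ∧
      ∀ x : d → ℝ, ‖x‖ ≤ R → ∀ n, ‖f (x + intVec n)‖ ≤ u n)
    (hF : Summable (piFourier f)) (v : d → ℝ) :
    HasSum (fun m => piFourier f m * eR (∑ i, (m i : ℝ) * v i)) (∑' n, f (v + intVec n)) := by
  set g : (d → ℝ) → ℂ := fun x => ∑' n, f (x + intVec n) with hg
  have hgc : Continuous g := by
    refine continuous_iff_continuousAt.mpr fun x => ?_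
    obtain ⟨u, hu, hle⟩ := hb (‖x‖ + 1)
    have hon : ContinuousOn g (Metric.closedBall (0 : d → ℝ) (‖x‖ + 1)) :=
      continuousOn_tsum (fun n => (hc.comp (continuous_id.add continuous_const)).continuousOn) hu
        fun n y hy => hle y (by simpa using hy) n
    exact hon.continuousAt ((Metric.closedBall_mem_nhds_of_mem (by simp)))
  have hper : ∀ (x : d → ℝ) (k : d → ℤ), g (x + intVec k) = g x := by
    intro x k
    rw [hg]
    simp only
    rw [← (Equiv.addLeft k).tsum_eq fun n => f (x + intVec n)]
    refine tsum_congr fun n => ?_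
    congr 1
    funext i
    simp [intVec]
    ring
  set π' : (d → ℝ) → UnitAddTorus d := fun x i => (x i : UnitAddCircle) with hπ
  have hq : IsOpenQuotientMap π' :=
    IsOpenQuotientMap.piMap fun _ => QuotientAddGroup.isOpenQuotientMap_mk
  have hfac : ∀ x y, π' x = π' y → g x = g y := by
    intro x y hxy
    have : ∀ i, ∃ k : ℤ, y i = x i + k := fun i => by
      have h := congrFun hxy i
      simp only [hπ] at h
      rw [QuotientAddGroup.eq, AddSubgroup.mem_zmultiples_iff] at h
      obtain ⟨k, hk⟩ := h
      refine ⟨k, ?_⟩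
      simp only [zsmul_eq_mul, mul_one] at hk
      linarith
    choose k hk using this
    rw [show y = x + intVec k from funext fun i => hk i, hper]
  let G : C(UnitAddTorus d, ℂ) :=
    ⟨fun t => g (Function.surjInv hq.surjective t), by
      rw [hq.isQuotientMap.continuous_iff]
      convert hgc using 1
      funext x
      exact hfac _ _ (Function.surjInv_eq hq.surjective (π' x))⟩
  have hG : ∀ x, G (π' x) = g x := fun x => hfac _ _ (Function.surjInv_eq hq.surjective (π' x))
  set box : Set (d → ℝ) := {x | ∀ i, x i ∈ Set.Ioc (0 : ℝ) (0 + 1)} with hbox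
  have hboxm : MeasurableSet box := by
    rw [hbox, show {x : d → ℝ | ∀ i, x i ∈ Set.Ioc (0 : ℝ) (0 + 1)} =
      Set.univ.pi fun _ => Set.Ioc (0 : ℝ) (0 + 1) by ext; simp]
    exact MeasurableSet.univ_pi fun _ => measurableSet_Ioc
  have hcoeff : ∀ m, UnitAddTorus.mFourierCoeff G m = piFourier f m := by
    intro m
    rw [UnitAddTorus.mFourierCoeff_eq_integral _ _ 0]
    simp only [Pi.zero_apply]
    set e : (d → ℝ) → ℂ := fun x => eR (-∑ i, (m i : ℝ) * x i) with he
    have hec : Continuous e := continuous_eR.comp (by fun_prop)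
    set F : (d → ℝ) → ℂ := fun x => f x * e x with hFdef
    have hFint : Integrable F := hint.mul_bdd (c := 1) hec.aestronglyMeasurable
      (Filter.Eventually.of_forall fun x => (norm_eR _).le)
    have heper : ∀ x (n : d → ℤ), e (x + intVec n) = e x := by
      intro x n
      simp only [he, Pi.add_apply, intVec, mul_add, Finset.sum_add_distrib, neg_add]
      rw [eR_add]
      have : eR (-∑ i, (m i : ℝ) * (n i : ℝ)) = 1 := by
        rw [show (-∑ i, (m i : ℝ) * (n i : ℝ)) = ((-∑ i, m i * n i : ℤ) : ℝ) by push_cast; rfl]
        exact eR_int _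
      rw [this, mul_one]
    have h1 : ∀ x, UnitAddTorus.mFourier (-m) (π' x) • G (π' x) =
        ∑' n : d → ℤ, F (x + intVec n) := by
      intro x
      rw [hG, hπ, mFourier_coe, smul_eq_mul, hg, ← tsum_mul_left]
      refine tsum_congr fun n => ?_
      rw [hFdef]
      simp only [heper]
      simp [he, Finset.sum_neg_distrib, mul_comm]
    rw [setIntegral_congr_fun hboxm fun x _ => h1 x]
    obtain ⟨u, hu, hle⟩ := hb 1
    have hnorm : ∀ x ∈ box, ‖x‖ ≤ 1 := fun x hx => by
      refine (pi_norm_le_iff_of_nonneg zero_le_one).mpr fun i => ?_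
      have := hx i
      rw [Real.norm_eq_abs, abs_le]
      exact ⟨by linarith [this.1], by linarith [this.2]⟩
    have hfin : volume box ≠ ⊤ := by
      rw [hbox, show {x : d → ℝ | ∀ i, x i ∈ Set.Ioc (0 : ℝ) (0 + 1)} =
        Set.univ.pi fun _ => Set.Ioc (0 : ℝ) (0 + 1) by ext; simp, volume_pi_pi]
      exact ENNReal.prod_ne_top fun i _ => by simp
    have hsum : Summable fun n : d → ℤ => ∫ x in box, ‖F (x + intVec n)‖ := by
      refine Summable.of_nonneg_of_le (fun n => setIntegral_nonneg hboxm fun x _ => norm_nonneg _)
        (fun n => ?_) (hu.mul_left (volume.real box))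
      rw [← smul_eq_mul, ← setIntegral_const]
      refine setIntegral_mono_on ((hFint.comp_add_right _).norm.integrableOn)
        (integrableOn_const hfin) hboxm fun x hx => ?_
      simp only [hFdef, norm_mul, he, norm_eR, mul_one]
      exact hle x (hnorm x hx) n
    rw [← integral_tsum_of_summable_integral_norm
      (fun n => (hFint.comp_add_right _).integrableOn) hsum]
    have hshift : ∀ n : d → ℤ, ∫ x in box, F (x + intVec n) =
        ∫ x in (fun y => y + intVec n) '' box, F x := fun n =>
      ((measurePreserving_add_right volume (intVec n)).setIntegral_image_emb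
        (measurableEmbedding_addRight _) F box).symm
    simp only [hshift]
    have hU : (⋃ n : d → ℤ, (fun y => y + intVec n) '' box) = Set.univ := by
      refine Set.eq_univ_of_forall fun x => Set.mem_iUnion.mpr ⟨fun i => ⌈x i⌉ - 1, ?_⟩
      refine ⟨fun i => x i - ((⌈x i⌉ - 1 : ℤ) : ℝ), fun i => ?_, funext fun i => ?_⟩
      · have h1 := Int.le_ceil (x i)
        have h2 := Int.ceil_lt_add_one (x i)
        constructor <;> push_cast <;> linarith
      · simp [intVec]
    rw [← integral_iUnion (fun n => (measurableEmbedding_addRight _).measurableSet_image.mpr hboxm)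
      ?_ hFint.integrableOn, hU, setIntegral_univ]
    · rfl
    · intro n n' hne
      refine Set.disjoint_left.mpr ?_
      rintro _ ⟨a, ha, rfl⟩ ⟨b, hb', hab⟩
      apply hne
      funext i
      have h := congrFun hab i
      simp only [Pi.add_apply, intVec] at h
      have h1 := ha i
      have h2 := hb' i
      have : ((n i - n' i : ℤ) : ℝ) < 1 ∧ (-1 : ℝ) < ((n i - n' i : ℤ) : ℝ) := by
        constructor <;> push_cast <;> linarith [h1.1, h1.2, h2.1, h2.2]
      have h3 : (n i - n' i : ℤ) < 1 := by exact_mod_cast this.1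
      have h4 : (-1 : ℤ) < n i - n' i := by exact_mod_cast this.2
      omega
  have key := UnitAddTorus.hasSum_mFourier_series_apply_of_summable (f := G)
    (by rw [show UnitAddTorus.mFourierCoeff G = piFourier f from funext hcoeff]; exact hF) (π' v)
  rw [hG] at key
  refine key.congr_fun fun m => ?_
  rw [hcoeff, hπ, mFourier_coe, smul_eq_mul]

end Fermat.Agent.ResidualThree.ThetaInduction
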