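import Fermat.Agent.ResidualThree.Automorphic.Defs
import Fermat.Agent.ResidualThree.ThetaInduction.Decay
import Fermat.Agent.ResidualThree.ThetaInduction.Places
import Fermat.Agent.ResidualThree.ThetaInduction.Poisson

/-!
# Poisson summation for the theta kernel on a lattice in `M`

The kernel `kerInf` at all infinite places of `L` decays like a Gaussian, and its Fourier transform
is the kernel at the inverted point.  For a `ℚ`-basis of `M` the sum over the lattice it spans
equals a constant times the sum over the dual lattice for the twisted trace form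
`(x, y) ↦ Tr (β x ȳ)`.
-/

noncomputable section

open NumberField Module MeasureTheory
open scoped Real

namespace Fermat.Agent.ResidualThree.ThetaInduction

variable {L : Type} [Field L] [NumberField L]

instance : (volume : Measure (ℂ × ℂ)).IsAddHaarMeasure :=
  inferInstanceAs ((volume : Measure ℂ).prod (volume : Measure ℂ)).IsAddHaarMeasure

instance : (volume : Measure (InfSpace L)).IsAddHaarMeasure :=
  Measure.pi.isAddHaarMeasure _

/-- The kernel at all infinite places. -/
def kerInf (β : L) (s : InfinitePlace L → ℝ) (p : Hyp L) (x : InfSpace L) : ℂ :=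
  ∏ w : InfinitePlace L, ker1 (w.embedding β) (s w) (p w) (x w)

/-- The inversion at all places. -/
def invHyp (p : Hyp L) : Hyp L := fun w => invPoint (p w)

theorem pairInf_comm (β : L) (x η : InfSpace L) : pairInf β x η = pairInf β η x :=
  Finset.sum_congr rfl fun _ _ => pair1_comm _ _ _

theorem pairInf_add_left (β : L) (x x' η : InfSpace L) :
    pairInf β (x + x') η = pairInf β x η + pairInf β x' η := by
  rw [pairInf, pairInf, pairInf, ← Finset.sum_add_distrib]
  refine Finset.sum_congr rfl fun w _ => ?_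
  simp only [pair1, Pi.add_apply, Prod.fst_add, Prod.snd_add]
  rw [← mul_add 2, ← Complex.add_re]
  congr 2
  ring

theorem pairInf_smul_left (β : L) (c : ℝ) (x η : InfSpace L) :
    pairInf β (c • x) η = c * pairInf β x η := by
  rw [pairInf, pairInf, Finset.mul_sum]
  refine Finset.sum_congr rfl fun w _ => ?_
  simp only [pair1, Pi.smul_apply, Prod.smul_fst, Prod.smul_snd, Complex.real_smul]
  rw [show w.embedding β * ((c : ℂ) * (x w).1 * (η w).2 + (c : ℂ) * (x w).2 * (η w).1) =
    (c : ℂ) * (w.embedding β * ((x w).1 * (η w).2 + (x w).2 * (η w).1)) by ring,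
    Complex.re_ofReal_mul]
  ring

theorem pairInf_sum_left {ι : Type*} (t : Finset ι) (β : L) (x : ι → InfSpace L) (η : InfSpace L) :
    pairInf β (∑ i ∈ t, x i) η = ∑ i ∈ t, pairInf β (x i) η := by
  induction t using Finset.cons_induction with
  | empty => simp [pairInf, pair1]
  | cons a t ha ih => rw [Finset.sum_cons, Finset.sum_cons, pairInf_add_left, ih]

theorem continuous_kerInf (β : L) (s : InfinitePlace L → ℝ) (p : Hyp L) :
    Continuous (kerInf β s p) := by
  unfold kerInf ker1 eR
  fun_prop

theorem integrable_kerInf {β : L} (hβ : β ≠ 0) {s : InfinitePlace L → ℝ} (hs : ∀ w, 0 < s w)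
    (p : Hyp L) : Integrable (kerInf β s p) :=
  Integrable.fintype_prod (μ := fun _ : InfinitePlace L => (volume : Measure (ℂ × ℂ)))
    (f := fun (w : InfinitePlace L) (x : ℂ × ℂ) => ker1 (w.embedding β) (s w) (p w) x)
    fun w => integrable_ker1 ((map_ne_zero w.embedding).mpr hβ) (hs w) (p w)

/-- The Fourier transform of the kernel at all places. -/
theorem integral_kerInf {β : L} (hβ : β ≠ 0) {s : InfinitePlace L → ℝ} (hs : ∀ w, 0 < s w)
    (p : Hyp L) (η : InfSpace L) :
    ∫ x : InfSpace L, kerInf β s p x * eR (-pairInf β x η) =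
      (∏ w : InfinitePlace L, ((1 / (4 * ‖w.embedding β‖ ^ 2) : ℝ) : ℂ)) *
        kerInf β s (invHyp p) η := by
  have hprod : ∀ (t : Finset (InfinitePlace L)) (f : InfinitePlace L → ℝ),
      eR (∑ w ∈ t, f w) = ∏ w ∈ t, eR (f w) := by
    intro t f
    induction t using Finset.cons_induction with
    | empty => simp
    | cons a t ha ih => rw [Finset.sum_cons, Finset.prod_cons, eR_add, ih]
  have e : ∀ x : InfSpace L, kerInf β s p x * eR (-pairInf β x η) =
      ∏ w, ker1 (w.embedding β) (s w) (p w) (x w) * eR (-pair1 (w.embedding β) (x w) (η w)) := by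
    intro x
    rw [kerInf, pairInf, ← Finset.sum_neg_distrib, hprod, Finset.prod_mul_distrib]
  rw [integral_congr_ae (Filter.Eventually.of_forall e),
    integral_fintype_prod_volume_eq_prod (f := fun w x =>
      ker1 (w.embedding β) (s w) (p w) x * eR (-pair1 (w.embedding β) x (η w)))]
  simp only [integral_ker1 ((map_ne_zero (InfinitePlace.embedding _)).mpr hβ) (hs _)]
  rw [Finset.prod_mul_distrib]
  rfl

/-- The kernel decays like a Gaussian. -/
theorem exists_gauss_bound [IsTotallyComplex L] {β : L} (hβ : β ≠ 0) {s : InfinitePlace L → ℝ}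
    (hs : ∀ w, 0 < s w) (p : Hyp L) :
    ∃ ε : ℝ, 0 < ε ∧
      ∀ x : InfSpace L, ‖kerInf β s p x‖ ≤ (∏ w, (p w).y) * Real.exp (-(ε * ‖x‖ ^ 2)) := by
  set a : InfinitePlace L → ℝ := fun w =>
    2 * π * ‖w.embedding β‖ * (p w).y * min (s w) (s w)⁻¹ with ha
  have hapos : ∀ w, 0 < a w := fun w => by
    have := (p w).y_pos
    have := norm_pos_iff.mpr ((map_ne_zero w.embedding).mpr hβ)
    have := lt_min (hs w) (inv_pos.mpr (hs w))
    positivity
  have hne : (Finset.univ : Finset (InfinitePlace L)).Nonempty := Finset.univ_nonempty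
  refine ⟨Finset.univ.inf' hne a, (Finset.lt_inf'_iff hne).mpr fun w _ => hapos w, fun x => ?_⟩
  rw [kerInf, norm_prod, Finset.prod_congr rfl fun w _ => norm_ker1 _ _ _ _,
    Finset.prod_mul_distrib, ← Real.exp_sum]
  refine mul_le_mul_of_nonneg_left (Real.exp_le_exp.mpr ?_)
    (Finset.prod_nonneg fun w _ => (p w).y_pos.le)
  obtain ⟨w, hw⟩ : ∃ w, ‖x‖ ≤ ‖x w‖ := by
    obtain ⟨w, -, hw⟩ := Finset.exists_max_image Finset.univ (fun w => ‖x w‖) hne
    exact ⟨w, (pi_norm_le_iff_of_nonneg (norm_nonneg _)).mpr fun i => hw i (Finset.mem_univ i)⟩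
  have h1 : Finset.univ.inf' hne a * ‖x‖ ^ 2 ≤
      2 * π * ‖w.embedding β‖ * (p w).y * (‖(x w).1‖ ^ 2 * s w + ‖(x w).2‖ ^ 2 / s w) := by
    have hsw := hs w
    calc Finset.univ.inf' hne a * ‖x‖ ^ 2 ≤ a w * ‖x w‖ ^ 2 :=
          mul_le_mul (Finset.inf'_le a (Finset.mem_univ w)) (pow_le_pow_left₀ (norm_nonneg _) hw 2)
            (sq_nonneg _) (hapos w).le
      _ ≤ _ := by
        rw [ha]
        simp only [mul_assoc]
        refine mul_le_mul_of_nonneg_left (mul_le_mul_of_nonneg_left (mul_le_mul_of_nonneg_left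
          (mul_le_mul_of_nonneg_left ?_ (p w).y_pos.le) (norm_nonneg _)) Real.pi_nonneg)
          zero_le_two
        rw [Prod.norm_def]
        rcases max_cases ‖(x w).1‖ ‖(x w).2‖ with ⟨h, -⟩ | ⟨h, -⟩ <;> rw [h]
        · rw [mul_comm (‖(x w).1‖ ^ 2)]
          exact le_add_of_le_of_nonneg
            (mul_le_mul_of_nonneg_right (min_le_left _ _) (sq_nonneg _)) (by positivity)
        · rw [div_eq_mul_inv, mul_comm (‖(x w).2‖ ^ 2)]
          exact le_add_of_nonneg_of_le (by positivity)
            (mul_le_mul_of_nonneg_right (min_le_right _ _) (sq_nonneg _))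
  rw [Finset.sum_neg_distrib, neg_le_neg_iff]
  refine h1.trans (Finset.single_le_sum (f := fun w =>
    2 * π * ‖w.embedding β‖ * (p w).y * (‖(x w).1‖ ^ 2 * s w + ‖(x w).2‖ ^ 2 / s w))
    (fun i _ => ?_) (Finset.mem_univ w))
  have := hs i
  have := (p i).y_pos
  positivity

variable {M : Type} [Field M] [NumberField M] [Algebra L M] [Algebra.IsQuadraticExtension L M]
variable {ι : Type} [Fintype ι]

/-- The real-linear map attached to a basis of `M`. -/
def latMap (L : Type) [Field L] [NumberField L] [Algebra L M]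
    [Algebra.IsQuadraticExtension L M] (b : Basis ι ℚ M) : (ι → ℝ) →ₗ[ℝ] InfSpace L :=
  Fintype.linearCombination ℝ fun i => embM L (b i)

/-- The point of the lattice with given coordinates. -/
def latPt (b : Basis ι ℚ M) (n : ι → ℤ) : M := ∑ i, n i • b i

theorem latMap_intVec (b : Basis ι ℚ M) (n : ι → ℤ) :
    latMap L b (intVec n) = embM L (latPt b n) := by
  rw [latMap, Fintype.linearCombination_apply, latPt, map_sum]
  refine Finset.sum_congr rfl fun i _ => ?_
  rw [map_zsmul, intVec, Int.cast_smul_eq_zsmul]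

variable [IsTotallyComplex L]

/-- The twisted trace form. -/
def twistedTrace (β : L) : LinearMap.BilinForm ℚ M :=
  (Algebra.traceForm ℚ M).compl₁₂ (LinearMap.mulLeft ℚ (algebraMap L M β))
    ((conjM L M).toLinearMap.restrictScalars ℚ)

omit [IsTotallyComplex L] in
theorem twistedTrace_apply (β : L) (x y : M) :
    twistedTrace β x y = Algebra.trace ℚ M (algebraMap L M β * (x * conjM L M y)) := by
  simp [twistedTrace, mul_assoc]

omit [IsTotallyComplex L] in
/-- The twisted trace form is nondegenerate. -/
theorem twistedTrace_nondegenerate {β : L} (hβ : β ≠ 0) :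
    (twistedTrace (M := M) β).Nondegenerate := by
  have hb : algebraMap L M β ≠ 0 := (map_ne_zero _).mpr hβ
  constructor
  · intro x hx
    have := (traceForm_nondegenerate ℚ M).1 (algebraMap L M β * x) fun z => by
      have := hx ((conjM L M).symm z)
      rwa [twistedTrace_apply, AlgEquiv.apply_symm_apply, ← mul_assoc] at this
    exact (mul_eq_zero.mp this).resolve_left hb
  · intro y hy
    have := (traceForm_nondegenerate ℚ M).2 (conjM L M y) fun z => by
      have := hy ((algebraMap L M β)⁻¹ * z)
      rwa [twistedTrace_apply, ← mul_assoc, ← mul_assoc, mul_inv_cancel₀ hb, one_mul] at this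
    simpa using this

/-- The dual basis for the twisted trace form. -/
def dualB [DecidableEq ι] {β : L} (hβ : β ≠ 0) (b : Basis ι ℚ M) : Basis ι ℚ M :=
  (twistedTrace β).dualBasis (twistedTrace_nondegenerate hβ) b

theorem pairInf_latMap [DecidableEq ι] {β : L} (hβ : β ≠ 0) (b : Basis ι ℚ M) (u : ι → ℝ)
    (m : ι → ℤ) :
    pairInf β (latMap L b u) (embM L (latPt (dualB hβ b) m)) = ∑ i, (m i : ℝ) * u i := by
  rw [latMap, Fintype.linearCombination_apply, pairInf_sum_left]
  refine Finset.sum_congr rfl fun i _ => ?_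
  rw [pairInf_smul_left, pairInf_comm, pairInf_embM, ← twistedTrace_apply, latPt, map_sum,
    LinearMap.sum_apply, mul_comm]
  congr 1
  rw [Finset.sum_eq_single i]
  · rw [map_zsmul, LinearMap.smul_apply, dualB,
      LinearMap.BilinForm.apply_dualBasis_left _ b]
    simp
  · intro j _ hj
    rw [map_zsmul, LinearMap.smul_apply, dualB,
      LinearMap.BilinForm.apply_dualBasis_left _ b, if_neg (Ne.symm hj), smul_zero]
  · simp

theorem latMap_injective (b : Basis ι ℚ M) : Function.Injective (latMap L b) := by
  classical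
  rw [← LinearMap.ker_eq_bot, LinearMap.ker_eq_bot']
  intro u hu
  funext i
  have := pairInf_latMap (L := L) one_ne_zero b u (Pi.single i 1)
  rw [hu, pairInf_comm] at this
  simpa [pairInf, pair1, Pi.single_apply] using this.symm

theorem latMap_surjective (b : Basis ι ℚ M) : Function.Surjective (latMap L b) := by
  rw [← LinearMap.injective_iff_surjective_of_finrank_eq_finrank]
  · exact latMap_injective b
  · rw [finrank_pi, finrank_infSpace (M := M), finrank_eq_card_basis b]

/-- Locally uniform summability of the kernel over a lattice. -/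
theorem exists_summable_kerInf {β : L} (hβ : β ≠ 0) {s : InfinitePlace L → ℝ}
    (hs : ∀ w, 0 < s w) (p : Hyp L) (b : Basis ι ℚ M) (R : ℝ) :
    ∃ u : (ι → ℤ) → ℝ, Summable u ∧ ∀ v : InfSpace L, ‖v‖ ≤ R → ∀ n,
      ‖kerInf β s p (v + embM L (latPt b n))‖ ≤ u n := by
  obtain ⟨ε, hε, hb⟩ := exists_gauss_bound hβ hs p
  obtain ⟨u, hu, hle⟩ := exists_summable_gauss (latMap_injective (L := L) b) hε R
  refine ⟨fun n => (∏ w, (p w).y) * u n, hu.mul_left _, fun v hv n => ?_⟩
  refine (hb _).trans (mul_le_mul_of_nonneg_left ?_ (Finset.prod_nonneg fun w _ => (p w).y_pos.le))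
  rw [← latMap_intVec]
  exact hle v hv n

theorem summable_norm_kerInf {β : L} (hβ : β ≠ 0) {s : InfinitePlace L → ℝ}
    (hs : ∀ w, 0 < s w) (p : Hyp L) (b : Basis ι ℚ M) (v : InfSpace L) :
    Summable fun n => ‖kerInf β s p (v + embM L (latPt b n))‖ := by
  obtain ⟨u, hu, hle⟩ := exists_summable_kerInf hβ hs p b ‖v‖
  exact Summable.of_nonneg_of_le (fun _ => norm_nonneg _) (hle v le_rfl) hu

/-- The linear equivalence attached to a basis. -/
def latEquiv (L : Type) [Field L] [NumberField L] [IsTotallyComplex L] [Algebra L M]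
    [Algebra.IsQuadraticExtension L M] (b : Basis ι ℚ M) : (ι → ℝ) ≃L[ℝ] InfSpace L :=
  (LinearEquiv.ofBijective (latMap L b)
    ⟨latMap_injective b, latMap_surjective b⟩).toContinuousLinearEquiv

instance (b : Basis ι ℚ M) :
    ((volume : Measure (ι → ℝ)).map (latMap L b)).IsAddHaarMeasure :=
  (latEquiv L b).isAddHaarMeasure_map volume

/-- The constant of the Poisson formula of a lattice. -/
def latConst (β : L) (b : Basis ι ℚ M) : ℂ :=
  ((Measure.addHaarScalarFactor ((volume : Measure (ι → ℝ)).map (latMap L b))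
      (volume : Measure (InfSpace L)) : ℝ) : ℂ) *
    ∏ w : InfinitePlace L, ((1 / (4 * ‖w.embedding β‖ ^ 2) : ℝ) : ℂ)

/-- **Poisson summation** for the theta kernel on a lattice. -/
theorem kerInf_poisson [DecidableEq ι] {β : L} (hβ : β ≠ 0) {s : InfinitePlace L → ℝ}
    (hs : ∀ w, 0 < s w) (p : Hyp L) (b : Basis ι ℚ M) (v : InfSpace L) :
    HasSum (fun m => latConst β b * (eR (pairInf β v (embM L (latPt (dualB hβ b) m))) *
        kerInf β s (invHyp p) (embM L (latPt (dualB hβ b) m))))
      (∑' n, kerInf β s p (v + embM L (latPt b n))) := by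
  have hsurj := latMap_surjective (L := L) b
  have hinj := latMap_injective (L := L) b
  let T : (ι → ℝ) ≃L[ℝ] InfSpace L := latEquiv L b
  have hchange : ∀ g : InfSpace L → ℂ, ∫ u, g (latMap L b u) =
      ((Measure.addHaarScalarFactor ((volume : Measure (ι → ℝ)).map (latMap L b))
        (volume : Measure (InfSpace L)) : ℝ) : ℂ) * ∫ x, g x := by
    intro g
    have h1 : ∫ x, g x ∂((volume : Measure (ι → ℝ)).map (latMap L b)) =
        ∫ u, g (latMap L b u) := T.toHomeomorph.measurableEmbedding.integral_map g
    rw [← h1]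
    conv_lhs => rw [Measure.isAddLeftInvariant_eq_smul
      ((volume : Measure (ι → ℝ)).map (latMap L b)) (volume : Measure (InfSpace L))]
    rw [integral_smul_nnreal_measure]
    rfl
  set f : (ι → ℝ) → ℂ := fun u => kerInf β s p (latMap L b u) with hf
  have hfhat : ∀ m, piFourier f m =
      latConst β b * kerInf β s (invHyp p) (embM L (latPt (dualB hβ b) m)) := by
    intro m
    rw [piFourier]
    have : ∀ u, f u * eR (-∑ i, (m i : ℝ) * u i) = kerInf β s p (latMap L b u) *
        eR (-pairInf β (latMap L b u) (embM L (latPt (dualB hβ b) m))) := fun u => by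
      rw [pairInf_latMap]
    rw [integral_congr_ae (Filter.Eventually.of_forall this),
      hchange fun x => kerInf β s p x * eR (-pairInf β x (embM L (latPt (dualB hβ b) m))),
      integral_kerInf hβ hs, latConst, mul_assoc]
  obtain ⟨u₀, hu₀⟩ := hsurj v
  have hfint : Integrable f := by
    have : Integrable (kerInf β s p) ((volume : Measure (ι → ℝ)).map T) := by
      rw [show ((volume : Measure (ι → ℝ)).map T) = _ from Measure.isAddLeftInvariant_eq_smul
        ((volume : Measure (ι → ℝ)).map T) (volume : Measure (InfSpace L))]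
      exact (integrable_kerInf hβ hs p).smul_measure ENNReal.coe_ne_top
    exact (T.toHomeomorph.measurableEmbedding.integrable_map_iff).mp this
  have key := poisson_pi (f := f)
    ((continuous_kerInf β s p).comp T.continuous) hfint (fun R => by
      obtain ⟨u, hu, hle⟩ :=
        exists_summable_kerInf hβ hs p b (‖(T : (ι → ℝ) →L[ℝ] InfSpace L)‖ * R)
      refine ⟨u, hu, fun x hx n => ?_⟩
      rw [hf]
      simp only [map_add, latMap_intVec]
      exact hle _ (((T : (ι → ℝ) →L[ℝ] InfSpace L).le_opNorm x).trans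
        (mul_le_mul_of_nonneg_left hx (norm_nonneg _))) n)
    (by
      refine Summable.of_norm ?_
      simp only [hfhat, norm_mul]
      have := summable_norm_kerInf hβ hs (invHyp p) (dualB hβ b) 0
      simp only [zero_add] at this
      exact this.mul_left _) u₀
  rw [show (∑' n, kerInf β s p (v + embM L (latPt b n))) = ∑' n, f (u₀ + intVec n) from
    tsum_congr fun n => by rw [hf]; simp only [map_add, latMap_intVec, hu₀]]
  refine key.congr_fun fun m => ?_
  rw [hfhat, ← hu₀, pairInf_latMap]
  ring

end Fermat.Agent.ResidualThree.ThetaInduction
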