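import Fermat.Agent.ResidualThree.ThetaInduction.Divisor
import Fermat.Agent.ResidualThree.ThetaInduction.Lattice

/-!
# Theta sums of periodic functions on `M` and their Poisson formula

For `Φ` supported in a lattice `Lat ω` and periodic modulo `Lat ω'`, `thetaSum β s p Φ` equals a
constant times the theta sum at the inverted point of the finite Fourier transform `fourierQ` of
`Φ`.  This is the inversion in the transformation law of theta series.
-/

noncomputable section

open NumberField Module
open scoped Real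

namespace Fermat.Agent.ResidualThree.ThetaInduction

variable {L M : Type} [Field L] [NumberField L] [IsTotallyComplex L] [Field M] [NumberField M]
  [Algebra L M] [Algebra.IsQuadraticExtension L M]

/-- The theta sum of a function on `M`. -/
def thetaSum (β : L) (s : InfinitePlace L → ℝ) (p : Hyp L) (Φ : M → ℂ) : ℂ :=
  ∑' x : M, Φ x * kerInf β s p (embM L x)

omit [IsTotallyComplex L] in
theorem latPt_injective {ι : Type} [Fintype ι] (b : Basis ι ℚ M) :
    Function.Injective (latPt b) := by
  intro n m h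
  have h' : ∑ i, (n i : ℚ) • b i = ∑ i, (m i : ℚ) • b i := by
    simpa [latPt, Int.cast_smul_eq_zsmul] using h
  funext i
  have h2 := Fintype.linearIndependent_iff.mp b.linearIndependent (fun i => (n i : ℚ) - m i)
    (by rw [Finset.sum_congr rfl fun j _ => sub_smul _ _ _, Finset.sum_sub_distrib, h', sub_self]) i
  exact_mod_cast sub_eq_zero.mp h2

/-- The rank of a lattice. -/
def latRank (ω : FPlace M →₀ ℤ) : ℕ := (exists_basis_Lat ω).choose

/-- The chosen basis of a lattice. -/
def latBasis (ω : FPlace M →₀ ℤ) : Basis (Fin (latRank ω)) ℚ M :=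
  (exists_basis_Lat ω).choose_spec.choose

omit [IsTotallyComplex L] in
theorem mem_Lat_iff_latPt {ω : FPlace M →₀ ℤ} {x : M} :
    x ∈ Lat ω ↔ ∃ n, latPt (latBasis ω) n = x := by
  rw [(exists_basis_Lat ω).choose_spec.choose_spec x]
  exact exists_congr fun n => eq_comm

/-- A lattice is a free abelian group on the chosen basis. -/
def latEquivInt (ω : FPlace M →₀ ℤ) : (Fin (latRank ω) → ℤ) ≃ Lat ω :=
  Equiv.ofBijective (fun n => ⟨latPt (latBasis ω) n, mem_Lat_iff_latPt.mpr ⟨n, rfl⟩⟩)
    ⟨fun _ _ h => latPt_injective _ (congrArg Subtype.val h), fun x => by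
      obtain ⟨n, hn⟩ := mem_Lat_iff_latPt.mp x.2
      exact ⟨n, Subtype.ext hn⟩⟩

omit [IsTotallyComplex L] in
theorem coe_latEquivInt (ω : FPlace M →₀ ℤ) (n : Fin (latRank ω) → ℤ) :
    ((latEquivInt ω n : Lat ω) : M) = latPt (latBasis ω) n := rfl

theorem summable_coset {β : L} (hβ : β ≠ 0) {s : InfinitePlace L → ℝ} (hs : ∀ w, 0 < s w)
    (p : Hyp L) (ω : FPlace M →₀ ℤ) (r : M) :
    Summable fun a : Lat ω => ‖kerInf β s p (embM L (r + (a : M)))‖ := by
  refine (latEquivInt ω).summable_iff.mp ?_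
  refine (summable_norm_kerInf hβ hs p (latBasis ω) (embM L r)).congr fun n => ?_
  simp [coe_latEquivInt, map_add]

/-- Theta sums of bounded functions converge absolutely. -/
theorem summable_thetaTerm {β : L} (hβ : β ≠ 0) {s : InfinitePlace L → ℝ} (hs : ∀ w, 0 < s w)
    (p : Hyp L) {ω : FPlace M →₀ ℤ} {Φ : M → ℂ} (hsupp : ∀ x, x ∉ Lat ω → Φ x = 0) {B : ℝ}
    (hB : ∀ x, ‖Φ x‖ ≤ B) :
    Summable fun x : M => ‖Φ x * kerInf β s p (embM L x)‖ := by
  refine (Function.Injective.summable_iff (g := fun a : Lat ω => (a : M)) Subtype.val_injective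
    (f := fun x : M => ‖Φ x * kerInf β s p (embM L x)‖) fun x hx => ?_).mp ?_
  · rw [hsupp x fun h => hx ⟨⟨x, h⟩, rfl⟩, zero_mul, norm_zero]
  · refine Summable.of_nonneg_of_le (fun a => norm_nonneg _) (fun a => ?_)
      ((summable_coset hβ hs p ω 0).mul_left B)
    simp only [Function.comp_apply, norm_mul, zero_add]
    exact mul_le_mul_of_nonneg_right (hB _) (norm_nonneg _)

/-- The classes of one lattice modulo another. -/
abbrev LatQuot (ω ω' : FPlace M →₀ ℤ) : Type := Lat ω ⧸ (Lat ω').addSubgroupOf (Lat ω)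

theorem finite_latQuot {ω ω' : FPlace M →₀ ℤ} (h : ω ≤ ω') : Finite (LatQuot ω ω') :=
  Nat.finite_of_card_ne_zero (relIndex_Lat_ne_zero h)

/-- The finite Fourier transform of a function periodic modulo `Lat ω'` supported in `Lat ω`. -/
def fourierQ (β : L) (ω ω' : FPlace M →₀ ℤ) (Φ : M → ℂ) (y : M) : ℂ :=
  open Classical in
  if ∀ x ∈ Lat ω', traceExp (algebraMap L M β * (x * conjM L M y)) = 1 then
    ∑ᶠ q : LatQuot ω ω', Φ (q.out : M) *
      traceExp (algebraMap L M β * ((q.out : M) * conjM L M y))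
  else 0

omit [IsTotallyComplex L] in
theorem fourierQ_eq_zero {β : L} {ω ω' : FPlace M →₀ ℤ} {Φ : M → ℂ} {y : M}
    (h : ¬ ∀ x ∈ Lat ω', traceExp (algebraMap L M β * (x * conjM L M y)) = 1) :
    fourierQ β ω ω' Φ y = 0 := if_neg h

omit [IsTotallyComplex L] [NumberField L] [Algebra L M] [Algebra.IsQuadraticExtension L M] in
theorem traceExp_eq_eR (a : M) : traceExp a = eR (Algebra.trace ℚ M a : ℝ) := by
  rw [traceExp, eR, Complex.ofReal_ratCast]

theorem eR_pairInf_embM (β : L) (x y : M) :
    eR (pairInf β (embM L x) (embM L y)) = traceExp (algebraMap L M β * (x * conjM L M y)) := by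
  rw [pairInf_embM, traceExp_eq_eR]

/-- The constant of the Poisson formula of `Lat ω'`. -/
def poissonConst (β : L) (ω' : FPlace M →₀ ℤ) : ℂ := latConst β (latBasis ω')

/-- The dual basis spans the annihilator of `Lat ω'`. -/
theorem mem_range_dual_iff {β : L} (hβ : β ≠ 0)
    (ω' : FPlace M →₀ ℤ) (y : M) :
    y ∈ Set.range (latPt (dualB hβ (latBasis ω'))) ↔
      ∀ x ∈ Lat ω', traceExp (algebraMap L M β * (x * conjM L M y)) = 1 := by
  constructor
  · rintro ⟨m, rfl⟩ x hx
    obtain ⟨n, rfl⟩ := mem_Lat_iff_latPt.mp hx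
    rw [← eR_pairInf_embM, ← latMap_intVec, pairInf_latMap, show
      (∑ i, (m i : ℝ) * intVec n i) = ((∑ i, m i * n i : ℤ) : ℝ) by simp [intVec]]
    exact eR_int _
  · intro h
    have hk : ∀ i, ∃ k : ℤ, (dualB hβ (latBasis ω')).repr y i = k := fun i => by
      have hb : latBasis ω' i ∈ Lat ω' := mem_Lat_iff_latPt.mpr
        ⟨Pi.single i 1, by
          rw [latPt, Finset.sum_eq_single i (fun j _ hj => by simp [hj]) (by simp)]; simp⟩
      obtain ⟨k, hk⟩ := (traceExp_eq_one_iff _).mp (h _ hb)
      refine ⟨k, ?_⟩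
      rw [dualB, LinearMap.BilinForm.dualBasis_repr_apply]
      have hsymm : twistedTrace β y (latBasis ω' i) = twistedTrace β (latBasis ω' i) y := by
        apply Rat.cast_injective (α := ℝ)
        rw [twistedTrace_apply, twistedTrace_apply, ← pairInf_embM, ← pairInf_embM, pairInf_comm]
      rw [hsymm, twistedTrace_apply, hk]
    choose k hk using hk
    refine ⟨k, ?_⟩
    conv_rhs => rw [← (dualB hβ (latBasis ω')).sum_repr y]
    simp [latPt, hk, Int.cast_smul_eq_zsmul]

/-- Poisson summation for one coset. -/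
theorem coset_poisson {β : L} (hβ : β ≠ 0) {s : InfinitePlace L → ℝ} (hs : ∀ w, 0 < s w)
    (p : Hyp L) (ω' : FPlace M →₀ ℤ) (r : M) :
    HasSum (fun y : M => open Classical in
      if ∀ x ∈ Lat ω', traceExp (algebraMap L M β * (x * conjM L M y)) = 1 then
        poissonConst β ω' * (traceExp (algebraMap L M β * (r * conjM L M y)) *
          kerInf β s (invHyp p) (embM L y)) else 0)
      (∑' a : Lat ω', kerInf β s p (embM L (r + (a : M)))) := by
  classical
  have h := kerInf_poisson hβ hs p (latBasis ω') (embM L r)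
  rw [show (∑' a : Lat ω', kerInf β s p (embM L (r + (a : M)))) =
      ∑' n, kerInf β s p (embM L r + embM L (latPt (latBasis ω') n)) by
    rw [← (latEquivInt ω').tsum_eq]
    exact tsum_congr fun n => by simp [coe_latEquivInt, map_add]]
  refine ((latPt_injective (dualB hβ (latBasis ω'))).hasSum_iff ?_).mp (h.congr_fun fun m => ?_)
  · intro y hy
    rw [if_neg fun hh => hy ((mem_range_dual_iff hβ ω' y).mpr hh)]
  · rw [Function.comp_apply, if_pos ((mem_range_dual_iff hβ ω' _).mp ⟨m, rfl⟩), eR_pairInf_embM,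
      poissonConst]

/-- **Poisson summation** for theta sums. -/
theorem thetaSum_poisson {β : L} (hβ : β ≠ 0) {s : InfinitePlace L → ℝ} (hs : ∀ w, 0 < s w)
    (p : Hyp L) {ω ω' : FPlace M →₀ ℤ} (hle : ω ≤ ω') {Φ : M → ℂ}
    (hsupp : ∀ x, x ∉ Lat ω → Φ x = 0) (hper : ∀ x a, a ∈ Lat ω' → Φ (x + a) = Φ x) :
    thetaSum β s p Φ = poissonConst β ω' * thetaSum β s (invHyp p) (fourierQ β ω ω' Φ) := by
  classical
  have hfin := finite_latQuot hle
  let := Fintype.ofFinite (LatQuot ω ω')
  let e : LatQuot ω ω' × Lat ω' → M := fun qa => (qa.1.out : M) + (qa.2 : M)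
  have he : Function.Injective e := by
    rintro ⟨q, a⟩ ⟨q', a'⟩ h
    have h1 : q = q' := by
      rw [← QuotientAddGroup.out_eq' q, ← QuotientAddGroup.out_eq' q', QuotientAddGroup.eq,
        AddSubgroup.mem_addSubgroupOf]
      have hval : ((-q.out + q'.out : Lat ω) : M) = (a : M) - (a' : M) := by
        have h' : (q.out : M) + (a : M) = (q'.out : M) + (a' : M) := h
        push_cast
        linear_combination -h'
      rw [hval]
      exact sub_mem a.2 a'.2
    subst h1
    exact Prod.ext rfl (Subtype.ext (add_left_cancel h))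
  have hrange : ∀ x, x ∉ Set.range e → Φ x * kerInf β s p (embM L x) = 0 := by
    intro x hx
    rw [hsupp x fun hxω => hx ?_, zero_mul]
    let q : LatQuot ω ω' := QuotientAddGroup.mk ⟨x, hxω⟩
    have hq : (-q.out + ⟨x, hxω⟩ : Lat ω) ∈ (Lat ω').addSubgroupOf (Lat ω) :=
      QuotientAddGroup.eq.mp (QuotientAddGroup.out_eq' q)
    rw [AddSubgroup.mem_addSubgroupOf] at hq
    exact ⟨(q, ⟨_, hq⟩), by simp [e]⟩
  rw [thetaSum, ← he.tsum_eq fun x hx => by
    by_contra hh
    exact hx (hrange x hh)]
  have hval : ∀ qa : LatQuot ω ω' × Lat ω', Φ (e qa) * kerInf β s p (embM L (e qa)) =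
      Φ (qa.1.out : M) * kerInf β s p (embM L ((qa.1.out : M) + (qa.2 : M))) := fun qa => by
    rw [hper _ _ qa.2.2]
  rw [tsum_congr hval]
  have hsum : Summable fun qa : LatQuot ω ω' × Lat ω' =>
      Φ (qa.1.out : M) * kerInf β s p (embM L ((qa.1.out : M) + (qa.2 : M))) := by
    refine Summable.of_norm ((summable_prod_of_nonneg fun _ => norm_nonneg _).mpr
      ⟨fun q => ?_, Summable.of_finite⟩)
    simp only [norm_mul]
    exact (summable_coset hβ hs p ω' (q.out : M)).mul_left _
  rw [hsum.tsum_prod, tsum_fintype, thetaSum, ← tsum_mul_left]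
  have hco : ∀ q : LatQuot ω ω', HasSum
      (fun y : M => Φ (q.out : M) *
        if ∀ x ∈ Lat ω', traceExp (algebraMap L M β * (x * conjM L M y)) = 1 then
          poissonConst β ω' * (traceExp (algebraMap L M β * ((q.out : M) * conjM L M y)) *
            kerInf β s (invHyp p) (embM L y)) else 0)
      (∑' a : Lat ω', Φ (q.out : M) * kerInf β s p (embM L ((q.out : M) + (a : M)))) := fun q => by
    rw [tsum_mul_left]
    exact (coset_poisson hβ hs p ω' _).mul_left _
  rw [← (hasSum_sum fun q _ => hco q).tsum_eq]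
  refine tsum_congr fun y => ?_
  rw [fourierQ, finsum_eq_sum_of_fintype]
  by_cases hy : ∀ x ∈ Lat ω', traceExp (algebraMap L M β * (x * conjM L M y)) = 1
  · simp only [if_pos hy, Finset.sum_mul, Finset.mul_sum]
    exact Finset.sum_congr rfl fun q _ => by ring
  · simp [if_neg hy]

end Fermat.Agent.ResidualThree.ThetaInduction
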