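import Fermat.Agent.CFT.Places
import Fermat.Agent.ResidualThree.Automorphic.Adele

/-!
# Lattices of a number field cut out by orders, and the trace character

`Lat o` is the set of elements of order at least `o P` at every finite place `P`.  It is a
fractional ideal with a rational basis and known indices.  The trace character `x ↦ e(Tr x)` is
trivial on `Lat (-cond)` and this bound is sharp at each place, so that dual lattices are again of
the form `Lat o`.
-/

noncomputable section

open IsDedekindDomain NumberField WithZero Module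
open scoped nonZeroDivisors

namespace Fermat.Agent.ResidualThree.ThetaInduction

open Fermat.Agent.CFT (OrdGE ord)

variable {K : Type} [Field K] [NumberField K]

/-- The elements of order at least `o P` everywhere. -/
def Lat (o : FPlace K →₀ ℤ) : AddSubgroup K where
  carrier := {x | ∀ P, OrdGE P (o P) x}
  zero_mem' _ := Fermat.Agent.CFT.ordGE_zero _
  add_mem' hx hy P := (hx P).add (hy P)
  neg_mem' hx P := (hx P).neg

theorem mem_Lat_iff_ord {o : FPlace K →₀ ℤ} (x : Kˣ) :
    (x : K) ∈ Lat o ↔ ∀ P, o P ≤ ord P x :=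
  forall_congr' fun P => Fermat.Agent.CFT.ordGE_iff P x (o P)

theorem Lat_anti {o o' : FPlace K →₀ ℤ} (h : o ≤ o') : Lat o' ≤ Lat o :=
  fun _ hx P => (hx P).mono (h P)

theorem mul_mem_Lat {o o' : FPlace K →₀ ℤ} {x y : K} (hx : x ∈ Lat o) (hy : y ∈ Lat o') :
    x * y ∈ Lat (o + o') := fun P => by
  rw [Finsupp.add_apply]
  exact (hx P).mul (hy P)

theorem smul_mem_Lat {o : FPlace K →₀ ℤ} {x : K} (hx : x ∈ Lat o) (a : 𝓞 K) :
    (a : K) * x ∈ Lat o := fun P => by
  have h := (Fermat.Agent.CFT.ordGE_algebraMap (v := P) a).mul (hx P)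
  rwa [zero_add] at h

/-- The places where an element is not a unit form a finite set. -/
theorem finite_ord_ne_zero (x : Kˣ) : {P : FPlace K | ord P x ≠ 0}.Finite := by
  classical
  obtain ⟨a, c, hc, hac⟩ := IsFractionRing.div_surjective (A := 𝓞 K) (x : K)
  have hc' : c ≠ 0 := nonZeroDivisors.ne_zero hc
  have ha : a ≠ 0 := fun h => x.ne_zero (by rw [← hac, h, map_zero, zero_div])
  refine ((Ideal.finite_factors (I := Ideal.span {a * c}) (by simpa using ⟨ha, hc'⟩))).subset
    fun P hP => ?_
  by_contra h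
  refine hP ?_
  have hmem : a * c ∉ P.asIdeal := by
    simpa [Ideal.dvd_span_singleton] using h
  have h1 : ∀ {b : 𝓞 K}, b ∉ P.asIdeal → P.valuation K (algebraMap (𝓞 K) K b) = 1 :=
    fun {b} hb => P.valuation_eq_one_iff_notMem.mpr hb
  have hv : P.valuation K (x : K) = 1 := by
    rw [← hac, map_div₀, h1 fun hh => hmem (Ideal.mul_mem_right c _ hh),
      h1 fun hh => hmem (Ideal.mul_mem_left _ a hh), div_one]
  rwa [Fermat.Agent.CFT.valuation_eq_exp, ← exp_zero, exp_inj, neg_eq_zero] at hv

/-- The divisor of a nonzero element. -/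
def divisor (x : Kˣ) : FPlace K →₀ ℤ :=
  Finsupp.ofSupportFinite (fun P => ord P x) (finite_ord_ne_zero x)

theorem divisor_apply (x : Kˣ) (P : FPlace K) : divisor x P = ord P x := rfl

theorem divisor_mul (x y : Kˣ) : divisor (x * y) = divisor x + divisor y :=
  Finsupp.ext fun P => Fermat.Agent.CFT.ord_mul P x y

theorem divisor_one : divisor (1 : Kˣ) = 0 := Finsupp.ext fun P => Fermat.Agent.CFT.ord_one P

theorem mem_Lat_divisor (x : Kˣ) : (x : K) ∈ Lat (divisor x) :=
  (mem_Lat_iff_ord x).mpr fun _ => le_rfl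

/-- An element with prescribed orders on a finite set and at least these orders elsewhere. -/
theorem exists_ord_eq_on (o : FPlace K →₀ ℤ) (T : Finset (FPlace K)) :
    ∃ x : K, x ∈ Lat o ∧ ∀ P ∈ T, ∃ h : x ≠ 0, ord P (Units.mk0 x h) = o P := by
  classical
  set T' := T ∪ o.support
  choose u hu using fun P : FPlace K => Fermat.Agent.CFT.exists_ord_eq P (o P)
  let z : ∀ P : FPlace K, P.adicCompletion K := fun P =>
    if P ∈ T' then algebraMap K _ (u P : K) else 0
  have hz : ∀ᶠ P : FPlace K in Filter.cofinite, valv P (z P) ≤ 1 := by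
    refine Filter.mem_of_superset T'.finite_toSet.compl_mem_cofinite fun P hP => ?_
    simp only [Set.mem_compl_iff, Finset.mem_coe] at hP
    simp [z, hP]
  let n : FPlace K →₀ ℕ := Finsupp.onFinset T'
    (fun P => if P ∈ T' then (o P).natAbs + 1 else 0) fun P hP => by
      by_contra h
      simp [h] at hP
  obtain ⟨β, hβ⟩ := exists_forall_sub_le z hz n
  have hclose : ∀ P ∈ T', OrdGE P (((o P).natAbs + 1 : ℕ) : ℤ) (β - u P) := fun P hP => by
    have h := hβ P
    rw [show n P = (o P).natAbs + 1 from by simp [n, hP], show z P = algebraMap K _ (u P : K) from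
      if_pos hP, ← map_sub, valv_algebraMap] at h
    exact h
  have key : ∀ P ∈ T', ∃ h : β ≠ 0, ord P (Units.mk0 β h) = o P := by
    intro P hP
    have hs := (hclose P hP).mono (m := ord P (u P) + 1) (by rw [hu]; omega)
    have hne : β ≠ 0 := fun h0 => by
      have := (hclose P hP).neg
      rw [h0, zero_sub, neg_neg, Fermat.Agent.CFT.ordGE_iff, hu] at this
      omega
    refine ⟨hne, ?_⟩
    rw [← hu P]
    exact Fermat.Agent.CFT.ord_add_eq P (Units.mk0 β hne) (x := (u P : K)) (y := β - u P)
      (by simp) (u P) rfl hs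
  refine ⟨β, fun P => ?_, fun P hP => key P (Finset.mem_union_left _ hP)⟩
  by_cases hP : P ∈ T'
  · obtain ⟨hne, ho⟩ := key P hP
    exact (Fermat.Agent.CFT.ordGE_iff P (Units.mk0 β hne) (o P)).mpr ho.ge
  · have h := hβ P
    rw [show n P = 0 from by simp [n, hP], show z P = 0 from if_neg hP, sub_zero,
      valv_algebraMap] at h
    rw [show o P = 0 from Finsupp.notMem_support_iff.mp fun hh => hP (Finset.mem_union_right _ hh)]
    simpa [OrdGE] using h

/-- An element of a lattice, exact on a finite set of places. -/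
theorem exists_unit_ord_eq_on (o : FPlace K →₀ ℤ) (T : Finset (FPlace K)) :
    ∃ x : Kˣ, (x : K) ∈ Lat o ∧ ∀ P ∈ T, ord P x = o P := by
  classical
  by_cases hT : T.Nonempty
  · obtain ⟨x, hx, hT'⟩ := exists_ord_eq_on o T
    obtain ⟨P, hP⟩ := hT
    obtain ⟨h, -⟩ := hT' P hP
    exact ⟨Units.mk0 x h, hx, fun Q hQ => (hT' Q hQ).2⟩
  · obtain ⟨v⟩ : Nonempty (FPlace K) := by
      obtain ⟨m, hm⟩ := Ideal.exists_maximal (𝓞 K)
      exact ⟨⟨m, hm.isPrime, Ring.ne_bot_of_isMaximal_of_not_isField hm
        (RingOfIntegers.not_isField K)⟩⟩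
    obtain ⟨x, hx, hT'⟩ := exists_ord_eq_on o {v}
    obtain ⟨h, -⟩ := hT' v (Finset.mem_singleton_self v)
    exact ⟨Units.mk0 x h, hx, fun Q hQ => absurd ⟨Q, hQ⟩ hT⟩

/-- The lattice as a fractional ideal. -/
theorem exists_fractionalIdeal_Lat (o : FPlace K →₀ ℤ) :
    ∃ I : (FractionalIdeal (𝓞 K)⁰ K)ˣ, ∀ x, x ∈ Lat o ↔ x ∈ (I : Set K) := by
  classical
  let S : Submodule (𝓞 K) K :=
    { carrier := (Lat o : Set K)
      add_mem' := fun ha hb => (Lat o).add_mem ha hb
      zero_mem' := (Lat o).zero_mem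
      smul_mem' := fun a x hx => by rw [Algebra.smul_def]; exact smul_mem_Lat hx a }
  have hS : IsFractional (𝓞 K)⁰ S := by
    obtain ⟨d, hd, -⟩ := exists_unit_ord_eq_on (-o) ∅
    obtain ⟨a, c, hc, hac⟩ := IsFractionRing.div_surjective (A := 𝓞 K) (d : K)
    have ha : a ≠ 0 := fun h => d.ne_zero (by rw [← hac, h, map_zero, zero_div])
    refine ⟨a, mem_nonZeroDivisors_of_ne_zero ha, fun x hx => ?_⟩
    have hc' : algebraMap (𝓞 K) K c ≠ 0 :=
      (map_ne_zero_iff _ RingOfIntegers.coe_injective).mpr (nonZeroDivisors.ne_zero hc)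
    have hda : (d : K) * algebraMap (𝓞 K) K c = algebraMap (𝓞 K) K a := by
      rw [← hac, div_mul_cancel₀ _ hc']
    have h := mul_mem_Lat hd (show x ∈ Lat o from hx)
    rw [neg_add_cancel] at h
    have hint : ∀ P : FPlace K,
        P.valuation K (algebraMap (𝓞 K) K c * ((d : K) * x)) ≤ 1 := fun P => by
      have h2 := (Fermat.Agent.CFT.ordGE_algebraMap (v := P) c).mul (h P)
      simpa [OrdGE] using h2
    obtain ⟨b, hb⟩ := HeightOneSpectrum.mem_integers_of_valuation_le_one K _ hint
    exact ⟨b, by rw [hb, Algebra.smul_def, ← hda]; ring⟩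
  obtain ⟨x, hx, -⟩ := exists_unit_ord_eq_on o ∅
  refine ⟨Units.mk0 ⟨S, hS⟩ fun h => x.ne_zero ?_, fun _ => Iff.rfl⟩
  have hx' : (x : K) ∈ S := hx
  have hS0 : S = ((0 : FractionalIdeal (𝓞 K)⁰ K) : Submodule (𝓞 K) K) :=
    congrArg (fun J : FractionalIdeal (𝓞 K)⁰ K => (J : Submodule (𝓞 K) K)) h
  rw [hS0] at hx'
  simp at hx'

/-- A rational basis spanning a lattice. -/
theorem exists_basis_Lat (o : FPlace K →₀ ℤ) :
    ∃ (n : ℕ) (b : Basis (Fin n) ℚ K), ∀ x, x ∈ Lat o ↔ ∃ c : Fin n → ℤ, x = ∑ i, c i • b i := by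
  obtain ⟨I, hI⟩ := exists_fractionalIdeal_Lat o
  let b₀ := basisOfFractionalIdeal K I
  let e := Fintype.equivFin (Free.ChooseBasisIndex ℤ I)
  refine ⟨_, b₀.reindex e, fun x => ?_⟩
  rw [hI, ← mem_span_basisOfFractionalIdeal,
    show Set.range (basisOfFractionalIdeal K I) = Set.range (b₀.reindex e) by
      rw [Basis.range_reindex], Submodule.mem_span_range_iff_exists_fun]
  exact exists_congr fun c => eq_comm

/-! ### Indices -/

/-- Raising the order by one at `P` has index the norm of `P`. -/
theorem relIndex_Lat_single (o : FPlace K →₀ ℤ) (P : FPlace K) :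
    (Lat (o + Finsupp.single P 1)).relIndex (Lat o) = Ideal.absNorm P.asIdeal := by
  classical
  obtain ⟨u, hu, huo⟩ := exists_unit_ord_eq_on o {P}
  have huP : ord P u = o P := huo P (Finset.mem_singleton_self P)
  let φ : 𝓞 K →+ Lat o :=
    { toFun := fun a => ⟨(a : K) * u, smul_mem_Lat hu a⟩
      map_zero' := by ext; simp
      map_add' := fun a b => by ext; simp [add_mul] }
  let ψ : 𝓞 K →+ Lat o ⧸ (Lat (o + Finsupp.single P 1)).addSubgroupOf (Lat o) :=
    (QuotientAddGroup.mk' _).comp φ
  have hker : ψ.ker = P.asIdeal.toAddSubgroup := by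
    ext a
    rw [AddMonoidHom.mem_ker, AddMonoidHom.comp_apply, QuotientAddGroup.mk'_apply,
      QuotientAddGroup.eq_zero_iff, AddSubgroup.mem_addSubgroupOf]
    show (a : K) * (u : K) ∈ Lat (o + Finsupp.single P 1) ↔ a ∈ P.asIdeal
    constructor
    · intro h
      have h1 := h P
      rw [Finsupp.add_apply, Finsupp.single_eq_same, ← huP] at h1
      have h2 := h1.mul ((Fermat.Agent.CFT.ordGE_iff P u⁻¹ (-ord P u)).mpr
        (by rw [Fermat.Agent.CFT.ord_inv]))
      rw [Units.val_inv_eq_inv_val, mul_assoc, mul_inv_cancel₀ u.ne_zero, mul_one] at h2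
      have h3 : OrdGE P ((1 : ℕ) : ℤ) (algebraMap (𝓞 K) K a) := h2.mono (by push_cast; ring_nf; rfl)
      rwa [Fermat.Agent.CFT.ordGE_algebraMap_iff, pow_one] at h3
    · intro h Q
      by_cases hQ : Q = P
      · subst hQ
        have h3 : OrdGE Q ((1 : ℕ) : ℤ) (algebraMap (𝓞 K) K a) :=
          (Fermat.Agent.CFT.ordGE_algebraMap_iff a 1).mpr (by rwa [pow_one])
        rw [Finsupp.add_apply, Finsupp.single_eq_same]
        exact (h3.mul (hu Q)).mono (by push_cast; omega)
      · rw [Finsupp.add_apply, Finsupp.single_eq_of_ne hQ, add_zero]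
        exact smul_mem_Lat hu a Q
  have hsurj : Function.Surjective ψ := by
    rintro ⟨⟨x, hx⟩⟩
    have hq : OrdGE P 0 (x * ((u⁻¹ : Kˣ) : K)) :=
      ((hx P).mul ((Fermat.Agent.CFT.ordGE_iff P u⁻¹ (-ord P u)).mpr
        (by rw [Fermat.Agent.CFT.ord_inv]))).mono (by rw [huP]; omega)
    obtain ⟨a, ha⟩ := P.exists_valuation_sub_lt_of_integer (K := K) (x := x * ((u⁻¹ : Kˣ) : K))
      (by simpa [OrdGE] using hq) (Units.mk0 (exp (-(1 : ℤ))) exp_ne_zero)
    refine ⟨a, (QuotientAddGroup.eq.mpr ?_)⟩
    rw [AddSubgroup.mem_addSubgroupOf]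
    show -((a : K) * (u : K)) + x ∈ Lat (o + Finsupp.single P 1)
    intro Q
    by_cases hQ : Q = P
    · subst hQ
      rw [Finsupp.add_apply, Finsupp.single_eq_same,
        show -((a : K) * (u : K)) + x = (x * ((u⁻¹ : Kˣ) : K) - (a : K)) * u by
          rw [sub_mul, mul_assoc, Units.inv_mul, mul_one]; ring]
      have h1 : OrdGE Q 1 (x * ((u⁻¹ : Kˣ) : K) - (a : K)) := by
        rw [OrdGE, Valuation.map_sub_swap]
        exact ha.le
      exact (h1.mul (hu Q)).mono (by omega)
    · rw [Finsupp.add_apply, Finsupp.single_eq_of_ne hQ, add_zero]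
      exact (smul_mem_Lat hu a Q).neg.add (hx Q)
  rw [AddSubgroup.relIndex, AddSubgroup.index_eq_card,
    ← Nat.card_congr (QuotientAddGroup.quotientKerEquivOfSurjective ψ hsurj).toEquiv,
    Ideal.absNorm_apply, Submodule.cardQuot_apply]
  exact Nat.card_congr (QuotientAddGroup.quotientAddEquivOfEq hker).toEquiv

/-- Lattices are commensurable. -/
theorem relIndex_Lat_ne_zero {o o' : FPlace K →₀ ℤ} (h : o ≤ o') :
    (Lat o').relIndex (Lat o) ≠ 0 := by
  classical
  obtain ⟨d, rfl⟩ : ∃ d, o' = o + d := ⟨o' - o, by abel⟩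
  have hd : 0 ≤ d := fun P => by simpa using h P
  clear h
  generalize hn : ∑ P ∈ d.support, (d P).toNat = n
  induction n generalizing d with
  | zero =>
    have : d = 0 := Finsupp.ext fun P => by
      by_contra hP
      have := Finset.sum_eq_zero_iff.mp hn P (Finsupp.mem_support_iff.mpr hP)
      have := hd P
      simp only [Finsupp.coe_zero, Pi.zero_apply] at this hP
      omega
    simp [this]
  | succ n ih =>
    obtain ⟨P, hP⟩ : ∃ P, d P ≠ 0 := by
      by_contra! h0
      rw [show d = 0 from Finsupp.ext h0] at hn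
      simp at hn
    have hP1 : 1 ≤ d P := by
      have := hd P; simp only [Finsupp.coe_zero, Pi.zero_apply] at this; omega
    set d' := d - Finsupp.single P 1 with hd'def
    have hd' : 0 ≤ d' := fun Q => by
      have := hd Q
      simp only [Finsupp.coe_zero, Pi.zero_apply] at this ⊢
      rcases eq_or_ne Q P with rfl | hQ
      · simp [hd'def]; omega
      · simpa [hd'def, Finsupp.single_eq_of_ne hQ] using this
    have hcount : ∑ Q ∈ d'.support, (d' Q).toNat = n := by
      have hsub : d'.support ⊆ d.support := fun Q hQ => by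
        rcases eq_or_ne Q P with rfl | hne
        · exact Finsupp.mem_support_iff.mpr hP
        · simpa [hd'def, Finsupp.single_eq_of_ne hne] using hQ
      rw [Finset.sum_subset hsub fun Q _ hQ => by rw [Finsupp.notMem_support_iff.mp hQ]; rfl]
      have hPs : P ∈ d.support := Finsupp.mem_support_iff.mpr hP
      have e1 := Finset.add_sum_erase d.support (fun Q => (d Q).toNat) hPs
      have e2 := Finset.add_sum_erase d.support (fun Q => (d' Q).toNat) hPs
      have e3 : ∑ Q ∈ d.support.erase P, (d' Q).toNat = ∑ Q ∈ d.support.erase P, (d Q).toNat :=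
        Finset.sum_congr rfl fun Q hQ => by
          simp [hd'def, Finsupp.single_eq_of_ne (Finset.ne_of_mem_erase hQ)]
      have e4 : (d' P).toNat + 1 = (d P).toNat := by simp [hd'def]; omega
      omega
    have h1 : Lat (o + d) ≤ Lat (o + d') := Lat_anti fun Q => by
      rcases eq_or_ne Q P with rfl | hQ <;> simp_all
    rw [← AddSubgroup.relIndex_mul_relIndex _ _ _ h1 (Lat_anti fun Q => by simpa using hd' Q)]
    refine mul_ne_zero ?_ (ih d' hd' hcount)
    rw [show o + d = o + d' + Finsupp.single P 1 by simp [hd'def]; abel, relIndex_Lat_single]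
    exact fun h0 => P.ne_bot (Ideal.absNorm_eq_zero_iff.mp h0)

/-! ### The trace character -/

theorem traceExp_zero : traceExp (0 : K) = 1 := by simp [traceExp]

theorem norm_traceExp (β : K) : ‖traceExp β‖ = 1 := by
  rw [traceExp, Complex.norm_exp]; simp

/-- The trace character is trivial on elements of order at least `-cond`. -/
theorem traceExp_eq_one {a : K} (h : ∀ P : FPlace K, OrdGE P (-cond P) a) : traceExp a = 1 := by
  classical
  set z : Af K := ⟨fun P => algebraMap K (P.adicCompletion K) a, by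
    refine mem_Af.2 ?_
    rcases eq_or_ne a 0 with rfl | ha
    · exact Filter.Eventually.of_forall fun P => by rw [map_zero, map_zero]; exact zero_le
    · refine Filter.mem_of_superset (finite_ord_ne_zero (Units.mk0 a ha)).compl_mem_cofinite
        fun P hP => ?_
      simp only [Set.mem_compl_iff, Set.mem_ofPred_eq, not_not] at hP
      show valv P (algebraMap K (P.adicCompletion K) a) ≤ 1
      rw [valv_algebraMap, ← Units.val_mk0 ha, Fermat.Agent.CFT.valuation_eq_exp, hP, neg_zero,
        exp_zero]⟩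
  have hz : psiFin z = traceExp a := psiFin_eq fun P => by simp [z]
  rw [← hz]
  set T : Finset (FPlace K) := (Filter.eventually_cofinite.1 z.2).toFinset
  have hone : ∀ P, psiAt P (z.1 P) = 1 := fun P => psiAt_eq_one P (by
    show valv P (algebraMap K (P.adicCompletion K) a) ≤ _
    rw [valv_algebraMap]
    simpa [OrdGE] using h P)
  have hsum : ∀ (U : Finset (FPlace K)) (y : Af K), (∀ P ∈ U, psiAt P (y.1 P) = 1) →
      (∀ P ∉ U, valv P (y.1 P) ≤ 1) → psiFin y = 1 := by
    intro U
    induction U using Finset.induction with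
    | empty => exact fun y _ h2 => psiFin_of_integral fun P => h2 P (Finset.notMem_empty P)
    | insert P U hP ih =>
      intro y h1 h2
      rw [show y = singleAdele P (y.1 P) + (y - singleAdele P (y.1 P)) by abel, psiFin_add,
        ← psiAt, h1 P (Finset.mem_insert_self P U), one_mul]
      refine ih _ (fun Q hQ => ?_) (fun Q hQ => ?_)
      · have hQP : Q ≠ P := fun e => hP (e ▸ hQ)
        simpa [singleAdele, Pi.single_eq_of_ne hQP] using h1 Q (Finset.mem_insert_of_mem hQ)
      · rcases eq_or_ne Q P with rfl | hQP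
        · simp [singleAdele]
        · simpa [singleAdele, Pi.single_eq_of_ne hQP] using h2 Q (by simp [hQP, hQ])
  exact hsum T z (fun P _ => hone P) fun P hP => by simpa [T] using hP

/-- The bound `-cond` is sharp at each place, with arbitrary precision elsewhere. -/
theorem exists_traceExp_ne_one (P : FPlace K) (n : FPlace K →₀ ℕ) :
    ∃ a : K, OrdGE P (-cond P - 1) a ∧ (∀ Q, Q ≠ P → OrdGE Q (n Q) a) ∧ traceExp a ≠ 1 := by
  classical
  obtain ⟨z, hz, hne⟩ := exists_psiAt_ne_one_of_cond P
  obtain ⟨β, hβ⟩ := exists_forall_sub_le _ (singleAdele P z).2 n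
  refine ⟨β, ?_, fun Q hQ => ?_, ?_⟩
  · have h := hβ P
    rw [show (singleAdele P z).1 P = z from Pi.single_eq_same P z] at h
    rw [OrdGE, ← valv_algebraMap,
      show algebraMap K (P.adicCompletion K) β = (algebraMap K (P.adicCompletion K) β - z) + z by
        ring]
    refine ((valv P).map_add _ _).trans (max_le (h.trans (exp_le_exp.2 ?_)) ?_)
    · have := cond_nonneg P; omega
    · rw [hz, exp_le_exp]; omega
  · have h := hβ Q
    rw [show (singleAdele P z).1 Q = 0 from Pi.single_eq_of_ne hQ z, sub_zero, valv_algebraMap] at h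
    exact h
  · rw [← psiFin_eq (z := singleAdele P z) (β := β) fun Q => (hβ Q).trans
      (by rw [← exp_zero, exp_le_exp]; simp)]
    exact hne

end Fermat.Agent.ResidualThree.ThetaInduction
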