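import Fermat.Agent.CFT.Primes
import Fermat.Agent.ResidualThree.ThetaInduction.Divisor
import Fermat.Agent.ResidualThree.ThetaInduction.Places

/-!
# Finite places of a quadratic extension

The conjugate `tauP P` of a place of `M/L`, orders of norms and traces, the pullback `pullD` of
divisors, and the properties of unramified places used in the Gauss sum: an integer of trace one,
lifting of residues fixed by conjugation, and equality of the exponents of the trace character.
-/

noncomputable section

open NumberField Module IsDedekindDomain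

namespace Fermat.Agent.ResidualThree.ThetaInduction

open Fermat.Agent.CFT (OrdGE ord below ram baseU)

variable {L M : Type} [Field L] [NumberField L] [Field M] [NumberField M]
  [Algebra L M] [Algebra.IsQuadraticExtension L M]

theorem conjM_ne_one : conjM L M ≠ 1 := (exists_conjM L M).choose_spec

theorem conjM_mul_self : conjM L M * conjM L M = 1 := AlgEquiv.ext conjM_conjM

theorem aut_eq_one_or (g : M ≃ₐ[L] M) : g = 1 ∨ g = conjM L M := by
  classical
  have h : g ∈ ({1, conjM L M} : Finset (M ≃ₐ[L] M)) := by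
    rw [← automorphisms_eq]; exact Finset.mem_univ g
  simpa using h

variable (L) in
/-- The conjugate place. -/
def tauP (P : FPlace M) : FPlace M := Fermat.Agent.CFT.smulP (conjM L M) P

@[simp] theorem tauP_tauP (P : FPlace M) : tauP L (tauP L P) = P := by
  rw [tauP, tauP, ← Fermat.Agent.CFT.smulP_mul, conjM_mul_self, Fermat.Agent.CFT.smulP_one]

theorem below_tauP (P : FPlace M) : below L (tauP L P) = below L P :=
  Fermat.Agent.CFT.below_smulP _ P

theorem ram_tauP (P : FPlace M) : ram L (tauP L P) = ram L P :=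
  Fermat.Agent.CFT.ram_smulP _ P

theorem ram_le_two (P : FPlace M) : ram L P = 1 ∨ ram L P = 2 := by
  have : Fact (Nat.Prime 2) := ⟨Nat.prime_two⟩
  exact Fermat.Agent.CFT.ram_eq_one_or (Algebra.IsQuadraticExtension.finrank_eq_two L M) P

/-- Two places over one place are equal or conjugate. -/
theorem eq_or_eq_tauP {P Q : FPlace M} (h : below L Q = below L P) : Q = P ∨ Q = tauP L P := by
  obtain ⟨g, hg⟩ := Fermat.Agent.CFT.exists_smulP_eq h.symm
  rcases aut_eq_one_or g with rfl | rfl
  · exact Or.inl (by rw [← hg, Fermat.Agent.CFT.smulP_one])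
  · exact Or.inr hg.symm

theorem ord_conjM (P : FPlace M) (x : Mˣ) :
    ord P (Units.map ((conjM L M : M →ₐ[L] M) : M →* M) x) = ord (tauP L P) x := by
  conv_lhs => rw [← tauP_tauP (L := L) P]
  exact Fermat.Agent.CFT.ord_smulP (conjM L M) (tauP L P) x

theorem ordGE_conjM {P : FPlace M} {n : ℤ} {x : M} :
    OrdGE P n (conjM L M x) ↔ OrdGE (tauP L P) n x := by
  rcases eq_or_ne x 0 with rfl | hx
  · simp [Fermat.Agent.CFT.ordGE_zero]
  · rw [show x = (Units.mk0 x hx : M) from rfl, Fermat.Agent.CFT.ordGE_iff, ← ord_conjM (L := L),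
      ← Fermat.Agent.CFT.ordGE_iff]
    rfl

/-- The order of a norm. -/
theorem ord_norm (P : FPlace M) (x : Mˣ) :
    (ram L P : ℤ) * ord (below L P) (Units.map (Algebra.norm L : M →* L) x) =
      ord P x + ord (tauP L P) x := by
  rw [← Fermat.Agent.CFT.ord_baseU, ← ord_conjM (L := L), ← Fermat.Agent.CFT.ord_mul]
  congr 1
  ext
  simp [baseU, mul_conjM]

omit [Algebra.IsQuadraticExtension L M] in
theorem ordGE_of_algebraMap {P : FPlace M} {n : ℤ} {a : L}
    (h : OrdGE P ((ram L P : ℤ) * n) (algebraMap L M a)) : OrdGE (below L P) n a := by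
  rcases eq_or_ne a 0 with rfl | ha
  · exact Fermat.Agent.CFT.ordGE_zero _
  · rw [show a = (Units.mk0 a ha : L) from rfl, Fermat.Agent.CFT.ordGE_iff]
    rw [show algebraMap L M a = ((baseU L M (Units.mk0 a ha) : Mˣ) : M) from rfl,
      Fermat.Agent.CFT.ordGE_iff, Fermat.Agent.CFT.ord_baseU] at h
    exact le_of_mul_le_mul_left h (by exact_mod_cast Fermat.Agent.CFT.ram_pos P)

omit [Algebra.IsQuadraticExtension L M] in
theorem ordGE_of_algebraMap_of_lt {P : FPlace M} {n m : ℤ} {a : L}
    (h : OrdGE P m (algebraMap L M a)) (hnm : (ram L P : ℤ) * (n - 1) < m) :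
    OrdGE (below L P) n a := by
  rcases eq_or_ne a 0 with rfl | ha
  · exact Fermat.Agent.CFT.ordGE_zero _
  · rw [show a = (Units.mk0 a ha : L) from rfl, Fermat.Agent.CFT.ordGE_iff]
    rw [show algebraMap L M a = ((baseU L M (Units.mk0 a ha) : Mˣ) : M) from rfl,
      Fermat.Agent.CFT.ordGE_iff, Fermat.Agent.CFT.ord_baseU] at h
    have := lt_of_mul_lt_mul_left (hnm.trans_le h) (by positivity)
    omega

theorem ordGE_trace {P : FPlace M} {n : ℤ} {z : M} (h1 : OrdGE P ((ram L P : ℤ) * n) z)
    (h2 : OrdGE (tauP L P) ((ram L P : ℤ) * n) z) :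
    OrdGE (below L P) n (Algebra.trace L M z) := by
  refine ordGE_of_algebraMap ?_
  rw [← add_conjM]
  exact h1.add (ordGE_conjM.mpr h2)

theorem ordGE_norm {P : FPlace M} {n : ℤ} {z : M} {a b : ℤ} (h1 : OrdGE P a z)
    (h2 : OrdGE (tauP L P) b z) (hn : (ram L P : ℤ) * (n - 1) < a + b) :
    OrdGE (below L P) n (Algebra.norm L z) := by
  refine ordGE_of_algebraMap_of_lt ?_ hn
  rw [← mul_conjM]
  exact h1.mul (ordGE_conjM.mpr h2)

/-- A divisor of `L` pulled back to `M`. -/
def pullD (M : Type) [Field M] [NumberField M] [Algebra L M] [Algebra.IsQuadraticExtension L M]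
    (D : FPlace L →₀ ℤ) : FPlace M →₀ ℤ :=
  Finsupp.ofSupportFinite (fun P => (ram L P : ℤ) * D (below L P)) <| by
    refine (D.support.finite_toSet.biUnion
      fun v _ => Fermat.Agent.CFT.finite_below_fibre (L := M) v).subset fun P hP => ?_
    simp only [Function.mem_support] at hP
    exact Set.mem_biUnion (x := below L P)
      (Finsupp.mem_support_iff.mpr fun h => hP (by rw [h, mul_zero])) rfl

theorem pullD_apply (D : FPlace L →₀ ℤ) (P : FPlace M) :
    pullD M D P = (ram L P : ℤ) * D (below L P) := rfl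

/-! ### Unramified places -/

variable (M) in
/-- No place of `M` above `v` is ramified. -/
def Unram (v : FPlace L) : Prop := ∀ P : FPlace M, below L P = v → ram L P = 1

theorem exists_not_congr {v : FPlace L} (hv : Unram M v) {P : FPlace M} (hP : below L P = v) :
    ∃ ξ : 𝓞 M, ¬ OrdGE P 1 ((ξ : M) - conjM L M ξ) := by
  by_contra! h
  have hI : conjM L M ∈ P.asIdeal.inertia (M ≃ₐ[L] M) := fun x => by
    show conjM L M • x - x ∈ P.asIdeal
    have h1 := (h x).neg
    rw [neg_sub] at h1
    have h2 : OrdGE P ((1 : ℕ) : ℤ) (algebraMap (𝓞 M) M (conjM L M • x - x)) := by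
      rw [map_sub]
      exact h1
    rwa [Fermat.Agent.CFT.ordGE_algebraMap_iff, pow_one] at h2
  have hcard := hv P hP
  rw [Fermat.Agent.CFT.ram_eq_card_inertia, Subgroup.card_eq_one] at hcard
  rw [hcard, Subgroup.mem_bot] at hI
  exact conjM_ne_one hI

/-- An integer with trace one modulo `v`; divisible by the conjugate place if that is different. -/
theorem exists_trace_one {v : FPlace L} (hv : Unram M v) {P : FPlace M} (hP : below L P = v) :
    ∃ o : 𝓞 M, OrdGE v 1 (Algebra.trace L M (o : M) - 1) ∧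
      (tauP L P ≠ P → OrdGE (tauP L P) 1 (o : M)) := by
  classical
  have hram := hv P hP
  by_cases hsplit : tauP L P = P
  · obtain ⟨ξ, hξ⟩ := exists_not_congr hv hP
    obtain ⟨w, hw⟩ : ∃ w : 𝓞 M, ¬ OrdGE P 1 ((w : M) + conjM L M w) := by
      by_contra! h2
      refine hξ ?_
      have hone := h2 1
      rw [show ((1 : 𝓞 M) : M) = 1 from map_one _, map_one] at hone
      have h := (h2 ξ).sub ((Fermat.Agent.CFT.ordGE_algebraMap (conjM L M • ξ)).mul hone |>.mono
        (le_of_eq (zero_add 1).symm))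
      convert h using 1
      show (ξ : M) - conjM L M (ξ : M) =
        (ξ : M) + conjM L M (ξ : M) - conjM L M (ξ : M) * (1 + 1)
      ring
    set t : L := Algebra.trace L M (w : M) with ht
    have hnot : ¬ OrdGE v 1 t := fun h => hw (by
      rw [add_conjM, ← ht]
      have := Fermat.Agent.CFT.ordGE_baseU P (hP.symm ▸ h)
      rwa [hram, Nat.cast_one, one_mul] at this)
    have ht0 : t ≠ 0 := fun h => hnot (by rw [h]; exact Fermat.Agent.CFT.ordGE_zero _)
    have htint : OrdGE v 0 t := by
      rw [← hP]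
      exact ordGE_trace (by simpa using Fermat.Agent.CFT.ordGE_algebraMap (v := P) w)
        (by simpa using Fermat.Agent.CFT.ordGE_algebraMap (v := tauP L P) w)
    have hord : ord v (Units.mk0 t ht0) = 0 := by
      have h1 := (Fermat.Agent.CFT.ordGE_iff v (Units.mk0 t ht0) 0).mp htint
      have h2 : ¬ (1 : ℤ) ≤ ord v (Units.mk0 t ht0) := fun h =>
        hnot ((Fermat.Agent.CFT.ordGE_iff v (Units.mk0 t ht0) 1).mpr h)
      omega
    have hinv : OrdGE v 0 t⁻¹ := by
      rw [show t⁻¹ = (((Units.mk0 t ht0)⁻¹ : Lˣ) : L) by rw [Units.val_inv_eq_inv_val]; rfl,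
        Fermat.Agent.CFT.ordGE_iff, Fermat.Agent.CFT.ord_inv, hord, neg_zero]
    obtain ⟨a, ha⟩ := v.exists_valuation_sub_lt_of_integer (K := L) (x := t⁻¹)
      (by simpa [OrdGE] using hinv) (Units.mk0 (WithZero.exp (-(1 : ℤ))) WithZero.exp_ne_zero)
    refine ⟨algebraMap (𝓞 L) (𝓞 M) a * w, ?_, fun h => absurd hsplit h⟩
    have e : ((algebraMap (𝓞 L) (𝓞 M) a * w : 𝓞 M) : M) = (a : L) • (w : M) := by
      rw [Algebra.smul_def]; rfl
    rw [e, map_smul, smul_eq_mul, ← ht,
      show (a : L) * t - 1 = ((a : L) - t⁻¹) * t by rw [sub_mul, inv_mul_cancel₀ ht0]]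
    have h1 : OrdGE v 1 ((a : L) - t⁻¹) := ha.le
    exact (h1.mul htint).mono (by norm_num)
  · obtain ⟨y, hy⟩ := IsDedekindDomain.exists_forall_sub_mem_ideal
      (fun Q : FPlace M => Q.asIdeal) (fun _ => 1) (s := {P, tauP L P}) (fun Q _ => Q.prime)
      (fun i _ j _ h he => h (HeightOneSpectrum.ext he)) (fun Q => if Q.1 = P then 1 else 0)
    have hcast : ∀ {Q : FPlace M} {b : 𝓞 M}, b ∈ Q.asIdeal ^ 1 → OrdGE Q 1 (b : M) :=
      fun {Q b} hb => by
        have : OrdGE Q ((1 : ℕ) : ℤ) (algebraMap (𝓞 M) M b) :=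
          (Fermat.Agent.CFT.ordGE_algebraMap_iff b 1).mpr hb
        simpa using this
    have hyP := hcast (hy P (by simp))
    rw [if_pos rfl] at hyP
    have hyT := hcast (hy (tauP L P) (by simp))
    rw [if_neg hsplit, sub_zero] at hyT
    refine ⟨y, ?_, fun _ => hyT⟩
    rw [← hP]
    refine ordGE_of_algebraMap ?_
    rw [hram, Nat.cast_one, one_mul, map_sub, map_one, ← add_conjM,
      show (y : M) + conjM L M y - 1 = ((y : M) - 1) + conjM L M y by ring]
    exact (by simpa using hyP : OrdGE P 1 ((y : M) - 1)).add (ordGE_conjM.mpr hyT)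

/-- Residue classes fixed by the conjugation come from `L`. -/
theorem exists_lift {v : FPlace L} (hv : Unram M v) {P : FPlace M} (hP : below L P = v) (x : 𝓞 M)
    (hx : tauP L P = P → OrdGE P 1 (conjM L M (x : M) - x)) :
    ∃ a : 𝓞 L, OrdGE P 1 ((x : M) - algebraMap L M (a : L)) := by
  obtain ⟨o, ho, hoT⟩ := exists_trace_one hv hP
  refine ⟨Algebra.intTrace (𝓞 L) (𝓞 M) (x * o), ?_⟩
  have e : ((Algebra.intTrace (𝓞 L) (𝓞 M) (x * o) : 𝓞 L) : L) =
      Algebra.trace L M ((x : M) * (o : M)) := Algebra.algebraMap_intTrace (A := 𝓞 L) (K := L)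
        (L := M) (B := 𝓞 M) (x * o)
  rw [e, ← add_conjM, map_mul (conjM L M)]
  have h1 : OrdGE P 1 (algebraMap L M (Algebra.trace L M (o : M) - 1)) := by
    have := Fermat.Agent.CFT.ordGE_baseU P (hP.symm ▸ ho)
    rwa [hv P hP, Nat.cast_one, one_mul] at this
  rw [map_sub, map_one, ← add_conjM] at h1
  rw [show (x : M) - ((x : M) * (o : M) + conjM L M (x : M) * conjM L M (o : M)) =
      -((x : M) * ((o : M) + conjM L M (o : M) - 1)) +
        -((conjM L M (x : M) - x) * conjM L M (o : M)) by ring]
  refine (((Fermat.Agent.CFT.ordGE_algebraMap x).mul h1).mono (zero_add 1).ge).neg.add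
    (OrdGE.neg ?_)
  by_cases hsplit : tauP L P = P
  · exact ((hx hsplit).mul (ordGE_conjM.mpr
      (Fermat.Agent.CFT.ordGE_algebraMap o))).mono (add_zero 1).ge
  · have hxi : OrdGE P 0 (conjM L M (x : M) - x) :=
      (ordGE_conjM.mpr (Fermat.Agent.CFT.ordGE_algebraMap x)).sub
        (Fermat.Agent.CFT.ordGE_algebraMap x)
    exact (hxi.mul (ordGE_conjM.mpr (hoT hsplit))).mono (zero_add 1).ge

/-! ### The trace character -/

omit [Algebra.IsQuadraticExtension L M] in
theorem traceExp_eq_trace (z : M) : traceExp z = traceExp (Algebra.trace L M z) := by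
  rw [traceExp, traceExp, Algebra.trace_trace]

theorem traceExp_eq_one_of_base {z : M}
    (h : ∀ P : FPlace M, OrdGE P (-((ram L P : ℤ) * cond (below L P))) z) : traceExp z = 1 := by
  rw [traceExp_eq_trace (L := L)]
  refine traceExp_eq_one fun v => ?_
  obtain ⟨P, rfl⟩ := Fermat.Agent.CFT.exists_below_eq (L := M) v
  refine ordGE_trace (by rw [mul_neg]; exact h P) ?_
  have := h (tauP L P)
  rw [below_tauP, ram_tauP] at this
  rwa [mul_neg]

/-- The exponent of the trace character of `M` is at least that of `L` times `e`. -/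
theorem cond_ge {v : FPlace L} (P : FPlace M) (hP : below L P = v) :
    (ram L P : ℤ) * cond v ≤ cond P := by
  by_contra! hlt
  obtain ⟨a, ha, hao, hne⟩ := exists_traceExp_ne_one P 0
  refine hne (traceExp_eq_one_of_base (L := L) fun Q => ?_)
  rcases eq_or_ne Q P with rfl | hQ
  · rw [hP]
    exact ha.mono (by omega)
  · refine (by simpa using hao Q hQ : OrdGE Q 0 a).mono ?_
    have := cond_nonneg (below L Q)
    have := mul_nonneg (Int.natCast_nonneg (ram L Q)) this
    omega

/-- At an unramified place the exponents agree. -/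
theorem cond_le_of_unram {v : FPlace L} (hv : Unram M v) {P : FPlace M} (hP : below L P = v) :
    cond P ≤ cond v := by
  classical
  by_contra! hlt
  obtain ⟨l, hl, hlo, hne⟩ := exists_traceExp_ne_one v 0
  obtain ⟨o, ho, hoT⟩ := exists_trace_one hv hP
  have hb : ∀ Q : FPlace M, below L Q ≠ v → OrdGE Q 0 (algebraMap L M l) := fun Q hQ => by
    have := Fermat.Agent.CFT.ordGE_baseU Q (by simpa using hlo (below L Q) hQ :
      OrdGE (below L Q) 0 l)
    simpa using this
  have hz : ∀ Q : FPlace M, OrdGE Q (-cond Q) (algebraMap L M l * (o : M)) := by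
    intro Q
    have hint := Fermat.Agent.CFT.ordGE_algebraMap (v := Q) o
    have hc := cond_nonneg Q
    by_cases hQ : below L Q = v
    · have hlQ : OrdGE Q (-cond v - 1) (algebraMap L M l) := by
        have := Fermat.Agent.CFT.ordGE_baseU Q (hQ.symm ▸ hl)
        rwa [hv Q hQ, Nat.cast_one, one_mul, hQ] at this
      rcases eq_or_eq_tauP (hQ.trans hP.symm) with rfl | rfl
      · exact (hlQ.mul hint).mono (by omega)
      · by_cases hs : tauP L P = P
        · rw [hs] at hlQ hint hc ⊢
          exact (hlQ.mul hint).mono (by omega)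
        · have hge := cond_ge (L := L) (tauP L P) hQ
          rw [hv _ hQ, Nat.cast_one, one_mul] at hge
          exact (hlQ.mul (hoT hs)).mono (by omega)
    · exact ((hb Q hQ).mul hint).mono (by omega)
  refine hne ?_
  have h1 := traceExp_eq_one hz
  rw [traceExp_eq_trace (L := L), ← Algebra.smul_def, map_smul, smul_eq_mul,
    show l * Algebra.trace L M (o : M) = l + l * (Algebra.trace L M (o : M) - 1) by ring,
    traceExp_add] at h1
  have h2 : traceExp (l * (Algebra.trace L M (o : M) - 1)) = 1 := by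
    refine traceExp_eq_one fun w => ?_
    by_cases hw : w = v
    · subst hw
      exact (hl.mul ho).mono (by omega)
    · have hint : OrdGE w 0 (Algebra.trace L M (o : M) - 1) := by
        obtain ⟨Q, rfl⟩ := Fermat.Agent.CFT.exists_below_eq (L := M) w
        refine OrdGE.sub ?_ Fermat.Agent.CFT.ordGE_one
        exact ordGE_trace (by simpa using Fermat.Agent.CFT.ordGE_algebraMap (v := Q) o)
          (by simpa using Fermat.Agent.CFT.ordGE_algebraMap (v := tauP L Q) o)
      exact ((hlo w hw).mul hint).mono (by have := cond_nonneg w; simp; omega)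
  rwa [h2, mul_one] at h1

end Fermat.Agent.ResidualThree.ThetaInduction
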