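import Fermat.Agent.ResidualThree.ThetaInduction.Places
import Fermat.Agent.ResidualThree.ThetaInduction.QuadPlaces

/-!
# Norm-one units of a quadratic extension and their logarithmic torus

For `M/L` quadratic with `L` totally complex, the logarithms of the norm-one units of `M` span
`ℝ^(places of L)`: a fundamental domain `torusDom` has finite volume, and an integral over the
whole space unfolds as a sum over the units of integrals over it.  Theta integrals over this torus
produce the automorphic forms induced from Hecke characters of `M`.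
-/

noncomputable section

open NumberField Module MeasureTheory IsDedekindDomain

namespace Fermat.Agent.ResidualThree.ThetaInduction

open Fermat.Agent.CFT (OrdGE ord)

variable (L M : Type) [Field L] [NumberField L] [Field M] [NumberField M]
  [Algebra L M] [Algebra.IsQuadraticExtension L M]

/-- The norm-one units. -/
def normOne : Subgroup Mˣ where
  carrier := {μ | Algebra.norm L (μ : M) = 1 ∧ ∀ P : FPlace M, ord P μ = 0}
  one_mem' := ⟨by simp, fun P => Fermat.Agent.CFT.ord_one P⟩
  mul_mem' {a b} ha hb := ⟨by rw [Units.val_mul, map_mul, ha.1, hb.1, mul_one], fun P => by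
    rw [Fermat.Agent.CFT.ord_mul, ha.2, hb.2, add_zero]⟩
  inv_mem' {a} ha := ⟨by
      have := ha.1
      have h : Algebra.norm L ((a⁻¹ : Mˣ) : M) * Algebra.norm L (a : M) = 1 := by
        rw [← map_mul, Units.inv_mul, map_one]
      rwa [this, mul_one] at h,
    fun P => by rw [Fermat.Agent.CFT.ord_inv, ha.2, neg_zero]⟩

variable {M}

/-- The logarithms of the absolute values at the first lift of every place. -/
def ell (x : M) : InfinitePlace L → ℝ := fun w => Real.log ‖lift1 M w x‖

variable {L}

omit [Algebra.IsQuadraticExtension L M] in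
theorem lift1_ne_zero (x : Mˣ) (w : InfinitePlace L) : lift1 M w (x : M) ≠ 0 :=
  (map_ne_zero _).mpr x.ne_zero

omit [Algebra.IsQuadraticExtension L M] in
theorem ell_mul (x y : Mˣ) : ell L ((x * y : Mˣ) : M) = ell L (x : M) + ell L (y : M) := by
  funext w
  simp only [ell, Pi.add_apply, Units.val_mul, map_mul, norm_mul]
  exact Real.log_mul (norm_ne_zero_iff.mpr (lift1_ne_zero x w))
    (norm_ne_zero_iff.mpr (lift1_ne_zero y w))

/-- `ell` on the norm-one units as a homomorphism. -/
def ellHom : normOne L M →* Multiplicative (InfinitePlace L → ℝ) where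
  toFun μ := Multiplicative.ofAdd (ell L ((μ : Mˣ) : M))
  map_one' := by
    apply Multiplicative.toAdd.injective
    funext w
    simp [ell]
  map_mul' a b := congrArg Multiplicative.ofAdd (ell_mul (a : Mˣ) (b : Mˣ))

theorem norm_lift1_conj {μ : Mˣ} (hμ : μ ∈ normOne L M) (w : InfinitePlace L) :
    ‖lift1 M w (conjM L M (μ : M))‖ = Real.exp (-ell L (μ : M) w) := by
  have h := congrArg (‖·‖) (embM_prod (L := L) (μ : M) w)
  simp only [hμ.1, map_one, norm_one, norm_mul, embM_apply] at h
  rw [Real.exp_neg, ell, Real.exp_log (norm_pos_iff.mpr (lift1_ne_zero μ w))]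
  exact eq_inv_of_mul_eq_one_left (by rw [mul_comm]; exact h)

/-- The norm-one unit of a unit. -/
def unitToNormOne (u : (𝓞 M)ˣ) : normOne L M := by
  refine ⟨Units.map (algebraMap (𝓞 M) M : 𝓞 M →* M) u /
    Units.map ((conjM L M : M →ₐ[L] M) : M →* M) (Units.map (algebraMap (𝓞 M) M : 𝓞 M →* M) u),
    ?_, fun P => ?_⟩
  · set a := Units.map (algebraMap (𝓞 M) M : 𝓞 M →* M) u
    set b := Units.map ((conjM L M : M →ₐ[L] M) : M →* M) a
    have h : Algebra.norm L ((a / b : Mˣ) : M) * Algebra.norm L (b : M) =
        Algebra.norm L (a : M) := by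
      rw [← map_mul, ← Units.val_mul, div_mul_cancel]
    have hb : Algebra.norm L (b : M) = Algebra.norm L (a : M) := norm_conjM (L := L) (a : M)
    rw [hb] at h
    exact (mul_eq_right₀ (Algebra.norm_ne_zero_iff.mpr a.ne_zero)).mp h
  · have hu : ∀ Q : FPlace M,
        ord Q (Units.map (algebraMap (𝓞 M) M : 𝓞 M →* M) u) = 0 := fun Q => by
      have h1 := (Fermat.Agent.CFT.ordGE_iff Q (Units.map (algebraMap (𝓞 M) M : 𝓞 M →* M) u) 0).mp
        (by simpa using Fermat.Agent.CFT.ordGE_algebraMap (v := Q) (u : 𝓞 M))
      have h2 := (Fermat.Agent.CFT.ordGE_iff Q (Units.map (algebraMap (𝓞 M) M : 𝓞 M →* M) u)⁻¹ 0).mp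
        (by
          rw [← map_inv]
          simpa using Fermat.Agent.CFT.ordGE_algebraMap (v := Q) ((u⁻¹ : (𝓞 M)ˣ) : 𝓞 M))
      rw [Fermat.Agent.CFT.ord_inv] at h2
      omega
    have h3 : ∀ x : Mˣ, (∀ Q : FPlace M, ord Q x = 0) →
        ord P (Units.map ((conjM L M : M →ₐ[L] M) : M →* M) x) = 0 := fun x hx => by
      rw [ord_conjM, hx]
    rw [Fermat.Agent.CFT.ord_div, hu, h3 _ hu, sub_zero]

theorem ell_unitToNormOne (u : (𝓞 M)ˣ) (w : InfinitePlace L) :
    ell L ((unitToNormOne (L := L) u : Mˣ) : M) w =
      Real.log ‖lift1 M w (u : M)‖ - Real.log ‖lift1 M w (conjM L M (u : M))‖ := by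
  simp only [ell, unitToNormOne, Units.val_div_eq_div_val, map_div₀, norm_div, Units.coe_map]
  rw [Real.log_div]
  · rfl
  · exact norm_ne_zero_iff.mpr ((map_ne_zero _).mpr (by simp))
  · exact norm_ne_zero_iff.mpr ((map_ne_zero _).mpr (by simp))

variable [IsTotallyComplex L]

theorem lift1_ne_conj_lift1 (w : InfinitePlace L) :
    InfinitePlace.mk (lift1 M w) ≠ InfinitePlace.mk ((lift1 M w).comp
      ((conjM L M : M →ₐ[L] M) : M →+* M)) := by
  intro h
  rcases InfinitePlace.mk_eq_iff.mp h with h | h
  · refine conjM_ne_one (L := L) (M := M) (AlgEquiv.ext fun x => (lift1 M w).injective ?_)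
    exact (DFunLike.congr_fun h x).symm
  · refine InfinitePlace.isComplex_iff.mp (IsTotallyComplex.isComplex w) ?_
    refine RingHom.ext fun l => ?_
    have h1 := DFunLike.congr_fun h (algebraMap L M l)
    simp only [ComplexEmbedding.conjugate_coe_eq, RingHom.comp_apply, RingHom.coe_coe,
      lift1_algebraMap] at h1
    simpa [ComplexEmbedding.conjugate_coe_eq, lift1_algebraMap] using h1

omit [IsTotallyComplex L] in
theorem place_comap (w : InfinitePlace L) :
    (InfinitePlace.mk (lift1 M w)).comap (algebraMap L M) = w ∧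
    (InfinitePlace.mk ((lift1 M w).comp ((conjM L M : M →ₐ[L] M) : M →+* M))).comap
      (algebraMap L M) = w := by
  constructor <;>
  · rw [InfinitePlace.comap_mk]
    conv_rhs => rw [← InfinitePlace.mk_embedding w]
    congr 1
    refine RingHom.ext fun l => ?_
    simp [lift1_algebraMap]

omit [IsTotallyComplex L] in
theorem isTotallyComplex_ext (L M : Type) [Field L] [IsTotallyComplex L]
    [Field M] [Algebra L M] : IsTotallyComplex M := by
  refine ⟨fun w => ?_⟩
  by_contra h
  rw [InfinitePlace.not_isComplex_iff_isReal] at h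
  refine InfinitePlace.isComplex_iff.mp (IsTotallyComplex.isComplex (w.comap (algebraMap L M))) ?_
  have h1 : ComplexEmbedding.IsReal (w.embedding.comp (algebraMap L M)) :=
    RingHom.ext fun l => by
      simpa [ComplexEmbedding.conjugate_coe_eq] using
        DFunLike.congr_fun (InfinitePlace.isReal_iff.mp h) (algebraMap L M l)
  have h2 := InfinitePlace.mk_eq_iff.mp
    (show InfinitePlace.mk (w.comap (algebraMap L M)).embedding =
    InfinitePlace.mk (w.embedding.comp (algebraMap L M)) by
      rw [InfinitePlace.mk_embedding, ← InfinitePlace.comap_mk, InfinitePlace.mk_embedding])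
  rcases h2 with h2 | h2
  · rwa [h2]
  · rw [← ComplexEmbedding.isReal_conjugate_iff, h2]
    exact h1

/-- The logarithms of the norm-one units span. -/
theorem span_ell_eq_top :
    Submodule.span ℝ (Set.range fun μ : normOne L M => ell L ((μ : Mˣ) : M)) = ⊤ := by
  classical
  have := isTotallyComplex_ext L M
  let w1 : InfinitePlace L → InfinitePlace M := fun w => InfinitePlace.mk (lift1 M w)
  let w2 : InfinitePlace L → InfinitePlace M := fun w =>
    InfinitePlace.mk ((lift1 M w).comp ((conjM L M : M →ₐ[L] M) : M →+* M))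
  let X : Units.dirichletUnitTheorem.logSpace M →ₗ[ℝ] InfinitePlace M → ℝ :=
    { toFun := fun x v => if h : v = Units.dirichletUnitTheorem.w₀ then -∑ i, x i else x ⟨v, h⟩
      map_add' := fun x y => by
        funext v
        by_cases h : v = Units.dirichletUnitTheorem.w₀ <;>
          simp [h, Finset.sum_add_distrib, add_comm]
      map_smul' := fun c x => by
        funext v
        by_cases h : v = Units.dirichletUnitTheorem.w₀ <;> simp [h, Finset.mul_sum] }
  let T : Units.dirichletUnitTheorem.logSpace M →ₗ[ℝ] InfinitePlace L → ℝ :=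
    { toFun := fun x w => (X x (w1 w) - X x (w2 w)) / 2
      map_add' := fun x y => by funext w; simp only [map_add, Pi.add_apply]; ring
      map_smul' := fun c x => by
        funext w; simp only [map_smul, Pi.smul_apply, RingHom.id_apply, smul_eq_mul]; ring }
  have hX : ∀ (u : (𝓞 M)ˣ) (v : InfinitePlace M),
      X (Units.logEmbedding M (Additive.ofMul u)) v = 2 * Real.log (v (u : M)) := fun u v => by
    show (if h : v = Units.dirichletUnitTheorem.w₀ then
      -∑ i, Units.logEmbedding M (Additive.ofMul u) i
      else Units.logEmbedding M (Additive.ofMul u) ⟨v, h⟩) = _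
    have hm : ∀ v : InfinitePlace M, v.mult = 2 := fun v =>
      InfinitePlace.mult_isComplex (⟨v, IsTotallyComplex.isComplex v⟩ :
        {w : InfinitePlace M // InfinitePlace.IsComplex w})
    split_ifs with h
    · rw [Units.dirichletUnitTheorem.sum_logEmbedding_component, h, hm]; push_cast; ring
    · rw [Units.dirichletUnitTheorem.logEmbedding_component, hm]; push_cast; ring
  have hT : ∀ u : (𝓞 M)ˣ, T (Units.logEmbedding M (Additive.ofMul u)) =
      ell L ((unitToNormOne (L := L) u : Mˣ) : M) := fun u => by
    funext w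
    show (X (Units.logEmbedding M (Additive.ofMul u)) (w1 w) -
      X (Units.logEmbedding M (Additive.ofMul u)) (w2 w)) / 2 = _
    rw [hX, hX, ell_unitToNormOne]
    simp only [w1, w2, InfinitePlace.apply, RingHom.comp_apply, RingHom.coe_coe]
    refine Eq.trans ?_ ((fun a b => by ring : ∀ a b : ℝ, (2 * a - 2 * b) / 2 = a - b) _ _)
    rfl
  have hsurj : Function.Surjective T := by
    intro y
    let Y : InfinitePlace M → ℝ := ∑ w, (Pi.single (w1 w) (y w) - Pi.single (w2 w) (y w))
    have hY : ∑ v, Y v = 0 := by
      simp only [Y, Finset.sum_apply, Pi.sub_apply]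
      rw [Finset.sum_comm]
      simp
    have hYX : X (fun i => Y i.1) = Y := by
      funext v
      show (if h : v = Units.dirichletUnitTheorem.w₀ then -∑ i : {w // w ≠ _}, Y i.1 else Y v) =
        Y v
      split_ifs with h
      · subst h
        rw [← Finset.sum_subtype (Finset.univ.erase Units.dirichletUnitTheorem.w₀) (by simp)]
        have := Finset.add_sum_erase Finset.univ Y
          (Finset.mem_univ (Units.dirichletUnitTheorem.w₀ (K := M)))
        linarith
      · rfl
    have hc : ∀ v w : InfinitePlace L, w1 v ≠ w2 w := fun v w e => by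
      have h1 := congrArg (fun u => u.comap (algebraMap L M)) e
      simp only [w1, w2, (place_comap v).1, (place_comap w).2] at h1
      subst h1
      exact lift1_ne_conj_lift1 v e
    have h11 : ∀ v w : InfinitePlace L, w1 v = w1 w → v = w := fun v w e => by
      rw [← (place_comap (M := M) v).1, ← (place_comap (M := M) w).1]
      exact congrArg (fun u => u.comap (algebraMap L M)) e
    have h22 : ∀ v w : InfinitePlace L, w2 v = w2 w → v = w := fun v w e => by
      rw [← (place_comap (M := M) v).2, ← (place_comap (M := M) w).2]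
      exact congrArg (fun u => u.comap (algebraMap L M)) e
    have hY1 : ∀ v, Y (w1 v) = y v := fun v => by
      simp only [Y, Finset.sum_apply, Pi.sub_apply]
      rw [Finset.sum_eq_single v (fun w _ hw => by
        rw [Pi.single_eq_of_ne fun e => hw (h11 _ _ e).symm, Pi.single_eq_of_ne (hc v w), sub_zero])
        (by simp), Pi.single_eq_same, Pi.single_eq_of_ne (hc v v), sub_zero]
    have hY2 : ∀ v, Y (w2 v) = -y v := fun v => by
      simp only [Y, Finset.sum_apply, Pi.sub_apply]
      rw [Finset.sum_eq_single v (fun w _ hw => by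
        rw [Pi.single_eq_of_ne fun e => hw (h22 _ _ e).symm, Pi.single_eq_of_ne (hc w v).symm,
          sub_zero]) (by simp), Pi.single_eq_same, Pi.single_eq_of_ne (hc v v).symm, zero_sub]
    refine ⟨fun i => Y i.1, funext fun v => ?_⟩
    show (X (fun i => Y i.1) (w1 v) - X (fun i => Y i.1) (w2 v)) / 2 = y v
    rw [hYX, hY1, hY2]
    ring
  rw [eq_top_iff]
  calc (⊤ : Submodule ℝ (InfinitePlace L → ℝ))
      = Submodule.map T ⊤ := by rw [Submodule.map_top, LinearMap.range_eq_top.mpr hsurj]
    _ = Submodule.map T (Submodule.span ℝ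
          (Units.unitLattice M : Set (Units.dirichletUnitTheorem.logSpace M))) := by
        rw [Units.dirichletUnitTheorem.unitLattice_span_eq_top]
    _ ≤ _ := by
        rw [Submodule.map_span]
        refine Submodule.span_mono ?_
        rintro _ ⟨x, hx, rfl⟩
        obtain ⟨a, -, rfl⟩ := hx
        exact ⟨unitToNormOne (Additive.toMul a), (hT (Additive.toMul a)).symm⟩

theorem exists_unitBasis : ∃ b : Basis (InfinitePlace L) ℝ (InfinitePlace L → ℝ),
    ∀ i, ∃ μ : normOne L M, ell L ((μ : Mˣ) : M) = b i := by
  classical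
  let b0 := Basis.ofSpan (span_ell_eq_top (L := L) (M := M)).ge
  refine ⟨b0.reindex (b0.indexEquiv (Pi.basisFun ℝ (InfinitePlace L))), fun i => ?_⟩
  rw [Basis.reindex_apply]
  exact Basis.ofSpan_subset (span_ell_eq_top (L := L) (M := M)).ge ⟨_, rfl⟩

variable (L M)

/-- A basis of logarithms of norm-one units. -/
def unitBasis : Basis (InfinitePlace L) ℝ (InfinitePlace L → ℝ) :=
  (exists_unitBasis (L := L) (M := M)).choose

/-- The units of the basis. -/
def unitGen (i : InfinitePlace L) : normOne L M :=
  ((exists_unitBasis (L := L) (M := M)).choose_spec i).choose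

/-- The fundamental domain of the logarithmic torus. -/
def torusDom : Set (InfinitePlace L → ℝ) := ZSpan.fundamentalDomain (unitBasis L M)

variable {L M}

theorem ell_unitGen (i : InfinitePlace L) :
    ell L ((unitGen L M i : Mˣ) : M) = unitBasis L M i :=
  ((exists_unitBasis (L := L) (M := M)).choose_spec i).choose_spec

theorem mem_torusDom {u : InfinitePlace L → ℝ} :
    u ∈ torusDom L M ↔ ∀ i, (unitBasis L M).repr u i ∈ Set.Ico (0 : ℝ) 1 := Iff.rfl

theorem torusDom_measurableSet : MeasurableSet (torusDom L M) :=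
  ZSpan.fundamentalDomain_measurableSet _

theorem torusDom_isBounded : Bornology.IsBounded (torusDom L M) :=
  ZSpan.fundamentalDomain_isBounded _

theorem volume_torusDom_lt_top : volume (torusDom L M) < ⊤ := torusDom_isBounded.measure_lt_top

omit [IsTotallyComplex L] in
/-- All embeddings are bounded by the two lifts at each place. -/
theorem norm_embedding_le {x : M} {B : ℝ}
    (hB : ∀ w : InfinitePlace L, ‖lift1 M w x‖ ≤ B ∧ ‖lift1 M w (conjM L M x)‖ ≤ B)
    (φ : M →+* ℂ) : ‖φ x‖ ≤ B := by
  set w := InfinitePlace.mk (φ.comp (algebraMap L M))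
  obtain ⟨ψ, hψn, hψ⟩ : ∃ ψ : M →+* ℂ, ‖ψ x‖ = ‖φ x‖ ∧
      ∀ l, ψ (algebraMap L M l) = w.embedding l := by
    rcases InfinitePlace.mk_eq_iff.mp (InfinitePlace.mk_embedding w) with h | h
    · exact ⟨φ, rfl, fun l => (DFunLike.congr_fun h l).symm⟩
    · refine ⟨ComplexEmbedding.conjugate φ, ?_, fun l => ?_⟩
      · rw [ComplexEmbedding.conjugate_coe_eq, RCLike.norm_conj]
      · have h1 := DFunLike.congr_fun h l
        simp only [ComplexEmbedding.conjugate_coe_eq, RingHom.comp_apply] at h1
        rw [ComplexEmbedding.conjugate_coe_eq, ← h1, Complex.conj_conj]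
  have e : (ψ x - lift1 M w x) * (ψ x - lift1 M w (conjM L M x)) = 0 := by
    have h1 := congrArg (lift1 M w) (add_conjM (L := L) x)
    have h2 := congrArg (lift1 M w) (mul_conjM (L := L) x)
    have h3 := congrArg ψ (add_conjM (L := L) x)
    have h4 := congrArg ψ (mul_conjM (L := L) x)
    rw [map_add, lift1_algebraMap] at h1
    rw [map_mul, lift1_algebraMap] at h2
    rw [map_add, hψ] at h3
    rw [map_mul, hψ] at h4
    linear_combination -(ψ x) * (h1 - h3) + h2 - h4
  rw [← hψn]
  rcases mul_eq_zero.mp e with h | h <;> rw [sub_eq_zero.mp h]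
  · exact (hB w).1
  · exact (hB w).2

variable (L M)

/-- The norm-one units with logarithm in the fundamental domain. -/
def unitReps : Set (normOne L M) := {μ | ell L ((μ : Mˣ) : M) ∈ torusDom L M}

theorem finite_unitReps : (unitReps L M).Finite := by
  obtain ⟨R, hR⟩ := (torusDom_isBounded (L := L) (M := M)).exists_norm_le
  refine Set.Finite.of_finite_image
    ((Embeddings.finite_of_norm_le M ℂ (Real.exp R)).subset ?_)
    (Set.injOn_of_injective fun a b h => Subtype.ext (Units.ext h))
      (f := fun μ : normOne L M => ((μ : Mˣ) : M))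
  rintro _ ⟨μ, hμ, rfl⟩
  refine ⟨?_, norm_embedding_le (L := L) fun w => ?_⟩
  · obtain ⟨a, ha⟩ := HeightOneSpectrum.mem_integers_of_valuation_le_one M ((μ : Mˣ) : M)
      fun v => by
        rw [Fermat.Agent.CFT.valuation_eq_exp, μ.2.2 v, neg_zero, WithZero.exp_zero]
    simp only
    rw [← ha]
    exact (RingOfIntegers.isIntegral_coe a)
  · have h1 := abs_le.mp ((norm_le_pi_norm _ w).trans (hR _ hμ))
    constructor
    · rw [← Real.exp_log (norm_pos_iff.mpr (lift1_ne_zero (μ : Mˣ) w))]
      exact Real.exp_le_exp.mpr h1.2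
    · rw [norm_lift1_conj μ.2 w]
      exact Real.exp_le_exp.mpr (by linarith [h1.1])

variable {L M}

theorem ell_prod_zpow (n : InfinitePlace L → ℤ) :
    ell L (((∏ i, unitGen L M i ^ n i : normOne L M) : Mˣ) : M) =
      ∑ i, (n i : ℝ) • unitBasis L M i := by
  have h := congrArg Multiplicative.toAdd
    (map_prod (ellHom (L := L) (M := M)) (fun i => unitGen L M i ^ n i) Finset.univ)
  rw [toAdd_prod] at h
  refine h.trans (Finset.sum_congr rfl fun i _ => ?_)
  rw [map_zpow, toAdd_zpow, ← Int.cast_smul_eq_zsmul ℝ]
  exact congrArg _ (ell_unitGen i)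

theorem repr_ell_mul (ω : normOne L M) (n : InfinitePlace L → ℤ) (i : InfinitePlace L) :
    (unitBasis L M).repr (ell L (((ω * ∏ i, unitGen L M i ^ n i : normOne L M) : Mˣ) : M)) i =
      (unitBasis L M).repr (ell L ((ω : Mˣ) : M)) i + n i := by
  rw [Subgroup.coe_mul, ell_mul, ell_prod_zpow, map_add, Finsupp.add_apply,
    Basis.repr_sum_self]

variable (L M)

/-- Norm-one units as representatives times exponents. -/
def unitSplit : (unitReps L M × (InfinitePlace L → ℤ)) → normOne L M :=
  fun q => (q.1 : normOne L M) * ∏ i, unitGen L M i ^ q.2 i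

/-- Every norm-one unit is uniquely a representative times generators. -/
theorem bijective_unitSplit : Function.Bijective (unitSplit L M) := by
  constructor
  · rintro ⟨⟨ω, hω⟩, n⟩ ⟨⟨ω', hω'⟩, n'⟩ h
    have hn : n = n' := funext fun i => by
      have h1 := repr_ell_mul ω n i
      rw [show (ω * ∏ i, unitGen L M i ^ n i : normOne L M) =
        ω' * ∏ i, unitGen L M i ^ n' i from h, repr_ell_mul] at h1
      have h2 := (mem_torusDom (L := L) (M := M)).mp hω i
      have h3 := (mem_torusDom (L := L) (M := M)).mp hω' i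
      rw [Set.mem_Ico] at h2 h3
      have h4 : ((n i - n' i : ℤ) : ℝ) < 1 ∧ (-1 : ℝ) < ((n i - n' i : ℤ) : ℝ) := by
        push_cast; constructor <;> linarith
      have h5 : n i - n' i < 1 := by exact_mod_cast h4.1
      have h6 : -1 < n i - n' i := by exact_mod_cast h4.2
      omega
    subst hn
    simp only [unitSplit] at h
    obtain rfl := mul_right_cancel h
    rfl
  · intro μ
    set n : InfinitePlace L → ℤ := fun i => ⌊(unitBasis L M).repr (ell L ((μ : Mˣ) : M)) i⌋
    refine ⟨(⟨μ * ∏ i, unitGen L M i ^ (-n i), (mem_torusDom (L := L) (M := M)).mpr fun i => ?_⟩,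
      n), ?_⟩
    · rw [repr_ell_mul μ (fun i => -n i) i]
      simp only [n, Int.cast_neg]
      exact ⟨by linarith [Int.floor_le ((unitBasis L M).repr (ell L ((μ : Mˣ) : M)) i)],
        by linarith [Int.lt_floor_add_one ((unitBasis L M).repr (ell L ((μ : Mˣ) : M)) i)]⟩
    · simp [unitSplit, zpow_neg, Finset.prod_inv_distrib]

variable {L M}

/-- The translates of the fundamental domain by one coset of the lattice of logarithms. -/
theorem hasSum_coset_torus (c : InfinitePlace L → ℝ) {g : (InfinitePlace L → ℝ) → ℂ}
    (hg : Integrable g) :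
    HasSum (fun n : InfinitePlace L → ℤ =>
      ∫ u in torusDom L M, g (u + (c + ∑ i, (n i : ℝ) • unitBasis L M i))) (∫ u, g u) := by
  classical
  set b := unitBasis L M
  let v : (InfinitePlace L → ℤ) → (InfinitePlace L → ℝ) := fun n => c + ∑ i, (n i : ℝ) • b i
  let s : (InfinitePlace L → ℤ) → Set (InfinitePlace L → ℝ) := fun n =>
    (fun u => u + v n) '' torusDom L M
  have hmem : ∀ n x, x ∈ s n ↔ ∀ i, ⌊b.repr (x - c) i⌋ = n i := by
    intro n x
    have hr : ∀ i, b.repr (x - v n) i = b.repr (x - c) i - n i := fun i => by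
      rw [show x - v n = (x - c) - ∑ i, (n i : ℝ) • b i by simp only [v]; abel, map_sub,
        Finsupp.sub_apply, b.repr_sum_self]
    constructor
    · rintro ⟨u, hu, rfl⟩ i
      have := (mem_torusDom (L := L) (M := M)).mp hu i
      have h1 := hr i
      rw [add_sub_cancel_right] at h1
      rw [h1, Set.mem_Ico] at this
      rw [Int.floor_eq_iff]
      constructor <;> linarith [this.1, this.2]
    · intro h
      refine ⟨x - v n, (mem_torusDom (L := L) (M := M)).mpr fun i => ?_, sub_add_cancel x _⟩
      rw [hr i, ← h i]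
      exact ⟨by linarith [Int.floor_le (b.repr (x - c) i)],
        by linarith [Int.lt_floor_add_one (b.repr (x - c) i)]⟩
  have hmeas : ∀ n, MeasurableSet (s n) := fun n =>
    (MeasurableEquiv.addRight (v n)).measurableSet_image.mpr torusDom_measurableSet
  have hdisj : Pairwise (Function.onFun Disjoint s) := fun n n' hne =>
    Set.disjoint_left.mpr fun x h h' => hne (funext fun i =>
      ((hmem n x).mp h i).symm.trans ((hmem n' x).mp h' i))
  have huniv : (⋃ n, s n) = Set.univ := Set.eq_univ_of_forall fun x =>
    Set.mem_iUnion.mpr ⟨fun i => ⌊b.repr (x - c) i⌋, (hmem _ x).mpr fun i => rfl⟩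
  have h := hasSum_integral_iUnion hmeas hdisj hg.integrableOn
  rw [huniv, setIntegral_univ] at h
  refine h.congr_fun fun n => ?_
  exact ((measurePreserving_add_right volume (v n)).setIntegral_image_emb
    (MeasurableEquiv.addRight (v n)).measurableEmbedding g (torusDom L M)).symm

/-- Unfolding an integral over the norm-one units. -/
theorem hasSum_unfold {g : (InfinitePlace L → ℝ) → ℂ} (hg : Integrable g) :
    HasSum (fun μ : normOne L M => ∫ u in torusDom L M, g (u + ell L ((μ : Mˣ) : M)))
      ((finite_unitReps L M).toFinset.card * ∫ u, g u) := by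
  classical
  have : Finite (unitReps L M) := (finite_unitReps L M).to_subtype
  let : Fintype (unitReps L M) := Fintype.ofFinite _
  refine ((Equiv.ofBijective _ (bijective_unitSplit L M)).hasSum_iff).mp ?_
  have key : ∀ {f : (InfinitePlace L → ℝ) → ℂ}, Integrable f → ∀ ω : unitReps L M,
      HasSum (fun n : InfinitePlace L → ℤ => ∫ u in torusDom L M,
        f (u + ell L (((unitSplit L M (ω, n)) : Mˣ) : M))) (∫ u, f u) := fun {f} hf ω => by
    refine (hasSum_coset_torus (L := L) (M := M)
      (ell L (((ω : normOne L M) : Mˣ) : M)) hf).congr_fun fun n => ?_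
    simp only [unitSplit, Subgroup.coe_mul, ell_mul, ell_prod_zpow]
  have hsummable : Summable fun q : unitReps L M × (InfinitePlace L → ℤ) =>
      ∫ u in torusDom L M, g (u + ell L ((unitSplit L M q : Mˣ) : M)) := by
    refine Summable.of_norm_bounded (g := fun q : unitReps L M × (InfinitePlace L → ℤ) =>
      ∫ u in torusDom L M, ‖g (u + ell L ((unitSplit L M q : Mˣ) : M))‖) ?_
      fun q => norm_integral_le_integral_norm _
    refine (summable_prod_of_nonneg fun q => integral_nonneg fun _ => norm_nonneg _).mpr
      ⟨fun ω => ?_, Summable.of_finite⟩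
    have h1 := (key (f := fun u => ((‖g u‖ : ℝ) : ℂ)) hg.norm.ofReal ω).summable
    simp only [integral_complex_ofReal] at h1
    exact Complex.summable_ofReal.mp h1
  have hval : ∑' q : unitReps L M × (InfinitePlace L → ℤ),
      ∫ u in torusDom L M, g (u + ell L ((unitSplit L M q : Mˣ) : M)) =
      (finite_unitReps L M).toFinset.card * ∫ u, g u := by
    rw [hsummable.tsum_prod, tsum_fintype, Finset.sum_congr rfl fun ω _ => (key hg ω).tsum_eq,
      Finset.sum_const, Finset.card_univ, nsmul_eq_mul, ← Nat.card_eq_fintype_card,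
      Nat.card_eq_card_finite_toFinset (finite_unitReps L M)]
  exact hval ▸ hsummable.hasSum

theorem card_unitReps_pos : 0 < (finite_unitReps L M).toFinset.card := by
  refine Finset.card_pos.mpr ⟨1, (Set.Finite.mem_toFinset _).mpr ?_⟩
  refine (mem_torusDom (L := L) (M := M)).mpr fun i => ?_
  have h : ell L (1 : M) = 0 := by funext w; simp [ell]
  simp [h]

end Fermat.Agent.ResidualThree.ThetaInduction
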