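import Fermat.Agent.ResidualThree.Spherical.Whittaker
import Fermat.Agent.ResidualThree.ThetaInduction.Datum
import Fermat.Agent.ResidualThree.ThetaInduction.ThetaSum
import Fermat.Agent.ResidualThree.ThetaInduction.Units

/-!
# Theta sums integrated over the logarithmic torus

Over the logarithms of all norm-one units the kernel integrates to a product of Whittaker
functions.  Over a fundamental domain a theta sum integrates to the term of zero plus a remainder
`torusRem`, bounded for `y` bounded below and continuous: these are the forms whose Fourier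
expansions carry the Hecke character.
-/

noncomputable section

open NumberField Module MeasureTheory Real Filter Topology
open scoped ComplexConjugate

namespace Fermat.Agent.ResidualThree.ThetaInduction

open Fermat.Agent.CFT (OrdGE ord)

/-! ### One place -/

theorem integrable_exp_neg_cosh {a : ℝ} (ha : 0 < a) :
    Integrable fun v : ℝ => Real.exp (-(a * Real.cosh v)) := by
  refine (integrable_exp_neg_mul_sq (show 0 < a / 4 by positivity)).mono'
    (Continuous.aestronglyMeasurable (by fun_prop)) (Eventually.of_forall fun v => ?_)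
  rw [Real.norm_eq_abs, abs_of_pos (Real.exp_pos _)]
  refine Real.exp_le_exp.mpr ?_
  have h := one_add_sq_le_cosh (abs_nonneg v)
  rw [Real.cosh_abs, sq_abs] at h
  nlinarith

theorem integral_exp_neg_cosh (a : ℝ) :
    ∫ v : ℝ, Real.exp (-(a * Real.cosh v)) = 2 * besselK0 a := by
  rw [besselK0, ← integral_comp_abs (f := fun x => Real.exp (-(a * Real.cosh x)))]
  simp [Real.cosh_abs]

theorem ker1_exp_eq {β : ℂ} {x : ℂ × ℂ} (h1 : x.1 ≠ 0) (h2 : x.2 ≠ 0) (p : H3) (u : ℝ) :
    ker1 β (Real.exp (2 * u)) p x =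
      ((p.y * Real.exp (-(4 * π * ‖β * (x.1 * x.2)‖ * p.y *
        Real.cosh (2 * u + (Real.log ‖x.1‖ - Real.log ‖x.2‖)))) : ℝ) : ℂ) *
        addCharC (β * (x.1 * x.2)) p.z := by
  have e : ‖x.1‖ ^ 2 * Real.exp (2 * u) + ‖x.2‖ ^ 2 / Real.exp (2 * u) =
      2 * (‖x.1‖ * ‖x.2‖) * Real.cosh (2 * u + (Real.log ‖x.1‖ - Real.log ‖x.2‖)) := by
    rw [Real.cosh_eq, neg_add, neg_sub, Real.exp_add, Real.exp_add (-(2 * u)), Real.exp_sub,
      Real.exp_sub, Real.exp_log (norm_pos_iff.mpr h1), Real.exp_log (norm_pos_iff.mpr h2),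
      Real.exp_neg]
    have := norm_ne_zero_iff.mpr h1
    have := norm_ne_zero_iff.mpr h2
    field_simp
  rw [ker1, e, addCharC, eR, show β * p.z * (x.1 * x.2) = β * (x.1 * x.2) * p.z by ring,
    show 4 * π * ‖β * (x.1 * x.2)‖ * p.y = 2 * π * ‖β‖ * p.y * (2 * (‖x.1‖ * ‖x.2‖)) by
      rw [norm_mul, norm_mul]; ring]
  congr 3
  ring_nf

theorem integrable_ker1_exp {β : ℂ} (hβ : β ≠ 0) {x : ℂ × ℂ} (h1 : x.1 ≠ 0) (h2 : x.2 ≠ 0)
    (p : H3) : Integrable fun u : ℝ => ker1 β (Real.exp (2 * u)) p x := by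
  simp only [ker1_exp_eq h1 h2]
  refine ((((integrable_exp_neg_cosh ?_).comp_add_right _).comp_mul_left'
    (two_ne_zero : (2 : ℝ) ≠ 0)).const_mul p.y).ofReal.mul_const _
  have := p.y_pos
  have := norm_pos_iff.mpr (mul_ne_zero hβ (mul_ne_zero h1 h2))
  positivity

/-- The integral of the kernel over the parameter is a Whittaker function. -/
theorem integral_ker1_exp (β : ℂ) {x : ℂ × ℂ} (h1 : x.1 ≠ 0) (h2 : x.2 ≠ 0) (p : H3) :
    ∫ u : ℝ, ker1 β (Real.exp (2 * u)) p x = whittaker (β * (x.1 * x.2)) p := by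
  simp only [ker1_exp_eq h1 h2]
  rw [integral_mul_const, integral_complex_ofReal, integral_const_mul]
  set a := 4 * π * ‖β * (x.1 * x.2)‖ * p.y
  set c := Real.log ‖x.1‖ - Real.log ‖x.2‖
  rw [show ∫ u : ℝ, Real.exp (-(a * Real.cosh (2 * u + c))) = besselK0 a by
    rw [Measure.integral_comp_mul_left (fun v => Real.exp (-(a * Real.cosh (v + c)))) (2 : ℝ),
      integral_add_right_eq_self (fun v => Real.exp (-(a * Real.cosh v))), integral_exp_neg_cosh]
    simp]
  rfl

/-! ### All places -/

variable {L : Type} [Field L] [NumberField L]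

/-- The scaling parameters of a point of the torus. -/
def sExp (u : InfinitePlace L → ℝ) : InfinitePlace L → ℝ := fun w => Real.exp (2 * u w)

omit [NumberField L] in
theorem sExp_pos (u : InfinitePlace L → ℝ) (w : InfinitePlace L) : 0 < sExp u w := Real.exp_pos _

/-- The Whittaker function of a coefficient. -/
def whit (ξ : L) (p : Hyp L) : ℂ := ∏ w : InfinitePlace L, whittaker (w.embedding ξ) (p w)

variable {M : Type} [Field M] [NumberField M] [Algebra L M] [Algebra.IsQuadraticExtension L M]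

theorem embM_ne_zero {x : M} (hx : x ≠ 0) (w : InfinitePlace L) :
    (embM L x w).1 ≠ 0 ∧ (embM L x w).2 ≠ 0 := by
  constructor <;> simpa [embM_apply] using hx

theorem integrable_kerInf_torus {β : L} (hβ : β ≠ 0) {x : M} (hx : x ≠ 0) (p : Hyp L) :
    Integrable fun u : InfinitePlace L → ℝ => kerInf β (sExp u) p (embM L x) :=
  Integrable.fintype_prod (f := fun (w : InfinitePlace L) (t : ℝ) =>
    ker1 (w.embedding β) (Real.exp (2 * t)) (p w) (embM L x w)) fun w =>
      integrable_ker1_exp ((map_ne_zero _).mpr hβ) (embM_ne_zero hx w).1 (embM_ne_zero hx w).2 _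

/-- The integral over the whole torus is the Whittaker function of `β N x`. -/
theorem integral_kerInf_torus (β : L) {x : M} (hx : x ≠ 0) (p : Hyp L) :
    ∫ u : InfinitePlace L → ℝ, kerInf β (sExp u) p (embM L x) =
      whit (β * Algebra.norm L x) p := by
  refine (integral_fintype_prod_volume_eq_prod (f := fun (w : InfinitePlace L) (t : ℝ) =>
    ker1 (w.embedding β) (Real.exp (2 * t)) (p w) (embM L x w))).trans
    (Finset.prod_congr rfl fun w _ => ?_)
  rw [integral_ker1_exp _ (embM_ne_zero hx w).1 (embM_ne_zero hx w).2, embM_prod, map_mul]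

theorem kerInf_normOne (β : L) {μ : Mˣ} (hμ : μ ∈ normOne L M) (u : InfinitePlace L → ℝ)
    (p : Hyp L) (x : M) :
    kerInf β (sExp u) p (embM L ((μ : M) * x)) =
      kerInf β (sExp (u + ell L (μ : M))) p (embM L x) := by
  refine Finset.prod_congr rfl fun w _ => ?_
  have hm : lift1 M w (μ : M) * lift1 M w (conjM L M (μ : M)) = 1 := by
    have h := embM_prod (L := L) (μ : M) w
    rwa [embM_apply, hμ.1, map_one] at h
  have h := ker1_units (w.embedding β) (sExp u w) (p w)
    (lift1 M w (μ : M), lift1 M w (conjM L M (μ : M))) hm (embM L x w)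
  simp only [embM_apply, map_mul] at h ⊢
  rw [h]
  congr 1
  simp only [sExp, Pi.add_apply, mul_add, Real.exp_add, ell]
  rw [← Real.exp_log (norm_pos_iff.mpr (lift1_ne_zero μ w)), ← Real.exp_nat_mul]
  simp only [Real.log_exp]
  push_cast
  rw [mul_comm]

variable [IsTotallyComplex L]

omit [IsTotallyComplex L] in
theorem kerInf_zero (β : L) (s : InfinitePlace L → ℝ) (p : Hyp L) :
    kerInf β s p (embM L (0 : M)) = ((∏ w, (p w).y : ℝ) : ℂ) := by
  rw [kerInf, Complex.ofReal_prod]
  refine Finset.prod_congr rfl fun w _ => ?_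
  simp [ker1, embM_apply, eR]

/-- The integral of a theta sum over the torus. -/
def torusInt (β : L) (Φ : M → ℂ) (p : Hyp L) : ℂ :=
  ∫ u in torusDom L M, thetaSum β (sExp u) p Φ

theorem summable_exp_lat (ω : FPlace M →₀ ℤ) {ε : ℝ} (hε : 0 < ε) :
    Summable fun a : Lat ω => Real.exp (-(ε * ‖embM L (a : M)‖ ^ 2)) := by
  obtain ⟨f, hf, hle⟩ := exists_summable_gauss (latMap_injective (L := L) (latBasis ω)) hε 0
  refine (latEquivInt ω).summable_iff.mp
    (Summable.of_nonneg_of_le (fun n => (Real.exp_pos _).le) (fun n => ?_) hf)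
  have h := hle 0 (by simp) n
  rw [zero_add, show (fun i => (n i : ℝ)) = intVec n from rfl, latMap_intVec] at h
  exact h

/-- Norms of nonzero lattice points are bounded below. -/
theorem exists_norm_lower (ω : FPlace M →₀ ℤ) :
    ∃ δ : ℝ, 0 < δ ∧ ∀ x ∈ Lat ω, x ≠ 0 →
      δ ≤ ∏ w : InfinitePlace L, ‖w.embedding (Algebra.norm L x)‖ := by
  obtain ⟨z, hz, -⟩ := exists_unit_ord_eq_on (-ω) (∅ : Finset (FPlace M))
  set A := ∏ w : InfinitePlace L, ‖w.embedding (Algebra.norm L (z : M))‖
  have hA : 0 < A := Finset.prod_pos fun w _ => norm_pos_iff.mpr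
    ((map_ne_zero _).mpr (Algebra.norm_ne_zero_iff.mpr z.ne_zero))
  refine ⟨A⁻¹, inv_pos.mpr hA, fun x hx hx0 => ?_⟩
  have hxz : x * (z : M) ∈ Lat (0 : FPlace M →₀ ℤ) := by
    simpa using mul_mem_Lat hx hz
  have hN0 : Algebra.norm L (x * (z : M)) ≠ 0 :=
    Algebra.norm_ne_zero_iff.mpr (mul_ne_zero hx0 z.ne_zero)
  have h1 : (1 : ℝ) ≤ normD (divisor (Units.mk0 _ hN0)) := by
    refine Finset.one_le_prod fun v _ => one_le_zpow₀ ?_ ?_
    · exact_mod_cast Nat.one_le_iff_ne_zero.mpr fun h =>
        v.ne_bot (Ideal.absNorm_eq_zero_iff.mp h)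
    · obtain ⟨P, rfl⟩ := Fermat.Agent.CFT.exists_below_eq (L := M) v
      have h2 := ordGE_norm (L := L) (n := 0) (hxz P) (hxz (tauP L P))
        (by simp only [Finsupp.coe_zero, Pi.zero_apply]; rcases ram_le_two (L := L) P with h | h <;>
          rw [h] <;> norm_num)
      exact (Fermat.Agent.CFT.ordGE_iff _ (Units.mk0 _ hN0) 0).mp h2
  rw [normD_divisor, Finset.prod_pow, Units.val_mk0,
    one_le_sq_iff₀ (Finset.prod_nonneg fun _ _ => norm_nonneg _)] at h1
  simp only [map_mul, norm_mul, Finset.prod_mul_distrib] at h1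
  exact (inv_le_iff_one_le_mul₀ hA).mpr h1

theorem mul_exp_le {A y c : ℝ} (hA : 0 < A) (hy : c ≤ y) :
    y * Real.exp (-(A * y)) ≤ 2 / A * Real.exp (-(A * c / 2)) := by
  have h1 := Real.add_one_le_exp (A * y / 2)
  have h2 : Real.exp (-(A * y)) = Real.exp (-(A * y / 2)) * Real.exp (-(A * y / 2)) := by
    rw [← Real.exp_add]; ring_nf
  rcases le_or_gt y 0 with h0 | h0
  · exact (mul_nonpos_of_nonpos_of_nonneg h0 (Real.exp_pos _).le).trans (by positivity)
  calc y * Real.exp (-(A * y))
      = (y * Real.exp (-(A * y / 2))) * Real.exp (-(A * y / 2)) := by rw [h2, mul_assoc]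
    _ ≤ 2 / A * Real.exp (-(A * c / 2)) := by
        refine mul_le_mul ?_ (Real.exp_le_exp.mpr (by nlinarith)) (Real.exp_pos _).le
          (by positivity)
        rw [Real.exp_neg, ← div_eq_mul_inv, div_le_iff₀ (Real.exp_pos _)]
        calc y ≤ 2 / A * (A * y / 2 + 1) := by field_simp; nlinarith
          _ ≤ _ := by gcongr

/-- Uniform decay of the nonzero terms. -/
theorem exists_term_bound {β : L} (hβ : β ≠ 0) (ω : FPlace M →₀ ℤ) {c K : ℝ} (hc : 0 < c)
    (hK : 0 < K) :
    ∃ ε C : ℝ, 0 < ε ∧ 0 ≤ C ∧ ∀ (p : Hyp L) (s : InfinitePlace L → ℝ), (∀ w, c ≤ (p w).y) →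
      (∀ w, K⁻¹ ≤ s w ∧ s w ≤ K) → ∀ x ∈ Lat ω, x ≠ 0 →
      ‖kerInf β s p (embM L x)‖ ≤ C * Real.exp (-(ε * ‖embM L x‖ ^ 2)) := by
  obtain ⟨δ, hδ, hlow⟩ := exists_norm_lower (L := L) ω
  have hne : (Finset.univ : Finset (InfinitePlace L)).Nonempty := Finset.univ_nonempty
  set m := Finset.univ.inf' hne fun w : InfinitePlace L => ‖w.embedding β‖
  have hm : 0 < m := (Finset.lt_inf'_iff hne).mpr fun w _ =>
    norm_pos_iff.mpr ((map_ne_zero _).mpr hβ)
  set B := ∏ w : InfinitePlace L, (2 / (4 * π * ‖w.embedding β‖ / K))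
  have hB : 0 ≤ B := Finset.prod_nonneg fun w _ => by positivity
  refine ⟨π * m * c / K, B / δ, by positivity, by positivity, fun p s hp hs x hx hx0 => ?_⟩
  set a : InfinitePlace L → ℝ := fun w => ‖(embM L x w).1‖ ^ 2 + ‖(embM L x w).2‖ ^ 2
  set A : InfinitePlace L → ℝ := fun w => 2 * π * ‖w.embedding β‖ * a w / K
  have ha : ∀ w, 0 < a w := fun w => by
    have := norm_pos_iff.mpr (embM_ne_zero hx0 w).1
    simp only [a]; positivity
  have hA : ∀ w, 0 < A w := fun w => by
    have := norm_pos_iff.mpr ((map_ne_zero w.embedding).mpr hβ)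
    have := ha w
    simp only [A]; positivity
  have h1 : ∀ w, ‖ker1 (w.embedding β) (s w) (p w) (embM L x w)‖ ≤
      2 / A w * Real.exp (-(A w * c / 2)) := fun w => by
    refine le_trans ?_ (mul_exp_le (hA w) (hp w))
    have hy := (p w).y_pos
    rw [norm_ker1]
    refine mul_le_mul_of_nonneg_left (Real.exp_le_exp.mpr ?_) hy.le
    have hs1 := hs w
    have hs0 : 0 < s w := lt_of_lt_of_le (inv_pos.mpr hK) hs1.1
    have h2 : ‖(embM L x w).2‖ ^ 2 / K ≤ ‖(embM L x w).2‖ ^ 2 / s w :=
      div_le_div_of_nonneg_left (by positivity) hs0 hs1.2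
    have h3 : ‖(embM L x w).1‖ ^ 2 / K ≤ ‖(embM L x w).1‖ ^ 2 * s w := by
      rw [div_eq_mul_inv]; gcongr; exact hs1.1
    rw [neg_le_neg_iff]
    calc A w * (p w).y = 2 * π * ‖w.embedding β‖ * (p w).y * (a w / K) := by simp only [A]; ring
      _ ≤ _ := by
          refine mul_le_mul_of_nonneg_left ?_ (by positivity)
          simp only [a, add_div]
          exact add_le_add h3 h2
  rw [kerInf, norm_prod]
  refine (Finset.prod_le_prod (fun w _ => norm_nonneg _) fun w _ => h1 w).trans ?_
  rw [Finset.prod_mul_distrib, ← Real.exp_sum]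
  refine mul_le_mul ?_ (Real.exp_le_exp.mpr ?_) (Real.exp_pos _).le (by positivity)
  · have h4 : ∀ w, 2 / A w ≤ 2 / (4 * π * ‖w.embedding β‖ / K) /
        ‖w.embedding (Algebra.norm L x)‖ := fun w => by
      have hb := norm_pos_iff.mpr ((map_ne_zero w.embedding).mpr hβ)
      have hn : 0 < ‖w.embedding (Algebra.norm L x)‖ :=
        norm_pos_iff.mpr ((map_ne_zero _).mpr (Algebra.norm_ne_zero_iff.mpr hx0))
      rw [div_div]
      refine div_le_div_of_nonneg_left (by norm_num) (by positivity) ?_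
      rw [← embM_prod, norm_mul]
      simp only [A, a]
      rw [div_mul_eq_mul_div]
      refine div_le_div_of_nonneg_right ?_ hK.le
      nlinarith [sq_nonneg (‖(embM L x w).1‖ - ‖(embM L x w).2‖), mul_pos Real.pi_pos hb]
    refine (Finset.prod_le_prod (fun w _ => (div_pos two_pos (hA w)).le) fun w _ => h4 w).trans ?_
    rw [Finset.prod_div_distrib]
    exact div_le_div_of_nonneg_left hB hδ (hlow x hx hx0)
  · rw [Finset.sum_neg_distrib, neg_le_neg_iff]
    obtain ⟨w₀, -, hw₀⟩ := Finset.exists_max_image Finset.univ (fun w => ‖embM L x w‖) hne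
    have hnorm : ‖embM L x‖ ^ 2 ≤ a w₀ := by
      have h5 : ‖embM L x‖ ≤ ‖embM L x w₀‖ :=
        (pi_norm_le_iff_of_nonneg (norm_nonneg _)).mpr fun w => hw₀ w (Finset.mem_univ w)
      refine (pow_le_pow_left₀ (norm_nonneg _) h5 2).trans ?_
      simp only [a, Prod.norm_def]
      rcases max_choice ‖(embM L x w₀).1‖ ‖(embM L x w₀).2‖ with h6 | h6 <;> rw [h6] <;>
        nlinarith [sq_nonneg ‖(embM L x w₀).1‖, sq_nonneg ‖(embM L x w₀).2‖]
    refine le_trans ?_ (Finset.single_le_sum (f := fun w => A w * c / 2)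
      (fun w _ => by have := hA w; positivity) (Finset.mem_univ w₀))
    have hmw : m ≤ ‖w₀.embedding β‖ := Finset.inf'_le _ (Finset.mem_univ w₀)
    calc π * m * c / K * ‖embM L x‖ ^ 2 ≤ π * ‖w₀.embedding β‖ * c / K * a w₀ := by gcongr
      _ = _ := by simp only [A]; ring

theorem exists_torus_bounds :
    ∃ K : ℝ, 0 < K ∧ ∀ u ∈ torusDom L M, ∀ w, K⁻¹ ≤ sExp u w ∧ sExp u w ≤ K := by
  obtain ⟨R, hR⟩ := (torusDom_isBounded (L := L) (M := M)).exists_norm_le
  refine ⟨Real.exp (2 * R), Real.exp_pos _, fun u hu w => ?_⟩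
  have h := abs_le.mp ((norm_le_pi_norm u w).trans (hR u hu))
  rw [← Real.exp_neg]
  exact ⟨Real.exp_le_exp.mpr (by linarith [h.1]), Real.exp_le_exp.mpr (by linarith [h.2])⟩

open Classical in
/-- The terms of a theta sum other than the zero one. -/
def offZero (β : L) (s : InfinitePlace L → ℝ) (p : Hyp L) (Φ : M → ℂ) (x : M) : ℂ :=
  if x = 0 then 0 else Φ x * kerInf β s p (embM L x)

/-- A majorant on the torus. -/
theorem exists_offZero_majorant {β : L} (hβ : β ≠ 0) {Φ : M → ℂ} {ω : FPlace M →₀ ℤ}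
    (hsupp : ∀ x, x ∉ Lat ω → Φ x = 0) {B : ℝ} (hB : ∀ x, ‖Φ x‖ ≤ B) {c : ℝ} (hc : 0 < c) :
    ∃ f : M → ℝ, Summable f ∧ (∀ x, 0 ≤ f x) ∧ ∀ p : Hyp L, (∀ w, c ≤ (p w).y) →
      ∀ u ∈ torusDom L M, ∀ x, ‖offZero β (sExp u) p Φ x‖ ≤ f x := by
  classical
  have hB0 : 0 ≤ B := (norm_nonneg _).trans (hB 0)
  obtain ⟨K, hK, hs⟩ := exists_torus_bounds (L := L) (M := M)
  obtain ⟨ε, C, hε, hC, hle⟩ := exists_term_bound hβ ω hc hK
  refine ⟨fun x => if x ∈ Lat ω then B * (C * Real.exp (-(ε * ‖embM L x‖ ^ 2))) else 0, ?_,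
    fun x => by simp only; split_ifs <;> positivity, fun p hp u hu x => ?_⟩
  · refine (Function.Injective.summable_iff (g := fun a : Lat ω => (a : M)) Subtype.val_injective
      fun x hx => if_neg fun h => hx ⟨⟨x, h⟩, rfl⟩).mp ?_
    refine (((summable_exp_lat (L := L) ω hε).mul_left C).mul_left B).congr fun a => ?_
    simp
  · simp only [offZero]
    by_cases hx : x = 0
    · rw [if_pos hx, norm_zero]; split_ifs <;> positivity
    · rw [if_neg hx, norm_mul]
      by_cases hω : x ∈ Lat ω
      · rw [if_pos hω]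
        exact mul_le_mul (hB x) (hle p _ hp (hs u hu) x hω hx) (norm_nonneg _) hB0
      · rw [if_neg hω, hsupp x hω, norm_zero, zero_mul]

theorem thetaSum_split {β : L} (hβ : β ≠ 0) {Φ : M → ℂ} {ω : FPlace M →₀ ℤ}
    (hsupp : ∀ x, x ∉ Lat ω → Φ x = 0) {B : ℝ} (hB : ∀ x, ‖Φ x‖ ≤ B)
    {s : InfinitePlace L → ℝ} (hs : ∀ w, 0 < s w) (p : Hyp L) :
    thetaSum β s p Φ = Φ 0 * ((∏ w, (p w).y : ℝ) : ℂ) + ∑' x, offZero β s p Φ x := by
  classical
  rw [thetaSum, (Summable.of_norm (summable_thetaTerm hβ hs p hsupp hB)).tsum_eq_add_tsum_ite 0,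
    kerInf_zero]
  rfl

omit [IsTotallyComplex L] in
theorem continuous_kerInf_sExp (β : L) (p : Hyp L) (x : InfSpace L) :
    Continuous fun u : InfinitePlace L → ℝ => kerInf β (sExp u) p x := by
  unfold kerInf ker1 sExp eR
  simp only [div_eq_mul_inv, ← Real.exp_neg]
  fun_prop

omit [IsTotallyComplex L] in
theorem continuous_kerInf_hyp (β : L) (s : InfinitePlace L → ℝ) (x : InfSpace L) :
    Continuous fun p : Hyp L => kerInf β s p x := by
  have h1 : ∀ w : InfinitePlace L, Continuous fun p : Hyp L => (p w).y :=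
    fun w => H3.continuous_y.comp (continuous_apply w)
  have h2 : ∀ w : InfinitePlace L, Continuous fun p : Hyp L => (p w).z :=
    fun w => H3.continuous_z.comp (continuous_apply w)
  unfold kerInf ker1 eR
  fun_prop

/-- The off-zero part of the torus integral. -/
def torusRem (β : L) (Φ : M → ℂ) (p : Hyp L) : ℂ :=
  ∫ u in torusDom L M, ∑' x, offZero β (sExp u) p Φ x

section Lemmas

variable {β : L} (hβ : β ≠ 0) {Φ : M → ℂ} {ω : FPlace M →₀ ℤ}
  (hsupp : ∀ x, x ∉ Lat ω → Φ x = 0) {B : ℝ} (hB : ∀ x, ‖Φ x‖ ≤ B)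

omit hβ hsupp hB [IsTotallyComplex L] in
theorem continuous_offZero_u (β : L) (Φ : M → ℂ) (p : Hyp L) (x : M) :
    Continuous fun u => offZero β (sExp u) p Φ x := by
  unfold offZero
  split_ifs
  · exact continuous_const
  · exact continuous_const.mul (continuous_kerInf_sExp β p _)

omit hβ hsupp hB [IsTotallyComplex L] in
theorem continuous_offZero_p (β : L) (Φ : M → ℂ) (u : InfinitePlace L → ℝ) (x : M) :
    Continuous fun p => offZero β (sExp u) p Φ x := by
  unfold offZero
  split_ifs
  · exact continuous_const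
  · exact continuous_const.mul (continuous_kerInf_hyp β _ _)

omit hβ hsupp hB [IsTotallyComplex L] in
theorem exists_yMin (p : Hyp L) : ∃ c : ℝ, 0 < c ∧ ∀ w, c < (p w).y := by
  have hne : (Finset.univ : Finset (InfinitePlace L)).Nonempty := Finset.univ_nonempty
  refine ⟨Finset.univ.inf' hne (fun w => (p w).y) / 2, ?_, fun w => ?_⟩
  · exact half_pos ((Finset.lt_inf'_iff hne).mpr fun w _ => (p w).y_pos)
  · have h0 := (p w).y_pos
    have := Finset.inf'_le (s := Finset.univ) (fun w => (p w).y) (Finset.mem_univ w)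
    linarith

include hβ hsupp hB in
theorem hasSum_torusRem (p : Hyp L) :
    HasSum (fun x => ∫ u in torusDom L M, offZero β (sExp u) p Φ x) (torusRem β Φ p) ∧
      Summable (fun x => ∫ u in torusDom L M, ‖offZero β (sExp u) p Φ x‖) := by
  have : Countable M := (Module.finBasis ℚ M).equivFun.injective.countable
  have : IsFiniteMeasure (volume.restrict (torusDom L M)) :=
    isFiniteMeasure_restrict.mpr volume_torusDom_lt_top.ne
  obtain ⟨c, hc, hp⟩ := exists_yMin p
  obtain ⟨f, hf, hf0, hle⟩ := exists_offZero_majorant hβ hsupp hB hc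
  have hint : ∀ x, Integrable (fun u => offZero β (sExp u) p Φ x)
      (volume.restrict (torusDom L M)) := fun x =>
    Integrable.mono' (integrable_const (f x))
      (continuous_offZero_u β Φ p x).aestronglyMeasurable
      ((ae_restrict_mem torusDom_measurableSet).mono fun u hu => hle p (fun w => (hp w).le) u hu x)
  have hsum : Summable fun x => ∫ u in torusDom L M, ‖offZero β (sExp u) p Φ x‖ := by
    refine Summable.of_nonneg_of_le (fun x => integral_nonneg fun _ => norm_nonneg _) (fun x => ?_)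
      (hf.mul_left (volume.real (torusDom L M)))
    refine (integral_mono_ae (hint x).norm (integrable_const (f x))
      ((ae_restrict_mem torusDom_measurableSet).mono fun u hu =>
        hle p (fun w => (hp w).le) u hu x)).trans_eq ?_
    rw [setIntegral_const, smul_eq_mul]
  refine ⟨?_, hsum⟩
  rw [torusRem, ← integral_tsum_of_summable_integral_norm hint hsum]
  exact (Summable.of_norm (Summable.of_nonneg_of_le (fun x => norm_nonneg _)
    (fun x => norm_integral_le_integral_norm _) hsum)).hasSum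

include hβ hsupp hB in
/-- The remainder is bounded for `y` bounded below. -/
theorem exists_torusRem_bound {c : ℝ} (hc : 0 < c) :
    ∃ C : ℝ, ∀ p : Hyp L, (∀ w, c ≤ (p w).y) → ‖torusRem β Φ p‖ ≤ C := by
  obtain ⟨f, hf, hf0, hle⟩ := exists_offZero_majorant hβ hsupp hB hc
  refine ⟨(∑' x, f x) * volume.real (torusDom L M), fun p hp => ?_⟩
  refine norm_setIntegral_le_of_norm_le_const volume_torusDom_lt_top fun u hu => ?_
  exact tsum_of_norm_bounded hf.hasSum fun x => hle p hp u hu x

include hβ hsupp hB in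
theorem continuous_torusRem : Continuous (torusRem β Φ) := by
  have : Countable M := (Module.finBasis ℚ M).equivFun.injective.countable
  have : IsFiniteMeasure (volume.restrict (torusDom L M)) :=
    isFiniteMeasure_restrict.mpr volume_torusDom_lt_top.ne
  refine continuous_iff_continuousAt.mpr fun p₀ => ?_
  obtain ⟨c, hc, hp⟩ := exists_yMin p₀
  obtain ⟨f, hf, hf0, hle⟩ := exists_offZero_majorant hβ hsupp hB hc
  have hU : {p : Hyp L | ∀ w, c < (p w).y} ∈ 𝓝 p₀ := by
    refine IsOpen.mem_nhds ?_ hp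
    simp only [Set.ofPred_forall]
    exact isOpen_iInter_of_finite fun w =>
      isOpen_lt continuous_const (H3.continuous_y.comp (continuous_apply w))
  refine continuousAt_of_dominated (bound := fun _ => ∑' x, f x) ?_ ?_ (integrable_const _) ?_
  · refine Filter.eventually_of_mem hU fun p hp' => ?_
    refine ContinuousOn.aestronglyMeasurable ?_ torusDom_measurableSet
    exact continuousOn_tsum (fun x => (continuous_offZero_u β Φ p x).continuousOn) hf
      fun x u hu => hle p (fun w => (hp' w).le) u hu x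
  · exact Filter.eventually_of_mem hU fun p hp' => (ae_restrict_mem torusDom_measurableSet).mono
      fun u hu => tsum_of_norm_bounded hf.hasSum fun x => hle p (fun w => (hp' w).le) u hu x
  · refine (ae_restrict_mem torusDom_measurableSet).mono fun u hu => ?_
    exact (continuousOn_tsum (fun x => (continuous_offZero_p β Φ u x).continuousOn) hf
      fun x p hp' => hle p (fun w => (hp' w).le) u hu x).continuousAt hU

include hβ hsupp hB in
/-- The torus integral is the term of zero plus the remainder. -/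
theorem torusInt_eq (p : Hyp L) :
    torusInt β Φ p =
      volume.real (torusDom L M) * (Φ 0 * ((∏ w, (p w).y : ℝ) : ℂ)) + torusRem β Φ p := by
  have : IsFiniteMeasure (volume.restrict (torusDom L M)) :=
    isFiniteMeasure_restrict.mpr volume_torusDom_lt_top.ne
  have : Countable M := (Module.finBasis ℚ M).equivFun.injective.countable
  obtain ⟨c, hc, hp⟩ := exists_yMin p
  obtain ⟨f, hf, hf0, hle⟩ := exists_offZero_majorant hβ hsupp hB hc
  have h1 : Integrable (fun u => ∑' x, offZero β (sExp u) p Φ x)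
      (volume.restrict (torusDom L M)) := by
    refine Integrable.mono' (integrable_const (∑' x, f x)) ?_
      ((ae_restrict_mem torusDom_measurableSet).mono fun u hu =>
        tsum_of_norm_bounded hf.hasSum fun x => hle p (fun w => (hp w).le) u hu x)
    exact (continuousOn_tsum (fun x => (continuous_offZero_u β Φ p x).continuousOn) hf
      fun x u hu => hle p (fun w => (hp w).le) u hu x).aestronglyMeasurable torusDom_measurableSet
  rw [torusInt, torusRem]
  simp only [thetaSum_split hβ hsupp hB (sExp_pos _)]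
  rw [integral_add (integrable_const _) h1, setIntegral_const, Complex.real_smul]

include hβ hsupp hB in
theorem continuous_torusInt : Continuous (torusInt β Φ) := by
  rw [show torusInt β Φ = fun p : Hyp L =>
    volume.real (torusDom L M) * (Φ 0 * ((∏ w, (p w).y : ℝ) : ℂ)) + torusRem β Φ p from
    funext (torusInt_eq hβ hsupp hB)]
  have h1 : ∀ w : InfinitePlace L, Continuous fun p : Hyp L => (p w).y :=
    fun w => H3.continuous_y.comp (continuous_apply w)
  refine Continuous.add ?_ (continuous_torusRem hβ hsupp hB)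
  fun_prop

end Lemmas

end Fermat.Agent.ResidualThree.ThetaInduction
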