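import Fermat.Agent.ResidualThree.ThetaInduction.GaussDef

/-!
# Bounds for the dual of a lattice and further character identities

An element pairing trivially with `Lat ω'` under `(x, y) ↦ e(Tr (β x ȳ))` has bounded poles, and
two lattices of large enough order pair trivially.
-/

noncomputable section

open NumberField Module IsDedekindDomain

namespace Fermat.Agent.ResidualThree.ThetaInduction

open Fermat.Agent.CFT (OrdGE ord below ram baseU)

variable {L M : Type} [Field L] [NumberField L] [Field M] [NumberField M]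
  [Algebra L M] [Algebra.IsQuadraticExtension L M]

omit [Algebra.IsQuadraticExtension L M] in
/-- The order of the image of an element of the base. -/
theorem ordGE_base {P : FPlace M} {n : ℤ} {a : L} (h : OrdGE (below L P) n a) :
    OrdGE P ((ram L P : ℤ) * n) (algebraMap L M a) := by
  by_cases h0 : a = 0
  · subst h0
    rw [map_zero]
    exact Fermat.Agent.CFT.ordGE_zero _
  · have h1 := (Fermat.Agent.CFT.ordGE_iff (below L P) (Units.mk0 a h0) n).mp h
    rw [← Units.val_mk0 h0, ← Fermat.Agent.CFT.coe_baseU, Fermat.Agent.CFT.ordGE_iff,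
      Fermat.Agent.CFT.ord_baseU]
    exact mul_le_mul_of_nonneg_left h1 (Int.natCast_nonneg _)

theorem ordGE_div_unit {K : Type} [Field K] [NumberField K] {v : FPlace K} {n : ℤ} {x : K}
    (h : OrdGE v n x) (u : Kˣ) : OrdGE v (n - ord v u) (x / u) := by
  rw [div_eq_mul_inv, ← Units.val_inv_eq_inv_val, sub_eq_add_neg, ← Fermat.Agent.CFT.ord_inv]
  exact h.mul (Fermat.Agent.CFT.ordGE_ord v _)

/-- A cross term of large order has trivial character. -/
theorem traceExp_cross_of_large {g : M} {a b e : FPlace M →₀ ℤ} {k : FPlace M → ℤ} {x y : M}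
    (hg : ∀ P, OrdGE P (k P) g) (hx : x ∈ Lat a) (hy : y ∈ Lat b) (he : ∀ P, e P = b (tauP L P))
    (hab : ∀ P, -((ram L P : ℤ) * cond (below L P)) ≤ k P + a P + e P) :
    traceExp (g * (x * conjM L M y)) = 1 := by
  refine traceExp_eq_one_of_base (L := L) fun P => ?_
  refine ((hg P).mul ((hx P).mul (ordGE_conjM.mpr (hy (tauP L P))))).mono ?_
  have := hab P
  rw [he P] at this
  linarith

/-- The elements dual to a lattice have bounded poles. -/
theorem ordGE_of_dual {β : L} (hβ : β ≠ 0) {ω' : FPlace M →₀ ℤ} {y : M}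
    (hy : ∀ x ∈ Lat ω', traceExp (algebraMap L M β * (x * conjM L M y)) = 1) (P : FPlace M) :
    OrdGE P (-((ram L P : ℤ) * ord (below L P) (Units.mk0 β hβ)) - ω' (tauP L P) -
      cond (tauP L P)) y := by
  classical
  by_cases hy0 : y = 0
  · subst hy0
    exact Fermat.Agent.CFT.ordGE_zero _
  set Q := tauP L P
  have hz0 : algebraMap L M β * conjM L M y ≠ 0 :=
    mul_ne_zero (by simpa using hβ) (by simpa using hy0)
  set z : Mˣ := Units.mk0 _ hz0
  have hQ : -ω' Q - cond Q ≤ ord Q z := by
    by_contra hlt
    obtain ⟨a, ha, hn, hne⟩ := exists_traceExp_ne_one Q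
      (Finsupp.mapRange Int.toNat rfl (ω' + divisor z))
    refine hne ?_
    have hmem : a / (z : M) ∈ Lat ω' := by
      intro R
      by_cases hR : R = Q
      · subst hR
        exact (ordGE_div_unit ha z).mono (by omega)
      · refine (ordGE_div_unit (hn R hR) z).mono ?_
        simp only [Finsupp.mapRange_apply, Finsupp.add_apply, divisor_apply]
        omega
    have := hy _ hmem
    rwa [show algebraMap L M β * (a / (z : M) * conjM L M y) =
      a / (z : M) * (z : M) by rw [Units.val_mk0]; ring, div_mul_cancel₀ _ z.ne_zero] at this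
  have e : z = baseU L M (Units.mk0 β hβ) *
      Units.map ((conjM L M : M →ₐ[L] M) : M →* M) (Units.mk0 y hy0) := by
    ext
    simp [z, baseU]
  rw [e, Fermat.Agent.CFT.ord_mul, Fermat.Agent.CFT.ord_baseU, ord_conjM] at hQ
  have hτ : tauP L Q = P := tauP_tauP P
  rw [hτ] at hQ
  rw [show y = ((Units.mk0 y hy0 : Mˣ) : M) from rfl, Fermat.Agent.CFT.ordGE_iff]
  have h1 : below L Q = below L P := below_tauP P
  have h2 : ram L Q = ram L P := ram_tauP P
  rw [h1, h2] at hQ
  linarith

end Fermat.Agent.ResidualThree.ThetaInduction
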