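import Fermat.Agent.ResidualThree.ThetaInduction.QSum
import Fermat.Agent.ResidualThree.ThetaInduction.QuadPlaces

/-!
# Gauss sums of the norm form: definitions and periodicity

For a quadratic extension `M/L`, `gTerm l x = e(l N x)`, and `GaussRel l D ω` says that on the
lattice `Lat ω` this function has exact period `Lat (ω + D)` with `D` unramified.  The sum over
`Lat ω / Lat (ω + D)` is `gaussSum`; the expected value `gaussVal D` is `∏ (± N v) ^ (D v)`, the
sign telling split from inert places.
-/

noncomputable section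

open NumberField Module IsDedekindDomain

namespace Fermat.Agent.ResidualThree.ThetaInduction

open Fermat.Agent.CFT (OrdGE ord below ram baseU)

variable {L M : Type} [Field L] [NumberField L] [Field M] [NumberField M]
  [Algebra L M] [Algebra.IsQuadraticExtension L M]

/-- The norm is a quadratic form. -/
theorem norm_add_eq (x y : M) :
    Algebra.norm L (x + y) =
      Algebra.norm L x + Algebra.trace L M (x * conjM L M y) + Algebra.norm L y := by
  apply (algebraMap L M).injective
  rw [← mul_conjM, (algebraMap L M).map_add, (algebraMap L M).map_add, ← mul_conjM, ← mul_conjM,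
    ← add_conjM, map_add (conjM L M), map_mul (conjM L M), conjM_conjM]
  ring

variable (L) in
/-- The conjugate divisor. -/
def tauD (α : FPlace M →₀ ℤ) : FPlace M →₀ ℤ :=
  Finsupp.ofSupportFinite (fun P => α (tauP L P)) <| by
    have hinj : Function.Injective (tauP (M := M) L) := fun P Q h => by
      rw [← tauP_tauP (L := L) P, h, tauP_tauP]
    refine (α.support.finite_toSet.preimage (f := tauP (M := M) L) hinj.injOn).subset fun P hP => ?_
    simpa using hP

theorem tauD_apply (α : FPlace M →₀ ℤ) (P : FPlace M) : tauD L α P = α (tauP L P) := rfl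

theorem pullD_add (D D' : FPlace L →₀ ℤ) : pullD M (D + D') = pullD M D + pullD M D' := by
  ext P
  simp [pullD_apply, mul_add]

@[simp] theorem pullD_zero : pullD M (0 : FPlace L →₀ ℤ) = 0 := by
  ext P
  simp [pullD_apply]

theorem pullD_tau (D : FPlace L →₀ ℤ) (P : FPlace M) :
    pullD M D (tauP L P) = pullD M D P := by
  simp [pullD_apply, below_tauP, ram_tauP]

theorem pullD_nonneg {D : FPlace L →₀ ℤ} (hD : 0 ≤ D) : 0 ≤ pullD M D := fun P => by
  rw [pullD_apply]
  exact mul_nonneg (Int.natCast_nonneg _) (by simpa using hD (below L P))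

/-- The value `e(l N x)`. -/
def gTerm (l : L) (x : M) : ℂ := traceExp (l * Algebra.norm L x)

/-- The lower bound on the order of the coefficient `l`. -/
def gBound (D : FPlace L →₀ ℤ) (ω : FPlace M →₀ ℤ) (P : FPlace M) : ℤ :=
  -((ram L P : ℤ) * (cond (below L P) + D (below L P))) - ω P - ω (tauP L P)

/-- `l` has exactly the order making `e(l N x)` primitive modulo `D` on `Lat ω`. -/
structure GaussRel (l : L) (D : FPlace L →₀ ℤ) (ω : FPlace M →₀ ℤ) : Prop where
  nonneg : 0 ≤ D
  unram : ∀ v, D v ≠ 0 → Unram M v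
  le : ∀ P : FPlace M, OrdGE P (gBound D ω P) (algebraMap L M l)
  exact_at : ∀ P : FPlace M, D (below L P) ≠ 0 →
    ¬ OrdGE P (gBound D ω P + 1) (algebraMap L M l)

/-- The Gauss sum of the norm form on `Lat ω` modulo `Lat (ω + D)`. -/
def gaussSum (l : L) (D : FPlace L →₀ ℤ) (ω : FPlace M →₀ ℤ) : ℂ :=
  qsum (Lat ω) (Lat (ω + pullD M D)) (gTerm l)

/-- The cross term of the norm form has trivial character. -/
theorem traceExp_cross {l : L} {D : FPlace L →₀ ℤ} {ω a b : FPlace M →₀ ℤ}
    (h : GaussRel l D ω) {x y : M} (hx : x ∈ Lat a) (hy : y ∈ Lat b)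
    (hab : ∀ P, ω P + ω (tauP L P) + pullD M D P ≤ a P + b (tauP L P)) :
    traceExp (l * Algebra.trace L M (x * conjM L M y)) = 1 := by
  rw [show l * Algebra.trace L M (x * conjM L M y) =
    Algebra.trace L M (algebraMap L M l * (x * conjM L M y)) by
      rw [← Algebra.smul_def, map_smul, smul_eq_mul], ← traceExp_eq_trace]
  refine traceExp_eq_one_of_base (L := L) fun P => ?_
  refine ((h.le P).mul ((hx P).mul (ordGE_conjM.mpr (hy (tauP L P))))).mono ?_
  have := hab P
  rw [pullD_apply] at this
  simp only [gBound]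
  linarith

theorem traceExp_normTerm {l : L} {D : FPlace L →₀ ℤ} {ω a : FPlace M →₀ ℤ}
    (h : GaussRel l D ω) {x : M} (hx : x ∈ Lat a)
    (hab : ∀ P, ω P + ω (tauP L P) + pullD M D P ≤ a P + a (tauP L P)) :
    gTerm l x = 1 := by
  refine traceExp_eq_one fun v => ?_
  obtain ⟨P, rfl⟩ := Fermat.Agent.CFT.exists_below_eq (L := M) v
  refine ordGE_of_algebraMap ?_
  rw [map_mul, ← mul_conjM]
  refine ((h.le P).mul ((hx P).mul (ordGE_conjM.mpr (hx (tauP L P))))).mono ?_
  have := hab P
  rw [pullD_apply] at this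
  simp only [gBound]
  linarith

theorem gTerm_add {l : L} (x y : M) :
    gTerm l (x + y) = gTerm l x * gTerm l y *
      traceExp (l * Algebra.trace L M (x * conjM L M y)) := by
  rw [gTerm, gTerm, gTerm, norm_add_eq, mul_add, mul_add, traceExp_add, traceExp_add]
  ring

/-- Periodicity of `e(l N x)`. -/
theorem gTerm_periodic {l : L} {D : FPlace L →₀ ℤ} {ω : FPlace M →₀ ℤ} (h : GaussRel l D ω)
    {x a : M} (hx : x ∈ Lat ω) (ha : a ∈ Lat (ω + pullD M D)) :
    gTerm l (x + a) = gTerm l x := by
  rw [gTerm_add, traceExp_cross h hx ha fun P => by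
      rw [Finsupp.add_apply, pullD_tau]; linarith,
    traceExp_normTerm h ha fun P => by
      have := pullD_nonneg (M := M) h.nonneg P
      simp only [Finsupp.coe_zero, Pi.zero_apply] at this
      rw [Finsupp.add_apply, Finsupp.add_apply, pullD_tau]; linarith, mul_one, mul_one]

theorem gaussSum_zero {l : L} {ω : FPlace M →₀ ℤ} (h : GaussRel l (0 : FPlace L →₀ ℤ) ω) :
    gaussSum l 0 ω = 1 := by
  rw [gaussSum, pullD_zero, add_zero]
  rw [qsum_eq_sum (T := Unit) (fun _ => (0 : Lat ω)) (fun _ _ _ => rfl)
    (fun x => ⟨(), by simp⟩)]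
  · simp [gTerm, traceExp_zero]
  · intro x hx a ha
    exact gTerm_periodic h hx (by simpa using ha)

/-- Every place of `M` above `v` moves under the conjugation. -/
def SplitAt (M : Type) [Field M] [NumberField M] [Algebra L M] [Algebra.IsQuadraticExtension L M]
    (v : FPlace L) : Prop :=
  ∀ P : FPlace M, below L P = v → tauP L P ≠ P

open Classical in
/-- The sign of an unramified place: `1` if split, `-1` if inert. -/
def vSign (M : Type) [Field M] [NumberField M] [Algebra L M] [Algebra.IsQuadraticExtension L M]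
    (v : FPlace L) : ℂ := if SplitAt M v then 1 else -1

theorem vSign_mul_self (v : FPlace L) : vSign M v * vSign M v = 1 := by
  unfold vSign; split_ifs <;> norm_num

/-- The value of the Gauss sum, `∏ (± N v) ^ (D v)`. -/
def gaussVal (M : Type) [Field M] [NumberField M] [Algebra L M] [Algebra.IsQuadraticExtension L M]
    (D : FPlace L →₀ ℤ) : ℂ :=
  D.prod fun v n => (vSign M v * (Ideal.absNorm v.asIdeal : ℂ)) ^ n

theorem gaussBase_ne_zero (v : FPlace L) :
    vSign M v * (Ideal.absNorm v.asIdeal : ℂ) ≠ 0 := by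
  refine mul_ne_zero (fun h => by simpa [h] using vSign_mul_self (M := M) v) ?_
  exact_mod_cast fun h => v.ne_bot (Ideal.absNorm_eq_zero_iff.mp h)

theorem gaussVal_add (D D' : FPlace L →₀ ℤ) :
    gaussVal M (D + D') = gaussVal M D * gaussVal M D' :=
  Finsupp.prod_add_index' (fun _ => zpow_zero _) fun v a b =>
    zpow_add₀ (gaussBase_ne_zero v) a b

theorem gaussVal_single (v : FPlace L) (n : ℤ) :
    gaussVal M (Finsupp.single v n) = (vSign M v * (Ideal.absNorm v.asIdeal : ℂ)) ^ n :=
  Finsupp.prod_single_index (zpow_zero _)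

@[simp] theorem gaussVal_zero : gaussVal M (0 : FPlace L →₀ ℤ) = 1 := Finsupp.prod_zero_index

end Fermat.Agent.ResidualThree.ThetaInduction
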