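import Fermat.Agent.ResidualThree.Automorphic.Approx
import Fermat.Agent.ResidualThree.Spherical.Basic
import Fermat.Agent.ResidualThree.ThetaInduction.GaussDef
import Fermat.Agent.ResidualThree.ThetaInduction.ThetaSum

/-!
# The action of matrices over `L` on theta sums

At infinity the inversion turns a lower unipotent matrix into an upper one, and an upper triangular
matrix acts on a theta sum by a scalar, a change of the form and multiplication by a character
`e(l N x)`.  These are the archimedean steps of the transformation law.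
-/

noncomputable section

open NumberField Module Matrix
open scoped ComplexConjugate

namespace Fermat.Agent.ResidualThree.ThetaInduction

/-- The inversion `(0, -1; 1, 0)`. -/
def wGL (R : Type) [CommRing R] : GL (Fin 2) R :=
  ⟨!![0, -1; 1, 0], !![0, 1; -1, 0], by simp [Matrix.one_fin_two],
    by simp [Matrix.one_fin_two]⟩

theorem invPoint_eq_smul (p : H3) : invPoint p = wGL ℂ • p := by
  have hy := p.y_pos
  have hden : H3.denom (wGL ℂ) p = ‖p.z‖ ^ 2 + p.y ^ 2 := by
    simp [H3.denom, wGL, Complex.normSq_eq_norm_sq]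
  ext
  · rw [H3.smul_z, hden]
    simp [wGL, invPoint]
  · rw [H3.smul_y, hden]
    simp [wGL, invPoint, Matrix.det_fin_two]

variable {L : Type} [Field L] [NumberField L]

/-- The lower unipotent matrix. -/
def lowerGL {R : Type} [Field R] (δ : R) : GL (Fin 2) R :=
  ⟨!![1, 0; δ, 1], !![1, 0; -δ, 1], by simp [Matrix.one_fin_two],
    by simp [Matrix.one_fin_two]⟩

/-- Inversion conjugates lower unipotents to upper ones. -/
theorem invHyp_lower (δ : L) (p : Hyp L) :
    invHyp (lowerGL δ • p) = upGL 1 1 (-δ) • invHyp p := by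
  funext w
  show invPoint (toComplex w (lowerGL δ) • p w) = toComplex w (upGL 1 1 (-δ)) • invPoint (p w)
  rw [invPoint_eq_smul, invPoint_eq_smul, ← mul_smul, ← mul_smul]
  congr 1
  refine Units.ext ?_
  ext i j
  fin_cases i <;> fin_cases j <;>
    simp [toComplex, wGL, lowerGL, upGL, Matrix.mul_apply, Fin.sum_univ_two]

variable [IsTotallyComplex L] {M : Type} [Field M] [NumberField M] [Algebra L M]
  [Algebra.IsQuadraticExtension L M]

theorem eR_sum {ι : Type*} (t : Finset ι) (f : ι → ℝ) :
    eR (∑ i ∈ t, f i) = ∏ i ∈ t, eR (f i) := by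
  classical
  induction t using Finset.induction with
  | empty => simp [eR]
  | insert a t ha ih => rw [Finset.sum_insert ha, Finset.prod_insert ha, eR_add, ih]

omit [NumberField M] [Algebra.IsQuadraticExtension L M] in
theorem gTerm_eq_prod (l : L) (x : M) :
    gTerm l x = ∏ w : InfinitePlace L, eR (2 * (w.embedding (l * Algebra.norm L x)).re) := by
  rw [gTerm, traceExp_eq_eR, trace_rat_eq_sum, eR_sum]

/-- An upper triangular matrix multiplies the kernel by an additive character. -/
theorem kerInf_upper (β : L) (s : InfinitePlace L → ℝ) (u e : Lˣ) (b : L) (q : Hyp L) (x : M) :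
    kerInf β s (upGL u e b • q) (embM L x) =
      (∏ w : InfinitePlace L, (‖w.embedding ((u : L) / e)‖ : ℂ)) * gTerm (β * (b / e)) x *
        kerInf (β * ((u : L) / e)) s q (embM L x) := by
  rw [gTerm_eq_prod, kerInf, kerInf, ← Finset.prod_mul_distrib, ← Finset.prod_mul_distrib]
  refine Finset.prod_congr rfl fun w _ => ?_
  set a : ℂ := w.embedding ((u : L) / e)
  have ha : a ≠ 0 := (map_ne_zero _).mpr (div_ne_zero u.ne_zero e.ne_zero)
  have hg : toComplex w (upGL u e b) • q w =
      ⟨a * (q w).z + w.embedding (b / e), ‖a‖ * (q w).y,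
        mul_pos (norm_pos_iff.mpr ha) (q w).y_pos⟩ := by
    have h10 : (toComplex w (upGL u e b) : Matrix (Fin 2) (Fin 2) ℂ) 1 0 = 0 := by
      simp [toComplex, upGL]
    ext
    · rw [H3.smul_z_of_upper h10]
      simp [toComplex, upGL, a, map_div₀, add_div]
      ring
    · rw [H3.smul_y_of_upper h10]
      simp [toComplex, upGL, a, map_div₀]
  show ker1 (w.embedding β) (s w) (toComplex w (upGL u e b) • q w) (embM L x w) = _
  rw [hg, ker1_translate (w.embedding β) (s w)
    ⟨a * (q w).z, ‖a‖ * (q w).y, mul_pos (norm_pos_iff.mpr ha) (q w).y_pos⟩,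
    ker1_scale _ _ _ ha, embM_prod, map_mul, map_mul, map_mul, mul_comm a]
  ring

/-- An upper triangular matrix on a theta sum. -/
theorem thetaSum_upper (β : L) (s : InfinitePlace L → ℝ) (u e : Lˣ) (b : L) (q : Hyp L)
    (Φ : M → ℂ) :
    thetaSum β s (upGL u e b • q) Φ =
      (∏ w : InfinitePlace L, (‖w.embedding ((u : L) / e)‖ : ℂ)) *
        thetaSum (β * ((u : L) / e)) s q (fun x => gTerm (β * (b / e)) x * Φ x) := by
  rw [thetaSum, thetaSum, ← tsum_mul_left]
  exact tsum_congr fun x => by rw [kerInf_upper]; ring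

end Fermat.Agent.ResidualThree.ThetaInduction
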