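import Fermat.Agent.ResidualThree.ThetaInduction.Datum
import Fermat.Agent.ResidualThree.ThetaInduction.DualBound
import Fermat.Agent.ResidualThree.ThetaInduction.TransInf

/-!
# The transformation formula of the theta sums

A matrix `γ` of `GL₂(L)` in the congruence set `TransRel` carries the theta sum of the datum `t`
to that of `t'`: Poisson summation, completing the square and the Gauss sum of the norm form turn
the phases into the character value of the divisor by which the lower right entry exceeds its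
bound.  This makes the theta sums an automorphic form on `GL₂` over `L`.
-/

noncomputable section

open NumberField Module IsDedekindDomain
open scoped WithZero

namespace Fermat.Agent.ResidualThree.ThetaInduction

open Fermat.Agent.CFT (OrdGE ord below ram baseU congr)

variable {L M : Type} [Field L] [NumberField L] [Field M] [NumberField M]
  [Algebra L M] [Algebra.IsQuadraticExtension L M]

/-- The coefficient of the phase of a matrix. -/
def phaseCoeff (γ : GL (Fin 2) L) (β : Lˣ) : L :=
  (β : L) * (γ.val 0 1 * γ.val 1 1 / (Matrix.GeneralLinearGroup.det γ : Lˣ))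

namespace HeckeChar

variable (H : HeckeChar L M)

open Classical in
/-- The exponent of the level: `N` at the exceptional places, `0` elsewhere. -/
def lvl (N : ℕ) (v : FPlace L) : ℤ := if v ∈ H.S then (N : ℤ) else 0

theorem lvl_nonneg (N : ℕ) (v : FPlace L) : 0 ≤ H.lvl N v := by
  unfold lvl; split_ifs <;> omega

/-- The hypotheses on a matrix moving the datum `t` to `t'`. -/
structure TransRel (N : ℕ) (γ : GL (Fin 2) L) (t t' : Idl L) (z : FPlace L →₀ ℤ) : Prop where
  d_ne : γ.val 1 1 ≠ 0
  ha : ∀ v, OrdGE v (z v + t'.ordD v - t.ordD v) (γ.val 0 0)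
  hb : ∀ v, OrdGE v (z v + t'.ordD v + H.lvl N v) (γ.val 0 1)
  hc : ∀ v, OrdGE v (z v - t.ordD v + H.lvl N v) (γ.val 1 0)
  hd : ∀ v, OrdGE v (z v) (γ.val 1 1)
  hdS : ∀ v ∈ H.S, ord v (Units.mk0 _ d_ne) = z v
  hdet : ∀ v, ord v (Matrix.GeneralLinearGroup.det γ) = 2 * z v + t'.ordD v - t.ordD v
  hcong : ∀ v ∈ H.S, valv v (algebraMap L (v.adicCompletion L)
      (γ.val 1 1 ^ 2 / (Matrix.GeneralLinearGroup.det γ : Lˣ)) * t'.val v / t.val v - 1) ≤
      WithZero.exp (-(H.m : ℤ))

variable {H} {N : ℕ} {γ : GL (Fin 2) L} {t t' : Idl L} {z : FPlace L →₀ ℤ}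

namespace TransRel

variable (h : H.TransRel N γ t t' z)

/-- The lower right entry as a unit. -/
def dU : Lˣ := Units.mk0 _ h.d_ne

/-- The divisor by which the lower right entry exceeds `z`. -/
def D : FPlace L →₀ ℤ := divisor h.dU - z

/-- The new coefficient. -/
def newβ (β : Lˣ) : Lˣ := β * (h.dU ^ 2 / Matrix.GeneralLinearGroup.det γ)

theorem D_apply (v : FPlace L) : h.D v = ord v h.dU - z v := rfl

theorem D_nonneg : 0 ≤ h.D := fun v => by
  have := (Fermat.Agent.CFT.ordGE_iff v h.dU (z v)).mp (h.hd v)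
  simp only [Finsupp.coe_zero, Pi.zero_apply, D_apply]
  omega

theorem D_eq_zero {v : FPlace L} (hv : v ∈ H.S) : h.D v = 0 := by
  have := h.hdS v hv
  rw [D_apply, show h.dU = Units.mk0 _ h.d_ne from rfl, this, sub_self]

theorem D_notMem : ∀ v, h.D v ≠ 0 → v ∉ H.S := fun _ hv hS => hv (h.D_eq_zero hS)

/-- Where `d` exceeds `z`, the entry `b` has exact order. -/
theorem not_ordGE_b {v : FPlace L} (hv : h.D v ≠ 0) :
    ¬ OrdGE v (z v + t'.ordD v + 1) (γ.val 0 1) := by
  intro hb
  have hD : 0 < h.D v := lt_of_le_of_ne (by simpa using h.D_nonneg v) (Ne.symm hv)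
  rw [D_apply] at hD
  have hS : v ∉ H.S := h.D_notMem v hv
  have h1 : OrdGE v (2 * z v + t'.ordD v - t.ordD v + 1) (γ.val 0 0 * γ.val 1 1) :=
    ((h.ha v).mul (Fermat.Agent.CFT.ordGE_ord v h.dU)).mono (by omega)
  have h2 : OrdGE v (2 * z v + t'.ordD v - t.ordD v + 1) (γ.val 0 1 * γ.val 1 0) := by
    refine (hb.mul (h.hc v)).mono ?_
    rw [lvl, if_neg hS]
    omega
  have h3 := h1.sub h2
  rw [← Matrix.det_fin_two, ← Matrix.GeneralLinearGroup.val_det_apply,
    Fermat.Agent.CFT.ordGE_iff, h.hdet v] at h3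
  omega

/-- The new coefficient and divisor again form a pair. -/
theorem newβ_rel {β : Lˣ} {o : FPlace M →₀ ℤ} (hrel : PairRel t β o) :
    PairRel t' (h.newβ β) (o - pullD M h.D) := fun P => by
  have h1 := hrel P
  rw [newβ, Fermat.Agent.CFT.ord_mul, Fermat.Agent.CFT.ord_div, Fermat.Agent.CFT.ord_pow,
    h.hdet, Finsupp.sub_apply, Finsupp.sub_apply, pullD_tau, pullD_apply, D_apply]
  push_cast
  linear_combination h1

theorem ordGE_coeff {β : Lˣ} (v : FPlace L) :
    OrdGE v (ord v β + t.ordD v + h.D v + H.lvl N v) (phaseCoeff γ β) := by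
  refine ((Fermat.Agent.CFT.ordGE_ord v β).mul
    (ordGE_div_unit ((h.hb v).mul (Fermat.Agent.CFT.ordGE_ord v h.dU)) _)).mono ?_
  rw [h.hdet, D_apply]
  omega

theorem ordGE_delta (v : FPlace L) :
    OrdGE v (-t.ordD v - h.D v + H.lvl N v) (γ.val 1 0 / γ.val 1 1) := by
  refine (ordGE_div_unit (h.hc v) h.dU).mono ?_
  rw [D_apply]
  omega

theorem ordGE_one_add (v : FPlace L) :
    OrdGE v (h.D v) (γ.val 0 0 * γ.val 1 1 / (Matrix.GeneralLinearGroup.det γ : Lˣ)) := by
  refine (ordGE_div_unit ((h.ha v).mul (Fermat.Agent.CFT.ordGE_ord v h.dU)) _).mono ?_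
  rw [h.hdet, D_apply]
  omega

include h in
theorem coeff_mul_delta (β : Lˣ) :
    phaseCoeff γ β * (γ.val 1 0 / γ.val 1 1) + (β : L) =
      (β : L) * (γ.val 0 0 * γ.val 1 1 / (Matrix.GeneralLinearGroup.det γ : Lˣ)) := by
  have hd := h.d_ne
  have hΔ : ((Matrix.GeneralLinearGroup.det γ : Lˣ) : L) ≠ 0 := Units.ne_zero _
  have e : ((Matrix.GeneralLinearGroup.det γ : Lˣ) : L) =
      γ.val 0 0 * γ.val 1 1 - γ.val 0 1 * γ.val 1 0 := by
    rw [Matrix.GeneralLinearGroup.val_det_apply, Matrix.det_fin_two]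
  rw [phaseCoeff]
  field_simp
  rw [e]
  ring

/-- The Bruhat-type factorisation of `γ`. -/
theorem eq_mul :
    γ = upGL (Matrix.GeneralLinearGroup.det γ / h.dU) h.dU (γ.val 0 1) *
      lowerGL (γ.val 1 0 / γ.val 1 1) := by
  have hd := h.d_ne
  have e : ((Matrix.GeneralLinearGroup.det γ : Lˣ) : L) =
      γ.val 0 0 * γ.val 1 1 - γ.val 0 1 * γ.val 1 0 := by
    rw [Matrix.GeneralLinearGroup.val_det_apply, Matrix.det_fin_two]
  refine Units.ext ?_
  ext i j
  rw [Units.val_mul, Matrix.mul_apply, Fin.sum_univ_two]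
  fin_cases i <;> fin_cases j <;>
    simp [upGL, lowerGL, dU, Units.val_div_eq_div_val, e] <;> field_simp
  ring

/-- The phase satisfies the hypotheses of the Gauss sum. -/
theorem gaussRel {β : Lˣ} {o : FPlace M →₀ ℤ} (hrel : PairRel t β o) :
    GaussRel (phaseCoeff γ β) h.D (o + H.modD - pullD M h.D) where
  nonneg := h.D_nonneg
  unram v hv := H.unram v (h.D_notMem v hv)
  le P := by
    refine (ordGE_base (h.ordGE_coeff (β := β) (below L P))).mono ?_
    have h1 := hrel P
    have h2 : 0 ≤ (ram L P : ℤ) * H.lvl N (below L P) :=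
      mul_nonneg (Int.natCast_nonneg _) (H.lvl_nonneg _ _)
    have h3 := H.modD_nonneg P
    simp only [Finsupp.coe_zero, Pi.zero_apply] at h3
    simp only [gBound, Finsupp.sub_apply, Finsupp.add_apply, H.modD_tau, pullD_apply,
      below_tauP, ram_tauP]
    nlinarith
  exact_at P hP hge := by
    have hS : below L P ∉ H.S := h.D_notMem _ hP
    have hr : ram L P = 1 := H.unram _ hS P rfl
    have h1 := hrel P
    simp only [gBound, Finsupp.sub_apply, Finsupp.add_apply, H.modD_tau, pullD_apply, below_tauP,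
      ram_tauP, H.modD_of_notMem hS, hr, Nat.cast_one, one_mul] at hge h1
    have h4 := ordGE_of_algebraMap (n := ord (below L P) β + t.ordD (below L P) +
      h.D (below L P) + 1) (hge.mono (by rw [hr]; push_cast; omega))
    refine h.not_ordGE_b hP ?_
    have h5 := (ordGE_div_unit h4 (β * h.dU / Matrix.GeneralLinearGroup.det γ)).mono
      (m := z (below L P) + t'.ordD (below L P) + 1) (by
        rw [Fermat.Agent.CFT.ord_div, Fermat.Agent.CFT.ord_mul, h.hdet, D_apply]; omega)
    convert h5 using 1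
    have hd := h.d_ne
    have hΔ : ((Matrix.GeneralLinearGroup.det γ : Lˣ) : L) ≠ 0 := Units.ne_zero _
    rw [phaseCoeff, Units.val_div_eq_div_val, Units.val_mul, dU, Units.val_mk0]
    field_simp [β.ne_zero]

/-- The congruence condition is preserved. -/
theorem cong_iff (β : Lˣ) (x : M) :
    H.Cong t' ((h.newβ β : L) * Algebra.norm L x) ↔ H.Cong t ((β : L) * Algebra.norm L x) := by
  refine forall₂_congr fun v hv => ?_
  set K := v.adicCompletion L
  set u : K := algebraMap L K
    (γ.val 1 1 ^ 2 / (Matrix.GeneralLinearGroup.det γ : Lˣ)) * t'.val v / t.val v with hu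
  set A : K := algebraMap L K ((β : L) * Algebra.norm L x) * t.val v /
    algebraMap L K (condElt v : L) with hA
  have hu1 : valv v (u - 1) ≤ WithZero.exp (-(H.m : ℤ)) := h.hcong v hv
  have hlt : valv v (u - 1) < valv v 1 := by
    rw [map_one]
    refine lt_of_le_of_lt hu1 ?_
    rw [← WithZero.exp_zero, WithZero.exp_lt_exp]
    have := H.m_pos; omega
  have huv : valv v u = 1 := by
    rw [Valuation.map_eq_of_sub_lt _ hlt, map_one]
  have e : algebraMap L K ((h.newβ β : L) * Algebra.norm L x) * t'.val v /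
      algebraMap L K (condElt v : L) = A * u := by
    have := t.ne_zero v
    rw [hA, hu, newβ, Units.val_mul, Units.val_div_eq_div_val, Units.val_pow_eq_pow_val, dU,
      Units.val_mk0, map_mul, map_mul, map_mul]
    have e2 : ∀ a b n c T T' : K, T ≠ 0 → a * b * n * T' / c = a * n * T / c * (b * T' / T) :=
      fun a b n c T T' hT => by
        rw [show a * n * T / c * (b * T' / T) = a * b * n * T' / c * (T / T) by ring, div_self hT,
          mul_one]
    exact e2 _ _ _ _ _ _ this
  rw [e]
  constructor <;> intro hh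
  · have hu0 : u ≠ 0 := fun h0 => by simp [h0] at huv
    rw [show A - 1 = ((A * u - 1) - (u - 1)) / u by rw [eq_div_iff hu0]; ring, map_div₀, huv,
      div_one]
    exact ((valv v).map_sub _ _).trans (max_le hh hu1)
  · rw [show A * u - 1 = (A - 1) * u + (u - 1) by ring]
    refine (valv v).map_add_le ?_ hu1
    rw [map_mul, huv, mul_one]
    exact hh

/-- The new periodic function on the old lattice. -/
theorem phi_new (β : Lˣ) (o : FPlace M →₀ ℤ) {x : M} (hx : x ∈ Lat o) :
    H.phi t' (h.newβ β) (o - pullD M h.D) x = H.psiDiv (pullD M h.D) * H.phi t β o x := by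
  have hx' : x ∈ Lat (o - pullD M h.D) :=
    Lat_anti (fun P => by
      have := pullD_nonneg (M := M) h.D_nonneg P
      simp only [Finsupp.coe_zero, Pi.zero_apply] at this
      rw [Finsupp.sub_apply]; omega) hx
  rw [phi, phi]
  by_cases hc : H.Cong t ((β : L) * Algebra.norm L x)
  · rw [if_pos ⟨hx', (h.cong_iff β x).mpr hc⟩, if_pos ⟨hx, hc⟩]
    split_ifs
    · rw [← H.psiDiv_add, neg_sub, sub_eq_add_neg]
    · rw [← H.psiDiv_add]
      congr 1
      abel
  · rw [if_neg (fun hh => hc ((h.cong_iff β x).mp hh.2)), if_neg (fun hh => hc hh.2), mul_zero]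

end TransRel

theorem qsum_const_mul {A : Type*} [AddCommGroup A] (B C : AddSubgroup A) (c : ℂ) (f : A → ℂ) :
    qsum B C (fun x => c * f x) = c * qsum B C f := by
  rw [qsum, qsum, ← smul_eq_mul, smul_finsum]
  rfl

namespace TransRel

variable (h : H.TransRel N γ t t' z) {β : Lˣ} {o : FPlace M →₀ ℤ} (hrel : PairRel t β o)
  (hN : ∀ P : FPlace M, below L P ∈ H.S → 4 * (H.m : ℤ) + 2 * cond P ≤ N)

include hN in
omit h hrel in
theorem lvl_bound (P : FPlace M) :
    2 * H.modD P + 2 * cond P ≤
      (ram L P : ℤ) * H.lvl N (below L P) + 2 * ((ram L P : ℤ) * cond (below L P)) ∧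
    2 * H.modD P + cond P ≤
      (ram L P : ℤ) * H.lvl N (below L P) + (ram L P : ℤ) * cond (below L P) := by
  have hcP := cond_nonneg P
  have hc : 0 ≤ (ram L P : ℤ) * cond (below L P) :=
    mul_nonneg (Int.natCast_nonneg _) (cond_nonneg _)
  by_cases hS : below L P ∈ H.S
  · have h1 := hN P hS
    have h2 : (N : ℤ) ≤ (ram L P : ℤ) * H.lvl N (below L P) := by
      rw [lvl, if_pos hS]
      rcases ram_le_two (L := L) P with hh | hh <;> rw [hh] <;> push_cast <;> omega
    rw [H.modD_of_mem hS]
    omega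
  · rw [H.modD_of_notMem hS, lvl, if_neg hS, H.unram _ hS P rfl]
    have := cond_le_of_unram (H.unram _ hS) (P := P) rfl
    push_cast
    omega

include h hrel in
theorem coeff_bound (P : FPlace M) :
    OrdGE P ((ram L P : ℤ) * (h.D (below L P) + H.lvl N (below L P) - cond (below L P)) -
      o P - o (tauP L P)) (algebraMap L M (phaseCoeff γ β)) := by
  refine (ordGE_base (h.ordGE_coeff (β := β) (below L P))).mono ?_
  have := hrel P
  linarith

include h hrel in
/-- A product with the phase coefficient is invisible. -/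
theorem phase_cross {a b : FPlace M →₀ ℤ} {x y : M} (hx : x ∈ Lat a) (hy : y ∈ Lat b)
    (hab : ∀ P, o P + o (tauP L P) - pullD M h.D P ≤ a P + b (tauP L P)) :
    traceExp (algebraMap L M (phaseCoeff γ β) * (x * conjM L M y)) = 1 := by
  refine traceExp_cross_of_large (L := L) (e := tauD L b) (h.coeff_bound hrel) hx hy (fun P => rfl)
    fun P => ?_
  have h1 := hab P
  have h2 : 0 ≤ (ram L P : ℤ) * H.lvl N (below L P) :=
    mul_nonneg (Int.natCast_nonneg _) (H.lvl_nonneg _ _)
  rw [pullD_apply] at h1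
  rw [tauD_apply]
  linarith

include h hrel in
theorem phase_norm {a : FPlace M →₀ ℤ} {x : M} (hx : x ∈ Lat a)
    (hab : ∀ P, o P + o (tauP L P) - pullD M h.D P ≤ a P + a (tauP L P)) :
    gTerm (phaseCoeff γ β) x = 1 := by
  refine traceExp_eq_one fun v => ?_
  obtain ⟨P, rfl⟩ := Fermat.Agent.CFT.exists_below_eq (L := M) v
  refine ordGE_of_algebraMap ?_
  rw [map_mul, ← mul_conjM]
  refine ((h.coeff_bound hrel P).mul ((hx P).mul (ordGE_conjM.mpr (hx (tauP L P))))).mono ?_
  have h1 := hab P
  have h2 : 0 ≤ (ram L P : ℤ) * H.lvl N (below L P) :=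
    mul_nonneg (Int.natCast_nonneg _) (H.lvl_nonneg _ _)
  rw [pullD_apply] at h1
  linarith

include h hrel in
theorem phase_trace {a b : FPlace M →₀ ℤ} {x y : M} (hx : x ∈ Lat a) (hy : y ∈ Lat b)
    (hab : ∀ P, o P + o (tauP L P) - pullD M h.D P ≤ a P + b (tauP L P)) :
    traceExp (phaseCoeff γ β * Algebra.trace L M (x * conjM L M y)) = 1 := by
  rw [show phaseCoeff γ β * Algebra.trace L M (x * conjM L M y) =
    Algebra.trace L M (algebraMap L M (phaseCoeff γ β) * (x * conjM L M y)) by
      rw [← Algebra.smul_def, map_smul, smul_eq_mul], ← traceExp_eq_trace]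
  exact h.phase_cross hrel hx hy hab

include h hrel in
theorem phase_periodic {x a : M} (hx : x ∈ Lat (o - pullD M h.D)) (ha : a ∈ Lat (o + H.modD)) :
    gTerm (phaseCoeff γ β) (x + a) = gTerm (phaseCoeff γ β) x := by
  have hm : ∀ P, 0 ≤ H.modD P := fun P => by simpa using H.modD_nonneg P
  have hD : ∀ P, 0 ≤ pullD M h.D P := fun P => by simpa using pullD_nonneg (M := M) h.D_nonneg P
  rw [gTerm_add, h.phase_trace hrel hx ha fun P => by
      have := hm (tauP L P); simp only [Finsupp.sub_apply, Finsupp.add_apply]; omega,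
    h.phase_norm hrel ha fun P => by
      have := hm (tauP L P); have := hm P; have := hD P
      simp only [Finsupp.add_apply]; omega, mul_one, mul_one]

include h hrel hN in
theorem delta_mem {y : M}
    (hy : ∀ x ∈ Lat (o + H.modD), traceExp (algebraMap L M β * (x * conjM L M y)) = 1) :
    algebraMap L M (γ.val 1 0 / γ.val 1 1) * y ∈ Lat (o + H.modD - pullD M h.D) := fun P => by
  refine ((ordGE_base (h.ordGE_delta (below L P))).mul (ordGE_of_dual β.ne_zero hy P)).mono ?_
  have h1 := hrel P
  obtain ⟨-, h3⟩ := lvl_bound hN (tauP L P)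
  rw [below_tauP, ram_tauP, H.modD_tau] at h3
  have h4 := mul_nonneg (Int.natCast_nonneg (ram L P)) (cond_nonneg (below L P))
  have h5 := cond_nonneg (tauP L P)
  have h6 : 0 ≤ (ram L P : ℤ) * H.lvl N (below L P) :=
    mul_nonneg (Int.natCast_nonneg _) (H.lvl_nonneg _ _)
  have h7 := H.modD_nonneg P
  simp only [Finsupp.coe_zero, Pi.zero_apply] at h7
  rw [Units.mk0_val, Finsupp.sub_apply, Finsupp.add_apply, Finsupp.add_apply, H.modD_tau,
    pullD_apply]
  linarith

include h hrel hN in
theorem rho_norm {y : M}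
    (hy : ∀ x ∈ Lat (o + H.modD), traceExp (algebraMap L M β * (x * conjM L M y)) = 1) :
    traceExp ((β : L) * (γ.val 0 0 * γ.val 1 1 / (Matrix.GeneralLinearGroup.det γ : Lˣ)) *
      (γ.val 1 0 / γ.val 1 1) * Algebra.norm L y) = 1 := by
  refine traceExp_eq_one fun v => ?_
  obtain ⟨P, rfl⟩ := Fermat.Agent.CFT.exists_below_eq (L := M) v
  refine ordGE_of_algebraMap ?_
  rw [map_mul, ← mul_conjM]
  refine ((ordGE_base (((Fermat.Agent.CFT.ordGE_ord _ β).mul (h.ordGE_one_add _)).mul
    (h.ordGE_delta (below L P)))).mul ((ordGE_of_dual β.ne_zero hy P).mul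
    (ordGE_conjM.mpr (ordGE_of_dual β.ne_zero hy (tauP L P))))).mono ?_
  have h1 := hrel P
  obtain ⟨h2, -⟩ := lvl_bound hN P
  obtain ⟨h3, -⟩ := lvl_bound hN (tauP L P)
  rw [below_tauP, ram_tauP, H.modD_tau] at h3
  rw [Units.mk0_val, below_tauP, ram_tauP, tauP_tauP, Finsupp.add_apply, Finsupp.add_apply,
    H.modD_tau]
  linarith

include h in
omit hrel hN in
theorem rho_cross {y k : M}
    (hy : ∀ x ∈ Lat (o + H.modD), traceExp (algebraMap L M β * (x * conjM L M y)) = 1)
    (hk : k ∈ Lat (o + H.modD - pullD M h.D)) :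
    traceExp (algebraMap L M
      ((β : L) * (γ.val 0 0 * γ.val 1 1 / (Matrix.GeneralLinearGroup.det γ : Lˣ))) *
        (k * conjM L M y)) = 1 := by
  refine traceExp_eq_one fun P => ?_
  refine ((ordGE_base ((Fermat.Agent.CFT.ordGE_ord _ β).mul (h.ordGE_one_add _))).mul
    ((hk P).mul (ordGE_conjM.mpr (ordGE_of_dual β.ne_zero hy (tauP L P))))).mono ?_
  rw [Units.mk0_val, below_tauP, ram_tauP, tauP_tauP, Finsupp.sub_apply, Finsupp.add_apply,
    pullD_apply]
  linarith

include h hrel hN in
/-- The Fourier transforms of the two periodic functions. -/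
theorem fourierQ_transform (y : M) :
    gTerm (-((β : L) * (γ.val 1 0 / γ.val 1 1))) y *
      fourierQ (β : L) (o - pullD M h.D) (o + H.modD)
        (fun x => gTerm (phaseCoeff γ β) x * H.phi t' (h.newβ β) (o - pullD M h.D) x) y =
    (normD h.D : ℂ) * fourierQ (β : L) o (o + H.modD) (H.phi t β o) y := by
  unfold fourierQ
  split_ifs with hy
  swap
  · rw [mul_zero, mul_zero]
  set l := phaseCoeff γ β
  set δ := γ.val 1 0 / γ.val 1 1
  set ω := o + H.modD - pullD M h.D
  set e : M → ℂ := fun x => traceExp (algebraMap L M (β : L) * (x * conjM L M y))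
  set φ' := H.phi t' (h.newβ β) (o - pullD M h.D)
  show gTerm (-((β : L) * δ)) y *
    qsum (Lat (o - pullD M h.D)) (Lat (o + H.modD)) (fun x => gTerm l x * φ' x * e x) =
    (normD h.D : ℂ) * qsum (Lat o) (Lat (o + H.modD)) (fun x => H.phi t β o x * e x)
  have hm : ∀ P, 0 ≤ H.modD P := fun P => by simpa using H.modD_nonneg P
  have hD : ∀ P, 0 ≤ pullD M h.D P := fun P => by simpa using pullD_nonneg (M := M) h.D_nonneg P
  have hdisj : ∀ P, H.modD P = 0 ∨ pullD M h.D P = 0 := fun P => by
    by_cases hS : below L P ∈ H.S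
    · right; rw [pullD_apply, h.D_eq_zero hS, mul_zero]
    · left; exact H.modD_of_notMem hS
  have he : ∀ x x', e (x + x') = e x * e x' := fun x x' => by
    simp only [e]
    rw [← traceExp_add]
    ring_nf
  have hrel' := h.newβ_rel hrel
  have hphi : ∀ x a, a ∈ Lat ω → φ' (x + a) = φ' x := fun x a ha => by
    refine H.phi_add hrel' x ?_
    rwa [show o - pullD M h.D + H.modD = ω by simp only [ω]; abel]
  have hC2 : Lat (o + H.modD) ≤ Lat ω := Lat_anti fun P => by
    have := hD P; simp only [ω, Finsupp.sub_apply]; omega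
  have hper : ∀ x ∈ Lat (o - pullD M h.D), ∀ c ∈ Lat (o + H.modD),
      gTerm l (x + c) * φ' (x + c) * e (x + c) = gTerm l x * φ' x * e x := fun x hx c hc => by
    rw [h.phase_periodic hrel hx hc, hphi x c (hC2 hc), he, show e c = 1 from hy c hc, mul_one]
  rw [qsum_prod (B₁ := Lat o) (B₂ := Lat ω) (f₁ := fun x => φ' x * e x)
    (f₂ := fun k => gTerm l k * e k)
    (Lat_anti fun P => by have := hD P; simp only [Finsupp.sub_apply]; omega)
    (Lat_anti fun P => by
      have := hm P; simp only [ω, Finsupp.sub_apply, Finsupp.add_apply]; omega)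
    hC2 ?hinter ?hsum (relIndex_Lat_ne_zero fun P => by
      have := hm P; simp only [Finsupp.add_apply]; omega)
    (relIndex_Lat_ne_zero fun P => by
      have := hD P; simp only [ω, Finsupp.sub_apply]; omega) hper ?hmul]
  case hinter =>
    rintro x ⟨h1, h2⟩ P
    rcases hdisj P with h0 | h0
    · rw [Finsupp.add_apply, h0, add_zero]; exact h1 P
    · refine (h2 P).mono ?_
      simp only [ω, Finsupp.sub_apply, h0, sub_zero, le_refl]
  case hsum =>
    intro x hx
    obtain ⟨a, ha, b, hb, rfl⟩ := exists_split (ω := o - pullD M h.D) (d₁ := H.modD)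
      (d₂ := pullD M h.D) hm hD hdisj hx
    rw [sub_add_cancel] at ha
    exact ⟨a, ha, b, by rwa [show ω = o - pullD M h.D + H.modD by simp only [ω]; abel], rfl⟩
  case hmul =>
    intro a ha b hb
    rw [gTerm_add, h.phase_norm hrel ha fun P => by have := hD P; omega,
      h.phase_trace hrel ha hb fun P => by
        have := hm (tauP L P)
        simp only [ω, Finsupp.sub_apply, Finsupp.add_apply, pullD_tau]; omega,
      hphi a b hb, he]
    ring
  have hS1 : qsum (Lat o) (Lat (o + H.modD)) (fun x => φ' x * e x) =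
      H.psiDiv (pullD M h.D) * qsum (Lat o) (Lat (o + H.modD)) (fun x => H.phi t β o x * e x) := by
    rw [← qsum_const_mul]
    exact qsum_congr fun x hx => by rw [show φ' x = _ from h.phi_new β o hx, mul_assoc]
  -- completing the square
  set a : M := algebraMap L M (-δ) * y
  have ha : a ∈ Lat ω := by
    rw [show a = -(algebraMap L M δ * y) by
      rw [show a = algebraMap L M (-δ) * y from rfl, map_neg, neg_mul]]
    exact neg_mem (h.delta_mem hrel hN hy)
  have hrho := h.coeff_mul_delta β
  have hek : ∀ k ∈ Lat ω, gTerm l (k + a) = gTerm l k * e k * gTerm l a := fun k hk => by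
    have h1 := h.rho_cross hy hk
    rw [← hrho] at h1
    set X := traceExp (algebraMap L M (l * δ) * (k * conjM L M y))
    have h2 : e k * X = 1 := by
      rw [← h1, ← traceExp_add, map_add]
      simp only [δ, l]
      congr 1
      ring
    have h3 : traceExp (l * Algebra.trace L M (k * conjM L M a)) * X = 1 := by
      rw [show l * Algebra.trace L M (k * conjM L M a) =
        Algebra.trace L M (algebraMap L M l * (k * conjM L M a)) by
          rw [← Algebra.smul_def, map_smul, smul_eq_mul], ← traceExp_eq_trace, ← traceExp_add,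
        show a = algebraMap L M (-δ) * y from rfl, map_mul (conjM L M), AlgEquiv.commutes,
        map_neg, map_mul, ← traceExp_zero (K := M)]
      congr 1
      ring
    have hX : X ≠ 0 := fun h0 => by simp [h0] at h2
    rw [gTerm_add, mul_right_cancel₀ hX (h3.trans h2.symm)]
    ring
  have hS2 : qsum (Lat ω) (Lat (o + H.modD)) (fun k => gTerm l k * e k) * gTerm l a =
      gaussVal M h.D := by
    have hw : o + H.modD = ω + pullD M h.D := by simp only [ω]; abel
    rw [mul_comm, ← qsum_const_mul, qsum_congr (f' := fun k => gTerm l (k + a))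
      fun k hk => by rw [hek k hk, mul_comm], hw,
      qsum_translate (fun x hx c hc => gTerm_periodic (h.gaussRel hrel) hx hc) ha]
    exact gaussSum_eq (h.gaussRel hrel)
  have hga : gTerm (-((β : L) * δ)) y = gTerm l a := by
    have hd2 : Algebra.norm L a = δ ^ 2 * Algebra.norm L y := by
      rw [show a = algebraMap L M (-δ) * y from rfl, map_mul, Algebra.norm_algebraMap,
        Algebra.IsQuadraticExtension.finrank_eq_two]
      ring
    have h1 := h.rho_norm hrel hN hy
    rw [← hrho] at h1
    rw [gTerm, gTerm, hd2, ← mul_one (traceExp _), ← h1, ← traceExp_add]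
    congr 1
    ring
  rw [hS1, hga, ← H.psiDiv_mul_gaussVal h.D h.D_notMem, ← hS2]
  ring

end TransRel

variable [IsTotallyComplex L]

/-- The weight of a datum. -/
def wt (t : Idl L) : ℝ := (Real.sqrt (normD t.ordD))⁻¹

omit [IsTotallyComplex L] in
theorem wt_pos (t : Idl L) : 0 < wt t := inv_pos.mpr (Real.sqrt_pos.mpr (normD_pos _))

omit [IsTotallyComplex L] in
theorem normD_neg (D : FPlace L →₀ ℤ) : normD (-D) = (normD D)⁻¹ :=
  eq_inv_of_mul_eq_one_left (by rw [← normD_add, neg_add_cancel, normD_zero])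

/-- The weights absorb the scalar of the transformation. -/
theorem TransRel.wt_factor (h : H.TransRel N γ t t' z) :
    wt t' * ((∏ w : InfinitePlace L,
      ‖w.embedding (((Matrix.GeneralLinearGroup.det γ / h.dU : Lˣ) : L) / h.dU)‖) * normD h.D) =
      wt t := by
  set x : Lˣ := Matrix.GeneralLinearGroup.det γ / h.dU / h.dU
  have e : divisor x = t'.ordD + -t.ordD + -(h.D + h.D) := by
    ext v
    simp only [x, divisor_apply, Fermat.Agent.CFT.ord_div, h.hdet, TransRel.D_apply,
      Finsupp.add_apply, Finsupp.neg_apply]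
    ring
  have h1 := normD_divisor x
  rw [e, normD_add, normD_add, normD_neg, normD_neg, normD_add, Finset.prod_pow] at h1
  have hp : ∀ w : InfinitePlace L,
      ‖w.embedding (((Matrix.GeneralLinearGroup.det γ / h.dU : Lˣ) : L) / h.dU)‖ =
        ‖w.embedding (x : L)‖ := fun w => by
    rw [Units.val_div_eq_div_val (Matrix.GeneralLinearGroup.det γ / h.dU) h.dU]
  rw [Finset.prod_congr rfl fun w _ => hp w]
  set P := ∏ w : InfinitePlace L, ‖w.embedding (x : L)‖
  have hP : 0 ≤ P := Finset.prod_nonneg fun w _ => norm_nonneg _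
  have hD := normD_pos h.D
  have ht := normD_pos t.ordD
  have ht' := normD_pos t'.ordD
  have h2 : P = Real.sqrt (normD t'.ordD) / Real.sqrt (normD t.ordD) / normD h.D := by
    refine (pow_left_inj₀ hP (by positivity) two_ne_zero).mp ?_
    rw [← h1, div_pow, div_pow, Real.sq_sqrt ht.le, Real.sq_sqrt ht'.le]
    field_simp
  rw [wt, wt, h2]
  have := Real.sqrt_pos.mpr ht'
  field_simp

/-- The transformation formula of the theta sums. -/
theorem TransRel.thetaSum_transform (h : H.TransRel N γ t t' z)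
    (hN : ∀ P : FPlace M, below L P ∈ H.S → 4 * (H.m : ℤ) + 2 * cond P ≤ N) {β : Lˣ}
    {o : FPlace M →₀ ℤ} (hrel : PairRel t β o) {s : InfinitePlace L → ℝ} (hs : ∀ w, 0 < s w)
    (p : Hyp L) :
    (wt t' : ℂ) * thetaSum (h.newβ β : L) s (γ • p)
        (H.phi t' (h.newβ β) (o - pullD M h.D)) =
      (wt t : ℂ) * thetaSum (β : L) s p (H.phi t β o) := by
  have hd := h.d_ne
  set e : Lˣ := h.dU
  set u : Lˣ := Matrix.GeneralLinearGroup.det γ / h.dU
  set δ := γ.val 1 0 / γ.val 1 1
  set Φ := H.phi t β o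
  set Φ' := H.phi t' (h.newβ β) (o - pullD M h.D)
  have hγ : γ • p = upGL u e (γ.val 0 1) • lowerGL δ • p := by
    rw [← mul_smul, ← h.eq_mul]
  have hβ' : (h.newβ β : L) * ((u : L) / e) = (β : L) := by
    have hΔ : ((Matrix.GeneralLinearGroup.det γ : Lˣ) : L) ≠ 0 := Units.ne_zero _
    simp only [u, e, TransRel.newβ, TransRel.dU, Units.val_mul, Units.val_div_eq_div_val,
      Units.val_pow_eq_pow_val, Units.val_mk0]
    field_simp
  have hl : (h.newβ β : L) * (γ.val 0 1 / e) = phaseCoeff γ β := by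
    simp only [e, TransRel.newβ, TransRel.dU, phaseCoeff, Units.val_mul,
      Units.val_div_eq_div_val, Units.val_pow_eq_pow_val, Units.val_mk0]
    field_simp
  have hm : ∀ P, 0 ≤ H.modD P := fun P => by simpa using H.modD_nonneg P
  have hD : ∀ P, 0 ≤ pullD M h.D P := fun P => by simpa using pullD_nonneg (M := M) h.D_nonneg P
  have hper : ∀ x c, c ∈ Lat (o + H.modD) →
      gTerm (phaseCoeff γ β) (x + c) * Φ' (x + c) = gTerm (phaseCoeff γ β) x * Φ' x := by
    intro x c hc
    have h1 : Φ' (x + c) = Φ' x := H.phi_add (h.newβ_rel hrel) x (Lat_anti (fun P => by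
      have := hD P; simp only [Finsupp.sub_apply, Finsupp.add_apply]; omega) hc)
    rw [h1]
    by_cases hx : x ∈ Lat (o - pullD M h.D)
    · rw [h.phase_periodic hrel hx hc]
    · rw [show Φ' x = 0 from H.phi_of_notMem hx, mul_zero, mul_zero]
  rw [hγ, thetaSum_upper, hβ', hl, thetaSum_poisson β.ne_zero hs _
    (ω := o - pullD M h.D) (ω' := o + H.modD)
    (fun P => by
      have := hD P; have := hm P; simp only [Finsupp.sub_apply, Finsupp.add_apply]; omega)
    (fun x hx => by rw [show Φ' x = 0 from H.phi_of_notMem hx, mul_zero]) hper,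
    invHyp_lower, thetaSum_upper]
  simp only [Units.val_one, div_one, mul_one, mul_neg, map_one, norm_one, Complex.ofReal_one,
    Finset.prod_const_one, one_mul]
  rw [show (fun y => gTerm (-((β : L) * δ)) y *
      fourierQ (β : L) (o - pullD M h.D) (o + H.modD)
        (fun x => gTerm (phaseCoeff γ β) x * Φ' x) y) =
      fun y => (normD h.D : ℂ) * fourierQ (β : L) o (o + H.modD) Φ y from
    funext fun y => h.fourierQ_transform hrel hN y]
  rw [thetaSum_poisson β.ne_zero hs p (ω := o) (ω' := o + H.modD) (fun P => by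
      have := hm P; simp only [Finsupp.add_apply]; omega)
    (fun x hx => H.phi_of_notMem hx) (fun x c hc => H.phi_add hrel x hc),
    ← h.wt_factor]
  simp only [thetaSum, mul_assoc, tsum_mul_left, Complex.ofReal_mul, Complex.ofReal_prod, u, e]
  ring

end HeckeChar

end Fermat.Agent.ResidualThree.ThetaInduction
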