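import Fermat.Agent.ResidualThree.Automorphic.Approx
import Fermat.Agent.ResidualThree.ThetaInduction.TorusInt
import Fermat.Agent.ResidualThree.ThetaInduction.Transform

/-!
# Orbits of pairs under `M^×` and the unfolding of theta integrals

A pair `(β, o)` of a coefficient `β ∈ L^×` and a divisor `o` of `M` describes one theta sum;
`μ ∈ M^×` acts on pairs by `(β, o) ↦ (β N(μ), o - div μ)`, and for a fixed ideal datum `t` there
are only finitely many orbits (finiteness of the class group and the unit theorem). Summing the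
torus integrals of a system of representatives unfolds to an absolutely convergent Whittaker
series over the pairs with nonpositive divisor (`HeckeChar.hasSum_cTerm`,
`HeckeChar.exists_norm_bound`); the constant terms cancel because the character is nontrivial
(`HeckeChar.sum_phi_zero`). The resulting function `HeckeChar.thetaF` transforms correctly
under the matrices of a transformation relation (`HeckeChar.thetaF_smul`).
-/

noncomputable section

open NumberField Module MeasureTheory IsDedekindDomain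

namespace Fermat.Agent.ResidualThree.ThetaInduction

open Fermat.Agent.CFT (OrdGE ord below ram baseU)

variable {L M : Type} [Field L] [NumberField L] [Field M] [NumberField M]
  [Algebra L M] [Algebra.IsQuadraticExtension L M]

/-- An element of order zero everywhere is a unit of the ring of integers. -/
theorem exists_unit_of_ord_eq_zero {x : Lˣ} (h : ∀ v, ord v x = 0) :
    ∃ u : (𝓞 L)ˣ, Units.map (algebraMap (𝓞 L) L : 𝓞 L →* L) u = x := by
  obtain ⟨a, ha⟩ := HeightOneSpectrum.mem_integers_of_valuation_le_one L (x : L) fun v => by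
    rw [Fermat.Agent.CFT.valuation_eq_exp, h v, neg_zero, WithZero.exp_zero]
  obtain ⟨b, hb⟩ := HeightOneSpectrum.mem_integers_of_valuation_le_one L ((x⁻¹ : Lˣ) : L)
      fun v => by
    rw [Fermat.Agent.CFT.valuation_eq_exp, Fermat.Agent.CFT.ord_inv, h v, neg_zero, neg_zero,
      WithZero.exp_zero]
  have hab : a * b = 1 := RingOfIntegers.coe_injective (by
    show algebraMap (𝓞 L) L (a * b) = algebraMap (𝓞 L) L 1
    rw [map_mul, ha, hb, map_one]
    exact x.mul_inv)
  exact ⟨⟨a, b, hab, by rw [mul_comm]; exact hab⟩, Units.ext ha⟩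

theorem ord_map_unit (v : FPlace L) (u : (𝓞 L)ˣ) :
    ord v (Units.map (algebraMap (𝓞 L) L : 𝓞 L →* L) u) = 0 := by
  have h0 : ∀ s : (𝓞 L)ˣ, 0 ≤ ord v (Units.map (algebraMap (𝓞 L) L : 𝓞 L →* L) s) := fun s =>
    (Fermat.Agent.CFT.ordGE_iff _ (Units.map (algebraMap (𝓞 L) L : 𝓞 L →* L) s) 0).mp
      (Fermat.Agent.CFT.ordGE_algebraMap (v := v) (s : 𝓞 L))
  have h1 := h0 u
  have h2 := h0 u⁻¹
  rw [map_inv, Fermat.Agent.CFT.ord_inv] at h2
  omega

/-- The units modulo squares are finite. -/
theorem exists_square_reps : ∃ R : Set (𝓞 L)ˣ, R.Finite ∧ ∀ u, ∃ r ∈ R, ∃ η, u = r * η ^ 2 := by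
  classical
  refine ⟨Set.range fun q : Units.torsion L × (Fin (Units.rank L) → Bool) =>
    (q.1 : (𝓞 L)ˣ) * ∏ i, Units.fundSystem L i ^ (if q.2 i then (1 : ℤ) else 0),
    Set.finite_range _, fun u => ?_⟩
  obtain ⟨⟨ζ, e⟩, he, -⟩ := Units.exist_unique_eq_mul_prod L u
  refine ⟨_, ⟨(ζ, fun i => decide (e i % 2 = 1)), rfl⟩, ∏ i, Units.fundSystem L i ^ (e i / 2), ?_⟩
  rw [he, mul_assoc, ← Finset.prod_pow, ← Finset.prod_mul_distrib]
  refine congrArg _ (Finset.prod_congr rfl fun i _ => ?_)
  rw [← zpow_natCast (Units.fundSystem L i ^ _), ← zpow_mul, ← zpow_add]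
  congr 1
  by_cases h : e i % 2 = 1 <;> simp [h] <;> omega

variable (L M) in
/-- A coefficient and a divisor. -/
abbrev PairLM : Type := Lˣ × (FPlace M →₀ ℤ)

/-- The action of `M^×` on pairs. -/
def act (μ : Mˣ) (q : PairLM L M) : PairLM L M :=
  (q.1 * Units.map (Algebra.norm L : M →* L) μ, q.2 - divisor μ)

omit [NumberField L] [Algebra.IsQuadraticExtension L M] in
theorem act_one (q : PairLM L M) : act 1 q = q := by simp [act, divisor_one]

omit [NumberField L] [Algebra.IsQuadraticExtension L M] in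
theorem act_mul (μ ν : Mˣ) (q : PairLM L M) : act (μ * ν) q = act μ (act ν q) := by
  simp only [act, map_mul, divisor_mul]
  refine Prod.ext ?_ ?_
  · simp only; rw [mul_comm (Units.map (Algebra.norm L : M →* L) μ), mul_assoc]
  · simp only; abel

theorem act_pairRel {t : Idl L} {q : PairLM L M} (h : HeckeChar.PairRel t q.1 q.2) (μ : Mˣ) :
    HeckeChar.PairRel t (act μ q).1 (act μ q).2 := fun P => by
  have h1 := h P
  have h2 := ord_norm (L := L) P μ
  simp only [act, Fermat.Agent.CFT.ord_mul, Finsupp.sub_apply, divisor_apply, mul_add]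
  linarith

variable (M) in
/-- The pairs of a datum. -/
abbrev PairSet (t : Idl L) : Type := {q : PairLM L M // HeckeChar.PairRel t q.1 q.2}

variable (M) in
/-- The orbit relation. -/
def pairSetoid (t : Idl L) : Setoid (PairSet M t) where
  r q q' := ∃ μ : Mˣ, act μ q.1 = q'.1
  iseqv :=
    { refl := fun q => ⟨1, act_one _⟩
      symm := fun ⟨μ, h⟩ => ⟨μ⁻¹, by rw [← h, ← act_mul, inv_mul_cancel, act_one]⟩
      trans := fun ⟨μ, h⟩ ⟨ν, h'⟩ => ⟨ν * μ, by rw [act_mul, h, h']⟩ }

variable (M) in
/-- The orbits. -/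
def Orb (t : Idl L) : Type := Quotient (pairSetoid M t)

/-- The orbit of a pair. -/
def orbMk {t : Idl L} (q : PairSet M t) : Orb M t := Quotient.mk (pairSetoid M t) q

theorem orbMk_eq_iff {t : Idl L} {q q' : PairSet M t} :
    orbMk q = orbMk q' ↔ ∃ μ : Mˣ, act μ q.1 = q'.1 :=
  Quotient.eq (r := pairSetoid M t)

variable (M) in
/-- There are only finitely many orbits. -/
theorem finite_orb (t : Idl L) : Finite (Orb M t) := by
  classical
  obtain ⟨E, hE, -, hEx⟩ := exists_finite_exponents (F := M)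
  obtain ⟨R, hR, hsq⟩ := exists_square_reps (L := L)
  have hmove : ∀ q : PairSet M t, ∃ q' : PairSet M t, orbMk q = orbMk q' ∧ ⇑q'.1.2 ∈ E := by
    intro q
    obtain ⟨e, he, l, hl⟩ := hEx (fun P => q.1.2 P)
      (Filter.mem_of_superset q.1.2.support.finite_toSet.compl_mem_cofinite fun P hP =>
        Finsupp.notMem_support_iff.mp hP)
    refine ⟨⟨act l⁻¹ q.1, act_pairRel q.2 _⟩, orbMk_eq_iff.mpr ⟨l⁻¹, rfl⟩, ?_⟩
    convert he using 1
    funext P
    have h := hl P
    rw [Fermat.Agent.CFT.valuation_eq_exp, WithZero.exp_inj] at h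
    simp only [act, Finsupp.sub_apply, divisor_apply, Fermat.Agent.CFT.ord_inv]
    omega
  have hfin : ∀ e ∈ E, {c : Orb M t | ∃ q : PairSet M t, orbMk q = c ∧ ⇑q.1.2 = e}.Finite := by
    intro e _
    by_cases hne : {c : Orb M t | ∃ q : PairSet M t, orbMk q = c ∧ ⇑q.1.2 = e}.Nonempty
    swap
    · rw [Set.not_nonempty_iff_eq_empty.mp hne]; exact Set.finite_empty
    obtain ⟨c₁, q₁, -, hq₁⟩ := hne
    have hrel : ∀ r : (𝓞 L)ˣ, HeckeChar.PairRel t
        (q₁.1.1 * Units.map (algebraMap (𝓞 L) L : 𝓞 L →* L) r) q₁.1.2 := fun r P => by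
      rw [Fermat.Agent.CFT.ord_mul, ord_map_unit, add_zero]
      exact q₁.2 P
    let mkR : (𝓞 L)ˣ → PairSet M t := fun r =>
      ⟨(q₁.1.1 * Units.map (algebraMap (𝓞 L) L : 𝓞 L →* L) r, q₁.1.2), hrel r⟩
    refine (hR.image fun r => orbMk (mkR r)).subset ?_
    rintro _ ⟨q, rfl, hq⟩
    have ho : q.1.2 = q₁.1.2 := DFunLike.coe_injective (hq.trans hq₁.symm)
    obtain ⟨u, hu⟩ := exists_unit_of_ord_eq_zero (x := q.1.1 / q₁.1.1) fun v => by
      obtain ⟨P, rfl⟩ := Fermat.Agent.CFT.exists_below_eq (L := M) v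
      have h1 := q.2 P
      have h2 := q₁.2 P
      rw [ho] at h1
      have h3 : (ram L P : ℤ) * (ord (below L P) q.1.1 - ord (below L P) q₁.1.1) = 0 := by
        linarith
      rw [Fermat.Agent.CFT.ord_div]
      rcases mul_eq_zero.mp h3 with h4 | h4
      · exfalso; rcases ram_le_two (L := L) P with h5 | h5 <;> omega
      · exact h4
    obtain ⟨r, hr, η, rfl⟩ := hsq u
    refine ⟨r, hr, orbMk_eq_iff.mpr
      ⟨baseU L M (Units.map (algebraMap (𝓞 L) L : 𝓞 L →* L) η), Prod.ext ?_ ?_⟩⟩
    · simp only [act]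
      have hN : Units.map (Algebra.norm L : M →* L)
          (baseU L M (Units.map (algebraMap (𝓞 L) L : 𝓞 L →* L) η)) =
          Units.map (algebraMap (𝓞 L) L : 𝓞 L →* L) η ^ 2 := by
        refine Units.ext ?_
        simp [baseU, Algebra.norm_algebraMap, Algebra.IsQuadraticExtension.finrank_eq_two]
      rw [hN, mul_assoc, ← map_pow, ← map_mul, hu, mul_div_cancel]
    · simp only [act]
      rw [ho, sub_eq_self]
      ext P
      rw [divisor_apply, Fermat.Agent.CFT.ord_baseU, ord_map_unit, mul_zero, Finsupp.coe_zero,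
        Pi.zero_apply]
  refine Finite.of_finite_univ ((hE.biUnion hfin).subset fun c _ => ?_)
  obtain ⟨q, rfl⟩ := Quotient.exists_rep c
  obtain ⟨q', h1, h2⟩ := hmove q
  exact Set.mem_biUnion h2 ⟨q', h1.symm, rfl⟩

/-- The divisor `τP - P` changes sign under the conjugation `τ` of `M / L`. -/
theorem single_tauP_sub_add (P Q : FPlace M) :
    (Finsupp.single (tauP L P) (1 : ℤ) - Finsupp.single P 1 : FPlace M →₀ ℤ) Q +
      (Finsupp.single (tauP L P) (1 : ℤ) - Finsupp.single P 1 : FPlace M →₀ ℤ) (tauP L Q) = 0 := by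
  classical
  simp only [Finsupp.sub_apply, Finsupp.single_apply]
  have h1 : tauP L P = tauP L Q ↔ P = Q :=
    ⟨fun h => by rw [← tauP_tauP (L := L) P, h, tauP_tauP], fun h => by rw [h]⟩
  have h2 : P = tauP L Q ↔ tauP L P = Q :=
    ⟨fun h => by rw [h, tauP_tauP], fun h => by rw [← h, tauP_tauP]⟩
  simp only [h1, h2]
  ring

/-- A system of representatives of the orbits. -/
def IsReps {t : Idl L} (rep : Orb M t → PairSet M t) : Prop := ∀ c, orbMk (rep c) = c

variable (M) in
/-- The chosen representatives. -/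
def outRep (t : Idl L) (c : Orb M t) : PairSet M t := Quotient.out (s := pairSetoid M t) c

theorem isReps_out (t : Idl L) : IsReps (outRep M t) := fun c =>
  Quotient.out_eq (s := pairSetoid M t) c

namespace HeckeChar

variable (H : HeckeChar L M)

/-- The coefficient pairs: a coefficient and a nonpositive divisor. -/
abbrev CPair (t : Idl L) : Type := {q : PairSet M t // q.1.2 ≤ 0 ∧ H.Cong t (q.1.1 : L)}

/-- The periodic function of a pair. -/
def pairPhi {t : Idl L} (q : PairSet M t) : M → ℂ := H.phi t q.1.1 q.1.2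

theorem pairPhi_supp {t : Idl L} (q : PairSet M t) :
    ∀ x, x ∉ Lat q.1.2 → H.pairPhi q x = 0 := fun _ hx => H.phi_of_notMem hx

theorem norm_pairPhi_le {t : Idl L} (q : PairSet M t) : ∀ x, ‖H.pairPhi q x‖ ≤ 1 :=
  H.norm_phi_le t q.1.1 q.1.2

/-- The term of a coefficient pair. -/
def cTerm (t : Idl L) (p : Hyp L) (q : H.CPair t) : ℂ :=
  H.psiDiv (-q.1.1.2) * whit (q.1.1.1 : L) p

/-- The series of a datum. -/
def cSeries (t : Idl L) (p : Hyp L) : ℂ := ∑' q, H.cTerm t p q

/-- Twisting the divisors of orbits by a divisor `d` with `d + τd = 0`. -/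
def twistOrb {t : Idl L} (d : FPlace M →₀ ℤ) (hd : ∀ Q, d Q + d (tauP L Q) = 0) :
    Orb M t ≃ Orb M t where
  toFun := Quotient.map (sa := pairSetoid M t) (sb := pairSetoid M t)
    (fun q => ⟨(q.1.1, q.1.2 + d), fun Q => by
      have h1 := q.2 Q
      have h2 := hd Q
      simp only [Finsupp.add_apply]
      linarith⟩)
    (by
      rintro q q' ⟨μ, h⟩
      refine ⟨μ, Prod.ext ((congrArg Prod.fst h : _) :) ?_⟩
      show q.1.2 + d - divisor μ = q'.1.2 + d
      rw [← congrArg Prod.snd h]
      simp only [act]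
      abel)
  invFun := Quotient.map (sa := pairSetoid M t) (sb := pairSetoid M t)
    (fun q => ⟨(q.1.1, q.1.2 - d), fun Q => by
      have h1 := q.2 Q
      have h2 := hd Q
      simp only [Finsupp.sub_apply]
      linarith⟩)
    (by
      rintro q q' ⟨μ, h⟩
      refine ⟨μ, Prod.ext ((congrArg Prod.fst h : _) :) ?_⟩
      show q.1.2 - d - divisor μ = q'.1.2 - d
      rw [← congrArg Prod.snd h]
      simp only [act]
      abel)
  left_inv c := by
    obtain ⟨q, rfl⟩ := Quotient.exists_rep c
    exact congrArg (Quotient.mk _) (Subtype.ext (Prod.ext rfl (add_sub_cancel_right _ _)))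
  right_inv c := by
    obtain ⟨q, rfl⟩ := Quotient.exists_rep c
    exact congrArg (Quotient.mk _) (Subtype.ext (Prod.ext rfl (sub_add_cancel _ _)))

variable [IsTotallyComplex L] {t : Idl L}

omit [IsTotallyComplex L] in
/-- An off-zero term vanishes at zero, off the lattice and off the congruence class. -/
theorem offZero_pairPhi_eq_zero {q : PairSet M t} {x : M}
    (hx : x = 0 ∨ x ∉ Lat q.1.2 ∨ ¬ H.Cong t ((q.1.1 : L) * Algebra.norm L x)) (b : L)
    (s : InfinitePlace L → ℝ) (p : Hyp L) : offZero b s p (H.pairPhi q) x = 0 := by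
  rw [offZero]
  by_cases hx0 : x = 0
  · rw [if_pos hx0]
  · rw [if_neg hx0, pairPhi, phi, if_neg fun hh =>
      (hx.resolve_left hx0).elim (fun h => h hh.1) (fun h => h hh.2), zero_mul]

omit [IsTotallyComplex L] in
/-- A function on the terms of all representatives is summed along the coefficient pairs. -/
theorem hasSum_transport {rep : Orb M t → PairSet M t} (hrep : IsReps rep)
    {F : Orb M t × M → ℂ}
    (hvan : ∀ c x, (x = 0 ∨ x ∉ Lat (rep c).1.2 ∨
      ¬ H.Cong t (((rep c).1.1 : L) * Algebra.norm L x)) → F (c, x) = 0)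
    {a : ℂ} (hF : HasSum F a) {G : H.CPair t → ℂ}
    (hfib : ∀ (q : H.CPair t) (c : Orb M t) (μ : Mˣ), act μ (rep c).1 = q.1.1 →
      HasSum (fun ν : normOne L M => F (c, ((ν : Mˣ) : M) * (μ : M))) (G q)) :
    HasSum G a := by
  classical
  choose μ hμ using fun q : H.CPair t => orbMk_eq_iff.mp (hrep (orbMk q.1))
  let g : H.CPair t × normOne L M → Orb M t × M := fun z =>
    (orbMk z.1.1, ((z.2 : Mˣ) : M) * (μ z.1 : M))
  have hnν : ∀ (ν : normOne L M) (q : PairLM L M), act (ν : Mˣ) q = q := fun ν q => by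
    refine Prod.ext ?_ ?_
    · show q.1 * Units.map (Algebra.norm L : M →* L) (ν : Mˣ) = q.1
      rw [show Units.map (Algebra.norm L : M →* L) (ν : Mˣ) = 1 from Units.ext ν.2.1, mul_one]
    · show q.2 - divisor (ν : Mˣ) = q.2
      rw [sub_eq_self]
      exact Finsupp.ext fun P => ν.2.2 P
  have hginj : Function.Injective g := by
    rintro ⟨q, ν⟩ ⟨q', ν'⟩ h
    simp only [g, Prod.mk.injEq] at h
    obtain ⟨hc, hx⟩ := h
    have hx' : (ν : Mˣ) * μ q = (ν' : Mˣ) * μ q' := Units.ext hx
    have hq : q = q' := by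
      refine Subtype.ext (Subtype.ext ?_)
      rw [← hμ q, ← hμ q', ← hnν ν (act (μ q) _), ← hnν ν' (act (μ q') _), ← act_mul, ← act_mul,
        hx', hc]
    subst hq
    simp [Subtype.ext (mul_right_cancel hx')]
  have hrange : ∀ z, z ∉ Set.range g → F z = 0 := by
    rintro ⟨c, x⟩ hz
    by_contra hne
    have hc := mt (hvan c x) hne
    push Not at hc
    obtain ⟨hx0, hxL, hxC⟩ := hc
    set xu := Units.mk0 x hx0
    let q : H.CPair t := ⟨⟨act xu (rep c).1, act_pairRel (rep c).2 xu⟩, fun P => by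
        have h := (mem_Lat_iff_ord xu).mp hxL P
        simp only [act, Finsupp.sub_apply, divisor_apply, Finsupp.coe_zero, Pi.zero_apply]
        omega, hxC⟩
    have hqc : orbMk q.1 = c :=
      (orbMk_eq_iff.mpr ⟨xu, rfl⟩).symm.trans (hrep c)
    have h1 := hμ q
    rw [hqc] at h1
    have hmem : xu * (μ q)⁻¹ ∈ normOne L M := by
      constructor
      · have hN : (Units.map (Algebra.norm L : M →* L)) xu =
            Units.map (Algebra.norm L : M →* L) (μ q) :=
          mul_left_cancel (congrArg Prod.fst h1).symm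
        show Algebra.norm L ((xu * (μ q)⁻¹ : Mˣ) : M) = 1
        exact congrArg Units.val (show Units.map (Algebra.norm L : M →* L) (xu * (μ q)⁻¹) = 1 by
          rw [map_mul, map_inv, hN, mul_inv_cancel])
      · intro P
        have hd : ord P (μ q) = ord P xu :=
          DFunLike.congr_fun (sub_right_inj.mp (congrArg Prod.snd h1)) P
        rw [Fermat.Agent.CFT.ord_mul, Fermat.Agent.CFT.ord_inv]
        omega
    refine hz ⟨(q, ⟨_, hmem⟩), ?_⟩
    simp only [g, hqc, Prod.mk.injEq, true_and]
    rw [← Units.val_mul, inv_mul_cancel_right]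
    rfl
  exact ((hginj.hasSum_iff hrange).mpr hF).prod_fiberwise fun q => hfib q _ _ (hμ q)

omit [IsTotallyComplex L] in
theorem pairPhi_orbit {q : H.CPair t} {r : PairSet M t} {μ : Mˣ} (hμ : act μ r.1 = q.1.1)
    {ν : Mˣ} (hν : ν ∈ normOne L M) :
    H.pairPhi r ((ν : M) * (μ : M)) = H.psiDiv (-q.1.1.2) := by
  have hd : divisor (ν * μ) - r.1.2 = -q.1.1.2 := by
    rw [divisor_mul, show divisor ν = 0 from Finsupp.ext fun P => hν.2 P, zero_add, ← hμ]
    simp [act]
  have hmem : (ν : M) * (μ : M) ∈ Lat r.1.2 := by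
    rw [← Units.val_mul, mem_Lat_iff_ord]
    intro P
    have h1 := DFunLike.congr_fun hd P
    have h2 := q.2.1 P
    simp only [Finsupp.sub_apply, Finsupp.neg_apply, divisor_apply] at h1
    simp only [Finsupp.coe_zero, Pi.zero_apply] at h2
    omega
  have hc : H.Cong t ((r.1.1 : L) * Algebra.norm L ((ν : M) * (μ : M))) := by
    rw [map_mul, hν.1, one_mul]
    have := q.2.2
    rwa [← hμ] at this
  rw [pairPhi, phi, if_pos ⟨hmem, hc⟩, dif_neg (mul_ne_zero ν.ne_zero μ.ne_zero),
    show Units.mk0 _ _ = ν * μ from Units.ext rfl, hd]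

omit [IsTotallyComplex L] in
theorem kerInf_orbit {q : H.CPair t} {r : PairSet M t} {μ : Mˣ} (hμ : act μ r.1 = q.1.1)
    (p : Hyp L) :
    ∫ u : InfinitePlace L → ℝ, kerInf (r.1.1 : L) (sExp u) p (embM L (μ : M)) =
      whit (q.1.1.1 : L) p := by
  rw [integral_kerInf_torus _ μ.ne_zero, ← hμ]
  rfl

/-- The number of norm-one units with logarithm in the fundamental domain. -/
def wCard (L M : Type) [Field L] [NumberField L] [Field M] [NumberField M] [Algebra L M]
    [Algebra.IsQuadraticExtension L M] [IsTotallyComplex L] : ℕ :=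
  (finite_unitReps L M).toFinset.card

theorem wCard_pos : 0 < wCard L M := card_unitReps_pos

/-- **The unfolding**: the torus integrals of a system of representatives. -/
theorem hasSum_cTerm [Fintype (Orb M t)] {rep : Orb M t → PairSet M t} (hrep : IsReps rep)
    (p : Hyp L) :
    HasSum (fun q : H.CPair t => (wCard L M : ℂ) * H.cTerm t p q)
      (∑ c, torusRem ((rep c).1.1 : L) (H.pairPhi (rep c)) p) := by
  classical
  have h := fun c => hasSum_torusRem (rep c).1.1.ne_zero (H.pairPhi_supp (rep c))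
    (H.norm_pairPhi_le (rep c)) p
  set F : Orb M t × M → ℂ := fun z => ∫ u in torusDom L M,
    offZero ((rep z.1).1.1 : L) (sExp u) p (H.pairPhi (rep z.1)) z.2
  have hFs : Summable F := by
    refine Summable.of_norm_bounded (g := fun z : Orb M t × M => ∫ u in torusDom L M,
      ‖offZero ((rep z.1).1.1 : L) (sExp u) p (H.pairPhi (rep z.1)) z.2‖) ?_
      fun z => norm_integral_le_integral_norm _
    exact (summable_prod_of_nonneg fun z => integral_nonneg fun _ => norm_nonneg _).mpr
      ⟨fun c => (h c).2, Summable.of_finite⟩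
  have hF : HasSum F (∑ c, torusRem ((rep c).1.1 : L) (H.pairPhi (rep c)) p) := by
    have e : ∑' z, F z = ∑ c, torusRem ((rep c).1.1 : L) (H.pairPhi (rep c)) p := by
      rw [hFs.tsum_prod, tsum_fintype]
      exact Finset.sum_congr rfl fun c _ => (h c).1.tsum_eq
    exact e ▸ hFs.hasSum
  refine H.hasSum_transport hrep (fun c x hx => ?_) hF fun q c μ hμ => ?_
  · simp [F, H.offZero_pairPhi_eq_zero hx]
  · have hg := (hasSum_unfold (L := L) (M := M)
      (integrable_kerInf_torus (rep c).1.1.ne_zero μ.ne_zero p)).mul_left (H.psiDiv (-q.1.1.2))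
    rw [show (wCard L M : ℂ) * H.cTerm t p q = H.psiDiv (-q.1.1.2) * ((wCard L M : ℂ) *
      ∫ u : InfinitePlace L → ℝ, kerInf ((rep c).1.1 : L) (sExp u) p (embM L (μ : M))) by
        rw [H.kerInf_orbit hμ, cTerm]; ring]
    refine hg.congr_fun fun ν => ?_
    simp only [F, offZero, if_neg (mul_ne_zero (Units.ne_zero (ν : Mˣ)) μ.ne_zero)]
    rw [← integral_const_mul]
    refine setIntegral_congr_fun torusDom_measurableSet fun u _ => ?_
    rw [H.pairPhi_orbit hμ ν.2, kerInf_normOne _ ν.2]

/-- Absolute convergence, uniform where the heights are bounded below. -/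
theorem exists_norm_bound (t : Idl L) {c₀ : ℝ} (hc₀ : 0 < c₀) :
    ∃ C : ℝ, ∀ p : Hyp L, (∀ w, c₀ ≤ (p w).y) →
      Summable (fun q : H.CPair t => ‖H.cTerm t p q‖) ∧ ∑' q, ‖H.cTerm t p q‖ ≤ C := by
  classical
  have := finite_orb M t
  let := Fintype.ofFinite (Orb M t)
  set rep := outRep M t
  choose f hf hf0 hle using fun c => exists_offZero_majorant (rep c).1.1.ne_zero
    (H.pairPhi_supp (rep c)) (H.norm_pairPhi_le (rep c)) hc₀
  refine ⟨(∑ c, volume.real (torusDom L M) * ∑' x, f c x) / wCard L M, fun p hp => ?_⟩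
  have : Countable M := (Module.finBasis ℚ M).equivFun.injective.countable
  have : IsFiniteMeasure (volume.restrict (torusDom L M)) :=
    isFiniteMeasure_restrict.mpr volume_torusDom_lt_top.ne
  set F : Orb M t × M → ℂ := fun z => ((∫ u in torusDom L M,
    ‖offZero ((rep z.1).1.1 : L) (sExp u) p (H.pairPhi (rep z.1)) z.2‖ : ℝ) : ℂ)
  set G : H.CPair t → ℝ := fun q => (wCard L M : ℝ) *
    ∫ u : InfinitePlace L → ℝ, ‖kerInf ((rep (orbMk q.1)).1.1 : L) (sExp u) p
      (embM L ((orbMk_eq_iff.mp (isReps_out t (orbMk q.1))).choose : M))‖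
  have hsum : ∀ c, Summable fun x => ∫ u in torusDom L M,
      ‖offZero ((rep c).1.1 : L) (sExp u) p (H.pairPhi (rep c)) x‖ := fun c =>
    (hasSum_torusRem (rep c).1.1.ne_zero (H.pairPhi_supp (rep c)) (H.norm_pairPhi_le (rep c)) p).2
  set S := ∑ c, ∑' x, ∫ u in torusDom L M,
    ‖offZero ((rep c).1.1 : L) (sExp u) p (H.pairPhi (rep c)) x‖
  have hFR : HasSum (fun z : Orb M t × M => ∫ u in torusDom L M,
      ‖offZero ((rep z.1).1.1 : L) (sExp u) p (H.pairPhi (rep z.1)) z.2‖) S := by
    have hs : Summable (fun z : Orb M t × M => ∫ u in torusDom L M,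
        ‖offZero ((rep z.1).1.1 : L) (sExp u) p (H.pairPhi (rep z.1)) z.2‖) :=
      (summable_prod_of_nonneg fun z => integral_nonneg fun _ => norm_nonneg _).mpr
        ⟨hsum, Summable.of_finite⟩
    have e := hs.hasSum
    rwa [hs.tsum_prod, tsum_fintype] at e
  have hF : HasSum F (S : ℂ) := Complex.hasSum_ofReal.mpr hFR
  have hG : HasSum (fun q => ((G q : ℝ) : ℂ)) (S : ℂ) := by
    refine H.hasSum_transport (isReps_out t) (fun c x hx => ?_) hF fun q c μ hμ => ?_
    · simp [F, H.offZero_pairPhi_eq_zero (q := rep c) hx]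
    · have hc : c = orbMk q.1 :=
        (isReps_out t c).symm.trans (orbMk_eq_iff.mpr ⟨μ, hμ⟩)
      subst hc
      set μ' := (orbMk_eq_iff.mp (isReps_out t (orbMk q.1))).choose
      have hμ' : act μ' (rep (orbMk q.1)).1 = q.1.1 :=
        (orbMk_eq_iff.mp (isReps_out t (orbMk q.1))).choose_spec
      have hn : ∀ ν : Mˣ, ν = μ * μ'⁻¹ → ν ∈ normOne L M := by
        rintro ν rfl
        have h1 := hμ.trans hμ'.symm
        constructor
        · exact congrArg Units.val (show Units.map (Algebra.norm L : M →* L) (μ * μ'⁻¹) = 1 by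
            rw [map_mul, map_inv, mul_left_cancel (congrArg Prod.fst h1), mul_inv_cancel])
        · intro P
          have hd : ord P μ = ord P μ' :=
            DFunLike.congr_fun (sub_right_inj.mp (congrArg Prod.snd h1)) P
          rw [Fermat.Agent.CFT.ord_mul, Fermat.Agent.CFT.ord_inv]
          omega
      set ν₀ : normOne L M := ⟨_, hn _ rfl⟩
      have hg := hasSum_unfold (L := L) (M := M)
        (g := fun u =>
          ((‖kerInf ((rep (orbMk q.1)).1.1 : L) (sExp u) p (embM L (μ' : M))‖ : ℝ) : ℂ))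
        (integrable_kerInf_torus (rep (orbMk q.1)).1.1.ne_zero μ'.ne_zero p).norm.ofReal
      rw [integral_complex_ofReal] at hg
      rw [show ((G q : ℝ) : ℂ) = ((finite_unitReps L M).toFinset.card : ℂ) *
        ((∫ u : InfinitePlace L → ℝ,
          ‖kerInf ((rep (orbMk q.1)).1.1 : L) (sExp u) p (embM L (μ' : M))‖ : ℝ) : ℂ) by
          simp only [G, wCard, μ']; push_cast; rfl]
      refine ((Equiv.mulRight ν₀).hasSum_iff.mpr hg).congr_fun fun ν => ?_
      simp only [F, Function.comp_apply, Equiv.coe_mulRight, offZero,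
        if_neg (mul_ne_zero (Units.ne_zero (ν : Mˣ)) μ.ne_zero)]
      rw [← integral_complex_ofReal]
      refine setIntegral_congr_fun torusDom_measurableSet fun u _ => ?_
      rw [norm_mul, H.pairPhi_orbit hμ ν.2, H.norm_psiDiv, one_mul,
        show ((ν : Mˣ) : M) * (μ : M) = (((ν * ν₀ : normOne L M) : Mˣ) : M) * (μ' : M) by
          simp [ν₀, mul_assoc],
        kerInf_normOne _ (ν * ν₀).2]
  have hGR : HasSum G S := Complex.hasSum_ofReal.mp hG
  have hW : (0 : ℝ) < wCard L M := Nat.cast_pos.mpr wCard_pos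
  have hle' : ∀ q, ‖H.cTerm t p q‖ ≤ G q / wCard L M := fun q => by
    have hμ' := (orbMk_eq_iff.mp (isReps_out t (orbMk q.1))).choose_spec
    rw [cTerm, norm_mul, H.norm_psiDiv, one_mul, ← H.kerInf_orbit hμ' p]
    simp only [G]
    rw [mul_div_cancel_left₀ _ hW.ne']
    exact norm_integral_le_integral_norm _
  have hs := Summable.of_nonneg_of_le (fun q => norm_nonneg _) hle' (hGR.summable.div_const _)
  refine ⟨hs, (hs.tsum_le_tsum hle' (hGR.summable.div_const _)).trans ?_⟩
  rw [(hGR.div_const _).tsum_eq]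
  refine div_le_div_of_nonneg_right (Finset.sum_le_sum fun c _ => ?_) hW.le
  rw [← tsum_mul_left]
  refine (hsum c).tsum_le_tsum (fun x => ?_) ((hf c).mul_left _)
  refine (integral_mono_of_nonneg (Filter.Eventually.of_forall fun _ => norm_nonneg _)
    (integrable_const (f c x)) ((ae_restrict_mem torusDom_measurableSet).mono fun u hu =>
      hle c p hp u hu x)).trans_eq ?_
  rw [setIntegral_const, smul_eq_mul]

omit [IsTotallyComplex L] in
/-- The representatives of an orbit have the same value at zero without exceptional places. -/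
theorem psiDiv_act (hS : H.S = ∅) (μ : Mˣ) (q : PairLM L M) :
    H.psiDiv (-(act μ q).2) = H.psiDiv (-q.2) := by
  rw [act, neg_sub, sub_eq_add_neg, H.psiDiv_add,
    show H.psiDiv (divisor μ) = 1 from H.ray μ fun P hP => by simp [hS] at hP, one_mul]

omit [IsTotallyComplex L] in
/-- The zero terms cancel. -/
theorem sum_phi_zero [Fintype (Orb M t)] {rep : Orb M t → PairSet M t} (hrep : IsReps rep) :
    ∑ c, H.pairPhi (rep c) 0 = 0 := by
  classical
  by_cases hS : H.S = ∅
  swap
  · refine Finset.sum_eq_zero fun c _ => if_neg fun hh => hS ?_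
    exact H.cong_zero (t := t) (β := (rep c).1.1) hh.2
  have hval : ∀ c, H.pairPhi (rep c) 0 = H.psiDiv (-(rep c).1.2) := fun c => by
    rw [pairPhi, phi, if_pos ⟨zero_mem _, fun v hv => by simp [hS] at hv⟩, dif_pos rfl]
  simp only [hval]
  obtain ⟨P, -, hPS, hne⟩ := H.nontriv ∅
  set d : FPlace M →₀ ℤ := Finsupp.single (tauP L P) 1 - Finsupp.single P 1
  set e := twistOrb (t := t) d (single_tauP_sub_add P)
  have hkey : ∀ c, H.psiDiv (-(rep (e c)).1.2) = H.psiDiv (-d) * H.psiDiv (-(rep c).1.2) := by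
    intro c
    have h1 : orbMk (rep (e c)) = e (orbMk (rep c)) := by rw [hrep, hrep]
    obtain ⟨μ, hμ⟩ := orbMk_eq_iff.mp h1.symm
    rw [← hμ, H.psiDiv_act hS]
    show H.psiDiv (-((rep c).1.2 + d)) = _
    rw [neg_add, H.psiDiv_add, mul_comm]
  have h : H.psiDiv (-d) * ∑ c, H.psiDiv (-(rep c).1.2) = ∑ c, H.psiDiv (-(rep c).1.2) := by
    rw [Finset.mul_sum, ← Finset.sum_congr rfl fun c _ => hkey c]
    exact e.sum_comp fun c => H.psiDiv (-(rep c).1.2)
  have hne1 : H.psiDiv (-d) ≠ 1 := by
    intro h1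
    refine hne ?_
    have e : H.psiDiv (-d) * H.psiDiv d = 1 := by
      rw [← H.psiDiv_add, neg_add_cancel, psiDiv_zero]
    rw [h1, one_mul, H.psiDiv_sub, psiDiv_single, psiDiv_single, zpow_one, zpow_one,
      div_eq_one_iff_eq (H.ψ_ne_zero P)] at e
    exact e
  by_contra h0
  exact hne1 ((mul_eq_right₀ h0).mp h)

/-- The automorphic theta function of a datum. -/
def thetaF (t : Idl L) (p : Hyp L) : ℂ :=
  haveI := finite_orb M t
  letI := Fintype.ofFinite (Orb M t)
  (wt t : ℂ) * ∑ c, torusInt ((outRep M t c).1.1 : L) (H.pairPhi (outRep M t c)) p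

theorem summable_cTerm (t : Idl L) (p : Hyp L) : Summable (H.cTerm t p) := by
  obtain ⟨c, hc, hp⟩ := exists_yMin p
  obtain ⟨C, hC⟩ := H.exists_norm_bound t hc
  exact Summable.of_norm (hC p fun w => (hp w).le).1

theorem sum_torusInt [Fintype (Orb M t)] {rep : Orb M t → PairSet M t} (hrep : IsReps rep)
    (p : Hyp L) :
    ∑ c, torusInt ((rep c).1.1 : L) (H.pairPhi (rep c)) p = (wCard L M : ℂ) * H.cSeries t p := by
  simp only [fun c => torusInt_eq (rep c).1.1.ne_zero (H.pairPhi_supp (rep c))
    (H.norm_pairPhi_le (rep c)) p]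
  rw [Finset.sum_add_distrib, ← Finset.mul_sum, ← Finset.sum_mul, H.sum_phi_zero hrep, zero_mul,
    mul_zero, zero_add, ← (H.hasSum_cTerm hrep p).tsum_eq, tsum_mul_left, cSeries]

/-- The theta function can be computed from any system of representatives. -/
theorem thetaF_eq [Fintype (Orb M t)] {rep : Orb M t → PairSet M t} (hrep : IsReps rep)
    (p : Hyp L) :
    H.thetaF t p = (wt t : ℂ) * ∑ c, torusInt ((rep c).1.1 : L) (H.pairPhi (rep c)) p := by
  rw [H.sum_torusInt hrep, thetaF]
  congr 1
  convert H.sum_torusInt (isReps_out t) p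

/-- The Whittaker series of the theta function. -/
theorem thetaF_series (t : Idl L) (p : Hyp L) :
    H.thetaF t p = (wt t : ℂ) * ((wCard L M : ℂ) * H.cSeries t p) := by
  have := finite_orb M t
  let := Fintype.ofFinite (Orb M t)
  rw [H.thetaF_eq (isReps_out t), H.sum_torusInt (isReps_out t)]

theorem continuous_thetaF (t : Idl L) : Continuous (H.thetaF t) := by
  unfold thetaF
  exact continuous_const.mul (continuous_finsetSum _ fun c _ => continuous_torusInt
    (outRep M t c).1.1.ne_zero (H.pairPhi_supp _) (H.norm_pairPhi_le _))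

/-- **Invariance** of the theta functions. -/
theorem thetaF_smul {N : ℕ} {γ : GL (Fin 2) L} {t' : Idl L} {z : FPlace L →₀ ℤ}
    (h : H.TransRel N γ t t' z)
    (hN : ∀ P : FPlace M, below L P ∈ H.S → 4 * (H.m : ℤ) + 2 * cond P ≤ N) (p : Hyp L) :
    H.thetaF t' (γ • p) = H.thetaF t p := by
  classical
  have := finite_orb M t
  let := Fintype.ofFinite (Orb M t)
  have := finite_orb M t'
  let := Fintype.ofFinite (Orb M t')
  set k : Lˣ := h.dU ^ 2 / Matrix.GeneralLinearGroup.det γ
  have hinv : ∀ q : PairSet M t',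
      PairRel t (q.1.1 / k) (q.1.2 + pullD M h.D) := fun q P => by
    have h1 := q.2 P
    have h2 := h.hdet (below L P)
    simp only [Finsupp.add_apply, pullD_tau]
    rw [Fermat.Agent.CFT.ord_div, Fermat.Agent.CFT.ord_div, Fermat.Agent.CFT.ord_pow, h2,
      pullD_apply, TransRel.D_apply]
    push_cast
    linear_combination h1
  let e : Orb M t ≃ Orb M t' :=
    { toFun := Quotient.map (sa := pairSetoid M t) (sb := pairSetoid M t')
        (fun q => ⟨(h.newβ q.1.1, q.1.2 - pullD M h.D), h.newβ_rel q.2⟩)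
        (by
          rintro q q' ⟨μ, hμ⟩
          refine ⟨μ, Prod.ext ?_ ?_⟩
          · show h.newβ q.1.1 * _ = h.newβ q'.1.1
            rw [← congrArg Prod.fst hμ]
            simp only [act, TransRel.newβ]
            exact mul_right_comm _ _ _
          · show q.1.2 - pullD M h.D - divisor μ = q'.1.2 - pullD M h.D
            rw [← congrArg Prod.snd hμ]
            simp only [act]
            abel)
      invFun := Quotient.map (sa := pairSetoid M t') (sb := pairSetoid M t)
        (fun q => ⟨(q.1.1 / k, q.1.2 + pullD M h.D), hinv q⟩)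
        (by
          rintro q q' ⟨μ, hμ⟩
          refine ⟨μ, Prod.ext ?_ ?_⟩
          · show q.1.1 / k * _ = q'.1.1 / k
            rw [← congrArg Prod.fst hμ]
            simp only [act]
            exact div_mul_eq_mul_div _ _ _
          · show q.1.2 + pullD M h.D - divisor μ = q'.1.2 + pullD M h.D
            rw [← congrArg Prod.snd hμ]
            simp only [act]
            abel)
      left_inv := fun c => by
        obtain ⟨q, rfl⟩ := Quotient.exists_rep c
        refine congrArg (Quotient.mk _) (Subtype.ext (Prod.ext ?_ ?_))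
        · show h.newβ q.1.1 / k = q.1.1
          exact mul_div_cancel_right _ _
        · show q.1.2 - pullD M h.D + pullD M h.D = q.1.2
          abel
      right_inv := fun c => by
        obtain ⟨q, rfl⟩ := Quotient.exists_rep c
        refine congrArg (Quotient.mk _) (Subtype.ext (Prod.ext ?_ ?_))
        · show h.newβ (q.1.1 / k) = q.1.1
          exact div_mul_cancel _ _
        · show q.1.2 + pullD M h.D - pullD M h.D = q.1.2
          abel }
  set rep := outRep M t
  let rep' : Orb M t' → PairSet M t' := fun c =>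
    ⟨(h.newβ (rep (e.symm c)).1.1, (rep (e.symm c)).1.2 - pullD M h.D),
      h.newβ_rel (rep (e.symm c)).2⟩
  have hrep' : IsReps rep' := fun c => by
    show e (orbMk (rep (e.symm c))) = c
    rw [isReps_out t, Equiv.apply_symm_apply]
  rw [H.thetaF_eq hrep', H.thetaF_eq (isReps_out t), Finset.mul_sum, Finset.mul_sum]
  refine (Fintype.sum_equiv e _ _ fun c => ?_).symm
  simp only [rep', Equiv.symm_apply_apply, torusInt, ← integral_const_mul, pairPhi]
  exact setIntegral_congr_fun torusDom_measurableSet fun u _ =>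
    (h.thetaSum_transform hN (rep c).2 (sExp_pos u) p).symm

end HeckeChar

end Fermat.Agent.ResidualThree.ThetaInduction
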