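import Fermat.Agent.ResidualThree.ThetaInduction.CongLocal
import Fermat.Agent.ResidualThree.ThetaInduction.Orbits

/-!
# The adelic lift of the theta functions

Every element of `GL₂` of the finite adeles is a rational matrix times the diagonal matrix of an
ideal datum times an element of the level `HeckeChar.thetaLevel` (`HeckeChar.exists_decomp`:
class number, strong approximation for unipotents). Two decompositions differ by a matrix
satisfying a transformation relation (`HeckeChar.exists_transRel`), under which the theta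
functions are invariant, so `HeckeChar.thetaPhi` is a well defined automorphic form
(`HeckeChar.isAutomorphic_thetaPhi`).
-/

noncomputable section

open IsDedekindDomain NumberField
open scoped WithZero

namespace Fermat.Agent.ResidualThree.ThetaInduction

open Fermat.Agent.CFT (OrdGE ord below ram)

variable {L M : Type} [Field L] [NumberField L] [Field M] [NumberField M]
  [Algebra L M] [Algebra.IsQuadraticExtension L M]

/-- The diagonal family of a datum. -/
def tDiag (t : Idl L) : Gf L :=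
  ⟨fun v => upGL (Units.mk0 (t.val v) (t.ne_zero v)) 1 0,
    show ∀ᶠ v in Filter.cofinite, upGL (Units.mk0 (t.val v) (t.ne_zero v)) 1 0 ∈ maxSubgroup v from
      t.eventually.mono fun v hv => upGL_mem_maxSubgroup_iff.mpr ⟨hv, by simp⟩⟩

theorem coe_tDiag (t : Idl L) (v : FPlace L) :
    (tDiag t : ∀ v, GLv v) v = upGL (Units.mk0 (t.val v) (t.ne_zero v)) 1 0 := rfl

/-- The conjugate of a global matrix by two data, at a place. -/
def locConj (t' t : Idl L) (γ : GL (Fin 2) L) (v : FPlace L) : GLv v :=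
  ((tDiag t' : ∀ v, GLv v) v)⁻¹ * toLocal v γ * (tDiag t : ∀ v, GLv v) v

theorem locConj_apply (t' t : Idl L) (γ : GL (Fin 2) L) (v : FPlace L) :
    ((locConj t' t γ v : GLv v) : Matrix (Fin 2) (Fin 2) (v.adicCompletion L)) =
      !![algebraMap L _ (γ.val 0 0) * t.val v / t'.val v, algebraMap L _ (γ.val 0 1) / t'.val v;
        algebraMap L _ (γ.val 1 0) * t.val v, algebraMap L _ (γ.val 1 1)] := by
  have := t'.ne_zero v
  rw [locConj, coe_tDiag, coe_tDiag, upGL_inv, Units.val_mul, Units.val_mul, coe_upGL, coe_upGL,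
    show (toLocal v γ : Matrix (Fin 2) (Fin 2) (v.adicCompletion L)) =
      !![algebraMap L _ (γ.val 0 0), algebraMap L _ (γ.val 0 1);
        algebraMap L _ (γ.val 1 0), algebraMap L _ (γ.val 1 1)] by
      refine Matrix.ext fun i j => ?_; fin_cases i <;> fin_cases j <;> rfl,
    Matrix.mul_fin_two, Matrix.mul_fin_two]
  simp only [Units.val_mk0, Units.val_inv_eq_inv_val, Units.val_one, inv_one]
  refine Matrix.ext fun i j => ?_
  fin_cases i <;> fin_cases j <;>
    simp only [Matrix.of_apply, Matrix.cons_val', Matrix.cons_val_zero, Matrix.cons_val_one,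
      Matrix.cons_val_fin_one, Matrix.empty_val', Fin.isValue, Fin.zero_eta, Fin.mk_one,
      zero_mul, mul_zero, add_zero, zero_add, one_mul, mul_one] <;> ring_nf

theorem locConj_mul (t : Idl L) (γ γ' : GL (Fin 2) L) (v : FPlace L) :
    locConj t t (γ * γ') v = locConj t t γ v * locConj t t γ' v := by
  rw [locConj, locConj, locConj, map_mul]
  group

theorem coe_lowerGL {R : Type} [Field R] (x : R) :
    (lowerGL x : Matrix (Fin 2) (Fin 2) R) = !![1, 0; x, 1] := rfl

theorem lowerGL_mul {R : Type} [Field R] (x y : R) : lowerGL x * lowerGL y = lowerGL (x + y) := by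
  refine Units.ext ?_
  simp [coe_lowerGL]

theorem lowerGL_inv {R : Type} [Field R] (x : R) : (lowerGL x)⁻¹ = lowerGL (-x) :=
  inv_eq_of_mul_eq_one_right (by
    rw [lowerGL_mul, add_neg_cancel]
    refine Units.ext ?_
    simp [coe_lowerGL, Matrix.one_fin_two])

theorem upGL_one_mem_princCong {v : FPlace L} {n : ℕ} {x : v.adicCompletion L}
    (h : valv v x ≤ WithZero.exp (-(n : ℤ))) : upGL 1 1 x ∈ princCong v n := by
  have h1 : valv v x ≤ 1 := h.trans (by rw [← WithZero.exp_zero, WithZero.exp_le_exp]; omega)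
  refine ⟨⟨fun i j => ?_, by simp [Matrix.det_fin_two]⟩, fun i j => ?_⟩
  · fin_cases i <;> fin_cases j <;> simp [h1]
  · fin_cases i <;> fin_cases j <;> simp [-WithZero.exp_neg, h]

theorem lowerGL_mem_princCong {v : FPlace L} {n : ℕ} {x : v.adicCompletion L}
    (h : valv v x ≤ WithZero.exp (-(n : ℤ))) : lowerGL x ∈ princCong v n := by
  have h1 : valv v x ≤ 1 := h.trans (by rw [← WithZero.exp_zero, WithZero.exp_le_exp]; omega)
  refine ⟨⟨fun i j => ?_, by simp [coe_lowerGL, Matrix.det_fin_two]⟩, fun i j => ?_⟩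
  · fin_cases i <;> fin_cases j <;> simp [coe_lowerGL, h1]
  · fin_cases i <;> fin_cases j <;> simp [coe_lowerGL, -WithZero.exp_neg, h]

theorem locConj_upper (t : Idl L) (β : L) (v : FPlace L) :
    locConj t t (upGL 1 1 β) v = upGL 1 1 (algebraMap L _ β / t.val v) := by
  have := t.ne_zero v
  refine Units.ext ?_
  rw [locConj_apply, coe_upGL, coe_upGL]
  simp [map_one, map_zero, div_self this]

theorem locConj_lower (t : Idl L) (β : L) (v : FPlace L) :
    locConj t t (lowerGL β) v = lowerGL (algebraMap L _ β * t.val v) := by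
  have := t.ne_zero v
  refine Units.ext ?_
  rw [locConj_apply, coe_lowerGL, coe_lowerGL]
  simp [map_one, map_zero, div_self this]

/-- Every integral matrix up to scalars is a product of four unipotents and a diagonal one. -/
theorem exists_elem_factor {v : FPlace L} {k : GLv v} (hk : k ∈ maxSubgroup v) :
    ∃ (σ u : (v.adicCompletion L)ˣ) (y₀ x₁ y x₂ : v.adicCompletion L),
      valv v y₀ ≤ 1 ∧ valv v x₁ ≤ 1 ∧ valv v y ≤ 1 ∧ valv v x₂ ≤ 1 ∧
      valv v (u : v.adicCompletion L) = 1 ∧
      k = Matrix.GeneralLinearGroup.scalar (Fin 2) σ *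
        (lowerGL y₀ * upGL 1 1 x₁ * lowerGL y * upGL 1 1 x₂) * upGL u 1 0 := by
  obtain ⟨σ, k', hk', rfl⟩ := Tree.mul_mem_vertexSubgroup_iff.mp hk
  obtain ⟨y₀, hy₀, hc⟩ : ∃ y₀ : v.adicCompletion L, valv v y₀ ≤ 1 ∧
      valv v (((lowerGL (-y₀) * k' : GLv v) :
        Matrix (Fin 2) (Fin 2) (v.adicCompletion L)) 1 0) = 1 := by
    rcases lt_or_eq_of_le (hk'.1 1 0) with hlt | heq
    · refine ⟨-1, by simp, ?_⟩
      have hdet := hk'.2
      rw [Matrix.det_fin_two] at hdet
      have ha : valv v ((k' : Matrix (Fin 2) (Fin 2) (v.adicCompletion L)) 0 0) = 1 := by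
        refine le_antisymm (hk'.1 0 0) (not_lt.mp fun h0 => ?_)
        refine lt_irrefl (1 : ℤᵐ⁰) (hdet.symm.trans_lt (Valuation.map_sub_lt _ ?_ ?_))
        · rw [map_mul]
          exact lt_of_le_of_lt (mul_le_of_le_one_right' (hk'.1 1 1)) h0
        · rw [map_mul]
          exact lt_of_le_of_lt (mul_le_of_le_one_left' (hk'.1 0 1)) hlt
      rw [Units.val_mul, coe_lowerGL, Matrix.mul_apply, Fin.sum_univ_two]
      simp only [neg_neg, Matrix.of_apply, Matrix.cons_val', Matrix.cons_val_zero,
        Matrix.cons_val_one, Matrix.empty_val', Matrix.cons_val_fin_one, one_mul]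
      rw [Valuation.map_add_eq_of_lt_left _ (by rwa [ha]), ha]
    · exact ⟨0, by simp, by simp [coe_lowerGL, Matrix.mul_apply, Fin.sum_univ_two, heq]⟩
  set k'' := lowerGL (-y₀) * k' with hk''
  have hint : k'' ∈ Tree.intGL (valv v) := mul_mem
    (lowerGL_mem_princCong (n := 0) (by simpa using hy₀)).1 hk'
  set A := (k'' : Matrix (Fin 2) (Fin 2) (v.adicCompletion L)) 0 0
  set B := (k'' : Matrix (Fin 2) (Fin 2) (v.adicCompletion L)) 0 1
  set C := (k'' : Matrix (Fin 2) (Fin 2) (v.adicCompletion L)) 1 0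
  set D := (k'' : Matrix (Fin 2) (Fin 2) (v.adicCompletion L)) 1 1
  set Δ := Matrix.GeneralLinearGroup.det k''
  have hΔ : valv v (Δ : v.adicCompletion L) = 1 := by
    rw [Matrix.GeneralLinearGroup.val_det_apply]; exact hint.2
  have hC : C ≠ 0 := fun h0 => by simp [C, h0] at hc
  have hΔe : (Δ : v.adicCompletion L) = A * D - B * C := by
    rw [Matrix.GeneralLinearGroup.val_det_apply, Matrix.det_fin_two]
  refine ⟨σ, Δ, y₀, (A - Δ) / C, C / Δ, (D - 1) * Δ / C, hy₀, ?_, ?_, ?_, hΔ, ?_⟩
  · rw [map_div₀, hc, div_one]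
    exact ((valv v).map_sub _ _).trans (max_le (hint.1 0 0) hΔ.le)
  · rw [map_div₀, hc, hΔ, div_one]
  · rw [map_div₀, hc, div_one, map_mul, hΔ, mul_one]
    exact ((valv v).map_sub _ _).trans (max_le (hint.1 1 1) (by rw [map_one]))
  · rw [mul_assoc (Matrix.GeneralLinearGroup.scalar (Fin 2) σ)]
    refine congrArg _ ?_
    have e : k'' = upGL 1 1 ((A - Δ) / C) * lowerGL (C / (Δ : v.adicCompletion L)) *
        upGL 1 1 ((D - 1) * Δ / C) * upGL Δ 1 0 := by
      refine Units.ext ?_
      have hΔ0 := Δ.ne_zero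
      simp only [Units.val_mul, coe_upGL, coe_lowerGL, Matrix.mul_fin_two, Units.val_one]
      conv_lhs => rw [Matrix.eta_fin_two (k'' : Matrix (Fin 2) (Fin 2) (v.adicCompletion L))]
      refine Matrix.ext fun i j => ?_
      fin_cases i <;> fin_cases j <;>
        simp only [Matrix.of_apply, Matrix.cons_val', Matrix.cons_val_zero, Matrix.cons_val_one,
          Matrix.cons_val_fin_one, Matrix.empty_val', Fin.isValue, Fin.zero_eta, Fin.mk_one,
          mul_zero, add_zero, zero_add, one_mul, mul_one] <;>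
        field_simp <;> first | ring1 | (rw [hΔe]; ring1)
    rw [hk''] at e
    rw [← lowerGL_inv, inv_mul_eq_iff_eq_mul] at e
    rw [e]
    group

/-- An integral matrix of unit determinant congruent to one has `d² / det` congruent to one. -/
theorem valv_sq_div_det_sub_one {v : FPlace L} {n : ℤ}
    {k : Matrix (Fin 2) (Fin 2) (v.adicCompletion L)} (hk : ∀ i j, valv v (k i j) ≤ 1)
    (hdet : valv v k.det = 1)
    (h1 : ∀ i j, valv v (k i j - (1 : Matrix (Fin 2) (Fin 2) (v.adicCompletion L)) i j) ≤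
      WithZero.exp (-n)) :
    valv v (k 1 1 ^ 2 / k.det - 1) ≤ WithZero.exp (-n) := by
  have hA := h1 0 0
  have hB := h1 0 1
  have hD := h1 1 1
  rw [Matrix.one_apply_eq] at hA hD
  rw [Matrix.one_apply_ne (by decide), sub_zero] at hB
  have h0 : k.det ≠ 0 := fun h0 => by simp [h0] at hdet
  rw [div_sub_one h0, map_div₀, hdet, div_one, Matrix.det_fin_two,
    show k 1 1 ^ 2 - (k 0 0 * k 1 1 - k 0 1 * k 1 0) =
      k 1 1 * ((k 1 1 - 1) - (k 0 0 - 1)) + k 0 1 * k 1 0 by ring]
  refine (valv v).map_add_le ?_ ?_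
  · rw [map_mul]
    refine (mul_le_mul' (hk 1 1) ((valv v).map_sub _ _)).trans ?_
    rw [one_mul]
    exact max_le hD hA
  · rw [map_mul]
    exact (mul_le_mul' hB (hk 1 0)).trans (by rw [mul_one])

namespace HeckeChar

variable (H : HeckeChar L M)

open Classical in
/-- The exponent of the level. -/
def lvlN : ℕ :=
  4 * H.m + (∑ P ∈ (H.S.finite_toSet.biUnion fun v _ =>
    Fermat.Agent.CFT.finite_below_fibre (L := M) v).toFinset, 2 * (cond P).toNat) + 1

theorem lvlN_spec (P : FPlace M) (hP : below L P ∈ H.S) :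
    4 * (H.m : ℤ) + 2 * cond P ≤ H.lvlN := by
  classical
  have h : 2 * (cond P).toNat ≤ ∑ Q ∈ (H.S.finite_toSet.biUnion fun v _ =>
      Fermat.Agent.CFT.finite_below_fibre (L := M) v).toFinset, 2 * (cond Q).toNat :=
    Finset.single_le_sum (f := fun Q => 2 * (cond Q).toNat) (fun _ _ => Nat.zero_le _)
      ((Set.Finite.mem_toFinset _).mpr (Set.mem_biUnion (x := below L P) hP rfl))
  have hc := cond_nonneg P
  unfold lvlN
  omega

theorem m_lt_lvlN : H.m < H.lvlN := by unfold lvlN; omega

open Classical in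
/-- The level of the theta function. -/
def thetaLevel : Level L where
  J v := if v ∈ H.S then congSubgroup v H.lvlN else maxSubgroup v
  le_max v := by
    split_ifs
    · exact congSubgroup_le_max v _
    · exact le_rfl
  exists_cong v := by
    split_ifs
    · exact ⟨_, le_rfl⟩
    · exact ⟨0, (congSubgroup_zero v).le⟩
  eventually_max := Filter.mem_of_superset H.S.finite_toSet.compl_mem_cofinite fun v hv => if_neg hv

theorem thetaLevel_J_of_mem {v : FPlace L} (hv : v ∈ H.S) :
    H.thetaLevel.J v = congSubgroup v H.lvlN := if_pos hv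

theorem thetaLevel_J_of_notMem {v : FPlace L} (hv : v ∉ H.S) :
    H.thetaLevel.J v = maxSubgroup v := if_neg hv

/-- The level at a place consists of the scalars times a principal congruence subgroup. -/
theorem mem_J_iff {v : FPlace L} {g : GLv v} :
    g ∈ H.thetaLevel.J v ↔ ∃ s : (v.adicCompletion L)ˣ,
      ∃ k ∈ princCong v (H.lvl H.lvlN v).toNat,
        g = Matrix.GeneralLinearGroup.scalar (Fin 2) s * k := by
  by_cases hv : v ∈ H.S
  · rw [H.thetaLevel_J_of_mem hv, lvl, if_pos hv, Int.toNat_natCast]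
    exact mem_congSubgroup_iff v
  · rw [H.thetaLevel_J_of_notMem hv, lvl, if_neg hv, Int.toNat_zero, ← congSubgroup_zero]
    exact mem_congSubgroup_iff v

theorem J_normal {v : FPlace L} {h j : GLv v} (hh : h ∈ maxSubgroup v)
    (hj : j ∈ H.thetaLevel.J v) : h * j * h⁻¹ ∈ H.thetaLevel.J v := by
  by_cases hv : v ∈ H.S
  · rw [H.thetaLevel_J_of_mem hv] at hj ⊢
    exact congSubgroup_normal v hh hj
  · rw [H.thetaLevel_J_of_notMem hv] at hj ⊢
    exact mul_mem (mul_mem hh hj) (inv_mem hh)

/-- A matrix between two data, locally in the level, satisfies the transformation hypotheses. -/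
theorem exists_transRel {γ : GL (Fin 2) L} {t t' : Idl L} (hd : γ.val 1 1 ≠ 0)
    (h : ∀ v, locConj t' t γ v ∈ H.thetaLevel.J v) :
    ∃ z, H.TransRel H.lvlN γ t t' z := by
  classical
  choose s k hk he using fun v => H.mem_J_iff.mp (h v)
  set Δ : Lˣ := Matrix.GeneralLinearGroup.det γ
  have hent : ∀ v i j,
      ((locConj t' t γ v : GLv v) : Matrix (Fin 2) (Fin 2) (v.adicCompletion L)) i j =
      (s v : v.adicCompletion L) * (k v : Matrix (Fin 2) (Fin 2) (v.adicCompletion L)) i j :=
    fun v i j => by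
      rw [he v, Units.val_mul, Tree.coe_scalar_eq_smul, Matrix.smul_mul, Matrix.one_mul,
        Matrix.smul_apply, smul_eq_mul]
  have hs0 : ∀ v, valv v (s v : v.adicCompletion L) ≠ 0 := fun v =>
    (Valuation.ne_zero_iff _).mpr (s v).ne_zero
  set z : FPlace L → ℤ := fun v => -WithZero.log (valv v (s v : v.adicCompletion L))
  have hsz : ∀ v, valv v (s v : v.adicCompletion L) = WithZero.exp (-z v) := fun v => by
    simp only [z, neg_neg, WithZero.exp_log (hs0 v)]
  have hdd : ∀ v, algebraMap L (v.adicCompletion L) (Δ : L) * t.val v / t'.val v =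
      (s v : v.adicCompletion L) ^ 2 *
        (k v : Matrix (Fin 2) (Fin 2) (v.adicCompletion L)).det := fun v => by
    have e := congrArg Matrix.det (locConj_apply t' t γ v)
    rw [Matrix.det_fin_two_of, he v, Units.val_mul, Tree.coe_scalar_eq_smul, Matrix.smul_mul,
      Matrix.one_mul, Matrix.det_smul, Fintype.card_fin] at e
    rw [e]
    simp only [Δ, Matrix.GeneralLinearGroup.val_det_apply, Matrix.det_fin_two, map_sub, map_mul]
    ring
  have hdetval : ∀ v, (2 * z v : ℤ) = ord v Δ + t.ordD v - t'.ordD v := by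
    intro v
    have e2 := congrArg (valv v) (hdd v)
    rw [map_div₀, map_mul, map_mul, map_pow, (hk v).1.2, mul_one, valv_algebraMap,
      Fermat.Agent.CFT.valuation_eq_exp, t.valv_eq, t'.valv_eq, hsz, ← WithZero.exp_add,
      ← WithZero.exp_sub, ← WithZero.exp_nsmul, WithZero.exp_inj, nsmul_eq_mul] at e2
    push_cast at e2
    omega
  let zf : FPlace L →₀ ℤ := Finsupp.ofSupportFinite z <| by
    refine ((divisor Δ).support ∪ t.ordD.support ∪ t'.ordD.support).finite_toSet.subset
      fun v hv => ?_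
    simp only [Finset.coe_union, Set.mem_union, Finset.mem_coe, Finsupp.mem_support_iff,
      divisor_apply]
    simp only [Function.mem_support] at hv
    have := hdetval v
    omega
  have hz : ∀ v, zf v = z v := fun v => rfl
  have hle : ∀ v i j, valv v ((k v : Matrix (Fin 2) (Fin 2) (v.adicCompletion L)) i j -
      (1 : Matrix (Fin 2) (Fin 2) (v.adicCompletion L)) i j) ≤ WithZero.exp (-H.lvl H.lvlN v) :=
    fun v i j => by
      have := (hk v).2 i j
      rwa [Int.toNat_of_nonneg (H.lvl_nonneg _ v)] at this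
  have hint : ∀ v i j, valv v (((locConj t' t γ v : GLv v) :
      Matrix (Fin 2) (Fin 2) (v.adicCompletion L)) i j) ≤ WithZero.exp (-z v) := fun v i j => by
    rw [hent, map_mul, hsz]
    exact (mul_le_mul' le_rfl ((hk v).1.1 i j)).trans (by rw [mul_one])
  have hoff : ∀ v i j, i ≠ j → valv v (((locConj t' t γ v : GLv v) :
      Matrix (Fin 2) (Fin 2) (v.adicCompletion L)) i j) ≤
      WithZero.exp (-(z v + H.lvl H.lvlN v)) := fun v i j hij => by
    have := hle v i j
    rw [Matrix.one_apply_ne hij, sub_zero] at this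
    rw [hent, map_mul, hsz]
    refine (mul_le_mul' le_rfl this).trans ?_
    rw [← WithZero.exp_add, WithZero.exp_le_exp]
    omega
  have hordge : ∀ v (n : ℤ) (a : L),
      valv v (algebraMap L (v.adicCompletion L) a) ≤ WithZero.exp (-n) → OrdGE v n a :=
    fun v n a ha => by rw [valv_algebraMap] at ha; exact ha
  refine ⟨zf, ⟨hd, fun v => ?_, fun v => ?_, fun v => ?_, fun v => ?_, fun v hv => ?_, fun v => ?_,
    fun v hv => ?_⟩⟩
  · have h0 := hint v 0 0
    rw [locConj_apply] at h0
    simp only [Matrix.of_apply, Matrix.cons_val', Matrix.cons_val_zero, Matrix.empty_val',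
      Matrix.cons_val_fin_one] at h0
    rw [map_div₀, map_mul, t.valv_eq, t'.valv_eq, div_le_iff₀ WithZero.exp_pos,
      ← WithZero.exp_add, ← le_div_iff₀ WithZero.exp_pos, ← WithZero.exp_sub] at h0
    exact hordge v _ _ (h0.trans (WithZero.exp_le_exp.mpr (by rw [hz]; omega)))
  · have h0 := hoff v 0 1 (by decide)
    rw [locConj_apply] at h0
    simp only [Matrix.of_apply, Matrix.cons_val', Matrix.cons_val_zero, Matrix.cons_val_one,
      Matrix.empty_val', Matrix.cons_val_fin_one] at h0
    rw [map_div₀, t'.valv_eq, div_le_iff₀ WithZero.exp_pos, ← WithZero.exp_add] at h0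
    exact hordge v _ _ (h0.trans (WithZero.exp_le_exp.mpr (by rw [hz]; omega)))
  · have h0 := hoff v 1 0 (by decide)
    rw [locConj_apply] at h0
    simp only [Matrix.of_apply, Matrix.cons_val', Matrix.cons_val_zero, Matrix.cons_val_one,
      Matrix.empty_val', Matrix.cons_val_fin_one] at h0
    rw [map_mul, t.valv_eq, ← le_div_iff₀ WithZero.exp_pos, ← WithZero.exp_sub] at h0
    exact hordge v _ _ (h0.trans (WithZero.exp_le_exp.mpr (by rw [hz]; omega)))
  · have h0 := hint v 1 1
    rw [locConj_apply] at h0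
    exact hordge v _ _ (by simpa [hz] using h0)
  · have hk1 := hle v 1 1
    have hlt : valv v ((k v : Matrix (Fin 2) (Fin 2) (v.adicCompletion L)) 1 1 - 1) <
        valv v (1 : v.adicCompletion L) := by
      rw [Matrix.one_apply_eq] at hk1
      rw [map_one]
      refine lt_of_le_of_lt hk1 ?_
      rw [← WithZero.exp_zero, WithZero.exp_lt_exp, lvl, if_pos hv]
      have := H.m_lt_lvlN
      omega
    have e := congrArg (valv v) (hent v 1 1)
    rw [locConj_apply, map_mul, Valuation.map_eq_of_sub_lt _ hlt, map_one, mul_one, hsz] at e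
    simp only [Matrix.of_apply, Matrix.cons_val', Matrix.cons_val_one, Matrix.empty_val',
      Matrix.cons_val_fin_one, valv_algebraMap] at e
    rw [show γ.val 1 1 = ((Units.mk0 _ hd : Lˣ) : L) from rfl, Fermat.Agent.CFT.valuation_eq_exp,
      WithZero.exp_inj] at e
    rw [hz]; omega
  · have h2 := hdetval v
    rw [hz]
    simp only [Δ] at h2
    omega
  · set K := v.adicCompletion L
    have hu : algebraMap L K (γ.val 1 1 ^ 2 / (Δ : L)) * t'.val v / t.val v =
        (k v : Matrix (Fin 2) (Fin 2) K) 1 1 ^ 2 / (k v : Matrix (Fin 2) (Fin 2) K).det := by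
      have h11 := hent v 1 1
      rw [locConj_apply] at h11
      simp only [Matrix.of_apply, Matrix.cons_val', Matrix.cons_val_one, Matrix.empty_val',
        Matrix.cons_val_fin_one] at h11
      have hdd := hdd v
      have hΔ0 : algebraMap L K (Δ : L) ≠ 0 := (map_ne_zero _).mpr Δ.ne_zero
      have ht := t.ne_zero v
      have ht' := t'.ne_zero v
      have hs' := (s v).ne_zero
      have hkd : (k v : Matrix (Fin 2) (Fin 2) K).det ≠ 0 := fun h0 => by
        rw [h0, mul_zero] at hdd
        exact div_ne_zero (mul_ne_zero hΔ0 ht) ht' hdd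
      rw [map_div₀, map_pow, h11, eq_div_iff hkd]
      have : (k v : Matrix (Fin 2) (Fin 2) K).det =
          algebraMap L K (Δ : L) * t.val v / t'.val v / (s v : K) ^ 2 := by
        rw [hdd]; field_simp
      rw [this]
      field_simp
    rw [show (γ.val 1 1 ^ 2 / ((Matrix.GeneralLinearGroup.det γ : Lˣ) : L)) =
      γ.val 1 1 ^ 2 / (Δ : L) from rfl, hu]
    refine (valv_sq_div_det_sub_one (hk v).1.1 (hk v).1.2 (hle v)).trans ?_
    rw [WithZero.exp_le_exp, lvl, if_pos hv]
    have := H.m_lt_lvlN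
    omega

/-- A family is approximated at the exceptional places by a global matrix. -/
def IsApprox (t : Idl L) (g : ∀ v : FPlace L, GLv v) : Prop :=
  (∀ v, g v ∈ maxSubgroup v) ∧ ∃ γ : GL (Fin 2) L, ∀ v, locConj t t γ v ∈ maxSubgroup v ∧
    (g v)⁻¹ * locConj t t γ v ∈ H.thetaLevel.J v

theorem IsApprox.mul {t : Idl L} {g g' : ∀ v : FPlace L, GLv v} (h : H.IsApprox t g)
    (h' : H.IsApprox t g') : H.IsApprox t (g * g') := by
  obtain ⟨hg, γ, hγ⟩ := h
  obtain ⟨hg', γ', hγ'⟩ := h'
  refine ⟨fun v => mul_mem (hg v) (hg' v), γ * γ', fun v => ?_⟩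
  rw [locConj_mul]
  refine ⟨mul_mem (hγ v).1 (hγ' v).1, ?_⟩
  rw [Pi.mul_apply, show (g v * g' v)⁻¹ * (locConj t t γ v * locConj t t γ' v) =
    ((g' v)⁻¹ * ((g v)⁻¹ * locConj t t γ v) * ((g' v)⁻¹)⁻¹) * ((g' v)⁻¹ * locConj t t γ' v) by
      group]
  exact mul_mem (H.J_normal (inv_mem (hg' v)) (hγ v).2) (hγ' v).2

theorem princCong_le_J {v : FPlace L} {k : GLv v}
    (h : k ∈ princCong v (H.lvl H.lvlN v).toNat) : k ∈ H.thetaLevel.J v :=
  H.mem_J_iff.mpr ⟨1, k, h, by rw [map_one, one_mul]⟩

/-- Approximation at the exceptional places by a global element bounded elsewhere. -/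
theorem exists_global_approx (x : ∀ v : FPlace L, v.adicCompletion L) (o : FPlace L →₀ ℤ) :
    ∃ β : L, ∀ v, (v ∈ H.S → valv v (algebraMap L _ β - x v) ≤
      WithZero.exp (-(o v + H.lvl H.lvlN v))) ∧
      (v ∉ H.S → valv v (algebraMap L (v.adicCompletion L) β) ≤ WithZero.exp (-(o v))) := by
  classical
  obtain ⟨β, hβ⟩ := exists_algebraMap_approx (fun v => if v ∈ H.S then x v else 0)
    (Filter.mem_of_superset H.S.finite_toSet.compl_mem_cofinite fun v hv => by
      show valv v (if v ∈ H.S then x v else 0) ≤ 1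
      rw [if_neg (by simpa using hv), map_zero]; exact zero_le)
    (fun v => o v + H.lvl H.lvlN v)
    (Filter.mem_of_superset (H.S.finite_toSet.union o.support.finite_toSet).compl_mem_cofinite
      fun v hv => by
        simp only [Set.mem_compl_iff, Set.mem_union, Finset.mem_coe, not_or] at hv
        show o v + H.lvl H.lvlN v ≤ 0
        rw [Finsupp.notMem_support_iff.mp hv.2, lvl, if_neg hv.1, add_zero])
  refine ⟨β, fun v => ⟨fun hv => ?_, fun hv => ?_⟩⟩
  · have h := hβ v
    rwa [if_pos hv, Valuation.map_sub_swap] at h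
  · have h := hβ v
    rwa [if_neg hv, zero_sub, Valuation.map_neg, lvl, if_neg hv, add_zero] at h

theorem isApprox_upper (t : Idl L) (x : ∀ v : FPlace L, v.adicCompletion L)
    (hx : ∀ v, valv v (x v) ≤ 1) :
    H.IsApprox t fun v => upGL 1 1 (x v) := by
  refine ⟨fun v => upGL_mem_maxSubgroup_iff.mpr ⟨by simp, hx v⟩, ?_⟩
  obtain ⟨β, hβ⟩ := H.exists_global_approx (fun v => t.val v * x v) t.ordD
  refine ⟨upGL 1 1 β, fun v => ?_⟩
  have ht := t.ne_zero v
  rw [locConj_upper]
  by_cases hv : v ∈ H.S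
  · have h1 : valv v (algebraMap L _ β / t.val v - x v) ≤ WithZero.exp (-H.lvl H.lvlN v) := by
      rw [show algebraMap L _ β / t.val v - x v = (algebraMap L _ β - t.val v * x v) / t.val v by
        field_simp, map_div₀, t.valv_eq, div_le_iff₀ WithZero.exp_pos, ← WithZero.exp_add]
      exact ((hβ v).1 hv).trans (WithZero.exp_le_exp.mpr (by omega))
    refine ⟨upGL_mem_maxSubgroup_iff.mpr ⟨by simp, ?_⟩, H.princCong_le_J ?_⟩
    · rw [← sub_add_cancel (algebraMap L _ β / t.val v) (x v)]
      refine (valv v).map_add_le (h1.trans ?_) (hx v)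
      rw [← WithZero.exp_zero, WithZero.exp_le_exp]
      have := H.lvl_nonneg H.lvlN v
      omega
    · rw [upGL_inv, upGL_mul]
      simp only [inv_one, mul_one, one_mul, Units.val_one, neg_mul]
      refine upGL_one_mem_princCong ?_
      rwa [Int.toNat_of_nonneg (H.lvl_nonneg _ v), ← sub_eq_add_neg]
  · have h1 : valv v (algebraMap L _ β / t.val v) ≤ 1 := by
      rw [map_div₀, t.valv_eq, div_le_iff₀ WithZero.exp_pos, one_mul]
      exact (hβ v).2 hv
    have h2 : upGL 1 1 (algebraMap L _ β / t.val v) ∈ maxSubgroup v :=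
      upGL_mem_maxSubgroup_iff.mpr ⟨by simp, h1⟩
    refine ⟨h2, ?_⟩
    rw [H.thetaLevel_J_of_notMem hv]
    exact mul_mem (inv_mem (upGL_mem_maxSubgroup_iff.mpr ⟨by simp, hx v⟩)) h2

theorem lowerGL_mem_max {v : FPlace L} {x : v.adicCompletion L} (h : valv v x ≤ 1) :
    lowerGL x ∈ maxSubgroup v :=
  intGL_le_maxSubgroup v (lowerGL_mem_princCong (n := 0) (by simpa using h)).1

theorem isApprox_lower (t : Idl L) (x : ∀ v : FPlace L, v.adicCompletion L)
    (hx : ∀ v, valv v (x v) ≤ 1) :
    H.IsApprox t fun v => lowerGL (x v) := by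
  refine ⟨fun v => lowerGL_mem_max (hx v), ?_⟩
  obtain ⟨β, hβ⟩ := H.exists_global_approx (fun v => x v / t.val v) (-t.ordD)
  refine ⟨lowerGL β, fun v => ?_⟩
  have ht := t.ne_zero v
  rw [locConj_lower]
  by_cases hv : v ∈ H.S
  · have h1 : valv v (algebraMap L _ β * t.val v - x v) ≤ WithZero.exp (-H.lvl H.lvlN v) := by
      rw [show algebraMap L _ β * t.val v - x v = (algebraMap L _ β - x v / t.val v) * t.val v by
        field_simp, map_mul, t.valv_eq]
      refine (mul_le_mul' ((hβ v).1 hv) le_rfl).trans ?_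
      rw [← WithZero.exp_add, WithZero.exp_le_exp, Finsupp.neg_apply]
      omega
    refine ⟨lowerGL_mem_max ?_, H.princCong_le_J ?_⟩
    · rw [← sub_add_cancel (algebraMap L _ β * t.val v) (x v)]
      refine (valv v).map_add_le (h1.trans ?_) (hx v)
      rw [← WithZero.exp_zero, WithZero.exp_le_exp]
      have := H.lvl_nonneg H.lvlN v
      omega
    · rw [lowerGL_inv, lowerGL_mul]
      refine lowerGL_mem_princCong ?_
      rwa [Int.toNat_of_nonneg (H.lvl_nonneg _ v), neg_add_eq_sub]
  · have h1 : valv v (algebraMap L _ β * t.val v) ≤ 1 := by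
      rw [map_mul, t.valv_eq]
      refine (mul_le_mul' ((hβ v).2 hv) le_rfl).trans ?_
      rw [← WithZero.exp_add, ← WithZero.exp_zero, WithZero.exp_le_exp, Finsupp.neg_apply]
      omega
    refine ⟨lowerGL_mem_max h1, ?_⟩
    rw [H.thetaLevel_J_of_notMem hv]
    exact mul_mem (inv_mem (lowerGL_mem_max (hx v))) (lowerGL_mem_max h1)

/-- `x` is represented by the matrix `γ` and the datum `t`. -/
def IsDecomp (x : Gf L) (γ : GL (Fin 2) L) (t : Idl L) : Prop :=
  ∀ v, ((tDiag t : ∀ v, GLv v) v)⁻¹ * (toLocal v γ)⁻¹ * (x : ∀ v, GLv v) v ∈ H.thetaLevel.J v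

/-- Every adelic matrix is represented by a rational matrix and a datum. -/
theorem exists_decomp (x : Gf L) : ∃ γ t, H.IsDecomp x γ t := by
  classical
  obtain ⟨X, -, hX, hcover⟩ := exists_finite_reps_borel (F := L)
  obtain ⟨l, s, r, k, hr, hk, rfl⟩ := hcover x
  choose a ha using hX r hr
  choose σ u y₀ x₁ y x₂ hy₀ hx₁ hy hx₂ hu he using fun v => exists_elem_factor (hk v)
  let u' : ∀ v : FPlace L, (v.adicCompletion L)ˣ := fun v => if v ∈ H.S then u v else 1
  have hu' : ∀ v, valv v (u' v : v.adicCompletion L) = 1 := fun v => by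
    simp only [u']; split_ifs with h
    · exact hu v
    · simp
  have haev : ∀ᶠ v in Filter.cofinite, valv v (a v : v.adicCompletion L) = 1 := by
    have h : ∀ᶠ v : FPlace L in Filter.cofinite,
        (r : ∀ v : FPlace L, GLv v) v ∈ maxSubgroup v := r.2
    refine h.mono fun v hv => ?_
    rw [ha v, upGL_mem_maxSubgroup_iff] at hv
    exact hv.1
  let ta : Idl L := ⟨fun v => (a v : v.adicCompletion L), fun v => (a v).ne_zero, haev⟩
  let tu : Idl L := ⟨fun v => ((a v * u' v : (v.adicCompletion L)ˣ) : v.adicCompletion L),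
    fun v => Units.ne_zero _, haev.mono fun v hv => by
      rw [Units.val_mul, map_mul, hv, hu', one_mul]⟩
  have hta : ∀ v, (tDiag ta : ∀ v, GLv v) v = upGL (a v) 1 0 := fun v => by
    rw [coe_tDiag]; congr 1; exact Units.ext rfl
  have htu : ∀ v, (tDiag tu : ∀ v, GLv v) v = upGL (a v) 1 0 * upGL (u' v) 1 0 := fun v => by
    rw [coe_tDiag, upGL_mul]; congr 1
    · exact Units.ext rfl
    · simp
    · simp
  obtain ⟨hg, γ, hγ⟩ := (((H.isApprox_lower ta y₀ hy₀).mul H (H.isApprox_upper ta x₁ hx₁)).mul H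
    (H.isApprox_lower ta y hy)).mul H (H.isApprox_upper ta x₂ hx₂)
  refine ⟨upGL l 1 s * γ, tu, fun v => ?_⟩
  set D := upGL (u' v) 1 0
  have hD : D ∈ maxSubgroup v := upGL_mem_maxSubgroup_iff.mpr ⟨hu' v, by simp⟩
  set loc := locConj ta ta γ v
  set g := ((fun v => lowerGL (y₀ v)) * (fun v => upGL 1 1 (x₁ v)) * (fun v => lowerGL (y v)) *
    (fun v => upGL 1 1 (x₂ v))) v
  have e : ((tDiag tu : ∀ v, GLv v) v)⁻¹ * (toLocal v (upGL l 1 s * γ))⁻¹ *
      ((diag L (upGL l 1 s) * r * k : Gf L) : ∀ v, GLv v) v =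
      D⁻¹ * loc⁻¹ * (k : ∀ v, GLv v) v := by
    show ((tDiag tu : ∀ v, GLv v) v)⁻¹ * (toLocal v (upGL l 1 s * γ))⁻¹ *
      (toLocal v (upGL l 1 s) * (r : ∀ v, GLv v) v * (k : ∀ v, GLv v) v) = _
    simp only [loc, locConj, htu, hta, ha v, map_mul, D]
    group
  rw [e]
  by_cases hv : v ∈ H.S
  · have h2 := (hγ v).2
    have e2 : D⁻¹ * loc⁻¹ * (k : ∀ v, GLv v) v = Matrix.GeneralLinearGroup.scalar (Fin 2) (σ v) *
        (D⁻¹ * (g⁻¹ * loc)⁻¹ * D) := by
      have hc : ∀ h : GLv v, Matrix.GeneralLinearGroup.scalar (Fin 2) (σ v) * h =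
          h * Matrix.GeneralLinearGroup.scalar (Fin 2) (σ v) := fun h =>
        (Subgroup.mem_center_iff.mp (Tree.scalar_mem_center (σ v)) h).symm
      have hX : ∀ X Y : GLv v, X * (Matrix.GeneralLinearGroup.scalar (Fin 2) (σ v) * Y) =
          Matrix.GeneralLinearGroup.scalar (Fin 2) (σ v) * (X * Y) := fun X Y => by
        rw [← mul_assoc, ← hc X, mul_assoc]
      rw [he v, show upGL (u v) 1 0 = D by simp [D, u', hv],
        mul_assoc (Matrix.GeneralLinearGroup.scalar (Fin 2) (σ v)), hX]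
      refine congrArg _ ?_
      simp only [g, Pi.mul_apply]
      group
    rw [e2]
    refine mul_mem (Level.center_le _ v (Tree.scalar_mem_center _)) ?_
    have := H.J_normal (inv_mem hD) (inv_mem h2)
    rwa [inv_inv] at this
  · rw [H.thetaLevel_J_of_notMem hv]
    exact mul_mem (mul_mem (inv_mem hD) (inv_mem (hγ v).1)) (hk v)

variable [IsTotallyComplex L]

/-- The adelic theta function. -/
def thetaPhi (x : Gf L) (p : Hyp L) : ℂ :=
  H.thetaF (H.exists_decomp x).choose_spec.choose ((H.exists_decomp x).choose⁻¹ • p)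

/-- The theta functions are invariant under the matrices between two data that lie locally in the
level. -/
theorem thetaF_smul_of_locConj {γ : GL (Fin 2) L} {t t' : Idl L}
    (h : ∀ v, locConj t' t γ v ∈ H.thetaLevel.J v) (p : Hyp L) :
    H.thetaF t' (γ • p) = H.thetaF t p := by
  by_cases hd : γ.val 1 1 ≠ 0
  · obtain ⟨z, hz⟩ := H.exists_transRel hd h
    exact H.thetaF_smul hz H.lvlN_spec p
  push Not at hd
  -- without exceptional places the matrix may be moved by a translation
  have hS : H.S = ∅ := Finset.eq_empty_of_forall_notMem fun v hv => by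
    obtain ⟨s, k, hk, he⟩ := H.mem_J_iff.mp (h v)
    have e := congrArg (fun g : GLv v =>
      valv v ((g : Matrix (Fin 2) (Fin 2) (v.adicCompletion L)) 1 1)) he
    simp only [locConj_apply, Units.val_mul, Tree.coe_scalar_eq_smul, Matrix.smul_mul,
      Matrix.one_mul, Matrix.smul_apply, smul_eq_mul, map_mul] at e
    simp only [Matrix.of_apply, Matrix.cons_val', Matrix.cons_val_one, Matrix.empty_val',
      Matrix.cons_val_fin_one, hd, map_zero] at e
    have h11 := hk.2 1 1
    rw [Matrix.one_apply_eq] at h11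
    have hlt : valv v ((k : Matrix (Fin 2) (Fin 2) (v.adicCompletion L)) 1 1 - 1) <
        valv v (1 : v.adicCompletion L) := by
      rw [map_one]
      refine lt_of_le_of_lt h11 ?_
      rw [← WithZero.exp_zero, WithZero.exp_lt_exp, lvl, if_pos hv, Int.toNat_natCast]
      have := H.m_lt_lvlN
      omega
    rw [Valuation.map_eq_of_sub_lt _ hlt, map_one, mul_one] at e
    exact (Valuation.ne_zero_iff _).mpr s.ne_zero e.symm
  obtain ⟨β, hβ, -⟩ := exists_unit_ord_eq_on t.ordD (∅ : Finset (FPlace L))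
  have hn : ∀ v, locConj t t (upGL 1 1 (β : L)) v ∈ H.thetaLevel.J v := fun v => by
    rw [locConj_upper, H.thetaLevel_J_of_notMem (by simp [hS])]
    refine upGL_mem_maxSubgroup_iff.mpr ⟨by simp, ?_⟩
    rw [map_div₀, t.valv_eq, div_le_iff₀ WithZero.exp_pos, one_mul, valv_algebraMap]
    exact hβ v
  have h1 : ∀ v, locConj t' t (γ * upGL 1 1 (β : L)) v ∈ H.thetaLevel.J v := fun v => by
    have e : locConj t' t (γ * upGL 1 1 (β : L)) v =
        locConj t' t γ v * locConj t t (upGL 1 1 (β : L)) v := by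
      rw [locConj, locConj, locConj, map_mul]; group
    rw [e]
    exact mul_mem (h v) (hn v)
  have hγ10 : γ.val 1 0 ≠ 0 := fun h0 => by
    have hdet := (Matrix.GeneralLinearGroup.det γ).ne_zero
    rw [Matrix.GeneralLinearGroup.val_det_apply, Matrix.det_fin_two, h0, hd, mul_zero, mul_zero,
      sub_zero] at hdet
    exact hdet rfl
  have hd1 : (γ * upGL 1 1 (β : L)).val 1 1 ≠ 0 := by
    rw [Units.val_mul, coe_upGL, Matrix.mul_apply, Fin.sum_univ_two]
    simp [hd, hγ10]
  have hd2 : (upGL 1 1 (β : L)).val 1 1 ≠ 0 := by simp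
  obtain ⟨z₁, hz₁⟩ := H.exists_transRel hd1 h1
  obtain ⟨z₂, hz₂⟩ := H.exists_transRel hd2 hn
  set q := (upGL 1 1 (β : L))⁻¹ • p
  rw [show γ • p = (γ * upGL 1 1 (β : L)) • q by
      simp only [q, ← mul_smul, mul_inv_cancel_right],
    H.thetaF_smul hz₁ H.lvlN_spec, ← H.thetaF_smul hz₂ H.lvlN_spec q, smul_inv_smul]

/-- The adelic theta function can be computed from any decomposition. -/
theorem thetaPhi_eq {x : Gf L} {γ : GL (Fin 2) L} {t : Idl L} (h : H.IsDecomp x γ t) (p : Hyp L) :
    H.thetaPhi x p = H.thetaF t (γ⁻¹ • p) := by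
  set γ₀ := (H.exists_decomp x).choose
  set t₀ := (H.exists_decomp x).choose_spec.choose
  have h₀ : H.IsDecomp x γ₀ t₀ := (H.exists_decomp x).choose_spec.choose_spec
  have h1 : ∀ v, locConj t₀ t (γ₀⁻¹ * γ) v ∈ H.thetaLevel.J v := fun v => by
    have e : locConj t₀ t (γ₀⁻¹ * γ) v =
        (((tDiag t₀ : ∀ v, GLv v) v)⁻¹ * (toLocal v γ₀)⁻¹ * (x : ∀ v, GLv v) v) *
          (((tDiag t : ∀ v, GLv v) v)⁻¹ * (toLocal v γ)⁻¹ * (x : ∀ v, GLv v) v)⁻¹ := by
      rw [locConj, map_mul, map_inv]
      group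
    rw [e]
    exact mul_mem (h₀ v) (inv_mem (h v))
  show H.thetaF t₀ (γ₀⁻¹ • p) = _
  rw [← H.thetaF_smul_of_locConj h1, ← mul_smul, mul_inv_cancel_right]

omit [NumberField L] [IsTotallyComplex L] in
theorem continuous_smul_hyp (g : GL (Fin 2) L) : Continuous fun p : Hyp L => g • p :=
  continuous_pi fun w => (continuous_const_smul (toComplex w g)).comp (continuous_apply w)

/-- The adelic theta function is automorphic of level `thetaLevel`. -/
theorem isAutomorphic_thetaPhi : IsAutomorphic H.thetaLevel H.thetaPhi where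
  left γ x y hxy p := by
    obtain ⟨γ₀, t₀, h₀⟩ := H.exists_decomp x
    have h1 : H.IsDecomp y (γ * γ₀) t₀ := fun v => by
      rw [hxy v, map_mul, mul_inv_rev]
      have e := h₀ v
      convert e using 1
      group
    rw [H.thetaPhi_eq h1, H.thetaPhi_eq h₀, mul_inv_rev, mul_smul, inv_smul_smul]
  right x j hj := by
    funext p
    obtain ⟨γ₀, t₀, h₀⟩ := H.exists_decomp x
    have h1 : H.IsDecomp (x * j) γ₀ t₀ := fun v => by
      show _ * _ * ((x : ∀ v, GLv v) v * (j : ∀ v, GLv v) v) ∈ _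
      rw [← mul_assoc]
      exact mul_mem (h₀ v) (hj v)
    rw [H.thetaPhi_eq h1, H.thetaPhi_eq h₀]
  continuous x := by
    obtain ⟨γ₀, t₀, h₀⟩ := H.exists_decomp x
    rw [show H.thetaPhi x = fun p => H.thetaF t₀ (γ₀⁻¹ • p) from funext (H.thetaPhi_eq h₀)]
    exact (H.continuous_thetaF t₀).comp (continuous_smul_hyp _)

end HeckeChar

end Fermat.Agent.ResidualThree.ThetaInduction
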