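import Fermat.Agent.ResidualThree.ThetaInduction.CuspConst
import Fermat.Agent.ResidualThree.ThetaInduction.Lift

/-!
# The theta functions have no growing term at any cusp

At a cusp each torus integral is a multiple of `∏ y` plus a decaying integral
(`torusInt_cusp`). The coefficients of `∏ y` sum to zero over a system of orbit representatives:
twisting the divisors by `τP - P` for an auxiliary prime `P` multiplies the sum by a constant
different from one, because the character is nontrivial on norm-one divisors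
(`HeckeChar.sum_pairA_eq_zero`). Hence every translate of a theta function is a finite sum of
decaying integrals (`HeckeChar.isRemSum_thetaF`).
-/

noncomputable section

open NumberField Module MeasureTheory IsDedekindDomain

namespace Fermat.Agent.ResidualThree.ThetaInduction

open Fermat.Agent.CFT (OrdGE ord below ram)

variable {L M : Type} [Field L] [NumberField L] [Field M] [NumberField M]
  [Algebra L M] [Algebra.IsQuadraticExtension L M] [IsTotallyComplex L]

variable (M) in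
/-- A finite combination of off-zero torus integrals. -/
def IsRemSum (f : Hyp L → ℂ) : Prop :=
  ∃ (ι : Type) (_ : Fintype ι) (k : ι → ℂ) (b : ι → L) (Φ : ι → M → ℂ),
    (∀ i, b i ≠ 0 ∧ ∃ ω B, (∀ x, x ∉ Lat ω → Φ i x = 0) ∧ ∀ x, ‖Φ i x‖ ≤ B) ∧
      f = fun p => ∑ i, k i * torusRem (b i) (Φ i) p

namespace HeckeChar

variable (H : HeckeChar L M)

/-- The modulus of a pair at a cusp. -/
def cuspR (γ : GL (Fin 2) L) (β : L) (o : FPlace M →₀ ℤ) : FPlace M →₀ ℤ :=
  H.modD + phaseMod (cuspPhase γ β) o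

omit [IsTotallyComplex L] in
theorem cuspR_nonneg (γ : GL (Fin 2) L) (β : L) (o : FPlace M →₀ ℤ) : 0 ≤ H.cuspR γ β o :=
  add_nonneg H.modD_nonneg (phaseMod_nonneg _ _)

omit [IsTotallyComplex L] in
theorem cuspData_phi {t : Idl L} {β : Lˣ} {o : FPlace M →₀ ℤ} (hrel : PairRel t β o)
    (γ : GL (Fin 2) L) {W : FPlace M →₀ ℤ} (hW : o + H.cuspR γ β o ≤ W) :
    CuspData γ (β : L) o W (H.phi t β o) where
  le := (le_add_of_nonneg_right (H.cuspR_nonneg γ _ o)).trans hW
  supp _ hx := H.phi_of_notMem hx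
  bdd := H.norm_phi_le t β o
  per x hx a ha := by
    have ha' := Lat_anti hW ha
    rw [H.phi_add hrel x (Lat_anti (add_le_add le_rfl
        (le_add_of_nonneg_right (phaseMod_nonneg _ _))) ha'),
      gTerm_periodic_phaseMod (le_add_of_nonneg_left H.modD_nonneg) hx ha']

variable {γ : GL (Fin 2) L} (hc : γ.val 1 0 ≠ 0)

/-- The growing term of a pair at a cusp. -/
def pairA {t : Idl L} (q : PairSet M t) : ℂ :=
  cuspA (q.1.1 : L) hc q.1.2 (q.1.2 + H.cuspR γ q.1.1 q.1.2) (H.pairPhi q)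

theorem sum_pairA_unique {t : Idl L} [Fintype (Orb M t)] {rep rep' : Orb M t → PairSet M t}
    (hrep : IsReps rep) (hrep' : IsReps rep') :
    ∑ c, H.pairA hc (rep c) = ∑ c, H.pairA hc (rep' c) := by
  have hdata : ∀ q : PairSet M t,
      CuspData γ (q.1.1 : L) q.1.2 (q.1.2 + H.cuspR γ q.1.1 q.1.2) (H.pairPhi q) := fun q =>
    H.cuspData_phi q.2 γ le_rfl
  choose C hC using fun q : PairSet M t => exists_cuspRem_bound hc q.1.1.ne_zero (hdata q) one_pos
  rw [← sub_eq_zero]
  refine eq_zero_of_bounded (L := L) (C := ∑ c, C (rep c) + ∑ c, C (rep' c)) fun p hp => ?_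
  set y := ((∏ w, (p w).y : ℝ) : ℂ)
  have e : ∑ c, torusInt ((rep c).1.1 : L) (H.pairPhi (rep c)) (γ • p) =
      ∑ c, torusInt ((rep' c).1.1 : L) (H.pairPhi (rep' c)) (γ • p) :=
    (H.sum_torusInt hrep _).trans (H.sum_torusInt hrep' _).symm
  have key : ∀ r : Orb M t → PairSet M t,
      ‖∑ c, torusInt ((r c).1.1 : L) (H.pairPhi (r c)) (γ • p) - (∑ c, H.pairA hc (r c)) * y‖ ≤
        ∑ c, C (r c) := fun r => by
    rw [Finset.sum_mul, ← Finset.sum_sub_distrib]
    exact norm_sum_le_of_le _ fun c _ => hC (r c) p hp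
  have h1 := key rep
  have h2 := key rep'
  rw [← e] at h2
  set T := ∑ c, torusInt ((rep c).1.1 : L) (H.pairPhi (rep c)) (γ • p)
  rw [sub_mul]
  calc ‖(∑ c, H.pairA hc (rep c)) * y - (∑ c, H.pairA hc (rep' c)) * y‖
      = ‖(T - (∑ c, H.pairA hc (rep' c)) * y) - (T - (∑ c, H.pairA hc (rep c)) * y)‖ := by
        congr 1; ring
    _ ≤ _ := (norm_sub_le _ _).trans (by linarith)

/-- The growing terms of two pairs differing by a twist. -/
theorem pairA_twist {t : Idl L} (q : PairSet M t) {P : FPlace M}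
    (hP : H.cuspR γ q.1.1 q.1.2 P = 0) (hP' : H.cuspR γ q.1.1 q.1.2 (tauP L P) = 0)
    {q' : PairSet M t} (hβ : q'.1.1 = q.1.1)
    (ho : q'.1.2 = q.1.2 + (Finsupp.single (tauP L P) 1 - Finsupp.single P 1)) :
    H.pairA hc q' * (Ideal.absNorm (tauP L P).asIdeal : ℂ) =
      H.psiDiv (-(Finsupp.single (tauP L P) 1 - Finsupp.single P 1)) *
        (Ideal.absNorm P.asIdeal : ℂ) * H.pairA hc q := by
  classical
  obtain ⟨⟨β, o⟩, hrel⟩ := q
  obtain ⟨⟨β', o'⟩, hrel'⟩ := q'
  simp only at hβ ho hP hP' hrel hrel'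
  subst hβ ho
  set G := tauP L P
  set d : FPlace M →₀ ℤ := Finsupp.single G 1 - Finsupp.single P 1 with hd
  set R := H.cuspR γ β' o with hR
  set χ := H.psiDiv (-d)
  have hdd : d + tauD L d = 0 := by
    ext Q
    rw [Finsupp.add_apply, tauD_apply, Finsupp.coe_zero, Pi.zero_apply]
    exact single_tauP_sub_add P Q
  have hR' : H.cuspR γ β' (o + d) = R := by rw [hR, cuspR, cuspR, phaseMod_twist _ _ _ hdd]
  have hR0 : 0 ≤ R := H.cuspR_nonneg γ _ o
  set u := o + Finsupp.single G (1 : ℤ)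
  set W₁ := o + R + Finsupp.single G (1 : ℤ)
  have hW₁ : W₁ = o + d + R + Finsupp.single P 1 := by simp only [W₁, hd]; abel
  have hu : u = o + d + Finsupp.single P 1 := by simp only [u, hd]; abel
  have hsingle : ∀ Q : FPlace M, (0 : FPlace M →₀ ℤ) ≤ Finsupp.single Q 1 := fun Q =>
    Finsupp.single_nonneg.mpr zero_le_one
  have hd1 : CuspData γ (β' : L) o W₁ (H.phi t β' o) :=
    H.cuspData_phi hrel γ (le_add_of_nonneg_right (hsingle G))
  have hd2 : CuspData γ (β' : L) (o + d) W₁ (H.phi t β' (o + d)) :=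
    H.cuspData_phi hrel' γ (by rw [hR', hW₁]; exact le_add_of_nonneg_right (hsingle P))
  simp only [pairA, pairPhi]
  rw [cuspA_eq hc β'.ne_zero (H.cuspData_phi hrel γ le_rfl) hd1,
    cuspA_eq hc β'.ne_zero (H.cuspData_phi hrel' γ le_rfl) hd2, cuspA, cuspA]
  have hper : ∀ o₁ : FPlace M →₀ ℤ, PairRel t β' o₁ → ∀ x ∈ Lat o₁,
      ∀ a ∈ Lat (o₁ + H.cuspR γ β' o₁),
      gTerm (cuspPhase γ (β' : L)) (x + a) * H.phi t β' o₁ (x + a) =
        gTerm (cuspPhase γ (β' : L)) x * H.phi t β' o₁ x := fun o₁ h₁ =>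
    (H.cuspData_phi h₁ γ le_rfl).per
  have e1 : qsum (Lat o) (Lat W₁) (fun x => gTerm (cuspPhase γ (β' : L)) x * H.phi t β' o x) =
      (Ideal.absNorm G.asIdeal : ℂ) *
        qsum (Lat u) (Lat W₁) (fun x => gTerm (cuspPhase γ (β' : L)) x * H.phi t β' o x) :=
    qsum_move hR0 hP' (hper o hrel)
  have e2 : qsum (Lat (o + d)) (Lat W₁)
        (fun x => gTerm (cuspPhase γ (β' : L)) x * H.phi t β' (o + d) x) =
      (Ideal.absNorm P.asIdeal : ℂ) *
        qsum (Lat u) (Lat W₁)
          (fun x => gTerm (cuspPhase γ (β' : L)) x * H.phi t β' (o + d) x) := by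
    rw [hW₁, hu]
    refine qsum_move hR0 hP ?_
    have h := hper (o + d) hrel'
    rwa [hR'] at h
  have hou : ∀ x ∈ Lat u, x ∈ Lat o ∧ x ∈ Lat (o + d) := fun x hx =>
    ⟨Lat_anti (le_add_of_nonneg_right (hsingle G)) hx,
      Lat_anti (le_add_of_nonneg_right (hsingle P)) (hu ▸ hx)⟩
  have e3 : qsum (Lat u) (Lat W₁)
        (fun x => gTerm (cuspPhase γ (β' : L)) x * H.phi t β' (o + d) x) =
      χ * qsum (Lat u) (Lat W₁) (fun x => gTerm (cuspPhase γ (β' : L)) x * H.phi t β' o x) := by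
    rw [← qsum_const_mul]
    refine qsum_congr fun x hx => ?_
    rw [← mul_assoc, mul_comm χ, mul_assoc]
    congr 1
    rw [phi, phi]
    by_cases hC : H.Cong t ((β' : L) * Algebra.norm L x)
    · rw [if_pos ⟨(hou x hx).2, hC⟩, if_pos ⟨(hou x hx).1, hC⟩]
      split_ifs
      · rw [neg_add, H.psiDiv_add, mul_comm]
      · rw [sub_add_eq_sub_sub, sub_eq_add_neg _ d, H.psiDiv_add, mul_comm]
    · rw [if_neg fun h => hC h.2, if_neg fun h => hC h.2, mul_zero]
  rw [e1, e2, e3]
  ring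

/-- **The growing terms cancel.** -/
theorem sum_pairA_eq_zero {t : Idl L} [Fintype (Orb M t)] {rep : Orb M t → PairSet M t}
    (hrep : IsReps rep) : ∑ c, H.pairA hc (rep c) = 0 := by
  classical
  set T : Finset (FPlace L) := Finset.univ.biUnion fun c : Orb M t =>
    (H.cuspR γ (rep c).1.1 (rep c).1.2).support.image (below L)
  obtain ⟨P, hPT, hPS, hne⟩ := H.nontriv T
  have h0 : ∀ c, ∀ Q : FPlace M, below L Q = below L P →
      H.cuspR γ (rep c).1.1 (rep c).1.2 Q = 0 := fun c Q hQ => by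
    by_contra h
    exact hPT (Finset.mem_biUnion.mpr ⟨c, Finset.mem_univ c,
      Finset.mem_image.mpr ⟨Q, Finsupp.mem_support_iff.mpr h, hQ⟩⟩)
  set d : FPlace M →₀ ℤ := Finsupp.single (tauP L P) 1 - Finsupp.single P 1
  have hd : ∀ Q, d Q + d (tauP L Q) = 0 := single_tauP_sub_add P
  set e := twistOrb (t := t) d hd
  let rep' : Orb M t → PairSet M t := fun c =>
    ⟨((rep (e.symm c)).1.1, (rep (e.symm c)).1.2 + d), fun Q => by
      have h1 := (rep (e.symm c)).2 Q
      have h2 := hd Q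
      simp only [Finsupp.add_apply]
      linarith⟩
  have hrep' : IsReps rep' := fun c => by
    show e (orbMk (rep (e.symm c))) = c
    rw [hrep, Equiv.apply_symm_apply]
  set χ := H.psiDiv (-d)
  set NP : ℂ := (Ideal.absNorm P.asIdeal : ℂ)
  set NG : ℂ := (Ideal.absNorm (tauP L P).asIdeal : ℂ)
  set A := ∑ c, H.pairA hc (rep c)
  have hkey : (∑ c, H.pairA hc (rep' c)) * NG = χ * NP * A := by
    rw [Finset.sum_mul, Finset.mul_sum, ← e.sum_comp]
    refine Finset.sum_congr rfl fun c _ => ?_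
    refine H.pairA_twist hc (rep c) (h0 c P rfl) (h0 c _ (below_tauP P)) ?_ ?_ <;>
      simp [rep', d]
  rw [← H.sum_pairA_unique hc hrep hrep'] at hkey
  by_contra hA
  have h1 : NG = χ * NP := mul_left_cancel₀ hA (by linear_combination hkey)
  have h2 := congrArg (‖·‖) h1
  simp only [norm_mul, χ, H.norm_psiDiv, one_mul] at h2
  have h3 : NG = NP := by
    simp only [NG, NP, Complex.norm_natCast, Nat.cast_inj] at h2 ⊢
    exact h2
  have hNP : NP ≠ 0 := by
    simp only [NP, ne_eq, Nat.cast_eq_zero]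
    exact fun h => P.ne_bot (Ideal.absNorm_eq_zero_iff.mp h)
  have hχ : χ = 1 := by
    rw [h3] at h1
    exact (mul_eq_right₀ hNP).mp h1.symm
  refine hne ?_
  have e' : χ * H.psiDiv d = 1 := by rw [← H.psiDiv_add, neg_add_cancel, psiDiv_zero]
  rw [hχ, one_mul, H.psiDiv_sub, psiDiv_single, psiDiv_single, zpow_one, zpow_one,
    div_eq_one_iff_eq (H.ψ_ne_zero P)] at e'
  exact e'

/-- **The theta function at an arbitrary cusp is a sum of decaying integrals.** -/
theorem isRemSum_thetaF (t : Idl L) (γ : GL (Fin 2) L) :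
    IsRemSum M fun p => H.thetaF t (γ • p) := by
  classical
  have := finite_orb M t
  let := Fintype.ofFinite (Orb M t)
  set rep := outRep M t
  have hrep : IsReps rep := isReps_out t
  by_cases hc : γ.val 1 0 = 0
  · have hdet := (Matrix.GeneralLinearGroup.det γ).ne_zero
    rw [Matrix.GeneralLinearGroup.val_det_apply, Matrix.det_fin_two, hc, mul_zero, sub_zero,
      mul_ne_zero_iff] at hdet
    set u : Lˣ := Units.mk0 _ hdet.1
    set e : Lˣ := Units.mk0 _ hdet.2
    have hγ : γ = upGL u e (γ.val 0 1) := by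
      refine Units.ext ?_
      ext i j
      fin_cases i <;> fin_cases j <;> simp [upGL, u, e, hc]
    set κ : ℂ := ∏ w : InfinitePlace L, (‖w.embedding ((u : L) / e)‖ : ℂ)
    set b : Orb M t → L := fun c => ((rep c).1.1 : L) * ((u : L) / e)
    set Ψ : Orb M t → M → ℂ := fun c x =>
      gTerm (((rep c).1.1 : L) * (γ.val 0 1 / e)) x * H.pairPhi (rep c) x
    have hb : ∀ c, b c ≠ 0 := fun c =>
      mul_ne_zero (rep c).1.1.ne_zero (div_ne_zero u.ne_zero e.ne_zero)
    have hs : ∀ c x, x ∉ Lat (rep c).1.2 → Ψ c x = 0 := fun c x hx => by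
      simp only [Ψ, H.pairPhi_supp (rep c) x hx, mul_zero]
    have hB : ∀ c x, ‖Ψ c x‖ ≤ 1 := fun c x => by
      simp only [Ψ, norm_mul, gTerm, norm_traceExp, one_mul]
      exact H.norm_pairPhi_le (rep c) x
    refine ⟨Orb M t, inferInstance, fun _ => (wt t : ℂ) * κ, b, Ψ,
      fun c => ⟨hb c, _, 1, hs c, hB c⟩, funext fun p => ?_⟩
    have e1 : ∀ c, torusInt ((rep c).1.1 : L) (H.pairPhi (rep c)) (γ • p) =
        κ * torusInt (b c) (Ψ c) p := fun c => by
      rw [torusInt, torusInt, ← integral_const_mul]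
      refine setIntegral_congr_fun torusDom_measurableSet fun s _ => ?_
      conv_lhs => rw [hγ]
      exact thetaSum_upper _ _ _ _ _ _ _
    rw [H.thetaF_eq hrep]
    simp only [e1, torusInt_eq (hb _) (hs _) (hB _)]
    rw [← Finset.mul_sum, ← Finset.mul_sum, Finset.sum_add_distrib, ← Finset.mul_sum,
      ← Finset.sum_mul, show ∑ c, Ψ c 0 = 0 by simp [Ψ, gTerm, traceExp_zero, H.sum_phi_zero hrep],
      zero_mul, mul_zero, zero_add, mul_assoc]
  · choose ω B hs hB using fun c => cuspFun_bdd ((rep c).1.1 : L) hc (rep c).1.1.ne_zero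
      (H.cuspData_phi (rep c).2 γ le_rfl).le (H.norm_pairPhi_le (rep c))
    refine ⟨Orb M t, inferInstance,
      fun c => (wt t : ℂ) * cuspK ((rep c).1.1 : L) hc
        ((rep c).1.2 + H.cuspR γ (rep c).1.1 (rep c).1.2),
      fun c => cuspβ ((rep c).1.1 : L) hc,
      fun c => cuspFun ((rep c).1.1 : L) hc (rep c).1.2
        ((rep c).1.2 + H.cuspR γ (rep c).1.1 (rep c).1.2) (H.pairPhi (rep c)),
      fun c => ⟨cuspβ_ne_zero _ hc (rep c).1.1.ne_zero, ω c, B c, hs c, hB c⟩, funext fun p => ?_⟩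
    have e1 : ∀ c, torusInt ((rep c).1.1 : L) (H.pairPhi (rep c)) (γ • p) =
        H.pairA hc (rep c) * ((∏ w, (p w).y : ℝ) : ℂ) +
          cuspK ((rep c).1.1 : L) hc ((rep c).1.2 + H.cuspR γ (rep c).1.1 (rep c).1.2) *
            torusRem (cuspβ ((rep c).1.1 : L) hc) (cuspFun ((rep c).1.1 : L) hc (rep c).1.2
              ((rep c).1.2 + H.cuspR γ (rep c).1.1 (rep c).1.2) (H.pairPhi (rep c))) p := fun c =>
      torusInt_cusp hc (rep c).1.1.ne_zero (H.cuspData_phi (rep c).2 γ le_rfl) p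
    rw [H.thetaF_eq hrep, Finset.sum_congr rfl fun c _ => e1 c, Finset.sum_add_distrib,
      ← Finset.sum_mul, H.sum_pairA_eq_zero hc hrep, zero_mul, zero_add, Finset.mul_sum]
    exact Finset.sum_congr rfl fun c _ => (mul_assoc _ _ _).symm

end HeckeChar

end Fermat.Agent.ResidualThree.ThetaInduction
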