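import Fermat.Agent.ResidualThree.Automorphic.Forms
import Fermat.Agent.ResidualThree.Automorphic.SiegelFinite
import Fermat.Agent.ResidualThree.ThetaInduction.CuspExp

/-!
# The adelic theta function is bounded and cuspidal

Every translate of the theta function of a Hecke character of `M` is a finite sum of decaying
torus integrals (`HeckeChar.isRemSum_thetaF`). Such sums are bounded on Siegel sets, hence the
adelic theta function is bounded (`HeckeChar.bounded_thetaPhi`); and translating a decaying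
integral horospherically multiplies each term by a nontrivial character, so its mean over a
period cube vanishes and the adelic theta function is cuspidal (`HeckeChar.isCuspidal_thetaPhi`).
-/

noncomputable section

open NumberField Module MeasureTheory IsDedekindDomain

namespace Fermat.Agent.ResidualThree.ThetaInduction

open Fermat.Agent.CFT (OrdGE ord below ram)

variable {L M : Type} [Field L] [NumberField L] [Field M] [NumberField M]
  [Algebra L M] [Algebra.IsQuadraticExtension L M] [IsTotallyComplex L]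

/-! ### Horospherical translations of the off-zero integrals -/

omit [Algebra L M] [Algebra.IsQuadraticExtension L M] [NumberField M] [Field M]
  [IsTotallyComplex L] in
theorem archExp_eq_prod (ξ : L) (b : InfinitePlace L → ℂ) :
    archExp ξ b = ∏ w, eR (2 * (w.embedding ξ * b w).re) := by
  rw [← eR_sum]
  rfl

omit [IsTotallyComplex L] in
theorem kerInf_horoShift (β : L) (s : InfinitePlace L → ℝ) (b : InfinitePlace L → ℂ) (p : Hyp L)
    (x : M) :
    kerInf β s (horoShift b p) (embM L x) =
      archExp (β * Algebra.norm L x) b * kerInf β s p (embM L x) := by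
  rw [archExp_eq_prod, kerInf, kerInf, ← Finset.prod_mul_distrib]
  refine Finset.prod_congr rfl fun w _ => ?_
  show ker1 (w.embedding β) (s w) ⟨(p w).z + b w, (p w).y, (p w).y_pos⟩ (embM L x w) = _
  rw [ker1_translate, embM_prod, map_mul]
  congr 3
  ring_nf

omit [IsTotallyComplex L] in
theorem offZero_horoShift (β : L) (s : InfinitePlace L → ℝ) (Φ : M → ℂ)
    (b : InfinitePlace L → ℂ) (p : Hyp L) (x : M) :
    offZero β s (horoShift b p) Φ x = archExp (β * Algebra.norm L x) b * offZero β s p Φ x := by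
  simp only [offZero]
  split_ifs
  · rw [mul_zero]
  · rw [kerInf_horoShift]; ring

omit [Algebra L M] [Algebra.IsQuadraticExtension L M] [NumberField M] [Field M]
  [IsTotallyComplex L] in
theorem exists_archExp_ne_one {ξ : L} (hξ : ξ ≠ 0) :
    ∃ b : InfinitePlace L → ℂ, archExp ξ b ≠ 1 := by
  classical
  obtain ⟨w₀⟩ := (inferInstance : Nonempty (InfinitePlace L))
  refine ⟨Pi.single w₀ (1 / (4 * w₀.embedding ξ)), ?_⟩
  have he : w₀.embedding ξ ≠ 0 := (map_ne_zero _).mpr hξ
  have h : realPair ξ (Pi.single w₀ (1 / (4 * w₀.embedding ξ))) = 1 / 2 := by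
    rw [realPair, Finset.sum_eq_single w₀ (fun w _ hw => by simp [hw]) (by simp), Pi.single_eq_same,
      show w₀.embedding ξ * (1 / (4 * w₀.embedding ξ)) = ((1 / 4 : ℝ) : ℂ) by
        push_cast; field_simp]
    rw [Complex.ofReal_re]
    norm_num
  rw [archExp, h]
  push_cast
  rw [show 2 * (Real.pi : ℂ) * Complex.I * (1 / 2) = Real.pi * Complex.I by ring,
    Complex.exp_pi_mul_I]
  norm_num

omit [IsTotallyComplex L] in
/-- A period making all coefficients of a lattice dual. -/
theorem exists_dualPeriod_norm (β : L) (ω : FPlace M →₀ ℤ) :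
    ∃ k : ℕ, 0 < k ∧ ∀ x ∈ Lat ω, IsDualPeriod (β * Algebra.norm L x) k := by
  obtain ⟨z, hz, -⟩ := exists_unit_ord_eq_on (-ω) (∅ : Finset (FPlace M))
  obtain ⟨k, hk, hdual⟩ := exists_dualPeriod (F := L) (β / Algebra.norm L (z : M))
  refine ⟨k, hk, fun x hx b => ?_⟩
  have hxz : x * (z : M) ∈ Lat (0 : FPlace M →₀ ℤ) := by simpa using mul_mem_Lat hx hz
  obtain ⟨a, ha⟩ := HeightOneSpectrum.mem_integers_of_valuation_le_one M (x * (z : M))
    fun v => by simpa [OrdGE] using hxz v
  have hz0 : Algebra.norm L (z : M) ≠ 0 := Algebra.norm_ne_zero_iff.mpr z.ne_zero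
  have hn : ((RingOfIntegers.norm L a : 𝓞 L) : L) = Algebra.norm L (x * (z : M)) := by
    rw [← ha, RingOfIntegers.coe_norm]
  have h := hdual (RingOfIntegers.norm L a * b)
  push_cast [hn, map_mul] at h
  rw [← h]
  congr 1
  field_simp

omit [IsTotallyComplex L] in
theorem volume_unitCube_lt_top :
    volume {t : BasisIx L → ℝ | ∀ i, t i ∈ Set.Ioc (0 : ℝ) 1} < ⊤ :=
  (Bornology.IsBounded.subset (isCompact_Icc (a := (0 : BasisIx L → ℝ)) (b := 1)).isBounded
    fun _ ht => ⟨fun i => (ht i).1.le, fun i => (ht i).2⟩).measure_lt_top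

/-- The mean of a nontrivial character over a period cube vanishes. -/
theorem cubeMean_archExp_mul {ξ : L} (hξ : ξ ≠ 0) {m : ℕ} (hm : 0 < m) (hdual : IsDualPeriod ξ m)
    (a : ℂ) : cubeMean (fun t => archExp ξ (boxPt m t) * a) = 0 := by
  have hper : IsZPeriodic fun t => archExp ξ (boxPt m t) * a := fun n t => by
    simp only
    rw [boxPt_add, archExp_add, archExp_boxPt_int hdual, mul_one]
  obtain ⟨b, hb⟩ := exists_archExp_ne_one hξ
  obtain ⟨s, rfl⟩ := boxPt_surjective hm b
  have h := cubeMean_add_right hper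
    (((continuous_archExp _).comp (continuous_boxPt m)).mul continuous_const) s
  simp only [boxPt_add, archExp_add, mul_right_comm _ (archExp _ (boxPt m s))] at h
  rw [cubeMean, integral_mul_const] at h
  by_contra h0
  exact hb ((mul_eq_left₀ h0).mp h)

/-- The mean of one off-zero integral vanishes. -/
theorem cubeMean_torusRem {β : L} (hβ : β ≠ 0) {Φ : M → ℂ} {ω : FPlace M →₀ ℤ}
    (hsupp : ∀ x, x ∉ Lat ω → Φ x = 0) {B : ℝ} (hB : ∀ x, ‖Φ x‖ ≤ B) {m : ℕ} (hm : 0 < m)
    (hdual : ∀ x ∈ Lat ω, IsDualPeriod (β * Algebra.norm L x) m) (p : Hyp L) :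
    cubeMean (fun t => torusRem β Φ (horoShift (boxPt m t) p)) = 0 := by
  classical
  have : Countable M := (Module.finBasis ℚ M).equivFun.injective.countable
  have : IsFiniteMeasure (volume.restrict {t : BasisIx L → ℝ | ∀ i, t i ∈ Set.Ioc (0 : ℝ) 1}) :=
    isFiniteMeasure_restrict.mpr volume_unitCube_lt_top.ne
  set a : M → ℂ := fun x => ∫ u in torusDom L M, offZero β (sExp u) p Φ x
  set g : M → (BasisIx L → ℝ) → ℂ := fun x t => archExp (β * Algebra.norm L x) (boxPt m t) * a x
  have ha : Summable fun x => ‖a x‖ :=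
    Summable.of_nonneg_of_le (fun _ => norm_nonneg _) (fun x => norm_integral_le_integral_norm _)
      (hasSum_torusRem hβ hsupp hB p).2
  have hg : ∀ x, Continuous (g x) := fun x =>
    ((continuous_archExp _).comp (continuous_boxPt m)).mul continuous_const
  have hgn : ∀ x t, ‖g x t‖ = ‖a x‖ := fun x t => by simp [g, norm_archExp]
  have hterm : ∀ x, cubeMean (g x) = 0 := by
    intro x
    by_cases hx : x ≠ 0 ∧ Φ x ≠ 0
    · have hxω : x ∈ Lat ω := by_contra fun h => hx.2 (hsupp x h)
      have hξ : β * Algebra.norm L x ≠ 0 := mul_ne_zero hβ (Algebra.norm_ne_zero_iff.mpr hx.1)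
      exact cubeMean_archExp_mul hξ hm (hdual x hxω) _
    · have h0 : a x = 0 := by
        have : ∀ u, offZero β (sExp u) p Φ x = 0 := fun u => by
          simp only [offZero]
          split_ifs with h0
          · rfl
          · rw [show Φ x = 0 from not_not.mp fun h => hx ⟨h0, h⟩, zero_mul]
        simp [a, this]
      simp [g, h0, cubeMean]
  have e : ∀ t, torusRem β Φ (horoShift (boxPt m t) p) = ∑' x, g x t := fun t => by
    rw [← (hasSum_torusRem hβ hsupp hB (horoShift (boxPt m t) p)).1.tsum_eq]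
    refine tsum_congr fun x => ?_
    simp only [offZero_horoShift, g, a]
    exact integral_const_mul _ _
  rw [cubeMean]
  simp only [e]
  have hi : ∀ x, Integrable (g x)
      (volume.restrict {t : BasisIx L → ℝ | ∀ i, t i ∈ Set.Ioc (0 : ℝ) 1}) := fun x =>
    Integrable.mono' (integrable_const ‖a x‖) (hg x).aestronglyMeasurable
      (Filter.Eventually.of_forall fun t => (hgn x t).le)
  rw [← integral_tsum_of_summable_integral_norm hi ?_]
  · exact (tsum_congr hterm).trans tsum_zero
  · simp only [hgn, integral_const, smul_eq_mul]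
    exact ha.mul_left _

theorem continuous_remTerm {β : L} (hβ : β ≠ 0) {Φ : M → ℂ}
    (hΦ : ∃ ω B, (∀ x, x ∉ Lat ω → Φ x = 0) ∧ ∀ x, ‖Φ x‖ ≤ B) : Continuous (torusRem β Φ) := by
  obtain ⟨ω, B, hs, hB⟩ := hΦ
  exact continuous_torusRem hβ hs hB

namespace HeckeChar

variable (H : HeckeChar L M)

/-- The adelic theta function at each finite component is a sum of decaying integrals. -/
theorem isRemSum_thetaPhi (x : Gf L) : IsRemSum M (H.thetaPhi x) := by
  obtain ⟨γ, t, h⟩ := H.exists_decomp x
  rw [show H.thetaPhi x = fun p => H.thetaF t (γ⁻¹ • p) from funext (H.thetaPhi_eq h)]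
  exact H.isRemSum_thetaF t γ⁻¹

/-- **Boundedness.** -/
theorem bounded_thetaPhi : ∃ C, ∀ x p, ‖H.thetaPhi x p‖ ≤ C := by
  classical
  obtain ⟨X, c, A, R, hX, hc, hcov⟩ := exists_siegel_cover H.thetaLevel
  have hloc : ∀ ω : Ωf H.thetaLevel, ∃ C, ∀ p : Hyp L, (∀ w, c ≤ (p w).y) →
      ‖H.thetaPhi ω.out p‖ ≤ C := fun ω => by
    obtain ⟨ι, _, k, b, Φ, hΦ, e⟩ := H.isRemSum_thetaPhi ω.out
    choose ω' B hs hB using fun i => (hΦ i).2
    choose C hC using fun i => exists_torusRem_bound (hΦ i).1 (hs i) (hB i) hc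
    refine ⟨∑ i, ‖k i‖ * C i, fun p hp => ?_⟩
    rw [e]
    exact norm_sum_le_of_le _ fun i _ => by
      rw [norm_mul]; exact mul_le_mul_of_nonneg_left (hC i p hp) (norm_nonneg _)
  choose C hC using hloc
  refine ⟨∑ ω ∈ hX.toFinset, max (C ω) 0, fun x p => ?_⟩
  obtain ⟨g, hg⟩ := hcov ((x : Ωf H.thetaLevel), p)
  set q := g • p
  have hω : ((diag L g * x : Gf L) : Ωf H.thetaLevel) ∈ X := hg.1
  obtain ⟨j, hj⟩ := QuotientGroup.mk_out_eq_mul H.thetaLevel.group (diag L g * x)
  have e : H.thetaPhi x p = H.thetaPhi ((diag L g * x : Gf L) : Ωf H.thetaLevel).out q := by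
    rw [hj, H.isAutomorphic_thetaPhi.right _ _ j.2]
    exact (H.isAutomorphic_thetaPhi.left g x _ (fun v => rfl) p).symm
  rw [e]
  refine ((hC _ q fun w => (hg.2 w).2.1).trans (le_max_left _ 0)).trans ?_
  exact Finset.single_le_sum (f := fun ω => max (C ω) 0) (fun _ _ => le_max_right _ _)
    (hX.mem_toFinset.mpr hω)

/-- **Cuspidality.** -/
theorem isCuspidal_thetaPhi : IsCuspidal H.thetaPhi := by
  classical
  refine (isCuspidal_iff H.isAutomorphic_thetaPhi).mpr fun x p => ?_
  obtain ⟨ι, _, k, b, Φ, hΦ, e⟩ := H.isRemSum_thetaPhi x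
  choose ω B hs hB using fun i => (hΦ i).2
  choose n hn hdual using fun i => exists_dualPeriod_norm (b i) (ω i)
  obtain ⟨m₀, hm₀, hper⟩ := H.isAutomorphic_thetaPhi.exists_period x
  set m := m₀ * ∏ i, n i
  have hm : 0 < m := Nat.mul_pos hm₀ (Finset.prod_pos fun i _ => hn i)
  rw [fourierCoeff_eq (H.isAutomorphic_thetaPhi.continuous x) p
    (m := m) ⟨hm, hper.mul _, fun r => by simp [traceExp]⟩, boxMean]
  have hbox : boxFun H.thetaPhi 0 x p m =
      fun t => ∑ i, k i * torusRem (b i) (Φ i) (horoShift (boxPt m t) p) := by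
    funext t
    simp [boxFun, archExp_zero_left, e]
  have : IsFiniteMeasure (volume.restrict {t : BasisIx L → ℝ | ∀ i, t i ∈ Set.Ioc (0 : ℝ) 1}) :=
    isFiniteMeasure_restrict.mpr volume_unitCube_lt_top.ne
  have hint : ∀ i, IntegrableOn (fun t => k i * torusRem (b i) (Φ i) (horoShift (boxPt m t) p))
      {t : BasisIx L → ℝ | ∀ i, t i ∈ Set.Ioc (0 : ℝ) 1} volume := fun i =>
    ((continuous_const.mul ((continuous_remTerm (hΦ i).1 (hΦ i).2).comp
      (continuous_horoShift.comp ((continuous_boxPt m).prodMk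
        continuous_const)))).continuousOn.integrableOn_compact
      (isCompact_Icc (a := (0 : BasisIx L → ℝ)) (b := 1))).mono_set
        fun t ht => ⟨fun i => (ht i).1.le, fun i => (ht i).2⟩
  rw [hbox, cubeMean, integral_finsetSum _ fun i _ => hint i]
  refine Finset.sum_eq_zero fun i _ => ?_
  rw [integral_const_mul]
  have hd : ∀ y ∈ Lat (ω i), IsDualPeriod (b i * Algebra.norm L y) m := fun y hy => by
    obtain ⟨r, hr⟩ := Finset.dvd_prod_of_mem n (Finset.mem_univ i)
    rw [show m = n i * (m₀ * r) by simp only [m, hr]; ring]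
    exact (hdual i y hy).mul _
  have h := cubeMean_torusRem (hΦ i).1 (hs i) (hB i) hm hd p
  rw [cubeMean] at h
  rw [h, mul_zero]

end HeckeChar

end Fermat.Agent.ResidualThree.ThetaInduction
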