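import Fermat.Agent.ResidualThree.ThetaInduction.Series

/-!
# The theta function is an eigenfunction of the unramified Hecke operators

At a place `v` outside the exceptional set the Hecke operator is the sum over the `N v + 1`
neighbours (`heckeOp_neighbours`). Translated back to the Whittaker series of the ideal data,
the `N v` finite neighbours give a character sum over the residue field, which keeps exactly the
coefficients in the smaller dual lattice (`HeckeChar.sum_phase`); together with the remaining
neighbour this matches the splitting of `v` in `M / L` (`HeckeChar.series_rec`), so the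
eigenvalue is `HeckeChar.eigen v` (`HeckeChar.hasEigenvalue_thetaPhi`).
-/

noncomputable section

open IsDedekindDomain NumberField Module
open scoped WithZero

namespace Fermat.Agent.ResidualThree.ThetaInduction

open Fermat.Agent.CFT (OrdGE ord below ram)
open Fermat.Agent.ResidualThree.Tree (Vert vdist stepGL diagGL nbMap nbEquiv)

variable {L : Type} [Field L] [NumberField L]

/-- A chosen integral lift of a residue class. -/
def resLift (v : FPlace L) (c : IsLocalRing.ResidueField (valv v).valuationSubring) :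
    v.adicCompletion L :=
  ((IsLocalRing.residue_surjective c).choose : (valv v).valuationSubring)

theorem valv_resLift (v : FPlace L) (c : IsLocalRing.ResidueField (valv v).valuationSubring) :
    valv v (resLift v c) ≤ 1 := Tree.v_coe_le_one _

theorem residue_resLift (v : FPlace L) (c : IsLocalRing.ResidueField (valv v).valuationSubring) :
    IsLocalRing.residue (valv v).valuationSubring ⟨resLift v c, valv_resLift v c⟩ = c :=
  (IsLocalRing.residue_surjective c).choose_spec

instance finite_residueField (v : FPlace L) :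
    Finite (IsLocalRing.ResidueField (valv v).valuationSubring) :=
  Nat.finite_of_card_ne_zero (by
    rw [(isLocalVal_valv v).card_residue]
    exact fun h => v.ne_bot (Ideal.absNorm_eq_zero_iff.mp h))

/-- The Hecke operator as a sum over the explicit neighbours. -/
theorem heckeOp_neighbours {v : FPlace L} {φ : Gf L → Hyp L → ℂ} (hs : IsSphericalAt v φ)
    [Fintype (IsLocalRing.ResidueField (valv v).valuationSubring)]
    {π : (v.adicCompletion L)ˣ} (hπ : valv v (π : v.adicCompletion L) = WithZero.exp (-1 : ℤ))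
    (x : Gf L) (p : Hyp L) :
    heckeOp v (Finsupp.single 1 1) φ x p =
      φ (x * single v (diagGL 1 π)) p + ∑ c, φ (x * single v (stepGL π (resLift v c))) p := by
  classical
  have hterm : ∀ o, vertFun v φ (nbMap (valv v) π o) x p =
      φ (x * single v (Option.elim o (diagGL 1 π) fun c => stepGL π (resLift v c))) p := fun o => by
    rcases o with _ | c
    · exact congrFun (congrFun (vertFun_mk hs _) x) p
    · exact congrFun (congrFun (vertFun_mk hs _) x) p
  rw [heckeOp_eq_sum]
  show ∑ y ∈ baseSphere v 1, vertFun v φ y x p = _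
  let : Fintype {y : Vert (valv v) // vdist (QuotientGroup.mk 1 : Vert (valv v)) y = 1} :=
    Fintype.ofEquiv _ (nbEquiv hπ)
  rw [Finset.sum_subtype (baseSphere v 1)
      (p := fun y => vdist (QuotientGroup.mk 1 : Vert (valv v)) y = 1) (fun y => mem_baseSphere),
    ← (nbEquiv hπ).sum_comp, Fintype.sum_option]
  exact congrArg₂ (· + ·) (hterm none) (Finset.sum_congr rfl fun c _ => hterm (some c))

/-- The Hecke operator ignores a right factor in the maximal compact subgroup. -/
theorem heckeOp_mul_max {v : FPlace L} {φ : Gf L → Hyp L → ℂ} (hs : IsSphericalAt v φ)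
    (x : Gf L) {k : GLv v} (hk : k ∈ maxSubgroup v) (p : Hyp L) :
    heckeOp v (Finsupp.single 1 1) φ (x * single v k) p =
      heckeOp v (Finsupp.single 1 1) φ x p := by
  classical
  rw [heckeOp_eq_sum, heckeOp_eq_sum]
  show ∑ y ∈ baseSphere v 1, vertFun v φ y (x * single v k) p =
    ∑ y ∈ baseSphere v 1, vertFun v φ y x p
  have hb : k • baseVert v = baseVert v := by
    show (QuotientGroup.mk (k * 1) : Vert (valv v)) = QuotientGroup.mk 1
    rw [mul_one, QuotientGroup.eq, mul_one]
    exact inv_mem hk
  refine Finset.sum_equiv (MulAction.toPerm k) (fun y => ?_) fun y _ => ?_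
  · rw [mem_baseSphere, mem_baseSphere]
    show _ ↔ vdist (baseVert v) (k • y) = 1
    conv_rhs => rw [← hb, Tree.vdist_smul]
  · exact congrFun (congrFun (rightTr_vertFun hs k y) x) p

variable {M : Type} [Field M] [NumberField M] [Algebra L M] [Algebra.IsQuadraticExtension L M]

omit [NumberField M] in
/-- Raising the value of a nonpositive divisor at one place keeps it nonpositive exactly if the
value there is negative. -/
theorem add_single_le_zero_iff {f : FPlace M →₀ ℤ} (hf : f ≤ 0) (R : FPlace M) :
    f + Finsupp.single R 1 ≤ 0 ↔ f R ≤ -1 := by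
  classical
  constructor
  · intro h
    have := h R
    simp only [Finsupp.add_apply, Finsupp.single_eq_same, Finsupp.coe_zero, Pi.zero_apply] at this
    omega
  · intro h Q
    by_cases hQ : Q = R
    · subst hQ
      simp only [Finsupp.add_apply, Finsupp.single_eq_same, Finsupp.coe_zero, Pi.zero_apply]
      omega
    · simpa [Finsupp.single_eq_of_ne hQ] using hf Q

theorem psiDiv_single_one (H : HeckeChar L M) (P : FPlace M) :
    H.psiDiv (Finsupp.single P 1) = H.ψ P := by
  rw [H.psiDiv_single, zpow_one]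

namespace HeckeChar

variable (H : HeckeChar L M)

theorem cong_mulAt {t : Idl L} {v : FPlace L} (hv : v ∉ H.S) (a : (v.adicCompletion L)ˣ) (ξ : L) :
    H.Cong (t.mulAt v a) ξ ↔ H.Cong t ξ := by
  refine forall₂_congr fun w hw => ?_
  rw [t.mulAt_ne fun h : w = v => hv (h ▸ hw)]

variable [IsTotallyComplex L]

open Classical in
/-- The relation between the series at a datum and at its two neighbours. -/
theorem series_rec {t : Idl L} {v : FPlace L} (hv : v ∉ H.S) {π : (v.adicCompletion L)ˣ}
    (hπ : valv v (π : v.adicCompletion L) = WithZero.exp (-1 : ℤ)) (p : Hyp L) :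
    (∑' q : H.CPair (t.mulAt v π),
      if 0 ≤ ord v q.1.1.1 + t.ordD v + cond v then H.cTerm (t.mulAt v π) p q else 0) +
        H.cSeries (t.mulAt v π⁻¹) p = H.eigen v * H.cSeries t p := by
  classical
  have hπi : valv v ((π⁻¹ : (v.adicCompletion L)ˣ) : v.adicCompletion L) =
      WithZero.exp (-(-1 : ℤ)) := by
    rw [Units.val_inv_eq_inv_val, map_inv₀, hπ, ← WithZero.exp_neg]
  set t' := t.mulAt v π
  set t'' := t.mulAt v π⁻¹
  have ht' : t'.ordD = t.ordD + Finsupp.single v 1 := t.ordD_mulAt v hπ
  have ht'' : t''.ordD = t.ordD + Finsupp.single v (-1) := t.ordD_mulAt v hπi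
  obtain ⟨P, hP, hPdef⟩ : ∃ P, below L P = v ∧
      P = (Fermat.Agent.CFT.exists_below_eq (L := M) v).choose :=
    ⟨_, (Fermat.Agent.CFT.exists_below_eq (L := M) v).choose_spec, rfl⟩
  have hr : ∀ Q : FPlace M, below L Q = v → (ram L Q : ℤ) = 1 := fun Q hQ => by
    rw [H.unram v hv Q hQ]; norm_num
  have hrel : ∀ q : H.CPair t', (0 ≤ ord v q.1.1.1 + t.ordD v + cond v) ↔
      q.1.1.2 P + q.1.1.2 (tauP L P) ≤ -1 := fun q => by
    have h := q.1.2 P
    rw [hP, hr P hP, one_mul, one_mul, ht', Finsupp.add_apply, Finsupp.single_eq_same] at h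
    omega
  have hnp : ∀ (q : H.CPair t') (Q : FPlace M), q.1.1.2 Q ≤ 0 := fun q Q => q.2.1 Q
  have hc1 : ∀ ξ, H.Cong t' ξ ↔ H.Cong t ξ := H.cong_mulAt hv π
  have hc2 : ∀ ξ, H.Cong t' ξ ↔ H.Cong t'' ξ := fun ξ =>
    (hc1 ξ).trans (H.cong_mulAt hv π⁻¹ ξ).symm
  by_cases hsp : tauP L P = P
  · -- an inert place
    have hns : ¬ SplitAt M v := fun h => h P hP hsp
    have hd : ∀ Q, Finsupp.single P (1 : ℤ) Q + Finsupp.single P (1 : ℤ) (tauP L Q) =
        (ram L Q : ℤ) * (t'.ordD (below L Q) - t''.ordD (below L Q)) := fun Q => by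
      rw [ht', ht'', Finsupp.add_apply, Finsupp.add_apply]
      by_cases hQ : below L Q = v
      · have hQP : Q = P := by
          rcases eq_or_eq_tauP (hQ.trans hP.symm) with h | h
          · exact h
          · rw [h, hsp]
        subst hQP
        rw [hsp, hQ, hr Q hQ, Finsupp.single_eq_same, Finsupp.single_eq_same,
          Finsupp.single_eq_same]
        ring
      · rw [Finsupp.single_eq_of_ne (a := P) (fun h : Q = P => hQ (h ▸ hP)),
          Finsupp.single_eq_of_ne (a := P) (fun h : tauP L Q = P => hQ (by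
            rw [← below_tauP (L := L) Q, h, hP])),
          Finsupp.single_eq_of_ne hQ, Finsupp.single_eq_of_ne hQ]
        ring
    have h1 := H.tsum_shift t' t'' (Finsupp.single P 1) hd
      (Finsupp.single_nonneg.mpr zero_le_one) hc2 p
    rw [psiDiv_single_one, H.inert P (hP ▸ hv) hsp] at h1
    have hiff : ∀ q : H.CPair t', (0 ≤ ord v q.1.1.1 + t.ordD v + cond v) ↔
        q.1.1.2 + Finsupp.single P 1 ≤ 0 := fun q => by
      rw [hrel q, hsp, add_single_le_zero_iff q.2.1]
      omega
    rw [eigen, if_neg hns, zero_mul]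
    simp only [hiff]
    rw [h1]
    ring
  · -- a split place
    have hsplit : SplitAt M v := fun Q hQ h => by
      rcases eq_or_eq_tauP (hQ.trans hP.symm) with rfl | rfl
      · exact hsp h
      · exact hsp (by rwa [tauP_tauP, eq_comm] at h)
    have hPv : below L (tauP L P) = v := (below_tauP P).trans hP
    have hd : ∀ R : FPlace M, R = P ∨ R = tauP L P →
        ∀ Q, Finsupp.single R (1 : ℤ) Q + Finsupp.single R (1 : ℤ) (tauP L Q) =
        (ram L Q : ℤ) * (t'.ordD (below L Q) - t.ordD (below L Q)) := by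
      intro R hR Q
      rw [ht', Finsupp.add_apply, add_sub_cancel_left]
      have hRv : below L R = v := by rcases hR with rfl | rfl <;> assumption
      by_cases hQ : below L Q = v
      · rw [hQ, hr Q hQ, Finsupp.single_eq_same, one_mul]
        have hQ' : Q = R ∨ Q = tauP L R := eq_or_eq_tauP (hQ.trans hRv.symm)
        have hRne : tauP L R ≠ R := hsplit R hRv
        rcases hQ' with rfl | rfl
        · rw [Finsupp.single_eq_same, Finsupp.single_eq_of_ne hRne, add_zero]
        · rw [tauP_tauP, Finsupp.single_eq_same, Finsupp.single_eq_of_ne hRne, zero_add]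
      · rw [Finsupp.single_eq_of_ne (a := v) hQ, mul_zero,
          Finsupp.single_eq_of_ne (a := R) (fun h : Q = R => hQ (h ▸ hRv)),
          Finsupp.single_eq_of_ne (a := R) (fun h : tauP L Q = R => hQ (by
            rw [← below_tauP (L := L) Q, h, hRv])), add_zero]
    have hd2 : ∀ Q : FPlace M,
        (Finsupp.single P (1 : ℤ) + Finsupp.single (tauP L P) 1 : FPlace M →₀ ℤ) Q +
        (Finsupp.single P (1 : ℤ) + Finsupp.single (tauP L P) 1 : FPlace M →₀ ℤ) (tauP L Q) =
        (ram L Q : ℤ) * (t'.ordD (below L Q) - t''.ordD (below L Q)) := fun Q => by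
      have h1 := hd P (Or.inl rfl) Q
      have h2 := hd (tauP L P) (Or.inr rfl) Q
      rw [ht'] at h1 h2
      rw [ht', ht'']
      simp only [Finsupp.add_apply, Finsupp.single_neg, Finsupp.neg_apply] at h1 h2 ⊢
      linarith
    have hA := H.tsum_shift t' t (Finsupp.single P 1) (hd P (Or.inl rfl))
      (Finsupp.single_nonneg.mpr zero_le_one) hc1 p
    have hB := H.tsum_shift t' t (Finsupp.single (tauP L P) 1) (hd _ (Or.inr rfl))
      (Finsupp.single_nonneg.mpr zero_le_one) hc1 p
    have hAB := H.tsum_shift t' t'' (Finsupp.single P 1 + Finsupp.single (tauP L P) 1) hd2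
      (add_nonneg (Finsupp.single_nonneg.mpr zero_le_one) (Finsupp.single_nonneg.mpr zero_le_one))
      hc2 p
    rw [psiDiv_single_one] at hA hB
    rw [H.psiDiv_add, psiDiv_single_one, psiDiv_single_one, H.split P (hP ▸ hv) hsp, one_mul]
      at hAB
    rw [eigen, if_pos hsplit, ← hPdef, add_mul, ← hA, ← hB, ← hAB,
      ← (H.summable_ite_cTerm t' p _).tsum_add (H.summable_ite_cTerm t' p _),
      ← (H.summable_ite_cTerm t' p _).tsum_add (H.summable_ite_cTerm t' p _)]
    refine tsum_congr fun q => ?_
    have hle : ∀ R : FPlace M, q.1.1.2 + Finsupp.single R 1 ≤ 0 ↔ q.1.1.2 R ≤ -1 :=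
      add_single_le_zero_iff q.2.1
    have hle2 : q.1.1.2 + (Finsupp.single P 1 + Finsupp.single (tauP L P) 1) ≤ 0 ↔
        q.1.1.2 P ≤ -1 ∧ q.1.1.2 (tauP L P) ≤ -1 := by
      have hG : (q.1.1.2 + Finsupp.single P 1 : FPlace M →₀ ℤ) (tauP L P) = q.1.1.2 (tauP L P) := by
        simp [Finsupp.single_eq_of_ne hsp]
      rw [← add_assoc]
      refine ⟨fun h => ?_, fun ⟨h1, h2⟩ =>
        (add_single_le_zero_iff ((hle P).mpr h1) _).mpr (hG.symm ▸ h2)⟩
      have h1 := (le_add_of_nonneg_right (Finsupp.single_nonneg.mpr zero_le_one)).trans h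
      exact ⟨(hle P).mp h1, hG ▸ (add_single_le_zero_iff h1 _).mp h⟩
    simp only [hle, hle2, hrel q]
    have := hnp q P
    have := hnp q (tauP L P)
    by_cases h1 : q.1.1.2 P ≤ -1 <;> by_cases h2 : q.1.1.2 (tauP L P) ≤ -1 <;>
      simp only [h1, h2, and_self, and_false, false_and, if_true, if_false, add_zero, zero_add]
    · rw [if_pos (by omega)]
    · rw [if_pos (by omega)]
    · rw [if_pos (by omega)]
    · rw [if_neg (by omega)]

omit [IsTotallyComplex L] in
/-- The coefficient of a coefficient pair lies in the inverse different times the inverse of the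
ideal datum. -/
theorem neg_cond_le_ord {t : Idl L} (q : H.CPair t) (w : FPlace L) :
    -cond w ≤ ord w q.1.1.1 + t.ordD w := by
  obtain ⟨P, rfl⟩ := Fermat.Agent.CFT.exists_below_eq (L := M) w
  have h := q.1.2 P
  have h1 := q.2.1 P
  have h2 := q.2.1 (tauP L P)
  simp only [Finsupp.coe_zero, Pi.zero_apply] at h1 h2
  have h3 : 0 ≤ (ram L P : ℤ) *
      (ord (below L P) q.1.1.1 + t.ordD (below L P) + cond (below L P)) := by
    linarith
  rcases ram_le_two (L := L) P with hh | hh <;> rw [hh] at h3 <;> push_cast at h3 <;> linarith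

omit [IsTotallyComplex L] in
/-- A phase with small argument is trivial. -/
theorem traceExp_small {t' : Idl L} (q : H.CPair t') {d : L}
    (hd : ∀ w, OrdGE w (t'.ordD w) d) : traceExp ((q.1.1.1 : L) * d) = 1 := by
  refine traceExp_eq_one fun w => ?_
  refine ((Fermat.Agent.CFT.ordGE_ord _ q.1.1.1).mul (hd _)).mono ?_
  exact H.neg_cond_le_ord q w

omit [IsTotallyComplex L] in
/-- Global representatives of the translations of the neighbours. -/
theorem exists_shift_reps (t : Idl L) (v : FPlace L) :
    ∃ β : IsLocalRing.ResidueField (valv v).valuationSubring → L,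
      ∀ c, valv v (algebraMap L _ (β c) - t.val v * resLift v c) ≤
          WithZero.exp (-(t.ordD v + 1)) ∧
        ∀ w, w ≠ v → OrdGE w (t.ordD w + H.lvl H.lvlN w) (β c) := by
  classical
  have h : ∀ c : IsLocalRing.ResidueField (valv v).valuationSubring, ∃ β : L,
      valv v (algebraMap L _ β - t.val v * resLift v c) ≤ WithZero.exp (-(t.ordD v + 1)) ∧
        ∀ w, w ≠ v → OrdGE w (t.ordD w + H.lvl H.lvlN w) β := fun c => by
    obtain ⟨β, hβ⟩ := exists_algebraMap_approx
      (fun w => if h : w = v then h ▸ (t.val v * resLift v c) else 0)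
      (Filter.mem_of_superset (Set.finite_singleton v).compl_mem_cofinite fun w hw => by
        simp only [Set.mem_compl_iff, Set.mem_singleton_iff] at hw
        simp [hw])
      (fun w => if w = v then t.ordD v + 1 else t.ordD w + H.lvl H.lvlN w)
      (Filter.mem_of_superset (((Set.finite_singleton v).union
        t.ordD.support.finite_toSet).union H.S.finite_toSet).compl_mem_cofinite
        fun w hw => by
          simp only [Set.mem_compl_iff, Set.mem_union, Set.mem_singleton_iff, Finset.mem_coe,
            not_or, Finsupp.notMem_support_iff] at hw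
          show (if w = v then t.ordD v + 1 else t.ordD w + H.lvl H.lvlN w) ≤ 0
          rw [if_neg hw.1.1, hw.1.2, lvl, if_neg hw.2, add_zero])
    refine ⟨β, ?_, fun w hw => ?_⟩
    · have h1 := hβ v
      rw [dif_pos rfl, Valuation.map_sub_swap, if_pos rfl] at h1
      exact h1
    · have h1 := hβ w
      rw [dif_neg hw, zero_sub, Valuation.map_neg, valv_algebraMap, if_neg hw] at h1
      exact h1
  choose β hβ using h
  exact ⟨β, hβ⟩

omit [IsTotallyComplex L] in
theorem ordGE_iff_valv {v : FPlace L} {n : ℤ} {x : L} :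
    OrdGE v n x ↔ valv v (algebraMap L (v.adicCompletion L) x) ≤ WithZero.exp (-n) := by
  rw [valv_algebraMap]; exact Iff.rfl

omit [IsTotallyComplex L] in
open Classical in
/-- The character sum over the neighbours. -/
theorem sum_phase {t : Idl L} {v : FPlace L} {π : (v.adicCompletion L)ˣ}
    (hπ : valv v (π : v.adicCompletion L) = WithZero.exp (-1 : ℤ))
    [Fintype (IsLocalRing.ResidueField (valv v).valuationSubring)]
    {β : IsLocalRing.ResidueField (valv v).valuationSubring → L}
    (hβ : ∀ c, valv v (algebraMap L _ (β c) - t.val v * resLift v c) ≤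
        WithZero.exp (-(t.ordD v + 1)) ∧ ∀ w, w ≠ v → OrdGE w (t.ordD w) (β c))
    (q : H.CPair (t.mulAt v π)) :
    ∑ c, traceExp ((q.1.1.1 : L) * -β c) =
      if 0 ≤ ord v q.1.1.1 + t.ordD v + cond v then (Ideal.absNorm v.asIdeal : ℂ) else 0 := by
  classical
  have ht' : (t.mulAt v π).ordD = t.ordD + Finsupp.single v 1 := t.ordD_mulAt v hπ
  set ξ : Lˣ := q.1.1.1
  have hcard : (Fintype.card (IsLocalRing.ResidueField (valv v).valuationSubring) : ℂ) =
      (Ideal.absNorm v.asIdeal : ℂ) := by
    rw [← Nat.card_eq_fintype_card, (isLocalVal_valv v).card_residue]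
  have hge : ∀ c, OrdGE v (t.ordD v) (β c) := fun c => by
    rw [ordGE_iff_valv, ← sub_add_cancel (algebraMap L _ (β c)) (t.val v * resLift v c)]
    refine (valv v).map_add_le ((hβ c).1.trans (WithZero.exp_le_exp.mpr (by omega))) ?_
    rw [map_mul, t.valv_eq]
    exact (mul_le_mul' le_rfl (valv_resLift v c)).trans (by rw [mul_one])
  have hbig : ∀ w, w ≠ v → -cond w ≤ ord w ξ + t.ordD w := fun w hw => by
    have h := H.neg_cond_le_ord q w
    rwa [ht', Finsupp.add_apply, Finsupp.single_eq_of_ne hw, add_zero] at h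
  have hv' : -cond v ≤ ord v ξ + (t.ordD v + 1) := by
    have h := H.neg_cond_le_ord q v
    rwa [ht', Finsupp.add_apply, Finsupp.single_eq_same] at h
  split_ifs with hE
  · rw [Finset.sum_congr rfl fun c _ => traceExp_eq_one (a := (ξ : L) * -β c) fun w => ?_]
    · simp [hcard]
    · refine OrdGE.mono ((Fermat.Agent.CFT.ordGE_ord w ξ).mul (?_ : OrdGE w (t.ordD w) _)) ?_
      · by_cases hw : w = v
        · subst hw; exact (hge c).neg
        · exact ((hβ c).2 w hw).neg
      · by_cases hw : w = v
        · subst hw; simp only [ξ] at *; omega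
        · exact hbig w hw
  · -- a nontrivial character of the residue field
    set χ := fun c => traceExp ((ξ : L) * -β c)
    have hsmall : ∀ d : L, OrdGE v (t.ordD v + 1) d → (∀ w, w ≠ v → OrdGE w (t.ordD w) d) →
        traceExp ((ξ : L) * d) = 1 := fun d h1 h2 => H.traceExp_small q fun w => by
      rw [ht', Finsupp.add_apply]
      by_cases hw : w = v
      · subst hw; rw [Finsupp.single_eq_same]; exact h1
      · rw [Finsupp.single_eq_of_ne hw, add_zero]; exact h2 w hw
    have hlift : ∀ u : v.adicCompletion L, ∀ hu : valv v u ≤ 1,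
        valv v (resLift v (IsLocalRing.residue (valv v).valuationSubring ⟨u, hu⟩) - u) ≤
          WithZero.exp (-1 : ℤ) := fun u hu => by
      set c := IsLocalRing.residue (valv v).valuationSubring ⟨u, hu⟩
      have h1 := residue_resLift v c
      rw [← sub_eq_zero] at h1
      simp only [c] at h1 ⊢
      rw [← map_sub, Tree.residue_eq_zero_iff, Tree.lt_one_iff_le_exp] at h1
      exact h1
    have hadd : ∀ c c', χ (c + c') = χ c * χ c' := fun c c' => by
      simp only [χ]
      rw [← traceExp_add, show (ξ : L) * -β (c + c') =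
        ((ξ : L) * -β c + (ξ : L) * -β c') + (ξ : L) * (β c + β c' - β (c + c')) by ring,
        traceExp_add _ ((ξ : L) * _), hsmall _ ?_ ?_, mul_one]
      · rw [ordGE_iff_valv, map_sub, map_add,
          show algebraMap L _ (β c) + algebraMap L _ (β c') - algebraMap L _ (β (c + c')) =
            (algebraMap L _ (β c) - t.val v * resLift v c) +
              (algebraMap L _ (β c') - t.val v * resLift v c') -
              (algebraMap L _ (β (c + c')) - t.val v * resLift v (c + c')) -
              t.val v * (resLift v (c + c') - (resLift v c + resLift v c')) by ring]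
        refine (valv v).map_sub_le ((valv v).map_sub_le ((valv v).map_add_le (hβ c).1 (hβ c').1)
          (hβ (c + c')).1) ?_
        have h1 : c + c' = IsLocalRing.residue (valv v).valuationSubring
            ⟨resLift v c + resLift v c',
              (valv v).map_add_le (valv_resLift v c) (valv_resLift v c')⟩ := by
          conv_lhs => rw [← residue_resLift v c, ← residue_resLift v c', ← map_add]
          rfl
        rw [map_mul, t.valv_eq, h1]
        refine (mul_le_mul' le_rfl (hlift _ _)).trans ?_
        rw [← WithZero.exp_add, WithZero.exp_le_exp]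
        omega
      · intro w hw
        exact (((hβ c).2 w hw).add ((hβ c').2 w hw)).sub ((hβ (c + c')).2 w hw)
    obtain ⟨c₀, hc₀⟩ : ∃ c₀, χ c₀ ≠ 1 := by
      obtain ⟨a, ha, hn, hne⟩ := exists_traceExp_ne_one v
        (Finsupp.mapRange Int.toNat rfl (divisor ξ + t.ordD))
      have hav : OrdGE v (t.ordD v) (-(a / (ξ : L))) :=
        ((ordGE_div_unit ha ξ).mono (by simp only [ξ] at *; omega)).neg
      have hu : valv v (algebraMap L _ (-(a / (ξ : L))) / t.val v) ≤ 1 := by
        rw [map_div₀, t.valv_eq, div_le_iff₀ WithZero.exp_pos, one_mul]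
        exact ordGE_iff_valv.mp hav
      refine ⟨IsLocalRing.residue _ ⟨_, hu⟩, fun hc => hne ?_⟩
      set c := IsLocalRing.residue (valv v).valuationSubring ⟨_, hu⟩
      have hξ0 : (ξ : L) ≠ 0 := ξ.ne_zero
      rw [show a = (ξ : L) * -β c + (ξ : L) * (β c + a / (ξ : L)) by field_simp; ring,
        traceExp_add, show traceExp ((ξ : L) * -β c) = 1 from hc, hsmall _ ?_ ?_, mul_one]
      · rw [ordGE_iff_valv, map_add,
          show algebraMap L _ (β c) + algebraMap L _ (a / (ξ : L)) =
            (algebraMap L _ (β c) - t.val v * resLift v c) +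
              t.val v * (resLift v c - algebraMap L _ (-(a / (ξ : L))) / t.val v) by
            have := t.ne_zero v
            rw [map_neg]
            field_simp
            ring]
        refine (valv v).map_add_le (hβ c).1 ?_
        rw [map_mul, t.valv_eq]
        refine (mul_le_mul' le_rfl (hlift _ hu)).trans ?_
        rw [← WithZero.exp_add, WithZero.exp_le_exp]
        omega
      · intro w hw
        refine ((hβ c).2 w hw).add ((ordGE_div_unit (hn w hw) ξ).mono ?_)
        simp only [Finsupp.mapRange_apply, Finsupp.add_apply, divisor_apply]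
        omega
    have hsum : χ c₀ * ∑ c, χ c = ∑ c, χ c := by
      rw [Finset.mul_sum]
      exact Fintype.sum_equiv (Equiv.addLeft c₀) _ _ fun c => (hadd c₀ c).symm
    by_contra h0
    exact hc₀ ((mul_eq_right₀ h0).mp hsum)

omit [IsTotallyComplex L] in
/-- The decomposition of the translate by a finite neighbour at a place outside the exceptional
set. -/
theorem isDecomp_step {t : Idl L} {v : FPlace L} (hv : v ∉ H.S) {π : (v.adicCompletion L)ˣ}
    (hπ : valv v (π : v.adicCompletion L) = WithZero.exp (-1 : ℤ)) {u : v.adicCompletion L} {b : L}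
    (hb : valv v (algebraMap L _ b - t.val v * u) ≤ WithZero.exp (-(t.ordD v + 1)))
    (hb' : ∀ w, w ≠ v → OrdGE w (t.ordD w + H.lvl H.lvlN w) b) :
    H.IsDecomp (tDiag t * single v (stepGL π u)) (upGL 1 1 b) (t.mulAt v π) := by
  classical
  have hmax := H.thetaLevel_J_of_notMem hv
  intro w
  show ((tDiag (t.mulAt v π) : ∀ w, GLv w) w)⁻¹ * (toLocal w (upGL 1 1 b))⁻¹ *
    ((tDiag t : ∀ w, GLv w) w * ((single v (stepGL π (u)) : Gf L) : ∀ w, GLv w) w) ∈ _
  have ht := t.ne_zero w
  have hloc : ((tDiag t : ∀ w, GLv w) w)⁻¹ * (toLocal w (upGL 1 1 b))⁻¹ *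
      (tDiag t : ∀ w, GLv w) w = upGL 1 1 (algebraMap L _ (-b) / t.val w) := by
    rw [← map_inv, upGL_inv]
    simp only [inv_one, Units.val_one, mul_one, neg_mul, one_mul]
    exact locConj_upper t (-b) w
  rw [tDiag_mulAt, Subgroup.coe_mul, Pi.mul_apply, mul_inv_rev]
  simp only [mul_assoc]
  rw [← mul_assoc (toLocal w (upGL 1 1 b))⁻¹, ← mul_assoc ((tDiag t : ∀ w, GLv w) w)⁻¹,
    ← mul_assoc ((tDiag t : ∀ w, GLv w) w)⁻¹, hloc]
  by_cases hw : w = v
  · subst hw
    rw [hmax, single_apply_same, single_apply_same,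
      show stepGL π (u) = upGL π 1 (u) from Units.ext rfl, upGL_inv,
      upGL_mul, upGL_mul]
    simp only [map_neg, inv_one, mul_one, one_mul, Units.val_one, mul_zero,
      add_zero]
    rw [upGL_mem_maxSubgroup_iff]
    constructor
    · simp
    · refine le_of_eq_of_le (congrArg (valv w) ?_)
        (show valv w ((t.val w * (π : w.adicCompletion L))⁻¹ *
          -(algebraMap L _ b - t.val w * u)) ≤ 1 from ?_)
      · simp only [Units.val_inv_eq_inv_val]
        field_simp
        ring
      · rw [map_mul, map_inv₀, map_mul, Valuation.map_neg, hπ, t.valv_eq, ← WithZero.exp_add,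
          ← WithZero.exp_neg]
        refine (mul_le_mul' le_rfl hb).trans ?_
        rw [← WithZero.exp_add, ← WithZero.exp_zero, WithZero.exp_le_exp]
        omega
  · rw [single_apply_ne hw, single_apply_ne hw, inv_one, one_mul, mul_one]
    refine H.princCong_le_J (upGL_one_mem_princCong ?_)
    rw [Int.toNat_of_nonneg (H.lvl_nonneg _ w), map_div₀, map_neg, Valuation.map_neg, t.valv_eq,
      div_le_iff₀ WithZero.exp_pos, ← WithZero.exp_add]
    refine (ordGE_iff_valv.mp (hb' w hw)).trans (WithZero.exp_le_exp.mpr ?_)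
    omega

/-- **The eigenvalue.** -/
theorem hasEigenvalue_thetaPhi {v : FPlace L} (hv : v ∉ H.S) :
    HasEigenvalue v (H.eigen v) H.thetaPhi := by
  classical
  let := Fintype.ofFinite (IsLocalRing.ResidueField (valv v).valuationSubring)
  have hmax := H.thetaLevel_J_of_notMem hv
  have hs : IsSphericalAt v H.thetaPhi := H.isAutomorphic_thetaPhi.sphericalAt hmax
  obtain ⟨π, hπ⟩ : ∃ π : (v.adicCompletion L)ˣ,
      valv v (π : v.adicCompletion L) = WithZero.exp (-1 : ℤ) := by
    obtain ⟨π, hπ⟩ := v.valuation_exists_uniformizer L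
    have h : valv v (algebraMap L (v.adicCompletion L) π) = WithZero.exp (-1 : ℤ) := by
      rw [valv_algebraMap, hπ]
    exact ⟨Units.mk0 _ ((Valuation.ne_zero_iff (valv v)).mp (h ▸ WithZero.exp_ne_zero)), h⟩
  have hπi : valv v ((π⁻¹ : (v.adicCompletion L)ˣ) : v.adicCompletion L) =
      WithZero.exp (-(-1 : ℤ)) := by
    rw [Units.val_inv_eq_inv_val, map_inv₀, hπ, ← WithZero.exp_neg]
  funext x p₀
  obtain ⟨γ, t, hdec⟩ := H.exists_decomp x
  set p := γ⁻¹ • p₀
  let j : Gf L := (tDiag t)⁻¹ * (diag L γ)⁻¹ * x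
  have hj : ∀ w, (j : ∀ w, GLv w) w ∈ H.thetaLevel.J w := hdec
  set kv := (j : ∀ w, GLv w) v
  have hkv : kv ∈ maxSubgroup v := hmax ▸ hj v
  -- split off the component of `j` at `v`
  have hx : x = diag L γ * tDiag t * (j * (single v kv)⁻¹) * single v kv := by
    simp only [j]; group
  set j' := j * (single v kv)⁻¹
  have hj' : ∀ w, (j' : ∀ w, GLv w) w ∈ H.thetaLevel.J w := fun w => by
    show (j : ∀ w, GLv w) w * ((single v kv : Gf L) : ∀ w, GLv w)⁻¹ w ∈ _
    rw [Pi.inv_apply]
    by_cases hw : w = v
    · subst hw; rw [single_apply_same]; simp [kv]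
    · rw [single_apply_ne hw, inv_one, mul_one]; exact hj w
  have hj'v : (j' : ∀ w, GLv w) v = 1 := by
    show (j : ∀ w, GLv w) v * (((single v kv : Gf L) : ∀ w, GLv w) v)⁻¹ = 1
    rw [single_apply_same, mul_inv_cancel]
  have hterm : ∀ g : GLv v, H.thetaPhi (diag L γ * tDiag t * j' * single v g) p₀ =
      H.thetaPhi (diag L γ * (tDiag t * single v g) * j') p₀ := fun g => by
    rw [mul_assoc _ j', (commute_single hj'v g).eq]
    simp only [mul_assoc]
  have hdrop : ∀ y : Gf L, H.thetaPhi (y * j') p₀ = H.thetaPhi y p₀ := fun y =>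
    congrFun (H.isAutomorphic_thetaPhi.right y j' hj') p₀
  have hleft : ∀ y : Gf L, H.thetaPhi (diag L γ * y) p₀ = H.thetaPhi y p := fun y => by
    have h := H.isAutomorphic_thetaPhi.left γ y (diag L γ * y) (fun w => rfl) p
    rwa [smul_inv_smul] at h
  have hbase : ∀ s : Idl L, ∀ q : Hyp L, H.thetaPhi (tDiag s) q = H.thetaF s q := fun s q => by
    rw [H.thetaPhi_eq (γ := 1) (t := s) (fun w => by
      rw [map_one, inv_one, mul_one, inv_mul_cancel]; exact one_mem _), inv_one, one_smul]
  -- the translate towards infinity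
  have hinf : H.thetaPhi (tDiag t * single v (diagGL 1 π)) p = H.thetaF (t.mulAt v π⁻¹) p := by
    have e : single v (diagGL 1 π) = single v (upGL π⁻¹ 1 0) *
        single v (Matrix.GeneralLinearGroup.scalar (Fin 2) π) := by
      rw [← single_mul]
      congr 1
      refine Units.ext ?_
      refine Matrix.ext fun i k => ?_
      fin_cases i <;> fin_cases k <;>
        simp [Matrix.mul_apply, Fin.sum_univ_two]
    rw [e, ← mul_assoc, ← tDiag_mulAt, H.isAutomorphic_thetaPhi.right _ _ fun w => ?_, hbase]
    by_cases hw : w = v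
    · subst hw
      rw [single_apply_same]
      exact Level.center_le _ _ (Tree.scalar_mem_center _)
    · rw [single_apply_ne hw]; exact one_mem _
  -- the other translates
  obtain ⟨β, hβ'⟩ := H.exists_shift_reps t v
  have hβ : ∀ c, valv v (algebraMap L _ (β c) - t.val v * resLift v c) ≤
      WithZero.exp (-(t.ordD v + 1)) ∧ ∀ w, w ≠ v → OrdGE w (t.ordD w) (β c) := fun c =>
    ⟨(hβ' c).1, fun w hw => ((hβ' c).2 w hw).mono (by
      have := H.lvl_nonneg H.lvlN w
      omega)⟩
  have hstep : ∀ c, H.thetaPhi (tDiag t * single v (stepGL π (resLift v c))) p =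
      H.thetaF (t.mulAt v π) (upGL 1 1 (-β c) • p) := fun c => by
    have hd := H.isDecomp_step hv hπ (hβ' c).1 (hβ' c).2
    rw [H.thetaPhi_eq hd, show (upGL 1 1 (β c) : GL (Fin 2) L)⁻¹ = upGL 1 1 (-β c) by
      rw [upGL_inv]; simp]
  rw [hx, heckeOp_mul_max hs _ hkv, heckeOp_neighbours hs hπ,
    congrFun (hs _ kv hkv) p₀]
  simp only [hterm, hdrop, hleft, hinf, hstep, H.thetaF_upper]
  rw [hbase,
    H.thetaF_series, H.thetaF_series, ← Finset.mul_sum, ← Finset.mul_sum,
    ← Summable.tsum_finsetSum fun c _ => Summable.of_norm_bounded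
      (g := fun q => ‖H.cTerm (t.mulAt v π) p q‖) (H.summable_cTerm _ p).norm
      fun q => by rw [norm_mul, norm_traceExp, one_mul]]
  simp only [← Finset.sum_mul, H.sum_phase hπ hβ, ite_mul, zero_mul]
  have hrec := H.series_rec (t := t) hv hπ p
  set N : ℝ := (Ideal.absNorm v.asIdeal : ℝ) with hN
  have hN0 : 0 < N := lt_of_le_of_ne (Nat.cast_nonneg _) (absNorm_real_ne_zero v).symm
  have hw1 : wt (t.mulAt v π) * N = Real.sqrt N * wt t := by
    rw [wt, wt, t.ordD_mulAt v hπ, normD_add, normD_single, zpow_one,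
      Real.sqrt_mul (normD_pos _).le]
    have := Real.sqrt_pos.mpr (normD_pos t.ordD)
    have hs := Real.sqrt_pos.mpr hN0
    have e := Real.mul_self_sqrt hN0.le
    simp only [hN] at e hs ⊢
    generalize Real.sqrt (Ideal.absNorm v.asIdeal : ℝ) = r at *
    rw [← e]
    field_simp
  have hw2 : wt (t.mulAt v π⁻¹) = Real.sqrt N * wt t := by
    rw [wt, wt, t.ordD_mulAt v hπi, normD_add, normD_single, zpow_neg_one,
      Real.sqrt_mul (normD_pos _).le, Real.sqrt_inv]
    have := Real.sqrt_pos.mpr (normD_pos t.ordD)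
    have hs := Real.sqrt_pos.mpr hN0
    simp only [hN] at hs ⊢
    field_simp
  have e1 : (∑' q : H.CPair (t.mulAt v π), if 0 ≤ ord v q.1.1.1 + t.ordD v + cond v then
      (Ideal.absNorm v.asIdeal : ℂ) * H.cTerm (t.mulAt v π) p q else 0) = (N : ℂ) *
      ∑' q : H.CPair (t.mulAt v π), if 0 ≤ ord v q.1.1.1 + t.ordD v + cond v then
        H.cTerm (t.mulAt v π) p q else 0 := by
    rw [← tsum_mul_left]
    exact tsum_congr fun q => by simp [hN]
  rw [e1, hw2, show ((wt (t.mulAt v π) : ℂ) * ((wCard L M : ℂ) * ((N : ℂ) * _))) = _ from rfl]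
  have hw1' : (wt (t.mulAt v π) : ℂ) * (N : ℂ) = ((Real.sqrt N * wt t : ℝ) : ℂ) := by
    rw [← hw1]; push_cast; rfl
  push_cast at hw1' ⊢
  linear_combination (Real.sqrt N : ℂ) * (wt t : ℂ) * (wCard L M : ℂ) * hrec +
    (wCard L M : ℂ) * (∑' q : H.CPair (t.mulAt v π), if 0 ≤ ord v q.1.1.1 + t.ordD v + cond v then
      H.cTerm (t.mulAt v π) p q else 0) * hw1'

end HeckeChar

end Fermat.Agent.ResidualThree.ThetaInduction
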