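import Fermat.Agent.ResidualThree.Automorphic.ThetaInterface
import Fermat.Agent.ResidualThree.ThetaInduction.Datum

/-!
# The Hecke character attached to the restriction of `ρ` to `L`

`HeckeChar.eigen` is the Hecke eigenvalue at a place of the theta series of a character.
`HeckeExistence` says that a surjective `ρ`, restricted to the sextic field `L`, comes from a Hecke
character of a quadratic extension of `L` with these eigenvalues equal to the traces of Frobenius.
-/

noncomputable section

open NumberField

namespace Fermat.Agent.ResidualThree.ThetaInduction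

local notation "Qbar" => AlgebraicClosure ℚ
local notation "Γℚ" => (AlgebraicClosure ℚ ≃ₐ[ℚ] AlgebraicClosure ℚ)

variable {L M : Type} [Field L] [NumberField L] [Field M] [NumberField M]
  [Algebra L M] [Algebra.IsQuadraticExtension L M]

open Classical in
/-- The eigenvalue at a place of the theta series of a character: the sum of the values at the
places above a split place, zero at an inert one. -/
def HeckeChar.eigen (H : HeckeChar L M) (v : FPlace L) : ℂ :=
  if SplitAt M v then
    H.ψ (Fermat.Agent.CFT.exists_below_eq (L := M) v).choose +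
      H.ψ (tauP L (Fermat.Agent.CFT.exists_below_eq (L := M) v).choose)
  else 0

/-- Some Hecke character of a quadratic extension of `L` induces the lift of `ρ|L` and is
exceptional only where `ρ|L` is ramified. -/
def HeckeExistence : Prop :=
  ∀ (ρ : Γℚ →* GL (Fin 2) (ZMod 3)), Continuous ρ → Function.Surjective ρ →
    (∀ σ : Γℚ, Matrix.GeneralLinearGroup.det (ρ σ) =
        WeierstrassCurve.modThreeCyclotomicChar σ) →
    ∀ (L : IntermediateField ℚ Qbar) [NumberField L],
      (∀ σ : Γℚ, σ ∈ L.fixingSubgroup ↔
        Matrix.GeneralLinearGroup.det (ρ σ) = 1 ∧ ρ σ ^ 4 = 1) →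
      ∃ (M : Type) (_ : Field M) (_ : NumberField M) (_ : Algebra L M)
        (_ : Algebra.IsQuadraticExtension L M) (H : HeckeChar L M),
        (∀ w : FPlace L, (∀ A : ValuationSubring Qbar, LiesOverPlace A w →
          ∀ σ ∈ A.inertiaSubgroupIn ℚ, σ ∈ L.fixingSubgroup → ρ σ = 1) → w ∉ H.S) ∧
        ∀ w : FPlace L, w ∉ H.S → ∀ A : ValuationSubring Qbar, LiesOverPlace A w →
          ∀ σ ∈ L.fixingSubgroup, A.IsFrobeniusAt σ (Ideal.absNorm w.asIdeal) →
            (quatTrace (ρ σ) : ℂ) = H.eigen w

end Fermat.Agent.ResidualThree.ThetaInduction
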