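import Mathlib.Algebra.Module.CharacterModule
import Fermat.Agent.CFT.Pair
import Fermat.Agent.CFT.Parity
import Fermat.Agent.ResidualThree.ThetaInduction.GaussDef

/-!
# Consequences of quadratic reciprocity for divisors

Two tools for extending a sign character along a tower of quadratic extensions: approximate
norms and Hilbert 90 at finitely many places (`exists_norm_approx`, `exists_hilbert90_approx`),
and the reciprocity facts that the Artin sign of a quadratic extension kills a ray
(`exists_artinD_ray`) and that a homomorphism killing a ray, the split places and twice the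
inert places takes one value on all inert places (`eq_on_inert`).
-/

noncomputable section

open NumberField Module IsDedekindDomain
open scoped WithZero

namespace Fermat.Agent.ResidualThree.ThetaInduction

open Fermat.Agent.CFT (OrdGE ord below ram baseU normU conjU congr locNorm IsSplit inert ramified)

variable {L M : Type} [Field L] [NumberField L] [Field M] [NumberField M]
  [Algebra L M] [Algebra.IsQuadraticExtension L M]

/-! ### Congruences and norms -/

theorem baseU_normU_eq (y : Mˣ) : baseU L M (normU L M y) = y * conjU (conjM L M) y := by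
  ext
  simp [baseU, normU, conjU, mul_conjM]

omit [Algebra.IsQuadraticExtension L M] in
theorem baseU_mem_congr {P : FPlace M} {n : ℕ} {x : Lˣ} (h : x ∈ congr (below L P) n) :
    baseU L M x ∈ congr P n := by
  refine ⟨by rw [Fermat.Agent.CFT.ord_baseU, h.1, mul_zero], ?_⟩
  rw [Fermat.Agent.CFT.coe_baseU,
    show algebraMap L M (x : L) - 1 = algebraMap L M ((x : L) - 1) by rw [map_sub, map_one]]
  refine (Fermat.Agent.CFT.ordGE_baseU P h.2).mono ?_
  have := Fermat.Agent.CFT.ram_pos (K := L) P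
  exact le_mul_of_one_le_left (by positivity) (by exact_mod_cast this)

theorem mem_congr_below {P : FPlace M} {n : ℕ} (hn : 0 < n) {x : Lˣ}
    (h : baseU L M x ∈ congr P (2 * n)) : x ∈ congr (below L P) n := by
  refine Fermat.Agent.CFT.mem_congr_of_pos _ hn (ordGE_of_algebraMap_of_lt (m := 2 * (n : ℤ)) ?_ ?_)
  · rw [map_sub, map_one]
    simpa [Fermat.Agent.CFT.coe_baseU] using h.2
  · rcases ram_le_two (L := L) P with e | e <;> rw [e] <;> push_cast <;> omega

theorem conjU_mem_congr {P : FPlace M} {n : ℕ} {y : Mˣ} (h : y ∈ congr (tauP L P) n) :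
    conjU (conjM L M) y ∈ congr P n := by
  refine ⟨(ord_conjM P y).trans h.1, ?_⟩
  rw [Fermat.Agent.CFT.coe_conjU,
    show conjM L M (y : M) - 1 = conjM L M ((y : M) - 1) by rw [map_sub, map_one], ordGE_conjM]
  exact h.2

/-- The norm of an element congruent to one above a place is congruent to one at the place. -/
theorem normU_mem_congr {P : FPlace M} {n : ℕ} (hn : 0 < n) {y : Mˣ}
    (h₁ : y ∈ congr P (2 * n)) (h₂ : y ∈ congr (tauP L P) (2 * n)) :
    normU L M y ∈ congr (below L P) n :=
  mem_congr_below hn (by rw [baseU_normU_eq]; exact mul_mem h₁ (conjU_mem_congr h₂))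

variable (M) in
/-- The places of `M` over a finite set. -/
def fibreSet (B : Finset (FPlace L)) : Finset (FPlace M) :=
  (B.finite_toSet.biUnion fun v _ => Fermat.Agent.CFT.finite_below_fibre (L := M) v).toFinset

theorem mem_fibreSet {B : Finset (FPlace L)} {P : FPlace M} :
    P ∈ fibreSet M B ↔ below L P ∈ B := by
  simp [fibreSet]

/-- Local norms at finitely many places are approximated by a global norm. -/
theorem exists_norm_approx (B : Finset (FPlace L)) (n : ℕ) {x : Lˣ}
    (hx : ∀ b ∈ B, x ∈ locNorm M b) : ∃ y : Mˣ, ∀ b ∈ B, x / normU L M y ∈ congr b n := by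
  classical
  have h : ∀ b : FPlace L, ∃ y : Mˣ, b ∈ B → x / normU L M y ∈ congr b (n + 1) := fun b => by
    by_cases hb : b ∈ B
    · obtain ⟨y, hy⟩ := Fermat.Agent.CFT.mem_locNorm.1 (hx b hb) (n + 1)
      exact ⟨y, fun _ => hy⟩
    · exact ⟨1, fun h => absurd h hb⟩
  choose f hf using h
  obtain ⟨y, hy⟩ := Fermat.Agent.CFT.exists_approx (fibreSet M B) (fun P => f (below L P))
    (2 * (n + 1))
  refine ⟨y, fun b hb => ?_⟩
  obtain ⟨P, rfl⟩ := Fermat.Agent.CFT.exists_below_eq (L := M) b
  have h1 : normU L M (y / f (below L P)) ∈ congr (below L P) (n + 1) := by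
    refine normU_mem_congr n.succ_pos (hy P (mem_fibreSet.2 hb)) ?_
    have := hy (tauP L P) (mem_fibreSet.2 (by rwa [below_tauP]))
    rwa [below_tauP] at this
  rw [show x / normU L M y = x / normU L M (f (below L P)) / normU L M (y / f (below L P)) by
    rw [map_div, div_div, mul_div_cancel]]
  exact Fermat.Agent.CFT.congr_anti _ n.le_succ (div_mem (hf _ hb) h1)

/-- Approximate Hilbert 90: an element of norm close to one is close to `z / τ z` at finitely many
places. -/
theorem exists_hilbert90_approx (B : Finset (FPlace L)) (n : ℕ) :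
    ∃ N : ℕ, ∀ y : Mˣ, (∀ b ∈ B, normU L M y ∈ congr b N) →
      ∃ z : Mˣ, ∀ P : FPlace M, below L P ∈ B → y * (conjU (conjM L M) z / z) ∈ congr P n := by
  classical
  obtain ⟨θ, hθ⟩ : ∃ θ : M, conjM L M θ ≠ θ := by
    by_contra! h
    exact conjM_ne_one (AlgEquiv.ext h)
  have hθ0 : θ ≠ 0 := fun h => hθ (by rw [h, map_zero])
  have hδ0 : θ - conjM L M θ ≠ 0 := sub_ne_zero.2 fun h => hθ h.symm
  set θu := Units.mk0 θ hθ0
  set δu := Units.mk0 _ hδ0
  set k : ℕ := ∑ P ∈ fibreSet M B, ((ord P θu).natAbs + (ord P δu).natAbs) with hk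
  refine ⟨n + 1 + 3 * k, fun y hy => ?_⟩
  let zf : M → M := fun c => c + (y : M) * conjM L M c
  have zadd : ∀ c d, zf (c + d) = zf c + zf d := fun c d => by
    simp only [zf, map_add]; ring
  have hbound : ∀ P : FPlace M, below L P ∈ B → OrdGE P (-(k : ℤ)) θ ∧
      (ord P θu).natAbs + (ord P δu).natAbs ≤ k := by
    intro P hP
    have h : (ord P θu).natAbs + (ord P δu).natAbs ≤ k :=
      Finset.single_le_sum (f := fun Q => (ord Q θu).natAbs + (ord Q δu).natAbs)
        (fun _ _ => Nat.zero_le _) (mem_fibreSet.2 hP)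
    refine ⟨?_, h⟩
    rw [show θ = (θu : M) from rfl, Fermat.Agent.CFT.ordGE_iff]
    omega
  have hnot : ∀ P : FPlace M, below L P ∈ B →
      ¬ (OrdGE P (2 * (k : ℤ) + 1) (zf 1) ∧ OrdGE P (2 * (k : ℤ) + 1) (zf θ)) := by
    rintro P hP ⟨h1, h2⟩
    obtain ⟨hθk, hk'⟩ := hbound P hP
    have hy0 : y ∈ congr P 0 → False := fun hy0 => by
      have h3 : OrdGE P ((k : ℤ) + 1) ((y : M) * (θ - conjM L M θ)) := by
        rw [show (y : M) * (θ - conjM L M θ) = θ * zf 1 - zf θ by simp only [zf, map_one]; ring]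
        exact (((hθk.mul h1)).mono (by omega)).sub (h2.mono (by omega))
      rw [show (y : M) * (θ - conjM L M θ) = ((y * δu : Mˣ) : M) from rfl,
        Fermat.Agent.CFT.ordGE_iff, Fermat.Agent.CFT.ord_mul, hy0.1] at h3
      omega
    refine hy0 (Fermat.Agent.CFT.mem_congr_zero _ |>.2 ?_)
    have hneg : ord P (-1 : Mˣ) = 0 := by
      have h : ord P ((-1 : Mˣ) ^ 2) = 0 := by rw [neg_one_sq, Fermat.Agent.CFT.ord_one]
      rw [Fermat.Agent.CFT.ord_pow] at h
      simpa using h
    have h4 := Fermat.Agent.CFT.ord_add_eq P y (x := -((1 : Mˣ) : M)) (y := zf 1)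
      (by simp only [zf, map_one, Units.val_one]; ring) (-1) (by simp) (h1.mono (by omega))
    rw [h4, hneg]
  have hloc : ∀ b : FPlace L, ∃ z : Mˣ, b ∈ B → ∀ P : FPlace M, below L P = b →
      y * (conjU (conjM L M) z / z) ∈ congr P n := by
    intro b
    by_cases hb : b ∈ B
    swap
    · exact ⟨1, fun h => absurd h hb⟩
    obtain ⟨P₀, hP₀⟩ := Fermat.Agent.CFT.exists_below_eq (L := M) b
    let T : M → Prop := fun c => ¬ OrdGE P₀ (2 * (k : ℤ) + 1) (zf c) ∧
      ¬ OrdGE (tauP L P₀) (2 * (k : ℤ) + 1) (zf c)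
    obtain ⟨c, hcmem, hc⟩ : ∃ c, (c = 1 ∨ c = θ ∨ c = 1 + θ) ∧ T c := by
      by_contra! hcon
      have a := hcon 1 (Or.inl rfl)
      have b' := hcon θ (Or.inr (Or.inl rfl))
      have c' := hcon (1 + θ) (Or.inr (Or.inr rfl))
      simp only [T, not_and_or, not_not] at a b' c'
      have key : ∀ P : FPlace M, below L P ∈ B →
          (OrdGE P (2 * (k : ℤ) + 1) (zf (1 + θ)) →
            ¬ OrdGE P (2 * (k : ℤ) + 1) (zf 1) ∧ ¬ OrdGE P (2 * (k : ℤ) + 1) (zf θ)) := by
        intro P hP h
        rw [zadd] at h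
        exact ⟨fun h1 => hnot P hP ⟨h1, by simpa using h.sub h1⟩,
          fun h2 => hnot P hP ⟨by simpa using h.sub h2, h2⟩⟩
      have hP : below L P₀ ∈ B := hP₀ ▸ hb
      have hP' : below L (tauP L P₀) ∈ B := by rwa [below_tauP]
      have := hnot P₀ hP
      have := hnot _ hP'
      have := key P₀ hP
      have := key _ hP'
      tauto
    have hck : ∀ P : FPlace M, below L P ∈ B → OrdGE P (-(k : ℤ)) c := fun P hP => by
      have h1 : OrdGE P (-(k : ℤ)) (1 : M) := Fermat.Agent.CFT.ordGE_one.mono (by omega)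
      rcases hcmem with rfl | rfl | rfl
      · exact h1
      · exact (hbound P hP).1
      · exact h1.add (hbound P hP).1
    have hz0 : zf c ≠ 0 := fun h => hc.1 (by rw [h]; exact Fermat.Agent.CFT.ordGE_zero _)
    set z := Units.mk0 _ hz0
    refine ⟨z, fun _ P hP => ?_⟩
    have hPB : below L P ∈ B := hP ▸ hb
    have hzk : ord P z ≤ 2 * (k : ℤ) := by
      have hnz : ¬ OrdGE P (2 * (k : ℤ) + 1) (zf c) := by
        rcases eq_or_eq_tauP (hP.trans hP₀.symm) with rfl | rfl
        · exact hc.1
        · exact hc.2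
      rw [show zf c = (z : M) from rfl, Fermat.Agent.CFT.ordGE_iff] at hnz
      omega
    have hNy := baseU_mem_congr (M := M) (hy _ hPB)
    rw [baseU_normU_eq] at hNy
    refine Fermat.Agent.CFT.congr_anti _ n.le_succ ?_
    rw [← mul_div_assoc]
    refine Fermat.Agent.CFT.div_mem_congr P n.succ_pos ?_
    have e : ((y * conjU (conjM L M) z : Mˣ) : M) - (z : M) =
        (((y * conjU (conjM L M) y : Mˣ) : M) - 1) * c := by
      simp only [Units.val_mul, Fermat.Agent.CFT.coe_conjU, z, Units.val_mk0, zf, map_add, map_mul,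
        conjM_conjM]
      ring
    rw [e]
    refine (hNy.2.mul (hck P hPB)).mono ?_
    push_cast
    omega
  choose g hg using hloc
  obtain ⟨z, hz⟩ := Fermat.Agent.CFT.exists_approx (fibreSet M B) (fun P => g (below L P)) n
  refine ⟨z, fun P hP => ?_⟩
  have h1 := hz P (mem_fibreSet.2 hP)
  have h2 : conjU (conjM L M) (z / g (below L P)) ∈ congr P n := by
    refine conjU_mem_congr ?_
    have := hz (tauP L P) (mem_fibreSet.2 (by rwa [below_tauP]))
    rwa [below_tauP] at this
  have e : y * (conjU (conjM L M) z / z) =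
      y * (conjU (conjM L M) (g (below L P)) / g (below L P)) *
        (conjU (conjM L M) (z / g (below L P)) / (z / g (below L P))) := by
    rw [mul_assoc, div_mul_div_comm, ← map_mul, mul_div_cancel]
  rw [e]
  exact mul_mem (hg _ hP P rfl) (div_mem h2 h1)

/-! ### The Artin sign -/

/-- The element of order two of `ℚ/ℤ`. -/
def half : AddCircle (1 : ℚ) := ((1 / 2 : ℚ) : AddCircle (1 : ℚ))

theorem half_add_half : half + half = 0 := by
  rw [half, ← AddCircle.coe_add, show (1 / 2 : ℚ) + 1 / 2 = 1 by norm_num, AddCircle.coe_period]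

theorem half_ne_zero : half ≠ 0 := by
  intro h
  obtain ⟨m, hm⟩ := (AddCircle.coe_eq_zero_iff (1 : ℚ)).1 h
  rw [zsmul_eq_mul, mul_one] at hm
  have h2 : ((2 * m : ℤ) : ℚ) = 1 := by push_cast; rw [hm]; norm_num
  have : 2 * m = 1 := by exact_mod_cast h2
  omega

theorem zsmul_of_odd {A : Type*} [AddCommGroup A] {a : A} (h : a + a = 0) {n : ℤ} (hn : Odd n) :
    n • a = a := by
  obtain ⟨m, rfl⟩ := hn
  rw [add_smul, one_smul, mul_comm, mul_smul, two_smul, h, smul_zero, zero_add]

theorem zsmul_of_even {A : Type*} [AddCommGroup A] {a : A} (h : a + a = 0) {n : ℤ} (hn : Even n) :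
    n • a = 0 := by
  obtain ⟨m, rfl⟩ := hn
  rw [add_smul, ← smul_add, h, smul_zero]

variable (M) in
open Classical in
/-- The sign of a place: `half` if it is inert. -/
def artinV (v : FPlace L) : AddCircle (1 : ℚ) := if v ∈ inert M then half else 0

omit [Algebra.IsQuadraticExtension L M] in
theorem artinV_add_self (v : FPlace L) : artinV M v + artinV M v = 0 := by
  classical
  rw [artinV]; split_ifs
  · exact half_add_half
  · exact add_zero 0

variable (M) in
/-- The Artin sign of a divisor. -/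
def artinD : (FPlace L →₀ ℤ) →+ AddCircle (1 : ℚ) :=
  Finsupp.liftAddHom fun v => zmultiplesHom _ (artinV M v)

omit [Algebra.IsQuadraticExtension L M] in
theorem artinD_single (v : FPlace L) (n : ℤ) :
    artinD M (Finsupp.single v n) = n • artinV M v := by
  simp [artinD]

variable [IsTotallyComplex L]

variable (L M) in
/-- Quadratic reciprocity: the Artin sign kills a ray at the ramified places. -/
theorem exists_artinD_ray : ∃ N : ℕ, ∀ x : Lˣ, (∀ v ∈ ramified M, x ∈ congr v N) →
    artinD M (divisor x) = 0 := by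
  classical
  obtain ⟨N, hN⟩ := Fermat.Agent.CFT.exists_conductor (L := M)
    (Algebra.IsQuadraticExtension.finrank_eq_two L M)
  refine ⟨N, fun x hx => ?_⟩
  have h := hN x hx
  have hsum : ∑ᶠ v ∈ inert M, ord v x =
      ∑ v ∈ (divisor x).support.filter (fun v => v ∈ inert M), ord v x :=
    finsum_mem_eq_sum_of_inter_support_eq _ (by
      ext v
      simp [divisor_apply, and_comm])
  rw [hsum] at h
  rw [artinD, Finsupp.liftAddHom_apply, Finsupp.sum]
  simp only [zmultiplesHom_apply, divisor_apply, artinV, smul_ite, smul_zero]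
  rw [← Finset.sum_filter, ← Finset.sum_smul]
  exact zsmul_of_even half_add_half h

/-! ### Two inert places -/

/-- Two inert places carry an element of a given ray whose order is odd at both and even at all
other inert places. -/
theorem exists_pair_element (B : Finset (FPlace L)) (n : ℕ)
    {u w : FPlace L} (huw : u ≠ w) (hu : u ∈ inert M) (hw : w ∈ inert M) (huB : u ∉ B)
    (hwB : w ∉ B) :
    ∃ x : Lˣ, (∀ b ∈ B, x ∈ congr b n) ∧ Odd (ord u x) ∧ Odd (ord w x) ∧
      ∀ v ∉ B, v ∈ inert M → v ≠ u → v ≠ w → Even (ord v x) := by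
  have hdeg := Algebra.IsQuadraticExtension.finrank_eq_two L M
  have hζ : IsPrimitiveRoot (-1 : L) 2 := Fermat.Agent.CFT.isPrimitiveRoot_neg_one
  obtain ⟨x₀, hout, hnot⟩ := Fermat.Agent.CFT.exists_locNorm_pair hζ hdeg huw hu.1 hw.1
  obtain ⟨-, heven⟩ := Fermat.Agent.CFT.even_ncard_notMem_locNorm (L := M) hdeg x₀
  have hboth : x₀ ∉ locNorm M u ∧ x₀ ∉ locNorm M w := by
    have key : ∀ a b : FPlace L, (∀ v, v ≠ a → v ≠ b → x₀ ∈ locNorm M v) → x₀ ∈ locNorm M a →
        x₀ ∈ locNorm M b := by
      intro a b h ha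
      refine Fermat.Agent.CFT.mem_locNorm_of_forall_ne hdeg x₀ b fun v hv => ?_
      rcases eq_or_ne v a with rfl | hva
      · exact ha
      · exact h v hva hv
    exact ⟨fun h => hnot ⟨h, key u w hout h⟩,
      fun h => hnot ⟨key w u (fun v h1 h2 => hout v h2 h1) h, h⟩⟩
  obtain ⟨y, hy⟩ := exists_norm_approx B n (x := x₀) fun b hb =>
    hout b (fun e => huB (e ▸ hb)) (fun e => hwB (e ▸ hb))
  have hiff : ∀ v, v ∈ inert M → (Even (ord v (x₀ / normU L M y)) ↔ x₀ ∈ locNorm M v) := by
    intro v hv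
    obtain ⟨P, hP⟩ := Fermat.Agent.CFT.exists_below_eq (L := M) v
    have hram : ram L P = 1 := by_contra fun h => hv.2 ⟨P, hP, h⟩
    rw [even_iff_two_dvd, show (2 : ℤ) = ((2 : ℕ) : ℤ) from rfl,
      ← Fermat.Agent.CFT.mem_locNorm_iff_dvd_of_unramified hζ hdeg hv.1 hP hram, div_eq_mul_inv]
    exact mul_mem_cancel_right (inv_mem (Fermat.Agent.CFT.normU_mem_locNorm v y))
  exact ⟨x₀ / normU L M y, hy, Int.not_even_iff_odd.1 ((hiff u hu).not.2 hboth.1),
    Int.not_even_iff_odd.1 ((hiff w hw).not.2 hboth.2),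
    fun v _ hv h1 h2 => (hiff v hv).2 (hout v h1 h2)⟩

/-- A homomorphism killing a ray, the split places and twice the inert ones takes one value on the
inert places. -/
theorem eq_on_inert {A : Type} [AddCommGroup A] (Λ : (FPlace L →₀ ℤ) →+ A) (B : Finset (FPlace L))
    (hB : ∀ v ∈ ramified M, v ∈ B) (n : ℕ)
    (hray : ∀ x : Lˣ, (∀ b ∈ B, x ∈ congr b n) → Λ (divisor x) = 0)
    (hsplit : ∀ v ∉ B, IsSplit M v → Λ (Finsupp.single v 1) = 0)
    (htwo : ∀ v ∉ B, v ∈ inert M → Λ (Finsupp.single v 1) + Λ (Finsupp.single v 1) = 0)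
    {u w : FPlace L} (hu : u ∈ inert M) (hw : w ∈ inert M) (huB : u ∉ B) (hwB : w ∉ B) :
    Λ (Finsupp.single u 1) = Λ (Finsupp.single w 1) := by
  classical
  rcases eq_or_ne u w with rfl | huw
  · rfl
  obtain ⟨x, hxB, hxu, hxw, hxe⟩ := exists_pair_element B (n + 1) huw hu hw huB hwB
  have h0 := hray x fun b hb => Fermat.Agent.CFT.congr_anti _ n.le_succ (hxB b hb)
  have e : Λ (divisor x) =
      ∑ v ∈ (divisor x).support, ord v x • Λ (Finsupp.single v 1) := by
    conv_lhs => rw [← Finsupp.sum_single (divisor x), Finsupp.sum, map_sum]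
    refine Finset.sum_congr rfl fun v _ => ?_
    rw [← map_zsmul, Finsupp.smul_single, smul_eq_mul, mul_one, divisor_apply]
  have hmem : ∀ v, Odd (ord v x) → v ∈ (divisor x).support := fun v hv =>
    Finsupp.mem_support_iff.2 fun h => by
      rw [divisor_apply] at h
      rw [h] at hv
      exact Int.not_odd_zero hv
  rw [h0, ← Finset.sum_subset (s₁ := {u, w}) (by
      intro v hv
      simp only [Finset.mem_insert, Finset.mem_singleton] at hv
      rcases hv with rfl | rfl
      · exact hmem _ hxu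
      · exact hmem _ hxw) fun v _ hv => ?_, Finset.sum_pair huw,
    zsmul_of_odd (htwo u huB hu) hxu, zsmul_of_odd (htwo w hwB hw) hxw] at e
  · rw [eq_comm, add_eq_zero_iff_eq_neg] at e
    rw [e, neg_eq_iff_add_eq_zero]
    exact htwo w hwB hw
  simp only [Finset.mem_insert, Finset.mem_singleton, not_or] at hv
  by_cases hvB : v ∈ B
  · rw [(hxB v hvB).1, zero_smul]
  by_cases hs : IsSplit M v
  · rw [hsplit v hvB hs, smul_zero]
  · have hvi : v ∈ inert M := ⟨hs, fun h => hvB (hB v h)⟩
    exact zsmul_of_even (htwo v hvB hvi) (hxe v hvB hvi hv.1 hv.2)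

end Fermat.Agent.ResidualThree.ThetaInduction
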