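import Mathlib.Analysis.SpecialFunctions.Complex.Circle
import Fermat.Agent.ResidualThree.ThetaInduction.Datum
import Fermat.Agent.ResidualThree.ThetaInduction.QuadRecip

/-!
# A character of order four from a tower of quadratic extensions

`F/E/M/L` are quadratic steps behaving like a quaternion extension of `L` (`QuatTower`). The
Artin sign of `F/E` on norms from `E` is consistent (`signD_kernel`) and extends to all divisors
of `M` (`exists_extension`) by divisibility of `ℚ/ℤ`. Two inert places of a quadratic extension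
are linked by a ray element, so the extension restricts to the sign of `M/L` on `L`, and it is a
Hecke character in the sense of the theta construction (`exists_heckeChar`).
-/

noncomputable section

open NumberField Module IsDedekindDomain

namespace Fermat.Agent.ResidualThree.ThetaInduction

open Fermat.Agent.CFT (OrdGE ord below ram baseU normU conjU congr IsSplit inert ramified)

/-! ### Values on the circle -/

/-- `q ↦ exp (2πiq)`. -/
def ratExpHom : ℚ →+ Additive Circle :=
  AddMonoidHom.mk' (fun q => Additive.ofMul (Circle.exp (2 * Real.pi * (q : ℝ)))) fun a b => by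
    rw [← ofMul_mul, ← Circle.exp_add]; push_cast; rw [mul_add]

theorem ratExpHom_one : ratExpHom 1 = 0 := by
  show Additive.ofMul (Circle.exp (2 * Real.pi * ((1 : ℚ) : ℝ))) = 0
  simp [Circle.exp_two_pi]

/-- The character `ℚ/ℤ → ℂ`. -/
def ratExp (a : AddCircle (1 : ℚ)) : ℂ :=
  ((Additive.toMul (QuotientAddGroup.lift _ ratExpHom
    ((AddSubgroup.zmultiples_le (H := ratExpHom.ker)).2 ratExpHom_one) a) : Circle) : ℂ)

theorem ratExp_add (a b : AddCircle (1 : ℚ)) : ratExp (a + b) = ratExp a * ratExp b := by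
  simp [ratExp, map_add]

@[simp] theorem ratExp_zero : ratExp 0 = 1 := by simp [ratExp]

theorem norm_ratExp (a : AddCircle (1 : ℚ)) : ‖ratExp a‖ = 1 := Circle.norm_coe _

theorem ratExp_half : ratExp half = -1 := by
  show ((Circle.exp (2 * Real.pi * ((1 / 2 : ℚ) : ℝ)) : Circle) : ℂ) = -1
  rw [show (2 * Real.pi * ((1 / 2 : ℚ) : ℝ)) = Real.pi by push_cast; ring, Circle.coe_exp,
    Complex.exp_pi_mul_I]

theorem ratExp_zsmul (a : AddCircle (1 : ℚ)) (n : ℤ) : ratExp (n • a) = ratExp a ^ n := by
  rw [ratExp, map_zsmul, toMul_zsmul]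
  simp [ratExp]

/-- The elements of order dividing two in `ℚ/ℤ`. -/
theorem eq_zero_or_eq_half {a : AddCircle (1 : ℚ)} (h : a + a = 0) : a = 0 ∨ a = half := by
  induction a using QuotientAddGroup.induction_on with
  | H q =>
    obtain ⟨m, hm⟩ := (AddCircle.coe_eq_zero_iff (1 : ℚ)).1 (by rw [AddCircle.coe_add]; exact h)
    rw [zsmul_eq_mul, mul_one] at hm
    rcases Int.even_or_odd m with ⟨j, rfl⟩ | ⟨j, rfl⟩
    · left
      refine (AddCircle.coe_eq_zero_iff (1 : ℚ)).2 ⟨j, ?_⟩
      rw [zsmul_eq_mul, mul_one]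
      push_cast at hm
      linarith
    · right
      rw [half, ← sub_eq_zero, ← AddCircle.coe_sub, AddCircle.coe_eq_zero_iff]
      refine ⟨j, ?_⟩
      rw [zsmul_eq_mul, mul_one]
      push_cast at hm
      linarith

/-! ### Split and inert places -/

section Basic

variable {L M : Type} [Field L] [NumberField L] [Field M] [NumberField M]
  [Algebra L M] [Algebra.IsQuadraticExtension L M]

omit [NumberField M] [Algebra.IsQuadraticExtension L M] in
theorem unram_iff {v : FPlace L} : Unram M v ↔ v ∉ ramified M := by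
  simp [Unram, ramified]

theorem tauP_eq_self {v : FPlace L} (hv : ¬ IsSplit M v) {P : FPlace M} (hP : below L P = v) :
    tauP L P = P :=
  Fermat.Agent.CFT.smulP_eq_self_of_not_split hv hP _

theorem tauP_ne_self {v : FPlace L} (hv : IsSplit M v) {P : FPlace M} (hP : below L P = v) :
    tauP L P ≠ P := by
  intro h
  obtain ⟨Q, Q', hQ, hQ', hne⟩ := hv
  rcases eq_or_eq_tauP (hQ.trans hP.symm) with rfl | rfl <;>
    rcases eq_or_eq_tauP (hQ'.trans hP.symm) with rfl | rfl
  all_goals first | exact hne rfl | exact hne h | exact hne h.symm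

/-- The two notions of a split place agree. -/
theorem splitAt_iff_isSplit {v : FPlace L} : SplitAt M v ↔ IsSplit M v := by
  refine ⟨fun h => ?_, fun h P hP => tauP_ne_self h hP⟩
  obtain ⟨P, hP⟩ := Fermat.Agent.CFT.exists_below_eq (L := M) v
  exact ⟨_, P, (below_tauP P).trans hP, hP, h P hP⟩

omit [Algebra.IsQuadraticExtension L M] in
theorem not_isSplit_iff_inert {v : FPlace L} (hv : Unram M v) : ¬ IsSplit M v ↔ v ∈ inert M :=
  ⟨fun h => ⟨h, unram_iff.1 hv⟩, fun h => h.1⟩

omit [Algebra.IsQuadraticExtension L M] in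
theorem artinV_of_split {v : FPlace L} (hv : IsSplit M v) : artinV M v = 0 :=
  if_neg fun h => h.1 hv

omit [Algebra.IsQuadraticExtension L M] in
theorem artinV_of_inert {v : FPlace L} (hv : v ∈ inert M) : artinV M v = half := if_pos hv

variable (L) in
/-- The conjugation on divisors. -/
def tauHom : (FPlace M →₀ ℤ) →+ (FPlace M →₀ ℤ) :=
  AddMonoidHom.mk' (tauD L) fun _ _ => Finsupp.ext fun _ => by simp [tauD_apply]

theorem tauHom_single (P : FPlace M) (n : ℤ) :
    tauHom L (Finsupp.single P n) = Finsupp.single (tauP L P) n := by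
  classical
  ext Q
  show Finsupp.single P n (tauP L Q) = _
  simp only [Finsupp.single_apply]
  exact if_congr ⟨fun h => by rw [h, tauP_tauP], fun h => by rw [← h, tauP_tauP]⟩ rfl rfl

theorem tauHom_divisor (x : Mˣ) :
    tauHom L (divisor x) = divisor (conjU (conjM L M) x) :=
  Finsupp.ext fun P => (ord_conjM (L := L) P x).symm

variable (M) in
/-- The pullback of divisors. -/
def pullHom : (FPlace L →₀ ℤ) →+ (FPlace M →₀ ℤ) := AddMonoidHom.mk' (pullD M) pullD_add

theorem pullHom_divisor (x : Lˣ) : pullHom M (divisor x) = divisor (baseU L M x) :=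
  Finsupp.ext fun P => (Fermat.Agent.CFT.ord_baseU P x).symm

theorem pullHom_single_split {v : FPlace L} (hu : Unram M v) (hv : IsSplit M v) {P : FPlace M}
    (hP : below L P = v) :
    pullHom M (Finsupp.single v 1) = Finsupp.single P 1 + Finsupp.single (tauP L P) 1 := by
  show pullD M _ = _
  rw [HeckeChar.pullD_single_eq hu hP, if_neg (tauP_ne_self hv hP)]

theorem pullHom_single_inert {v : FPlace L} (hu : Unram M v) (hv : ¬ IsSplit M v) {P : FPlace M}
    (hP : below L P = v) : pullHom M (Finsupp.single v 1) = Finsupp.single P 1 := by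
  show pullD M _ = _
  rw [HeckeChar.pullD_single_eq hu hP, if_pos (tauP_eq_self hv hP)]

end Basic

/-! ### The extension -/

variable {L M E F M' : Type} [Field L] [NumberField L] [Field M] [NumberField M] [Field E]
  [NumberField E] [Field F] [NumberField F] [Field M'] [NumberField M']
  [Algebra L M] [Algebra.IsQuadraticExtension L M] [Algebra M E] [Algebra.IsQuadraticExtension M E]
  [Algebra E F] [Algebra.IsQuadraticExtension E F] [Algebra L M']
  [Algebra.IsQuadraticExtension L M'] [IsTotallyComplex L]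

variable (L M E F) in
/-- The behaviour of a quaternion tower at the places outside `S`. -/
structure QuatTower (S : Finset (FPlace L)) : Prop where
  unramM : ∀ v ∉ S, Unram M v
  unramE : ∀ P : FPlace M, below L P ∉ S → Unram E P
  unramF : ∀ Q : FPlace E, below L (below M Q) ∉ S → Unram F Q
  sign_tau : ∀ Q : FPlace E, below L (below M Q) ∉ S → artinV F (tauP M Q) = artinV F Q
  sign_inert : ∀ Q : FPlace E, below L (below M Q) ∉ S → below M Q ∈ inert E →
    artinV F Q = half
  inertM : ∀ Q : FPlace E, below L (below M Q) ∉ S → below L (below M Q) ∈ inert M →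
    IsSplit E (below M Q) ∧ artinV F Q = half
  conjE : ∀ P : FPlace M, below L P ∉ S → (IsSplit E (tauP L P) ↔ IsSplit E P)
  conjF : ∀ Q Q' : FPlace E, below L (below M Q) ∉ S → IsSplit E (below M Q) →
    below M Q' = tauP L (below M Q) → artinV F Q' = artinV F Q

variable (E) in
open Classical in
/-- The residue degree in `E`. -/
def degE (P : FPlace M) : ℤ := if IsSplit E P then 1 else 2

variable (E F) in
/-- The sign of `F/E` above a place of `M`. -/
def signF (P : FPlace M) : AddCircle (1 : ℚ) :=
  artinV F (Fermat.Agent.CFT.exists_below_eq (L := E) P).choose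

omit [Algebra.IsQuadraticExtension E F] [IsTotallyComplex L] in
theorem signF_eq {S : Finset (FPlace L)} (hT : QuatTower L M E F S) {Q : FPlace E}
    (hQ : below L (below M Q) ∉ S) : signF E F (below M Q) = artinV F Q := by
  rw [signF]
  set Q₀ := (Fermat.Agent.CFT.exists_below_eq (L := E) (below M Q)).choose
  have h : below M Q₀ = below M Q :=
    (Fermat.Agent.CFT.exists_below_eq (L := E) (below M Q)).choose_spec
  rcases eq_or_eq_tauP h with e | e
  · rw [e]
  · rw [e, hT.sign_tau Q hQ]

variable (E) in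
open Classical in
/-- Multiplication by the residue degree at the places outside `S`. -/
def degD (S : Finset (FPlace L)) : (FPlace M →₀ ℤ) →+ (FPlace M →₀ ℤ) :=
  Finsupp.liftAddHom fun P => if below L P ∈ S then 0 else
    zmultiplesHom _ (Finsupp.single P (degE E P))

variable (E F) in
open Classical in
/-- The sign on the divisors outside `S`. -/
def signD (S : Finset (FPlace L)) : (FPlace M →₀ ℤ) →+ AddCircle (1 : ℚ) :=
  Finsupp.liftAddHom fun P => if below L P ∈ S then 0 else zmultiplesHom _ (signF E F P)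

omit [Algebra.IsQuadraticExtension L M]
  [Algebra.IsQuadraticExtension M E] [IsTotallyComplex L] in
theorem degD_single {S : Finset (FPlace L)} {P : FPlace M} (hP : below L P ∉ S) (n : ℤ) :
    degD E S (Finsupp.single P n) = Finsupp.single P (n * degE E P) := by
  simp [degD, hP]

omit [Algebra.IsQuadraticExtension L M]
  [Algebra.IsQuadraticExtension M E] [IsTotallyComplex L] in
theorem degD_apply {S : Finset (FPlace L)} (c : FPlace M →₀ ℤ) {P : FPlace M}
    (hP : below L P ∉ S) : degD E S c P = c P * degE E P := by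
  classical
  induction c using Finsupp.induction_linear with
  | zero => simp
  | add a b ha hb => rw [map_add, Finsupp.add_apply, ha, hb, Finsupp.add_apply, add_mul]
  | single Q n =>
    by_cases hQ : below L Q ∈ S
    · have hne : Q ≠ P := fun e => hP (e ▸ hQ)
      simp [degD, hQ, Finsupp.single_eq_of_ne hne.symm]
    · rw [degD_single hQ]
      rcases eq_or_ne Q P with rfl | hne
      · simp
      · simp [Finsupp.single_eq_of_ne hne.symm]

omit [Algebra.IsQuadraticExtension L M]
  [Algebra.IsQuadraticExtension M E] [Algebra.IsQuadraticExtension E F] [IsTotallyComplex L] in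
theorem signD_single {S : Finset (FPlace L)} {P : FPlace M} (hP : below L P ∉ S) :
    signD E F S (Finsupp.single P 1) = signF E F P := by
  simp [signD, hP]

omit [Algebra.IsQuadraticExtension L M]
  [Algebra.IsQuadraticExtension M E] [Algebra.IsQuadraticExtension E F] [IsTotallyComplex L] in
/-- The sign of a divisor supported on the exceptional set vanishes. -/
theorem signD_eq_zero {S : Finset (FPlace L)} {c : FPlace M →₀ ℤ}
    (hc : ∀ P, below L P ∉ S → c P = 0) : signD E F S c = 0 := by
  classical
  rw [signD, Finsupp.liftAddHom_apply]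
  refine Finset.sum_eq_zero fun P _ => ?_
  by_cases hP : below L P ∈ S
  · simp [hP]
  · simp [hP, hc P hP]

open Classical in
/-- The push-forward of a divisor at a place of `M`. -/
theorem mapDomain_below_apply (d : FPlace E →₀ ℤ) {Q : FPlace E} :
    Finsupp.mapDomain (below M) d (below M Q) =
      if tauP M Q = Q then d Q else d Q + d (tauP M Q) := by
  classical
  have h : Finsupp.mapDomain (below M) d (below M Q) =
      ∑ R ∈ fibreSet E {below M Q}, d R := by
    induction d using Finsupp.induction_linear with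
    | zero => simp
    | add a b ha hb => simp [Finsupp.mapDomain_add, ha, hb, Finset.sum_add_distrib]
    | single R n =>
      rw [Finsupp.mapDomain_single, Finsupp.single_apply]
      simp only [Finsupp.single_apply, Finset.sum_ite_eq, mem_fibreSet, Finset.mem_singleton]
  rw [h]
  have hset : fibreSet E {below M Q} = {Q, tauP M Q} := by
    ext R
    simp only [mem_fibreSet, Finset.mem_singleton, Finset.mem_insert]
    refine ⟨fun h => eq_or_eq_tauP h, ?_⟩
    rintro (rfl | rfl)
    · rfl
    · exact below_tauP Q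
  rw [hset]
  split_ifs with hQ
  · rw [hQ, Finset.pair_eq_singleton, Finset.sum_singleton]
  · rw [Finset.sum_pair (Ne.symm hQ)]

/-- The consistency of the partial character. -/
theorem signD_kernel {S : Finset (FPlace L)} (hT : QuatTower L M E F S) :
    ∃ m : ℕ, ∀ (c : FPlace M →₀ ℤ) (x : Mˣ), (∀ P, below L P ∈ S → x ∈ congr P m) →
      degD E S c + divisor x = 0 → signD E F S c = 0 := by
  classical
  have : IsTotallyComplex M := isTotallyComplex_of_algebra L M
  have : IsTotallyComplex E := isTotallyComplex_of_algebra M E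
  have hdeg := Algebra.IsQuadraticExtension.finrank_eq_two M E
  have hζ : IsPrimitiveRoot (-1 : M) 2 := Fermat.Agent.CFT.isPrimitiveRoot_neg_one
  obtain ⟨NF, hNF⟩ := exists_artinD_ray E F
  obtain ⟨NH, hNH⟩ := exists_hilbert90_approx (M := E) (fibreSet M S) NF
  set NN := (fibreSet M S).sup fun P => 2 * Fermat.Agent.CFT.absRam P 2 + 1
  refine ⟨max NH NN, fun c x hx h0 => ?_⟩
  have hc : ∀ P, below L P ∉ S → c P * degE E P + ord P x = 0 := fun P hP => by
    have := congrArg (fun d : FPlace M →₀ ℤ => d P) h0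
    simpa [degD_apply c hP, divisor_apply] using this
  have hloc : ∀ P : FPlace M, x ∈ Fermat.Agent.CFT.locNorm E P := by
    intro P
    by_cases hP : below L P ∈ S
    · refine Fermat.Agent.CFT.locPow_le_locNorm hdeg P (Fermat.Agent.CFT.congr_le_locPow P 2
        (Fermat.Agent.CFT.congr_anti P ?_ (hx P hP)))
      exact le_trans (Finset.le_sup (f := fun P => 2 * Fermat.Agent.CFT.absRam P 2 + 1)
        (mem_fibreSet.2 hP)) (le_max_right _ _)
    by_cases hs : IsSplit E P
    · rw [Fermat.Agent.CFT.locNorm_eq_top_of_split hdeg hs]; trivial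
    obtain ⟨Q, hQ⟩ := Fermat.Agent.CFT.exists_below_eq (L := E) P
    rw [Fermat.Agent.CFT.mem_locNorm_iff_dvd_of_unramified hζ hdeg hs hQ (hT.unramE P hP Q hQ)]
    have h := hc P hP
    rw [degE, if_neg hs] at h
    exact ⟨-c P, by push_cast; linarith⟩
  obtain ⟨y, hy⟩ := Fermat.Agent.CFT.exists_norm_of_locNorm hζ hdeg hloc
  obtain ⟨z, hz⟩ := hNH y fun P hP =>
    Fermat.Agent.CFT.congr_anti P (le_max_left _ _) (hy.symm ▸ hx P (mem_fibreSet.1 hP))
  set y' := y * (conjU (conjM M E) z / z) with hy'
  have hnorm : normU M E y' = x := by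
    rw [hy', map_mul, map_div, Fermat.Agent.CFT.normU_conjU, div_self', mul_one, hy]
  have hart : artinD F (divisor y') = 0 := hNF y' fun Q hQ => by
    refine hz Q (mem_fibreSet.2 (by_contra fun h => ?_))
    exact unram_iff.1 (hT.unramF Q h) hQ
  have hbad : ∀ Q : FPlace E, below L (below M Q) ∈ S → divisor y' Q = 0 := fun Q hQ =>
    (hz Q (mem_fibreSet.2 hQ)).1
  have hsum : signD E F S (Finsupp.mapDomain (below M) (divisor y')) = artinD F (divisor y') := by
    rw [Finsupp.mapDomain, Finsupp.sum, map_sum, artinD, Finsupp.liftAddHom_apply, Finsupp.sum]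
    refine Finset.sum_congr rfl fun Q _ => ?_
    by_cases hQ : below L (below M Q) ∈ S
    · simp [hbad Q hQ]
    · rw [← mul_one (divisor y' Q), ← smul_eq_mul, ← Finsupp.smul_single, map_zsmul,
        signD_single hQ, signF_eq hT hQ, zmultiplesHom_apply, smul_eq_mul, mul_one]
  have hzero : signD E F S (c + Finsupp.mapDomain (below M) (divisor y')) = 0 := by
    refine signD_eq_zero fun P hP => ?_
    obtain ⟨Q, rfl⟩ := Fermat.Agent.CFT.exists_below_eq (L := E) P
    have h := hc _ hP
    have hord := ord_norm (L := M) Q y'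
    rw [hT.unramE _ hP Q rfl, Nat.cast_one, one_mul,
      show Units.map (Algebra.norm M : E →* M) y' = x from hnorm] at hord
    rw [Finsupp.add_apply, mapDomain_below_apply]
    rw [degE] at h
    by_cases hs : IsSplit E (below M Q)
    · rw [if_pos hs, mul_one] at h
      rw [if_neg (tauP_ne_self hs rfl), divisor_apply, divisor_apply]
      omega
    · rw [if_neg hs] at h
      have hQ := tauP_eq_self (L := M) hs (P := Q) rfl
      rw [if_pos hQ, divisor_apply]
      rw [hQ] at hord
      omega
  rw [map_add, hsum, hart, add_zero] at hzero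
  exact hzero

/-- A character of the divisors of `M` extending the sign of `F/E` on norms. -/
theorem exists_extension {S : Finset (FPlace L)} (hT : QuatTower L M E F S) :
    ∃ (m : ℕ) (χ : (FPlace M →₀ ℤ) →+ AddCircle (1 : ℚ)),
      (∀ x : Mˣ, (∀ P, below L P ∈ S → x ∈ congr P m) → χ (divisor x) = 0) ∧
      ∀ P, below L P ∉ S → degE E P • χ (Finsupp.single P 1) = signF E F P := by
  classical
  obtain ⟨m, hm⟩ := signD_kernel hT
  let R : Subgroup Mˣ := ⨅ (P : FPlace M) (_ : below L P ∈ S), congr P m
  have hR : ∀ x : Mˣ, x ∈ R ↔ ∀ P, below L P ∈ S → x ∈ congr P m := fun x => by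
    simp [R, Subgroup.mem_iInf]
  let π : (FPlace M →₀ ℤ) × Additive R →+ (FPlace M →₀ ℤ) :=
    (degD E S).coprod
      (AddMonoidHom.mk' (fun x : Additive R => divisor ((Additive.toMul x : R) : Mˣ))
        fun a b => by simp [divisor_mul])
  let h₀ : (FPlace M →₀ ℤ) × Additive R →+ AddCircle (1 : ℚ) :=
    (signD E F S).comp (AddMonoidHom.fst _ _)
  have hker : π.rangeRestrict.ker ≤ h₀.ker := fun a ha => by
    rw [AddMonoidHom.ker_rangeRestrict] at ha
    exact hm a.1 _ ((hR _).1 (Additive.toMul a.2).2) ha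
  let g : π.range →+ AddCircle (1 : ℚ) :=
    π.rangeRestrict.liftOfSurjective π.rangeRestrict_surjective ⟨h₀, hker⟩
  have hg : ∀ a, g (π.rangeRestrict a) = h₀ a := fun a =>
    AddMonoidHom.liftOfRightInverse_comp_apply _ _ _ ⟨h₀, hker⟩ a
  obtain ⟨χ₀, hχ⟩ := CharacterModule.dual_surjective_of_injective (R := ℤ)
    π.range.subtype.toIntLinearMap Subtype.val_injective g
  let χ : (FPlace M →₀ ℤ) →+ AddCircle (1 : ℚ) := χ₀
  have hval : ∀ a, χ (π a) = h₀ a := fun a => by
    rw [← hg a, ← hχ]
    rfl
  refine ⟨m, χ, fun x hx => ?_, fun P hP => ?_⟩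
  · have h := hval (0, Additive.ofMul ⟨x, (hR x).2 hx⟩)
    have h1 : h₀ (0, Additive.ofMul ⟨x, (hR x).2 hx⟩) = 0 := by simp [h₀]
    rw [h1] at h
    simpa [π] using h
  · have h := hval (Finsupp.single P 1, 0)
    have h1 : π (Finsupp.single P 1, 0) = Finsupp.single P (degE E P) := by
      simp [π, degD_single hP, divisor_one]
    have h2 : h₀ (Finsupp.single P 1, 0) = signF E F P := signD_single hP
    rw [h1, h2] at h
    rw [← h, ← map_zsmul, Finsupp.smul_single, smul_eq_mul, mul_one]

omit [Algebra.IsQuadraticExtension E F] in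
/-- The values of the extension at a place inert in `E` and at its conjugate cancel. -/
theorem chi_add_chi_tau {S : Finset (FPlace L)} (hT : QuatTower L M E F S)
    (hUM' : ∀ v ∉ S, Unram M' v)
    (hM' : ∀ P : FPlace M, below L P ∉ S → IsSplit M (below L P) →
      (IsSplit M' (below L P) ↔ IsSplit E P))
    (hmixed : ∃ a b : FPlace L, a ∉ S ∧ b ∉ S ∧ a ∈ inert M ∧ b ∈ inert M ∧
      IsSplit M' a ∧ ¬ IsSplit M' b)
    {m : ℕ} {χ : (FPlace M →₀ ℤ) →+ AddCircle (1 : ℚ)}
    (hray : ∀ x : Mˣ, (∀ P, below L P ∈ S → x ∈ congr P m) → χ (divisor x) = 0)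
    (hval : ∀ P, below L P ∉ S → degE E P • χ (Finsupp.single P 1) = signF E F P)
    {P : FPlace M} (hP : below L P ∉ S) :
    χ (Finsupp.single P 1) + χ (Finsupp.single (tauP L P) 1) = 0 := by
  classical
  have : IsTotallyComplex M := isTotallyComplex_of_algebra L M
  have hsplitE : ∀ P : FPlace M, below L P ∉ S → IsSplit E P →
      χ (Finsupp.single P 1) + χ (Finsupp.single (tauP L P) 1) = 0 := by
    intro P hP hs
    have h1 := hval P hP
    have hP' : below L (tauP L P) ∉ S := by rwa [below_tauP]
    have h2 := hval _ hP'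
    rw [degE, if_pos hs, one_zsmul] at h1
    rw [degE, if_pos ((hT.conjE P hP).2 hs), one_zsmul] at h2
    obtain ⟨Q, rfl⟩ := Fermat.Agent.CFT.exists_below_eq (L := E) P
    obtain ⟨Q', hQ'⟩ := Fermat.Agent.CFT.exists_below_eq (L := E) (tauP L (below M Q))
    have hQ'S : below L (below M Q') ∉ S := by rwa [hQ']
    rw [h1, h2, signF_eq hT hP, ← hQ', signF_eq hT hQ'S, hT.conjF Q Q' hP hs hQ']
    exact artinV_add_self Q
  by_cases hPE : IsSplit E P
  · exact hsplitE P hP hPE
  let Λ : (FPlace M →₀ ℤ) →+ AddCircle (1 : ℚ) := χ + χ.comp (tauHom L)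
  have hΛ : ∀ P, Λ (Finsupp.single P 1) =
      χ (Finsupp.single P 1) + χ (Finsupp.single (tauP L P) 1) := fun P => by
    simp [Λ, tauHom_single]
  have hΛinert : ∀ P : FPlace M, below L P ∉ S → ¬ IsSplit E P →
      Λ (Finsupp.single P 1) + Λ (Finsupp.single P 1) = 0 := by
    intro P hP hs
    have hP' : below L (tauP L P) ∉ S := by rwa [below_tauP]
    have key : ∀ R : FPlace M, below L R ∉ S → ¬ IsSplit E R →
        χ (Finsupp.single R 1) + χ (Finsupp.single R 1) = half := by
      intro R hR hsR
      obtain ⟨Q, rfl⟩ := Fermat.Agent.CFT.exists_below_eq (L := E) R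
      rw [← two_zsmul]
      have h := hval _ hR
      rw [degE, if_neg hsR, signF_eq hT hR,
        hT.sign_inert Q hR ((not_isSplit_iff_inert (hT.unramE _ hR)).1 hsR)] at h
      exact h
    rw [hΛ, add_add_add_comm, key P hP hs, key _ hP' fun h => hs ((hT.conjE P hP).1 h)]
    exact half_add_half
  set B := fibreSet M S
  have hB : ∀ R : FPlace M, R ∈ ramified E → R ∈ B := fun R hR =>
    mem_fibreSet.2 (by_contra fun h => unram_iff.1 (hT.unramE R h) hR)
  have hΛray : ∀ x : Mˣ, (∀ b ∈ B, x ∈ congr b m) → Λ (divisor x) = 0 := fun x hx => by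
    show χ (divisor x) + χ (tauHom L (divisor x)) = 0
    rw [tauHom_divisor, hray x fun R hR => hx R (mem_fibreSet.2 hR),
      hray _ fun R hR => conjU_mem_congr (hx _ (mem_fibreSet.2 (by rwa [below_tauP]))), add_zero]
  have hconst : ∀ R : FPlace M, below L R ∉ S → ¬ IsSplit E R →
      Λ (Finsupp.single R 1) = Λ (Finsupp.single P 1) := fun R hR hsR =>
    eq_on_inert (M := E) Λ B hB m hΛray
      (fun v hv hs => (hΛ v).trans (hsplitE v (fun h => hv (mem_fibreSet.2 h)) hs))
      (fun v hv hi => hΛinert v (fun h => hv (mem_fibreSet.2 h)) hi.1)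
      ((not_isSplit_iff_inert (hT.unramE _ hR)).1 hsR)
      ((not_isSplit_iff_inert (hT.unramE _ hP)).1 hPE)
      (fun h => hR (mem_fibreSet.1 h)) (fun h => hP (mem_fibreSet.1 h))
  rw [← hΛ]
  refine (eq_zero_or_eq_half (hΛinert P hP hPE)).resolve_right fun hhalf => ?_
  obtain ⟨N₁, hN₁⟩ := exists_artinD_ray L M
  obtain ⟨N₂, hN₂⟩ := exists_artinD_ray L M'
  let Ω : (FPlace L →₀ ℤ) →+ AddCircle (1 : ℚ) :=
    χ.comp (pullHom M) + artinD M + artinD M'
  have hΩ : ∀ v : FPlace L, Ω (Finsupp.single v 1) =
      χ (pullHom M (Finsupp.single v 1)) + artinV M v + artinV M' v := fun v => by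
    simp [Ω, artinD_single]
  have hΩinert : ∀ v ∉ S, v ∈ inert M → Ω (Finsupp.single v 1) = artinV M' v := by
    intro v hv hi
    obtain ⟨R, hR⟩ := Fermat.Agent.CFT.exists_below_eq (L := M) v
    have hRS : below L R ∉ S := by rwa [hR]
    obtain ⟨Q, rfl⟩ := Fermat.Agent.CFT.exists_below_eq (L := E) R
    obtain ⟨hs, hsgn⟩ := hT.inertM Q hRS (by rwa [hR])
    have h := hval _ hRS
    rw [degE, if_pos hs, one_zsmul, signF_eq hT hRS, hsgn] at h
    rw [hΩ, pullHom_single_inert (hT.unramM v hv) hi.1 hR, h, artinV_of_inert hi,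
      half_add_half, zero_add]
  obtain ⟨a, b, ha, hb, hai, hbi, has, hbs⟩ := hmixed
  have h := eq_on_inert (M := M) Ω S
    (fun v hv => by_contra fun h => unram_iff.1 (hT.unramM v h) hv) (max m (max N₁ N₂))
    (fun x hx => ?_) (fun v hv hs => ?_)
    (fun v hv hi => by rw [hΩinert v hv hi]; exact artinV_add_self v) hai hbi ha hb
  · rw [hΩinert a ha hai, hΩinert b hb hbi, artinV_of_split has,
      artinV_of_inert ((not_isSplit_iff_inert (hUM' b hb)).1 hbs)] at h
    exact half_ne_zero h.symm
  · show χ (pullHom M (divisor x)) + artinD M (divisor x) + artinD M' (divisor x) = 0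
    rw [pullHom_divisor, hray _ fun R hR => baseU_mem_congr
        (Fermat.Agent.CFT.congr_anti _ (le_max_left _ _) (hx _ hR)),
      hN₁ x fun v hv => Fermat.Agent.CFT.congr_anti _
        (le_trans (le_max_left _ _) (le_max_right _ _))
        (hx v (by_contra fun h => unram_iff.1 (hT.unramM v h) hv)),
      hN₂ x fun v hv => Fermat.Agent.CFT.congr_anti _
        (le_trans (le_max_right _ _) (le_max_right _ _))
        (hx v (by_contra fun h => unram_iff.1 (hUM' v h) hv)), add_zero, add_zero]
  · obtain ⟨R, rfl⟩ := Fermat.Agent.CFT.exists_below_eq (L := M) v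
    rw [hΩ, pullHom_single_split (hT.unramM _ hv) hs rfl, map_add, artinV_of_split hs, add_zero]
    by_cases hRE : IsSplit E R
    · rw [hsplitE R hv hRE, artinV_of_split ((hM' R hv hs).2 hRE), add_zero]
    · rw [← hΛ, hconst R hv hRE, hhalf,
        artinV_of_inert ((not_isSplit_iff_inert (hUM' _ hv)).1 fun h => hRE ((hM' R hv hs).1 h)),
        half_add_half]

/-- The Hecke character of a quaternion tower, with its values. -/
theorem exists_heckeChar {S : Finset (FPlace L)} (hT : QuatTower L M E F S)
    (hUM' : ∀ v ∉ S, Unram M' v)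
    (hM' : ∀ P : FPlace M, below L P ∉ S → IsSplit M (below L P) →
      (IsSplit M' (below L P) ↔ IsSplit E P))
    (hmixed : ∃ a b : FPlace L, a ∉ S ∧ b ∉ S ∧ a ∈ inert M ∧ b ∈ inert M ∧
      IsSplit M' a ∧ ¬ IsSplit M' b)
    (hinf : ∀ T : Finset (FPlace L), ∃ P : FPlace M, below L P ∉ T ∧ below L P ∉ S ∧
      IsSplit M (below L P) ∧ ¬ IsSplit E P) :
    ∃ H : HeckeChar L M, H.S = S ∧
      (∀ Q : FPlace E, below L (below M Q) ∉ S → IsSplit E (below M Q) →
        H.ψ (below M Q) = ratExp (artinV F Q)) ∧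
      ∀ P : FPlace M, below L P ∉ S → IsSplit M (below L P) → ¬ IsSplit E P →
        H.ψ (tauP L P) = -H.ψ P := by
  classical
  obtain ⟨m, χ, hray, hval⟩ := exists_extension hT
  let ψ : FPlace M → ℂ := fun P => ratExp (χ (Finsupp.single P 1))
  have hne : ∀ P, ψ P ≠ 0 := fun P h => by
    simpa [ψ, h] using norm_ratExp (χ (Finsupp.single P 1))
  have hcancel : ∀ P, below L P ∉ S → IsSplit M (below L P) → ψ P * ψ (tauP L P) = 1 :=
    fun P hP _ => by
      rw [← ratExp_add, chi_add_chi_tau hT hUM' hM' hmixed hray hval hP, ratExp_zero]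
  have hsq : ∀ P, below L P ∉ S → ¬ IsSplit E P → ψ P * ψ P = -1 := fun P hP hs => by
    obtain ⟨Q, rfl⟩ := Fermat.Agent.CFT.exists_below_eq (L := E) P
    have h := hval _ hP
    rw [degE, if_neg hs, signF_eq hT hP,
      hT.sign_inert Q hP ((not_isSplit_iff_inert (hT.unramE _ hP)).1 hs), two_zsmul] at h
    rw [← ratExp_add, h, ratExp_half]
  have hsplitE : ∀ Q : FPlace E, below L (below M Q) ∉ S → IsSplit E (below M Q) →
      ψ (below M Q) = ratExp (artinV F Q) := fun Q hQ hs => by
    have h := hval _ hQ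
    rw [degE, if_pos hs, one_zsmul, signF_eq hT hQ] at h
    show ratExp _ = _
    rw [h]
  have hneg : ∀ P, below L P ∉ S → IsSplit M (below L P) → ¬ IsSplit E P →
      ψ (tauP L P) = -ψ P := fun P hP hs hE => by
    refine mul_left_cancel₀ (hne P) ?_
    rw [hcancel P hP hs, mul_neg, hsq P hP hE, neg_neg]
  refine ⟨{ S := S, m := m + 1, m_pos := m.succ_pos, ψ := ψ,
            norm_ψ := fun P => norm_ratExp _, unram := hT.unramM,
            ray := fun x hx => ?_, split := fun P hP hPt => hcancel P hP ?_,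
            inert := fun P hP hPt => ?_, nontriv := fun T => ?_ }, rfl, hsplitE, hneg⟩
  · have h0 : χ (divisor x) = 0 := hray x fun P hP =>
      Fermat.Agent.CFT.congr_anti P m.le_succ (hx P hP)
    rw [← ratExp_zero, ← h0]
    generalize divisor x = d
    induction d using Finsupp.induction with
    | zero => simp
    | single_add P n d hd hn ih =>
      rw [Finsupp.prod_add_index' (fun a => zpow_zero _) (fun a b c => zpow_add₀ (hne a) b c), ih,
        Finsupp.prod_single_index (zpow_zero _), map_add, ratExp_add,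
        show χ (Finsupp.single P n) = n • χ (Finsupp.single P 1) by
          rw [← map_zsmul, Finsupp.smul_single, smul_eq_mul, mul_one], ratExp_zsmul]
  · exact ⟨_, P, below_tauP P, rfl, hPt⟩
  · have hi : below L P ∈ inert M :=
      (not_isSplit_iff_inert (hT.unramM _ hP)).1 fun h => tauP_ne_self h rfl hPt
    obtain ⟨Q, rfl⟩ := Fermat.Agent.CFT.exists_below_eq (L := E) P
    obtain ⟨hs, hsgn⟩ := hT.inertM Q hP hi
    rw [hsplitE Q hP hs, hsgn, ratExp_half]
  · obtain ⟨P, hPT, hPS, hPM, hPE⟩ := hinf T
    refine ⟨P, hPT, hPS, ?_⟩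
    show ψ (tauP L P) ≠ ψ P
    rw [hneg P hPS hPM hPE]
    intro h
    exact hne P (by linear_combination -(1 / 2 : ℂ) * h)

end Fermat.Agent.ResidualThree.ThetaInduction
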