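import Fermat.Agent.ResidualThree.Galois.PlacesOver
import Fermat.Agent.ResidualThree.ThetaInduction.HeckeExtend

/-!
# A quadratic step between fixed fields of `ρ`

For a quadratic extension `K₂ / K₁` of fixed fields of preimages under `ρ` (`IsStep`), at a place
where `ρ` is unramified the residue degree, the splitting and the Frobenius classes above are
read off from the Frobenius class below (`IsStep.deg_eq`, `IsStep.isSplit_iff`, `IsStep.frob`).
This turns splitting conditions in the tower over `L` into statements about elements of the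
image group.
-/

noncomputable section

open NumberField IsDedekindDomain
open scoped Pointwise

namespace Fermat.Agent.ResidualThree.ThetaInduction

open Fermat.Agent.CFT (below ram IsSplit)

local notation "Qbar" => AlgebraicClosure ℚ
local notation "Γℚ" => (AlgebraicClosure ℚ ≃ₐ[ℚ] AlgebraicClosure ℚ)

variable {G : Type} [Group G] {ρ : Γℚ →* G}

variable (ρ) in
/-- `ρ|K` is unramified at `v`. -/
def UnrAt (K : IntermediateField ℚ Qbar) [NumberField K] (v : FPlace K) : Prop :=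
  ∀ A : ValuationSubring Qbar, LiesOverPlace A v →
    ∀ σ ∈ A.inertiaSubgroupIn ℚ, σ ∈ K.fixingSubgroup → ρ σ = 1

variable (ρ) in
/-- `x` is the image of a Frobenius element at `v`. -/
def IsFrobClass (K : IntermediateField ℚ Qbar) [NumberField K] (v : FPlace K) (x : G) : Prop :=
  ∃ (A : ValuationSubring Qbar) (s : Γℚ), LiesOverPlace A v ∧ s ∈ K.fixingSubgroup ∧
    A.IsFrobeniusAt s (Ideal.absNorm v.asIdeal) ∧ ρ s = x

section One

variable {K : IntermediateField ℚ Qbar} [NumberField K]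

variable (ρ) in
theorem exists_isFrobClass (v : FPlace K) : ∃ x, IsFrobClass ρ K v x := by
  obtain ⟨A, hA⟩ := exists_liesOverPlace v
  obtain ⟨s, hs, hF⟩ := exists_isFrobeniusAt_absNorm hA
  exact ⟨_, A, s, hA, hs, hF, rfl⟩

theorem IsFrobClass.mem {H : Subgroup G} (hH : K.fixingSubgroup = H.comap ρ) {v : FPlace K} {x : G}
    (h : IsFrobClass ρ K v x) : x ∈ H := by
  obtain ⟨A, s, -, hs, -, rfl⟩ := h
  rwa [hH] at hs

/-- At an unramified place the image of a Frobenius element is determined by the valuation ring. -/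
theorem eq_of_frobenius {v : FPlace K} (hv : UnrAt ρ K v) {A : ValuationSubring Qbar}
    (hA : LiesOverPlace A v) {σ τ : Γℚ} (hσ : σ ∈ K.fixingSubgroup) (hτ : τ ∈ K.fixingSubgroup)
    {N : ℕ} (hσF : A.IsFrobeniusAt σ N) (hτF : A.IsFrobeniusAt τ N) : ρ σ = ρ τ := by
  have h := hv A hA _ (Gal.inv_mul_mem_inertia hσF hτF) (mul_mem (inv_mem hσ) hτ)
  rwa [map_mul, map_inv, inv_mul_eq_one] at h

end One

section Step

variable {H₁ H₂ : Subgroup G} {K₁ K₂ : IntermediateField ℚ Qbar} [NumberField K₁] [NumberField K₂]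
  [Algebra K₁ K₂] [Algebra.IsQuadraticExtension K₁ K₂]

/-- The data of a quadratic step. -/
structure IsStep (ρ : Γℚ →* G) (H₁ H₂ : Subgroup G) (K₁ K₂ : IntermediateField ℚ Qbar)
    [Algebra K₁ K₂] : Prop where
  coe : ∀ x : K₁, ((algebraMap K₁ K₂ x : K₂) : Qbar) = x
  surj : Function.Surjective ρ
  fix₁ : K₁.fixingSubgroup = H₁.comap ρ
  fix₂ : K₂.fixingSubgroup = H₂.comap ρ
  le : H₂ ≤ H₁
  exists_notMem : ∃ g ∈ H₁, g ∉ H₂
  mul_mem_of_notMem : ∀ a ∈ H₁, ∀ b ∈ H₁, a ∉ H₂ → b ∉ H₂ → a * b ∈ H₂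

variable (hS : IsStep ρ H₁ H₂ K₁ K₂)

include hS

omit [NumberField K₁] [NumberField K₂] [Algebra.IsQuadraticExtension K₁ K₂] in
theorem IsStep.sq_mem {a : G} (ha : a ∈ H₁) : a ^ 2 ∈ H₂ := by
  rw [pow_two]
  by_cases h : a ∈ H₂
  · exact mul_mem h h
  · exact hS.mul_mem_of_notMem a ha a ha h h

omit [NumberField K₁] [NumberField K₂] [Algebra.IsQuadraticExtension K₁ K₂] in
theorem IsStep.conj_mem {c x : G} (hc : c ∈ H₁) (hx : x ∈ H₂) : c * x * c⁻¹ ∈ H₂ := by
  by_cases h : c ∈ H₂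
  · exact mul_mem (mul_mem h hx) (inv_mem h)
  refine hS.mul_mem_of_notMem _ (mul_mem hc (hS.le hx)) _ (inv_mem hc) (fun hh => h ?_)
    (fun hh => h (by simpa using inv_mem hh))
  exact (Subgroup.mul_mem_cancel_right H₂ hx).1 hh

omit [Algebra.IsQuadraticExtension K₁ K₂] in
/-- `ρ` stays unramified above. -/
theorem IsStep.unrAt {v : FPlace K₁} (hv : UnrAt ρ K₁ v) {w : FPlace K₂}
    (hw : below K₁ w = v) : UnrAt ρ K₂ w := fun A hA σ hσ hσ₂ =>
  hv A (by have h := liesOverPlace_below hS.coe hA; rwa [show Orbital.below K₁ w = v from hw] at h)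
    σ hσ (fixingSubgroup_le_of_coe hS.coe hσ₂)

omit [Algebra.IsQuadraticExtension K₁ K₂] in
/-- The residue degree is one or two according as the Frobenius class below lies in `H₂` or not. -/
theorem IsStep.deg_eq {v : FPlace K₁} (hv : UnrAt ρ K₁ v) {x : G} (hx : IsFrobClass ρ K₁ v x)
    {w : FPlace K₂} (hw : below K₁ w = v) :
    (x ∈ H₂ → Ideal.absNorm w.asIdeal = Ideal.absNorm v.asIdeal) ∧
    (x ∉ H₂ → Ideal.absNorm w.asIdeal = Ideal.absNorm v.asIdeal ^ 2) := by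
  obtain ⟨A₀, s₀, hA₀, hs₀, hsF₀, rfl⟩ := hx
  obtain ⟨B, hBw, hBv⟩ := exists_liesOverPlace_over hS.coe (⟨w, hw⟩ : Orbital.Over K₂ v)
  obtain ⟨t, ht, rfl⟩ := exists_smul_eq_of_liesOverPlace hA₀ hBv
  have hsF := Gal.isFrobeniusAt_conj hsF₀ t
  set s := t * s₀ * t⁻¹ with hs_def
  have hs : s ∈ K₁.fixingSubgroup := mul_mem (mul_mem ht hs₀) (inv_mem ht)
  have ht' : ρ t ∈ H₁ := by rwa [hS.fix₁] at ht
  have hiff : ρ s ∈ H₂ ↔ ρ s₀ ∈ H₂ := by
    rw [hs_def, map_mul, map_mul, map_inv]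
    refine ⟨fun h => ?_, hS.conj_mem ht'⟩
    simpa [mul_assoc] using hS.conj_mem (inv_mem ht') h
  have hN := one_lt_absNorm v
  have hN' := absNorm_eq_pow_deg (⟨w, hw⟩ : Orbital.Over K₂ v)
  set f := v.asIdeal.inertiaDeg' w.asIdeal
  have hf : f ≠ 0 := fun h => by
    rw [h, pow_zero] at hN'
    exact (one_lt_absNorm w).ne' hN'
  refine ⟨fun h => ?_, fun h => ?_⟩
  · have h2 : s ∈ K₂.fixingSubgroup := by rw [hS.fix₂]; exact hiff.2 h
    have hle := absNorm_le_of_isFrobeniusAt hBw h2 hN hsF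
    refine le_antisymm hle ?_
    rw [hN']
    exact Nat.le_self_pow hf _
  · have h2 : s ^ 2 ∈ K₂.fixingSubgroup := by
      rw [hS.fix₂, Subgroup.mem_comap, map_pow]
      exact hS.sq_mem (by rwa [hS.fix₁] at hs)
    have hle := absNorm_le_of_isFrobeniusAt hBw h2 (Nat.one_lt_pow two_ne_zero hN)
      (isFrobeniusAt_pow hsF 2)
    rw [hN', Nat.pow_le_pow_iff_right hN] at hle
    suffices f ≠ 1 by
      rw [hN', show f = 2 by omega]
    intro h1
    rw [h1, pow_one] at hN'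
    obtain ⟨σ, hσ, hσF⟩ := exists_isFrobeniusAt_absNorm hBw
    rw [show Ideal.absNorm w.asIdeal = Ideal.absNorm v.asIdeal from hN'] at hσF
    refine h (hiff.1 ?_)
    rw [eq_of_frobenius hv hBv hs (fixingSubgroup_le_of_coe hS.coe hσ) hsF hσF]
    rwa [hS.fix₂] at hσ

omit [Algebra.IsQuadraticExtension K₁ K₂] in
/-- Splitting is read off from the Frobenius class. -/
theorem IsStep.isSplit_iff {v : FPlace K₁} (hv : UnrAt ρ K₁ v) {x : G}
    (hx : IsFrobClass ρ K₁ v x) : IsSplit K₂ v ↔ x ∈ H₂ := by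
  obtain ⟨A, s, hA, hs, hsF, hρs⟩ := hx
  subst hρs
  constructor
  · rintro ⟨w, w', hw, hw', hne⟩
    by_contra h
    refine hne ?_
    obtain ⟨B, hBw, hBv⟩ := exists_liesOverPlace_over hS.coe (⟨w, hw⟩ : Orbital.Over K₂ v)
    obtain ⟨B', hBw', hBv'⟩ := exists_liesOverPlace_over hS.coe (⟨w', hw'⟩ : Orbital.Over K₂ v)
    obtain ⟨t, ht, rfl⟩ := exists_smul_eq_of_liesOverPlace hA hBv
    obtain ⟨σ, hσ, rfl⟩ := exists_smul_eq_of_liesOverPlace hBv hBv'
    set e := t * s * t⁻¹ with he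
    have heD : e • (t • A) = t • A :=
      MulAction.mem_stabilizer_iff.mp (Gal.conj_mem_decomposition hsF.mem_decompositionSubgroup t)
    rw [hS.fix₁] at hs ht hσ
    by_cases hσ₂ : ρ σ ∈ H₂
    · exact BianchiForm.place_unique (liesOverPlace_smul hBw (by rwa [hS.fix₂])) hBw'
    · have hmem : σ * e ∈ K₂.fixingSubgroup := by
        rw [hS.fix₂, Subgroup.mem_comap, map_mul]
        refine hS.mul_mem_of_notMem _ hσ _ ?_ hσ₂ fun hh => h ?_
        · rw [he, map_mul, map_mul, map_inv]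
          exact mul_mem (mul_mem ht hs) (inv_mem ht)
        · rw [he, map_mul, map_mul, map_inv] at hh
          simpa [mul_assoc] using hS.conj_mem (inv_mem ht) hh
      have h' := liesOverPlace_smul hBw hmem
      rw [mul_smul, heD] at h'
      exact BianchiForm.place_unique h' hBw'
  · intro h
    obtain ⟨g₀, hg₀, hg₀'⟩ := hS.exists_notMem
    obtain ⟨g, rfl⟩ := hS.surj g₀
    have hgK : g ∈ K₁.fixingSubgroup := by rw [hS.fix₁]; exact hg₀
    obtain ⟨w, hw⟩ := exists_over (L := K₂) hS.coe hA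
    obtain ⟨w', hw'⟩ := exists_over (L := K₂) hS.coe (liesOverPlace_smul hA hgK)
    refine ⟨w.1, w'.1, w.2, w'.2, fun e => ?_⟩
    rw [e] at hw
    obtain ⟨σ, hσ, hσA⟩ := exists_smul_eq_of_liesOverPlace hw' hw
    set d := σ * g with hd
    have hdD : d ∈ A.decompositionSubgroup ℚ := MulAction.mem_stabilizer_iff.mpr (by
      rw [hd, mul_smul, hσA])
    have hdK : d ∈ K₁.fixingSubgroup := mul_mem (fixingSubgroup_le_of_coe hS.coe hσ) hgK
    obtain ⟨ι, hι, hιd⟩ := exists_inertia_eqOn_of_absNorm_eq hS.coe hw hA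
      ((hS.deg_eq hv ⟨A, s, hA, hs, hsF, rfl⟩ w'.2).1 h) hdD hdK
    have hιK : ι ∈ K₁.fixingSubgroup := (IntermediateField.mem_fixingSubgroup_iff _ _).mpr
      fun y hy => (hιd y (le_of_coe_algebraMap hS.coe hy)).trans
        ((IntermediateField.mem_fixingSubgroup_iff _ _).mp hdK y hy)
    have hmem : ι⁻¹ * d ∈ K₂.fixingSubgroup := (IntermediateField.mem_fixingSubgroup_iff _ _).mpr
      fun y hy => by rw [AlgEquiv.mul_apply, ← hιd y hy]; exact ι.symm_apply_apply y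
    rw [hS.fix₂] at hσ hmem
    rw [Subgroup.mem_comap, map_mul, map_inv, hv A hA ι hι hιK, inv_one, one_mul, hd, map_mul,
      Subgroup.mul_mem_cancel_left H₂ hσ] at hmem
    exact hg₀' hmem

/-- No ramification. -/
theorem IsStep.unram {v : FPlace K₁} (hv : UnrAt ρ K₁ v) : Unram K₂ v := by
  intro w hw
  obtain ⟨x, hx⟩ := exists_isFrobClass ρ v
  have hdeg := Algebra.IsQuadraticExtension.finrank_eq_two K₁ K₂
  by_cases h : x ∈ H₂
  · exact Fermat.Agent.CFT.ram_eq_one_of_split (p := 2) hdeg ((hS.isSplit_iff hv hx).2 h) hw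
  · have hsum := sum_ram_mul_deg (L := K₂) v
    have hN := one_lt_absNorm v
    have e := absNorm_eq_pow_deg (⟨w, hw⟩ : Orbital.Over K₂ v)
    rw [(hS.deg_eq hv hx hw).2 h] at e
    have hf := Nat.pow_right_injective hN e
    rw [hdeg] at hsum
    have hle := Finset.single_le_sum
      (f := fun u : Orbital.Over K₂ v => Orbital.ram K₁ u.1 * v.asIdeal.inertiaDeg' u.1.asIdeal)
      (fun _ _ => Nat.zero_le _) (Finset.mem_univ (⟨w, hw⟩ : Orbital.Over K₂ v))
    have hpos := Fermat.Agent.CFT.ram_pos (K := K₁) w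
    simp only [← hf, hsum] at hle
    change ram K₁ w * 2 ≤ 2 at hle
    omega

omit [Algebra.IsQuadraticExtension K₁ K₂] in
/-- The Frobenius classes above. -/
theorem IsStep.frob {v : FPlace K₁} (hv : UnrAt ρ K₁ v) {x : G} (hx : IsFrobClass ρ K₁ v x)
    {w : FPlace K₂} (hw : below K₁ w = v) {y : G} (hy : IsFrobClass ρ K₂ w y) :
    (x ∈ H₂ → ∃ c ∈ H₁, y = c * x * c⁻¹) ∧ (x ∉ H₂ → ∃ c ∈ H₁, y = c * x ^ 2 * c⁻¹) := by
  have hdeg := hS.deg_eq hv hx hw
  obtain ⟨A, s, hA, hs, hsF, rfl⟩ := hx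
  obtain ⟨B, σ, hB, hσ, hσF, rfl⟩ := hy
  have hBv : LiesOverPlace B v := by
    have h := liesOverPlace_below hS.coe hB
    rwa [show Orbital.below K₁ w = v from hw] at h
  obtain ⟨t, ht, rfl⟩ := exists_smul_eq_of_liesOverPlace hA hBv
  have key : ∀ m, Ideal.absNorm w.asIdeal = Ideal.absNorm v.asIdeal ^ m →
      ρ σ = ρ t * ρ s ^ m * (ρ t)⁻¹ := fun m hm => by
    rw [eq_of_frobenius hv hBv (fixingSubgroup_le_of_coe hS.coe hσ)
      (mul_mem (mul_mem ht (pow_mem hs m)) (inv_mem ht)) hσF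
      (hm ▸ Gal.isFrobeniusAt_conj (isFrobeniusAt_pow hsF m) t), map_mul, map_mul, map_inv,
      map_pow]
  have ht₁ : ρ t ∈ H₁ := by rwa [hS.fix₁] at ht
  refine ⟨fun h => ⟨_, ht₁, ?_⟩, fun h => ⟨_, ht₁, key 2 (hdeg.2 h)⟩⟩
  have := key 1 ((hdeg.1 h).trans (pow_one _).symm)
  rwa [pow_one] at this

end Step

end Fermat.Agent.ResidualThree.ThetaInduction
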