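import Fermat.Agent.Gal.Density
import Fermat.Agent.ResidualThree.Galois.Quaternion
import Fermat.Agent.ResidualThree.ThetaInduction.DictIface
import Fermat.Agent.ResidualThree.ThetaInduction.QuadStep

/-!
# The Hecke character attached to `ρ|L`

`M`, `E`, `F` and `M'` are the fixed fields of the preimages of `⟨i⟩`, `±1`, `1` and `⟨j⟩` in
the quaternion subgroup. Weak Chebotarev supplies places of each needed Frobenius class
(`exists_place_class`), the tower is a quaternion tower (`quatTower`), and the character of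
`exists_heckeChar` has the traces of `ρ` as eigenvalues (`heckeExistence`).
-/

noncomputable section

open NumberField IsDedekindDomain
open scoped Pointwise

namespace Fermat.Agent.ResidualThree.ThetaInduction

open Fermat.Agent.CFT (below ram IsSplit inert)

local notation "Qbar" => AlgebraicClosure ℚ
local notation "Γℚ" => (AlgebraicClosure ℚ ≃ₐ[ℚ] AlgebraicClosure ℚ)
local notation "G48" => GL (Fin 2) (ZMod 3)

variable {ρ : Γℚ →* G48}

theorem le_of_fix {K₁ K₂ : IntermediateField ℚ Qbar} {H₁ H₂ : Subgroup G48}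
    (h₁ : K₁.fixingSubgroup = H₁.comap ρ) (h₂ : K₂.fixingSubgroup = H₂.comap ρ) (hle : H₂ ≤ H₁) :
    K₁ ≤ K₂ := by
  rw [← InfiniteGalois.fixedField_fixingSubgroup K₂, IntermediateField.le_iff_le, h₁, h₂]
  exact Subgroup.comap_mono hle

/-- A step of index two is a quadratic extension. -/
theorem isQuadratic_of_finrank (K₁ K₂ : IntermediateField ℚ Qbar) [NumberField K₁]
    [Algebra K₁ K₂] {n₁ n₂ : ℕ} (h₁ : Module.finrank ℚ K₁ = n₁) (h₂ : Module.finrank ℚ K₂ = n₂)
    (h : n₂ = 2 * n₁) : Algebra.IsQuadraticExtension K₁ K₂ := by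
  have e := Module.finrank_mul_finrank ℚ K₁ K₂
  rw [h₁, h₂, h] at e
  refine { finrank_eq_two' := ?_ }
  have hpos : 0 < n₁ := h₁ ▸ Module.finrank_pos
  exact Nat.eq_of_mul_eq_mul_left hpos (e.trans (mul_comm 2 n₁))

/-- The exceptional places form a finite set. -/
theorem exists_exceptional (hρ : Continuous ρ) (L : IntermediateField ℚ Qbar) [NumberField L] :
    ∃ S : Finset (FPlace L), ∀ w, w ∈ S ↔ ¬ UnrAt ρ L w := by
  obtain ⟨S₁, hS₁⟩ := Gal.exists_finset_unramified ρ (BianchiForm.factors_of_continuous ρ hρ)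
  have hfin : {w : FPlace L | ¬ UnrAt ρ L w}.Finite := by
    have hsub : {w : FPlace L | ¬ UnrAt ρ L w} ⊆
        ⋃ q ∈ (S₁.filter Nat.Prime : Set ℕ),
          {w : FPlace L | w.asIdeal ∣ Ideal.span {(q : 𝓞 L)}} := by
      intro w hw
      simp only [Set.mem_ofPred_eq, UnrAt, not_forall] at hw
      obtain ⟨A, hA, σ, hσ, -, hne⟩ := hw
      obtain ⟨q, f, hq, hqA, -, -⟩ := exists_prime_absNorm hA
      have hqS : q ∈ S₁ := by_contra fun h => hne (hS₁ q hq h A hqA σ hσ)
      simp only [Set.mem_iUnion, Finset.coe_filter, Set.mem_ofPred_eq]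
      refine ⟨q, ⟨hqS, hq⟩, ?_⟩
      rw [Ideal.dvd_span_singleton, ← mem_nonunits_ringOfIntegers hA]
      simpa [ValuationSubring.LiesOverPrime] using hqA
    refine Set.Finite.subset ((Finset.finite_toSet _).biUnion fun q hq => ?_) hsub
    have hq' : Nat.Prime q := (Finset.mem_filter.1 hq).2
    exact Ideal.finite_factors (by simpa [Ideal.span_singleton_eq_bot] using hq'.ne_zero)
  exact ⟨hfin.toFinset, fun w => hfin.mem_toFinset⟩

/-- Weak Chebotarev for `ρ|L`: a place whose Frobenius class generates the same cyclic group as a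
given element of the quaternion subgroup. -/
theorem exists_place_class (hρ : Continuous ρ) (hsurj : Function.Surjective ρ)
    (L : IntermediateField ℚ Qbar) [NumberField L]
    (hL : L.fixingSubgroup = quatSubgroup.comap ρ) {g₀ : G48} (hg₀ : g₀ ∈ quatSubgroup)
    (T : Finset (FPlace L)) :
    ∃ (v : FPlace L) (y : G48), v ∉ T ∧ UnrAt ρ L v ∧ IsFrobClass ρ L v y ∧
      ∀ H : Subgroup G48, y ∈ H ↔ g₀ ∈ H := by
  classical
  have hfac := BianchiForm.factors_of_continuous ρ hρ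
  obtain ⟨S₁, hS₁⟩ := Gal.exists_finset_unramified ρ hfac
  obtain ⟨g, rfl⟩ := hsurj g₀
  obtain ⟨ℓ, hℓ, hℓS, A, hA, s, hs, a, b, ha, hb⟩ :=
    Gal.exists_frobenius_map_generates ρ hfac g (S₁ ∪ T.image fun v => Ideal.absNorm v.asIdeal)
  rw [Finset.mem_union, not_or] at hℓS
  have hsL : s ∈ L.fixingSubgroup := by
    rw [hL, Subgroup.mem_comap, hb]; exact pow_mem hg₀ b
  obtain ⟨v, hv, -, -⟩ := BianchiForm.exists_place (K := L) hℓ hA
  obtain ⟨q, f, hq, hqA, hf, hN⟩ := exists_prime_absNorm hv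
  obtain rfl := Gal.liesOverPrime_unique hℓ hq hA hqA
  have hle := absNorm_le_of_isFrobeniusAt hv hsL hℓ.one_lt hs
  rw [hN] at hle
  have hf1 : f = 1 :=
    le_antisymm ((Nat.pow_le_pow_iff_right hℓ.one_lt).mp (hle.trans_eq (pow_one ℓ).symm)) hf
  rw [hf1, pow_one] at hN
  refine ⟨v, ρ s, fun hvT => hℓS.2 (Finset.mem_image.2 ⟨v, hvT, hN⟩), fun B hB σ hσ _ => ?_,
    ⟨A, s, hv, hsL, hN.symm ▸ hs, rfl⟩,
    fun H => ⟨fun h => ha ▸ pow_mem h a, fun h => hb ▸ pow_mem h b⟩⟩
  obtain ⟨q', f', hq', hqB, hf', hN'⟩ := exists_prime_absNorm hB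
  obtain rfl : ℓ = q' := (Nat.prime_dvd_prime_iff_eq hℓ hq').mp
    (hℓ.dvd_of_dvd_pow (n := f') (by rw [← hN', hN]))
  exact hS₁ ℓ hℓ hℓS.1 B hqB σ hσ

section Tower

variable {L M E F : IntermediateField ℚ Qbar} [NumberField L] [NumberField M] [NumberField E]
  [NumberField F] [Algebra L M] [Algebra.IsQuadraticExtension L M] [Algebra M E]
  [Algebra.IsQuadraticExtension M E] [Algebra E F] [Algebra.IsQuadraticExtension E F]
  (sM : IsStep ρ quatSubgroup cycFour L M) (sE : IsStep ρ cycFour pmOne M E)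
  (sF : IsStep ρ pmOne ⊥ E F)

omit [Algebra.IsQuadraticExtension M E] in
include sE sF in
open Classical in
/-- The sign of `F/E` at a place, from the class of the place of `M` below. -/
theorem sign_of_class {P : FPlace M} (hP : UnrAt ρ M P) {x : G48} (hx : IsFrobClass ρ M P x)
    {Q : FPlace E} (hQ : below M Q = P) :
    artinV F Q = if x ∈ pmOne ∧ x = 1 then 0 else half := by
  have hQu := sE.unrAt hP hQ
  obtain ⟨y, hy⟩ := exists_isFrobClass ρ Q
  have hyx := sE.frob hP hx hQ hy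
  have hxm : x ∈ cycFour := hx.mem sE.fix₁
  have hs := sF.isSplit_iff hQu hy
  rw [Subgroup.mem_bot] at hs
  have hsign : artinV F Q = if y = 1 then 0 else half := by
    split_ifs with h
    · exact artinV_of_split (hs.2 h)
    · exact artinV_of_inert ((not_isSplit_iff_inert (sF.unram hQu)).1 fun hh => h (hs.1 hh))
  rw [hsign]
  by_cases h : x ∈ pmOne
  · obtain ⟨c, hc, rfl⟩ := hyx.1 h
    simp [conj_eq_of_pmOne h, h]
  · obtain ⟨c, hc, rfl⟩ := hyx.2 h
    rw [sq_eq_neg_one_of_notMem (cycFour_le_quat hxm) h]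
    simp [h, neg_one_ne_one_gl]

omit [Algebra.IsQuadraticExtension L M] in
include sM in
/-- The Frobenius class of a place of `M` over a place of `L`. -/
theorem class_above {v : FPlace L} (hv : UnrAt ρ L v) {x : G48} (hx : IsFrobClass ρ L v x)
    {P : FPlace M} (hP : below L P = v) {y : G48} (hy : IsFrobClass ρ M P y) :
    (y ∈ pmOne ↔ x ∈ pmOne ∨ x ∉ cycFour) ∧ (x ∈ pmOne → y = x) ∧ (x ∉ cycFour → y = -1) := by
  have hxm : x ∈ quatSubgroup := hx.mem sM.fix₁
  have h := sM.frob hv hx hP hy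
  by_cases hc : x ∈ cycFour
  · obtain ⟨c, hcq, rfl⟩ := h.1 hc
    refine ⟨⟨fun hy => Or.inl ?_, fun h' => ?_⟩, fun h' => conj_eq_of_pmOne h' c,
      fun h' => absurd hc h'⟩
    · have e := conj_eq_of_pmOne hy c⁻¹
      rw [inv_inv, mul_assoc, mul_assoc, inv_mul_cancel, mul_one, inv_mul_cancel_left] at e
      rwa [← e] at hy
    · rw [or_iff_left (not_not.2 hc)] at h'
      rwa [conj_eq_of_pmOne h' c]
  · obtain ⟨c, hcq, rfl⟩ := h.2 hc
    have hp : x ∉ pmOne := fun h' => hc (pmOne_le_cycFour h')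
    have hm : c * x ^ 2 * c⁻¹ = -1 := by
      rw [sq_eq_neg_one_of_notMem hxm hp, conj_eq_of_pmOne (mem_pmOne.2 (Or.inr rfl))]
    exact ⟨iff_of_true (hm ▸ mem_pmOne.2 (Or.inr rfl)) (Or.inr hc),
      fun h' => absurd h' hp, fun _ => hm⟩

include sM sE sF in
/-- The tower is a quaternion tower outside the exceptional set. -/
theorem quatTower {S : Finset (FPlace L)} (hS : ∀ w, w ∈ S ↔ ¬ UnrAt ρ L w) :
    QuatTower L M E F S := by
  have hv : ∀ v ∉ S, UnrAt ρ L v := fun v h => by_contra fun h' => h ((hS v).2 h')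
  have hP : ∀ P : FPlace M, below L P ∉ S → UnrAt ρ M P := fun P h => sM.unrAt (hv _ h) rfl
  have hQ : ∀ Q : FPlace E, below L (below M Q) ∉ S → UnrAt ρ E Q :=
    fun Q h => sE.unrAt (hP _ h) rfl
  have hconjE : ∀ P : FPlace M, below L P ∉ S →
      (IsSplit E (tauP L P) ↔ IsSplit E P) := by
    intro P h
    obtain ⟨x, hx⟩ := exists_isFrobClass ρ (below L P)
    obtain ⟨y, hy⟩ := exists_isFrobClass ρ P
    obtain ⟨y', hy'⟩ := exists_isFrobClass ρ (tauP L P)
    rw [sE.isSplit_iff (hP P h) hy, sE.isSplit_iff (hP _ (by rwa [below_tauP])) hy',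
      (class_above sM (hv _ h) hx rfl hy).1,
      (class_above sM (hv _ h) hx (below_tauP P) hy').1]
  refine ⟨fun v h => sM.unram (hv v h), fun P h => sE.unram (hP P h),
    fun Q h => sF.unram (hQ Q h), fun Q h => ?_, fun Q h hi => ?_, fun Q h hi => ?_, hconjE,
    fun Q Q' h hs hQ' => ?_⟩
  · obtain ⟨x, hx⟩ := exists_isFrobClass ρ (below M Q)
    rw [sign_of_class sE sF (hP _ h) hx (below_tauP Q),
      sign_of_class sE sF (hP _ h) hx rfl]
  · obtain ⟨x, hx⟩ := exists_isFrobClass ρ (below M Q)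
    rw [sign_of_class sE sF (hP _ h) hx rfl,
      if_neg fun hh => hi.1 ((sE.isSplit_iff (hP _ h) hx).2 hh.1)]
  · obtain ⟨x, hx⟩ := exists_isFrobClass ρ (below L (below M Q))
    obtain ⟨y, hy⟩ := exists_isFrobClass ρ (below M Q)
    have hxc : x ∉ cycFour := fun hh => hi.1 ((sM.isSplit_iff (hv _ h) hx).2 hh)
    obtain ⟨h1, -, h3⟩ := class_above sM (hv _ h) hx rfl hy
    refine ⟨(sE.isSplit_iff (hP _ h) hy).2 (h1.2 (Or.inr hxc)), ?_⟩
    rw [sign_of_class sE sF (hP _ h) hy rfl, h3 hxc,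
      if_neg fun hh => neg_one_ne_one_gl hh.2]
  · obtain ⟨x, hx⟩ := exists_isFrobClass ρ (below L (below M Q))
    obtain ⟨y, hy⟩ := exists_isFrobClass ρ (below M Q)
    obtain ⟨y', hy'⟩ := exists_isFrobClass ρ (below M Q')
    have hb : below L (below M Q') = below L (below M Q) := by rw [hQ', below_tauP]
    obtain ⟨h1, h2, h3⟩ := class_above sM (hv _ h) hx rfl hy
    obtain ⟨h1', h2', h3'⟩ := class_above sM (hv _ h) hx hb hy'
    have hxc : x ∈ pmOne ∨ x ∉ cycFour := h1.1 ((sE.isSplit_iff (hP _ h) hy).1 hs)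
    rw [sign_of_class sE sF (hP _ h) hy rfl,
      sign_of_class sE sF (hP _ (hb ▸ h)) hy' rfl]
    rcases hxc with hx1 | hx1
    · rw [h2 hx1, h2' hx1]
    · rw [h3 hx1, h3' hx1]

end Tower

/-- The Hecke character of `ρ|L` exists. -/
theorem heckeExistence : HeckeExistence := by
  classical
  intro ρ hρ hsurj _ L _ hLfix
  have hL : L.fixingSubgroup = quatSubgroup.comap ρ := by
    ext σ; rw [hLfix, Subgroup.mem_comap, mem_quat_iff_pow_four]
  have hrL : Module.finrank ℚ L = 6 := by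
    rw [IntermediateField.finrank_eq_fixingSubgroup_index, hL,
      Subgroup.index_comap_of_surjective _ hsurj, index_quatSubgroup]
  have : IsTotallyComplex L := isTotallyComplex_cubicField ‹_› hLfix
  obtain ⟨M, _, hM, hrM⟩ := exists_field hρ hsurj cycFour
  obtain ⟨E, _, hE, hrE⟩ := exists_field hρ hsurj pmOne
  obtain ⟨F, _, hF, hrF⟩ := exists_field hρ hsurj ⊥
  obtain ⟨M', _, hM', hrM'⟩ := exists_field hρ hsurj cycJ
  rw [index_cycFour] at hrM
  rw [index_pmOne] at hrE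
  rw [index_bot_gl_three] at hrF
  rw [index_cycJ] at hrM'
  let _ : Algebra L M :=
    (IntermediateField.inclusion (le_of_fix hL hM cycFour_le_quat)).toRingHom.toAlgebra
  let _ : Algebra M E :=
    (IntermediateField.inclusion (le_of_fix hM hE pmOne_le_cycFour)).toRingHom.toAlgebra
  let _ : Algebra E F :=
    (IntermediateField.inclusion (le_of_fix hE hF bot_le)).toRingHom.toAlgebra
  let _ : Algebra L M' :=
    (IntermediateField.inclusion (le_of_fix hL hM' cycJ_le_quat)).toRingHom.toAlgebra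
  have : Algebra.IsQuadraticExtension L M := isQuadratic_of_finrank L M hrL hrM rfl
  have : Algebra.IsQuadraticExtension M E := isQuadratic_of_finrank M E hrM hrE rfl
  have : Algebra.IsQuadraticExtension E F := isQuadratic_of_finrank E F hrE hrF rfl
  have : Algebra.IsQuadraticExtension L M' := isQuadratic_of_finrank L M' hrL hrM' rfl
  have hJ : quatJ ∈ quatSubgroup := cycJ_le_quat (Subgroup.mem_zpowers _)
  have hI : quatI ∈ quatSubgroup := cycFour_le_quat (Subgroup.mem_zpowers _)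
  have hJC : quatJ ∉ cycFour := by rw [mem_cycFour]; decide
  have hIJC : quatI * quatJ ∉ cycFour := by rw [mem_cycFour]; decide
  have hIJJ : quatI * quatJ ∉ cycJ := by rw [mem_cycJ]; decide
  have hIp : quatI ∉ pmOne := by rw [mem_pmOne]; decide
  have sM : IsStep ρ quatSubgroup cycFour L M :=
    ⟨fun _ => rfl, hsurj, hL, hM, cycFour_le_quat, ⟨_, hJ, hJC⟩,
      fun a ha b hb => mul_mem_cycFour ha hb⟩
  have sE : IsStep ρ cycFour pmOne M E :=
    ⟨fun _ => rfl, hsurj, hM, hE, pmOne_le_cycFour, ⟨_, Subgroup.mem_zpowers _, hIp⟩,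
      fun a ha b hb => mul_mem_pmOne ha hb⟩
  have sF : IsStep ρ pmOne ⊥ E F :=
    ⟨fun _ => rfl, hsurj, hE, hF, bot_le,
      ⟨-1, mem_pmOne.2 (Or.inr rfl), fun h => neg_one_ne_one_gl (Subgroup.mem_bot.1 h)⟩,
      fun a ha b hb ha' hb' => by
        rw [mem_pmOne] at ha hb
        rw [Subgroup.mem_bot] at *
        rw [ha.resolve_left ha', hb.resolve_left hb', neg_mul_neg, one_mul]⟩
  have sM' : IsStep ρ quatSubgroup cycJ L M' :=
    ⟨fun _ => rfl, hsurj, hL, hM', cycJ_le_quat, ⟨_, mul_mem hI hJ, hIJJ⟩,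
      fun a ha b hb => mul_mem_cycJ ha hb⟩
  obtain ⟨S, hS⟩ := exists_exceptional hρ L
  have hv : ∀ v ∉ S, UnrAt ρ L v := fun v h => by_contra fun h' => h ((hS v).2 h')
  have hT := quatTower sM sE sF hS
  have hdict : ∀ P : FPlace M, below L P ∉ S → IsSplit M (below L P) →
      (IsSplit M' (below L P) ↔ IsSplit E P) := by
    intro P hP hs
    obtain ⟨x, hx⟩ := exists_isFrobClass ρ (below L P)
    obtain ⟨y, hy⟩ := exists_isFrobClass ρ P
    have hxc := (sM.isSplit_iff (hv _ hP) hx).1 hs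
    rw [sM'.isSplit_iff (hv _ hP) hx, sE.isSplit_iff (sM.unrAt (hv _ hP) rfl) hy,
      (class_above sM (hv _ hP) hx rfl hy).1, mem_cycJ_iff_of_cycFour hxc,
      or_iff_left (not_not.2 hxc)]
  have hmixed : ∃ a b : FPlace L, a ∉ S ∧ b ∉ S ∧ a ∈ inert M ∧ b ∈ inert M ∧
      IsSplit M' a ∧ ¬ IsSplit M' b := by
    obtain ⟨a, x, haS, ha, hx, hxH⟩ := exists_place_class hρ hsurj L hL hJ S
    obtain ⟨b, y, hbS, hb, hy, hyH⟩ := exists_place_class hρ hsurj L hL (mul_mem hI hJ) S
    refine ⟨a, b, haS, hbS, (not_isSplit_iff_inert (sM.unram ha)).1 ?_,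
      (not_isSplit_iff_inert (sM.unram hb)).1 ?_, ?_, ?_⟩
    · rw [sM.isSplit_iff ha hx, hxH]; exact hJC
    · rw [sM.isSplit_iff hb hy, hyH]; exact hIJC
    · rw [sM'.isSplit_iff ha hx, hxH]; exact Subgroup.mem_zpowers _
    · rw [sM'.isSplit_iff hb hy, hyH]; exact hIJJ
  have hinf : ∀ T : Finset (FPlace L), ∃ P : FPlace M, below L P ∉ T ∧ below L P ∉ S ∧
      IsSplit M (below L P) ∧ ¬ IsSplit E P := by
    intro T
    obtain ⟨v, x, hvT, hvu, hx, hxH⟩ := exists_place_class hρ hsurj L hL hI (T ∪ S)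
    rw [Finset.mem_union, not_or] at hvT
    obtain ⟨P, rfl⟩ := Fermat.Agent.CFT.exists_below_eq (L := M) v
    obtain ⟨y, hy⟩ := exists_isFrobClass ρ P
    refine ⟨P, hvT.1, hvT.2, (sM.isSplit_iff hvu hx).2 ((hxH _).2 (Subgroup.mem_zpowers _)), ?_⟩
    rw [sE.isSplit_iff (sM.unrAt hvu rfl) hy, (class_above sM hvu hx rfl hy).1, hxH, hxH]
    exact fun h => h.elim hIp fun h => h (Subgroup.mem_zpowers _)
  obtain ⟨H, hHS, hψ, hneg⟩ :=
    exists_heckeChar hT (fun v h => sM'.unram (hv v h)) hdict hmixed hinf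
  refine ⟨M, inferInstance, inferInstance, inferInstance, inferInstance, H, fun w hw => ?_, ?_⟩
  · rw [hHS, hS]
    exact not_not.2 hw
  intro w hw A hA σ hσ hσF
  rw [hHS] at hw
  have hx : IsFrobClass ρ L w (ρ σ) := ⟨A, σ, hA, hσ, hσF, rfl⟩
  have hxq : ρ σ ∈ quatSubgroup := hx.mem hL
  have htr0 : ρ σ ∉ pmOne → quatTrace (ρ σ) = 0 := fun h => by
    rw [quatTrace, if_neg fun e => h (mem_pmOne.2 (Or.inl e)),
      if_neg fun e => h
        (mem_pmOne.2 (Or.inr (Units.ext (by rw [e, Units.val_neg, Units.val_one]))))]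
  have hsiff := sM.isSplit_iff (hv w hw) hx
  by_cases hc : ρ σ ∈ cycFour
  swap
  · rw [HeckeChar.eigen, if_neg fun hh => hc (hsiff.1 (splitAt_iff_isSplit.1 hh)),
      htr0 fun h => hc (pmOne_le_cycFour h), Int.cast_zero]
  rw [HeckeChar.eigen, if_pos (splitAt_iff_isSplit.2 (hsiff.2 hc))]
  set P := (Fermat.Agent.CFT.exists_below_eq (L := M) w).choose
  have hP : below L P = w := (Fermat.Agent.CFT.exists_below_eq (L := M) w).choose_spec
  have hPS : below L P ∉ S := by rwa [hP]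
  have hPM : IsSplit M (below L P) := by rw [hP]; exact hsiff.2 hc
  obtain ⟨y, hy⟩ := exists_isFrobClass ρ P
  obtain ⟨h1, h2, -⟩ := class_above sM (hv w hw) hx hP hy
  have hPE := sE.isSplit_iff (sM.unrAt (hv w hw) hP) hy
  rw [h1, or_iff_left (not_not.2 hc)] at hPE
  by_cases hp : ρ σ ∈ pmOne
  swap
  · rw [htr0 hp, hneg P hPS hPM fun h => hp (hPE.1 h), add_neg_cancel, Int.cast_zero]
  have hsign : ∀ R : FPlace M, below L R = w →
      H.ψ R = if ρ σ = 1 then 1 else -1 := by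
    intro R hR
    obtain ⟨z, hz⟩ := exists_isFrobClass ρ R
    obtain ⟨h1, h2, -⟩ := class_above sM (hv w hw) hx hR hz
    have hzs := (sE.isSplit_iff (sM.unrAt (hv w hw) hR) hz).2 (h1.2 (Or.inl hp))
    obtain ⟨Q, hQ⟩ := Fermat.Agent.CFT.exists_below_eq (L := E) R
    have hQS : below L (below M Q) ∉ S := by rwa [hQ, hR]
    have e := hψ Q hQS (by rwa [hQ])
    rw [hQ] at e
    rw [e, sign_of_class sE sF (sM.unrAt (hv w hw) hR) hz hQ, h2 hp]
    by_cases h : ρ σ = 1
    · rw [if_pos ⟨hp, h⟩, if_pos h, ratExp_zero]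
    · rw [if_neg fun hh => h hh.2, if_neg h, ratExp_half]
  rw [hsign P hP, hsign _ ((below_tauP P).trans hP)]
  rcases mem_pmOne.1 hp with e | e
  · simp [quatTrace, e, one_add_one_eq_two]
  · have hm : ((ρ σ : G48) : Matrix (Fin 2) (Fin 2) (ZMod 3)) = -1 := by
      rw [e, Units.val_neg, Units.val_one]
    have hne : ρ σ ≠ 1 := e ▸ neg_one_ne_one_gl
    rw [quatTrace, if_neg hne, if_pos hm, if_neg hne]
    norm_num

end Fermat.Agent.ResidualThree.ThetaInduction
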