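import Fermat.Agent.ResidualThree.Automorphic.Sphere
import Fermat.Agent.ResidualThree.ThetaInduction.DictIface
import Fermat.Agent.ResidualThree.ThetaInduction.Lift

/-!
# The series of a datum: translations and shifts of the datum at one place

Multiplying an ideal datum `t` at one place (`Idl.mulAt`) corresponds to a diagonal matrix at
that place, an upper translation multiplies each Whittaker term by a trace character
(`HeckeChar.thetaF_upper`), and shifting divisors identifies part of the coefficient pairs of
one datum with those of another, multiplying the series by a value of the character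
(`HeckeChar.tsum_shift`). These are the ingredients of the Hecke recursion.
-/

noncomputable section

open IsDedekindDomain NumberField Module
open scoped WithZero

namespace Fermat.Agent.ResidualThree.ThetaInduction

open Fermat.Agent.CFT (OrdGE ord below ram)

variable {L M : Type} [Field L] [NumberField L] [IsTotallyComplex L] [Field M] [NumberField M]
  [Algebra L M] [Algebra.IsQuadraticExtension L M]

/-- An upper translation multiplies a Whittaker function by a trace character. -/
theorem whit_upper (ξ b : L) (p : Hyp L) :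
    whit ξ (upGL 1 1 b • p) = traceExp (ξ * b) * whit ξ p := by
  rw [traceExp_eq_eR, trace_rat_eq_sum, eR_sum, whit, whit, ← Finset.prod_mul_distrib]
  refine Finset.prod_congr rfl fun w _ => ?_
  have hg : toComplex w (upGL 1 1 b) • p w = ⟨(p w).z + w.embedding b, (p w).y, (p w).y_pos⟩ := by
    have h10 : (toComplex w (upGL 1 1 b) : Matrix (Fin 2) (Fin 2) ℂ) 1 0 = 0 := by simp [toComplex]
    ext
    · rw [H3.smul_z_of_upper h10]; simp [toComplex]
    · rw [H3.smul_y_of_upper h10]; simp [toComplex]
  show whittaker (w.embedding ξ) (toComplex w (upGL 1 1 b) • p w) = _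
  rw [hg, whittaker, whittaker, addCharC_add, map_mul]
  simp only [addCharC, eR]
  ring

open Classical in
/-- A datum multiplied by a unit at one place. -/
def Idl.mulAt (t : Idl L) (v : FPlace L) (a : (v.adicCompletion L)ˣ) : Idl L where
  val := Function.update (β := fun w : FPlace L => w.adicCompletion L) t.val v
    (t.val v * (a : v.adicCompletion L))
  ne_zero w := by
    by_cases h : w = v
    · subst h; rw [Function.update_self]; exact mul_ne_zero (t.ne_zero w) a.ne_zero
    · rw [Function.update_of_ne h]; exact t.ne_zero w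
  eventually := (t.eventually.and (Set.finite_singleton v).compl_mem_cofinite).mono fun w hw => by
    rw [Function.update_of_ne (by simpa using hw.2)]; exact hw.1

omit [IsTotallyComplex L] in
theorem Idl.mulAt_same (t : Idl L) (v : FPlace L) (a : (v.adicCompletion L)ˣ) :
    (t.mulAt v a).val v = t.val v * a := by
  simp [Idl.mulAt]

omit [IsTotallyComplex L] in
theorem Idl.mulAt_ne (t : Idl L) {v w : FPlace L} (h : w ≠ v) (a : (v.adicCompletion L)ˣ) :
    (t.mulAt v a).val w = t.val w := by
  unfold Idl.mulAt
  classical exact Function.update_of_ne h _ _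

omit [IsTotallyComplex L] in
theorem Idl.ordD_mulAt (t : Idl L) (v : FPlace L) {a : (v.adicCompletion L)ˣ} {k : ℤ}
    (ha : valv v (a : v.adicCompletion L) = WithZero.exp (-k)) :
    (t.mulAt v a).ordD = t.ordD + Finsupp.single v k := by
  classical
  ext w
  rw [Finsupp.add_apply]
  by_cases h : w = v
  · subst h
    rw [Finsupp.single_eq_same, Idl.ordD_apply, t.mulAt_same, map_mul, t.valv_eq, ha,
      ← WithZero.exp_add, WithZero.log_exp]
    ring
  · rw [Finsupp.single_eq_of_ne h, Idl.ordD_apply, Idl.ordD_apply, t.mulAt_ne h, add_zero]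

omit [IsTotallyComplex L] in
theorem tDiag_mulAt (t : Idl L) (v : FPlace L) (a : (v.adicCompletion L)ˣ) :
    tDiag (t.mulAt v a) = tDiag t * single v (upGL a 1 0) := by
  classical
  refine Subtype.ext (funext fun w => ?_)
  show upGL _ 1 0 = upGL _ 1 0 * ((single v (upGL a 1 0) : Gf L) : ∀ w, GLv w) w
  by_cases h : w = v
  · subst h
    rw [single_apply_same, upGL_mul]
    congr 1
    · exact Units.ext (by simp [t.mulAt_same])
    · simp
    · simp
  · rw [single_apply_ne h, mul_one]
    congr 1
    exact Units.ext (by simp [t.mulAt_ne h])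

namespace HeckeChar

variable (H : HeckeChar L M)

/-- The series of a theta function after an upper translation. -/
theorem thetaF_upper (t : Idl L) (b : L) (p : Hyp L) :
    H.thetaF t (upGL 1 1 b • p) =
      (wt t : ℂ) * ((wCard L M : ℂ) *
        ∑' q : H.CPair t, traceExp ((q.1.1.1 : L) * b) * H.cTerm t p q) := by
  rw [H.thetaF_series, cSeries]
  refine congrArg _ (congrArg _ (tsum_congr fun q => ?_))
  rw [cTerm, cTerm, whit_upper]
  ring

omit [IsTotallyComplex L] in
/-- Shifting the divisor of a coefficient pair. -/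
theorem pairRel_shift {t₁ t₂ : Idl L} {d : FPlace M →₀ ℤ}
    (hd : ∀ Q, d Q + d (tauP L Q) = (ram L Q : ℤ) * (t₁.ordD (below L Q) - t₂.ordD (below L Q)))
    {β : Lˣ} {o : FPlace M →₀ ℤ} (h : PairRel t₁ β o) : PairRel t₂ β (o + d) := fun Q => by
  have h1 := h Q
  have h2 := hd Q
  simp only [Finsupp.add_apply]
  linarith

omit [IsTotallyComplex L] in
/-- The coefficient pairs staying nonpositive under a shift. -/
def shiftEquiv (t₁ t₂ : Idl L) (d : FPlace M →₀ ℤ)
    (hd : ∀ Q, d Q + d (tauP L Q) = (ram L Q : ℤ) * (t₁.ordD (below L Q) - t₂.ordD (below L Q)))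
    (hd0 : 0 ≤ d) (hcong : ∀ ξ, H.Cong t₁ ξ ↔ H.Cong t₂ ξ) :
    {q : H.CPair t₁ // q.1.1.2 + d ≤ 0} ≃ H.CPair t₂ where
  toFun q := ⟨⟨(q.1.1.1.1, q.1.1.1.2 + d), pairRel_shift hd q.1.1.2⟩, q.2, (hcong _).mp q.1.2.2⟩
  invFun q := ⟨⟨⟨(q.1.1.1, q.1.1.2 - d), by
      have h := pairRel_shift (t₁ := t₂) (t₂ := t₁) (d := -d) (fun Q => by
        have := hd Q
        simp only [Finsupp.neg_apply]
        linarith) q.1.2
      rwa [← sub_eq_add_neg] at h⟩,
    (sub_le_self _ hd0).trans q.2.1, (hcong _).mpr q.2.2⟩, by
      show q.1.1.2 - d + d ≤ 0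
      rw [sub_add_cancel]; exact q.2.1⟩
  left_inv q := Subtype.ext (Subtype.ext (Subtype.ext (Prod.ext rfl (add_sub_cancel_right _ _))))
  right_inv q := Subtype.ext (Subtype.ext (Prod.ext rfl (sub_add_cancel _ _)))

omit [IsTotallyComplex L] in
open Classical in
/-- The terms staying nonpositive under a shift form the series of the shifted datum. -/
theorem tsum_shift (t₁ t₂ : Idl L) (d : FPlace M →₀ ℤ)
    (hd : ∀ Q, d Q + d (tauP L Q) = (ram L Q : ℤ) * (t₁.ordD (below L Q) - t₂.ordD (below L Q)))
    (hd0 : 0 ≤ d) (hcong : ∀ ξ, H.Cong t₁ ξ ↔ H.Cong t₂ ξ) (p : Hyp L) :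
    (∑' q : H.CPair t₁, if q.1.1.2 + d ≤ 0 then H.cTerm t₁ p q else 0) =
      H.psiDiv d * H.cSeries t₂ p := by
  rw [cSeries, ← tsum_mul_left, ← (H.shiftEquiv t₁ t₂ d hd hd0 hcong).tsum_eq]
  rw [← tsum_subtype_eq_of_support_subset (s := {q : H.CPair t₁ | q.1.1.2 + d ≤ 0})
    (f := fun q : H.CPair t₁ => if q.1.1.2 + d ≤ 0 then H.cTerm t₁ p q else 0) fun q hq => by
      by_contra h
      exact hq (if_neg h)]
  refine tsum_congr fun q => ?_
  have h : (q : H.CPair t₁).1.1.2 + d ≤ 0 := q.2
  rw [if_pos h]
  show H.psiDiv (-(q : H.CPair t₁).1.1.2) * _ =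
    H.psiDiv d * (H.psiDiv (-((q : H.CPair t₁).1.1.2 + d)) * _)
  rw [← mul_assoc, ← H.psiDiv_add]
  congr 2
  abel

/-- A part of the series of a datum is summable. -/
theorem summable_ite_cTerm (t : Idl L) (p : Hyp L) (c : H.CPair t → Prop) [DecidablePred c] :
    Summable fun q => if c q then H.cTerm t p q else 0 := by
  refine Summable.of_norm_bounded (g := fun q => ‖H.cTerm t p q‖)
    (H.summable_cTerm t p).norm fun q => ?_
  split_ifs <;> simp

end HeckeChar

end Fermat.Agent.ResidualThree.ThetaInduction
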