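import Fermat.Agent.ResidualThree.Spherical.Vol
import Fermat.Agent.ResidualThree.Spherical.Whittaker
import Fermat.Agent.ResidualThree.ThetaInduction.Lift

/-!
# The adelic theta function has spectral parameter zero

Each Whittaker term of the theta series is an eigenfunction of every point-pair invariant at each
complex place with the eigenvalue of spectral parameter zero; the series converges uniformly on
the support of the kernel, so the theta function is such an eigenfunction too
(`HeckeChar.isSpectralZero_thetaPhi`).
-/

noncomputable section

open NumberField Module MeasureTheory IsDedekindDomain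

namespace Fermat.Agent.ResidualThree.ThetaInduction

variable {L M : Type} [Field L] [NumberField L] [Field M] [NumberField M]
  [Algebra L M] [Algebra.IsQuadraticExtension L M]

open Classical in
/-- A Whittaker function with the point at one place changed. -/
theorem whit_update (ξ : L) (p : Hyp L) (w : InfinitePlace L) (q : H3) :
    whit ξ (Function.update p w q) = whittaker (w.embedding ξ) q *
      ∏ w' ∈ Finset.univ.erase w, whittaker (w'.embedding ξ) (p w') := by
  rw [whit, ← Finset.mul_prod_erase _ _ (Finset.mem_univ w), Function.update_self]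
  refine congrArg _ (Finset.prod_congr rfl fun w' hw' => ?_)
  rw [Function.update_of_ne (Finset.ne_of_mem_erase hw')]

namespace HeckeChar

variable (H : HeckeChar L M) [IsTotallyComplex L]

omit [IsTotallyComplex L] in
theorem countable_cPair (t : Idl L) : Countable (H.CPair t) := by
  have : Countable M := (Module.finBasis ℚ M).equivFun.injective.countable
  have : Countable L := (Module.finBasis ℚ L).equivFun.injective.countable
  have : Countable (𝓞 M) := (FaithfulSMul.algebraMap_injective (𝓞 M) M).countable
  have : Countable (Ideal (𝓞 M)) := Function.Surjective.countable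
    (f := fun s : Finset (𝓞 M) => Ideal.span (s : Set (𝓞 M)))
    fun I => IsNoetherian.noetherian I
  have : Countable (FPlace M) :=
    Function.Injective.countable (f := fun P : FPlace M => P.asIdeal)
      fun a b h => HeightOneSpectrum.ext h
  have : Countable Lˣ := Units.val_injective.countable
  exact (Subtype.val_injective.comp Subtype.val_injective :
    Function.Injective fun q : H.CPair t => q.1.1).countable

open Classical in
/-- The theta functions are eigenfunctions of the point-pair invariants at each place. -/
theorem integral_kernel_thetaF (t : Idl L) (w : InfinitePlace L) {k : ℝ → ℂ}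
    (hk : H3.IsKernel k) (p : Hyp L) :
    ∫ q, k (H3.coshDist (p w) q) * H.thetaF t (Function.update p w q) ∂H3.vol =
      sphZero k * H.thetaF t p := by
  classical
  have := H.countable_cPair t
  obtain ⟨R, hR1, hR⟩ := hk.exists_radius
  obtain ⟨q₀, -, hmin⟩ := (H3.isCompact_ball (p w) R).exists_isMinOn
    ⟨p w, show H3.coshDist (p w) (p w) ≤ R by rw [H3.coshDist_self]; exact hR1⟩
    H3.continuous_y.continuousOn
  obtain ⟨c₁, hc₁, hp⟩ := exists_yMin p
  set c := min c₁ q₀.y
  obtain ⟨C, hC⟩ := H.exists_norm_bound t (lt_min hc₁ q₀.y_pos : 0 < c)
  set K : H.CPair t → ℂ := fun z =>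
    ∏ w' ∈ Finset.univ.erase w, whittaker (w'.embedding (z.1.1.1 : L)) (p w')
  have hterm : ∀ (z : H.CPair t) q, H.cTerm t (Function.update p w q) z =
      H.psiDiv (-z.1.1.2) * K z * whittaker (w.embedding (z.1.1.1 : L)) q := fun z q => by
    rw [cTerm, whit_update]; ring
  have hν : ∀ z : H.CPair t, w.embedding (z.1.1.1 : L) ≠ 0 := fun z =>
    (map_ne_zero _).mpr z.1.1.1.ne_zero
  set g : H.CPair t → H3 → ℂ := fun z q =>
    k (H3.coshDist (p w) q) * H.cTerm t (Function.update p w q) z
  have hi : ∀ z, Integrable (g z) H3.vol := fun z => by
    simp only [g, hterm]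
    exact hk.integrable_mul _ (continuous_const.mul (H3.continuous_whittaker _ (hν z)))
  have hbound : ∀ (F : Finset (H.CPair t)) q,
      ∑ z ∈ F, ‖g z q‖ ≤ C * ‖k (H3.coshDist (p w) q)‖ := fun F q => by
    simp only [g, norm_mul, ← Finset.mul_sum]
    rcases le_or_gt (H3.coshDist (p w) q) R with hq | hq
    · rw [mul_comm C]
      refine mul_le_mul_of_nonneg_left ?_ (norm_nonneg _)
      have hy : ∀ w', c ≤ (Function.update p w q w').y := fun w' => by
        by_cases h : w' = w
        · subst h
          rw [Function.update_self]
          exact (min_le_right _ _).trans (hmin hq)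
        · rw [Function.update_of_ne h]
          exact (min_le_left _ _).trans (hp w').le
      obtain ⟨hs, hle⟩ := hC _ hy
      exact (hs.sum_le_tsum F fun z _ => norm_nonneg _).trans hle
    · simp [hR _ hq]
  have hsum : Summable fun z => ∫ q, ‖g z q‖ ∂H3.vol := by
    refine summable_of_sum_le (c := ∫ q, C * ‖k (H3.coshDist (p w) q)‖ ∂H3.vol)
      (fun z => integral_nonneg fun _ => norm_nonneg _) fun F => ?_
    rw [← integral_finsetSum _ fun z _ => (hi z).norm]
    exact integral_mono (integrable_finsetSum _ fun z _ => (hi z).norm)
      ((hk.integrable _).norm.const_mul C) (hbound F)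
  have h0 : ∀ q, k (H3.coshDist (p w) q) * H.thetaF t (Function.update p w q) =
      (wt t : ℂ) * (wCard L M : ℂ) * ∑' z, g z q := fun q => by
    rw [H.thetaF_series, cSeries]
    simp only [g, tsum_mul_left]
    ring
  simp only [h0]
  rw [integral_const_mul, ← integral_tsum_of_summable_integral_norm hi hsum]
  have e : ∀ z, ∫ q, g z q ∂H3.vol = sphZero k * H.cTerm t p z := fun z => by
    simp only [g, hterm]
    simp only [mul_left_comm (k _)]
    rw [integral_const_mul, H3.integral_whittaker hk _ (hν z),
      ← Function.update_eq_self w p, hterm z (p w)]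
    simp only [Function.update_self]
    ring
  rw [tsum_congr e, tsum_mul_left, H.thetaF_series, cSeries]
  ring

/-- **The spectral parameter is zero.** -/
theorem isSpectralZero_thetaPhi : IsSpectralZero H.thetaPhi := by
  classical
  intro x w k hk hk' p
  obtain ⟨γ, t, h⟩ := H.exists_decomp x
  set g := toComplex w γ⁻¹
  set P : Hyp L := γ⁻¹ • p
  have hup : ∀ q, γ⁻¹ • Function.update p w q = Function.update P w (g • q) := fun q => by
    funext w'
    show toComplex w' γ⁻¹ • Function.update p w q w' = _
    by_cases hw : w' = w
    · subst hw; simp [g]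
    · rw [Function.update_of_ne hw, Function.update_of_ne hw]; rfl
  have he : ∀ q, k (H3.coshDist (p w) q) * H.thetaPhi x (Function.update p w q) =
      (fun q => k (H3.coshDist (P w) q) * H.thetaF t (Function.update P w q)) (g • q) := fun q => by
    show _ = k (H3.coshDist (g • p w) (g • q)) * _
    rw [H.thetaPhi_eq h, hup, H3.coshDist_smul]
  calc _ = ∫ q, (fun q => k (H3.coshDist (P w) q) * H.thetaF t (Function.update P w q)) (g • q)
        ∂H3.vol := integral_congr_ae (Filter.Eventually.of_forall fun q => by convert he q)
    _ = ∫ q, k (H3.coshDist (P w) q) * H.thetaF t (Function.update P w q) ∂H3.vol :=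
        H3.integral_smul_gl g fun q => k (H3.coshDist (P w) q) * H.thetaF t (Function.update P w q)
    _ = sphZero k * H.thetaF t P := H.integral_kernel_thetaF t w ⟨hk, hk'⟩ P
    _ = _ := by rw [H.thetaPhi_eq h]

end HeckeChar

end Fermat.Agent.ResidualThree.ThetaInduction
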