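import Fermat.Agent.ResidualThree.Automorphic.Vanish
import Fermat.Agent.ResidualThree.ThetaInduction.Cusp
import Fermat.Agent.ResidualThree.ThetaInduction.Series
import Fermat.Agent.ResidualThree.ThetaInduction.Spectral

/-!
# The adelic theta function does not vanish

At the datum inverse to the different the coefficient pair `(1, 0)` occurs exactly once and all
coefficients are integral, so the Fourier coefficient at `1` of the theta function is the single
term of that pair, a nonzero multiple of a Bessel function (`HeckeChar.exists_thetaPhi_ne_zero`).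
-/

noncomputable section

open NumberField Module MeasureTheory IsDedekindDomain

namespace Fermat.Agent.ResidualThree.ThetaInduction

open Fermat.Agent.CFT (OrdGE ord below ram)

variable {L M : Type} [Field L] [NumberField L] [Field M] [NumberField M]
  [Algebra L M] [Algebra.IsQuadraticExtension L M]

theorem valv_condElt (v : FPlace L) :
    valv v (algebraMap L (v.adicCompletion L) (HeckeChar.condElt v : L)) =
      WithZero.exp (cond v) := by
  rw [valv_algebraMap, Fermat.Agent.CFT.valuation_eq_exp, HeckeChar.ord_condElt, neg_neg]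

/-- The datum with the reference components. -/
def condIdl (L : Type) [Field L] [NumberField L] : Idl L where
  val v := algebraMap L (v.adicCompletion L) (HeckeChar.condElt v : L)
  ne_zero v := (map_ne_zero _).mpr (HeckeChar.condElt v).ne_zero
  eventually := (eventually_cond_eq_zero (F := L)).mono fun v hv => by
    show valv v (algebraMap L (v.adicCompletion L) (HeckeChar.condElt v : L)) = 1
    rw [valv_condElt, hv, WithZero.exp_zero]

theorem ordD_condIdl (v : FPlace L) : (condIdl L).ordD v = -cond v := by
  rw [Idl.ordD_apply]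
  show -WithZero.log (valv v (algebraMap L (v.adicCompletion L) (HeckeChar.condElt v : L))) = _
  rw [valv_condElt, WithZero.log_exp]

namespace HeckeChar

variable (H : HeckeChar L M)

/-- The coefficient pair `(1, 0)`. -/
def unitPair : H.CPair (condIdl L) :=
  ⟨⟨(1, 0), fun P => by
      simp only [Fermat.Agent.CFT.ord_one, mul_zero, Finsupp.coe_zero, Pi.zero_apply, add_zero,
        ordD_condIdl, neg_add_cancel, neg_zero]⟩,
    le_rfl, fun v _ => by
      show valv v (algebraMap L (v.adicCompletion L) ((1 : Lˣ) : L) * (condIdl L).val v /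
        algebraMap L (v.adicCompletion L) (condElt v : L) - 1) ≤ _
      rw [Units.val_one, map_one, one_mul, show (condIdl L).val v =
        algebraMap L (v.adicCompletion L) (condElt v : L) from rfl,
        div_self ((map_ne_zero _).mpr (condElt v).ne_zero), sub_self, map_zero]
      exact zero_le⟩

/-- The coefficients at the datum inverse to the different are integral. -/
theorem ord_cPair_nonneg (q : H.CPair (condIdl L)) (v : FPlace L) : 0 ≤ ord v q.1.1.1 := by
  obtain ⟨P, rfl⟩ := Fermat.Agent.CFT.exists_below_eq (L := M) v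
  have h := q.1.2 P
  have h1 := q.2.1 P
  have h2 := q.2.1 (tauP L P)
  simp only [Finsupp.coe_zero, Pi.zero_apply] at h1 h2
  rw [ordD_condIdl, neg_add_cancel, mul_zero, neg_zero] at h
  rcases ram_le_two (L := L) P with hh | hh <;> rw [hh] at h <;> push_cast at h <;> omega

/-- The pair `(1, 0)` is the only coefficient pair with coefficient one. -/
theorem eq_unitPair (q : H.CPair (condIdl L)) (h : (q.1.1.1 : L) = 1) : q = H.unitPair := by
  refine Subtype.ext (Subtype.ext (Prod.ext (Units.ext h) (Finsupp.ext fun P => ?_)))
  have hr := q.1.2 P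
  have h1 := q.2.1 P
  have h2 := q.2.1 (tauP L P)
  simp only [Finsupp.coe_zero, Pi.zero_apply] at h1 h2
  rw [show q.1.1.1 = 1 from Units.ext h, Fermat.Agent.CFT.ord_one, ordD_condIdl,
    neg_add_cancel, mul_zero, neg_zero] at hr
  show q.1.1.2 P = (0 : FPlace M →₀ ℤ) P
  simp only [Finsupp.coe_zero, Pi.zero_apply]
  omega

variable [IsTotallyComplex L]

/-- **The theta function does not vanish.** -/
theorem exists_thetaPhi_ne_zero : ∃ x p, H.thetaPhi x p ≠ 0 := by
  classical
  set t := condIdl L
  refine ⟨tDiag t, ?_⟩
  by_contra hall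
  push Not at hall
  have hT : ∀ p, H.thetaF t p = 0 := fun p => by
    rw [← hall p, H.thetaPhi_eq (γ := 1) (t := t) (fun w => by
      rw [map_one, inv_one, mul_one, inv_mul_cancel]; exact one_mem _), inv_one, one_smul]
  set p : Hyp L := heightPt L 1 one_pos
  have := H.countable_cPair t
  have : IsFiniteMeasure (volume.restrict {s : BasisIx L → ℝ | ∀ i, s i ∈ Set.Ioc (0 : ℝ) 1}) :=
    isFiniteMeasure_restrict.mpr volume_unitCube_lt_top.ne
  have hS : ∀ b : InfinitePlace L → ℂ, H.cSeries t (horoShift b p) = 0 := fun b => by
    have h := hT (horoShift b p)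
    rw [H.thetaF_series, mul_eq_zero, mul_eq_zero] at h
    refine h.resolve_left ?_ |>.resolve_left ?_
    · exact Complex.ofReal_ne_zero.mpr (wt_pos t).ne'
    · exact Nat.cast_ne_zero.mpr wCard_pos.ne'
  set g : H.CPair t → (BasisIx L → ℝ) → ℂ := fun q s =>
    archExp ((q.1.1.1 : L) - 1) (boxPt 1 s) * H.cTerm t p q
  have hg : ∀ q, Continuous (g q) := fun q =>
    ((continuous_archExp _).comp (continuous_boxPt 1)).mul continuous_const
  have hgn : ∀ q s, ‖g q s‖ = ‖H.cTerm t p q‖ := fun q s => by simp [g, norm_archExp]
  have hsum0 : ∀ s, ∑' q, g q s = 0 := fun s => by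
    have e : ∀ q, g q s = archExp (-1 : L) (boxPt 1 s) *
        H.cTerm t (horoShift (boxPt 1 s) p) q := fun q => by
      simp only [g, cTerm, whit]
      have hw : ∀ w : InfinitePlace L, whittaker (w.embedding (q.1.1.1 : L))
          (horoShift (boxPt 1 s) p w) = eR (2 * (w.embedding (q.1.1.1 : L) * boxPt 1 s w).re) *
            whittaker (w.embedding (q.1.1.1 : L)) (p w) := fun w => by
        simp only [whittaker, horoShift, addCharC_add]
        simp only [addCharC, eR]
        ring
      rw [Finset.prod_congr rfl fun w _ => hw w, Finset.prod_mul_distrib, ← archExp_eq_prod]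
      have hadd : archExp ((q.1.1.1 : L) - 1) (boxPt 1 s) =
          archExp (q.1.1.1 : L) (boxPt 1 s) * archExp (-1 : L) (boxPt 1 s) := by
        rw [archExp, archExp, archExp, ← Complex.exp_add, sub_eq_add_neg]
        congr 1
        simp only [realPair, map_add, add_mul, Complex.add_re, mul_add, Finset.sum_add_distrib]
        push_cast
        ring
      rw [hadd]
      ring
    rw [tsum_congr e, tsum_mul_left, ← cSeries, hS, mul_zero]
  have hint : ∀ q, Integrable (g q)
      (volume.restrict {s : BasisIx L → ℝ | ∀ i, s i ∈ Set.Ioc (0 : ℝ) 1}) := fun q =>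
    Integrable.mono' (integrable_const ‖H.cTerm t p q‖) (hg q).aestronglyMeasurable
      (Filter.Eventually.of_forall fun s => (hgn q s).le)
  have hmean : ∑' q, cubeMean (g q) = 0 := by
    simp only [cubeMean]
    rw [integral_tsum_of_summable_integral_norm hint]
    · simp only [hsum0, integral_zero]
    · simp only [hgn, integral_const, smul_eq_mul]
      exact (H.summable_cTerm t p).norm.mul_left _
  have hzero : ∀ q, q ≠ H.unitPair → cubeMean (g q) = 0 := by
    intro q hq
    have hξ : (q.1.1.1 : L) - 1 ≠ 0 := sub_ne_zero.mpr fun h => hq (H.eq_unitPair q h)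
    have hdual : IsDualPeriod ((q.1.1.1 : L) - 1) 1 := fun b => traceExp_eq_one fun v => by
      have h0 : OrdGE v 0 ((q.1.1.1 : L) - 1) :=
        ((Fermat.Agent.CFT.ordGE_iff v q.1.1.1 0).mpr (H.ord_cPair_nonneg q v)).sub
          Fermat.Agent.CFT.ordGE_one
      rw [Nat.cast_one, one_mul]
      exact (h0.mul (Fermat.Agent.CFT.ordGE_algebraMap (v := v) b)).mono
        (by have := cond_nonneg v; omega)
    exact cubeMean_archExp_mul hξ one_pos hdual _
  rw [tsum_eq_single H.unitPair hzero] at hmean
  have hvol : volume.real {s : BasisIx L → ℝ | ∀ i, s i ∈ Set.Ioc (0 : ℝ) 1} = 1 := by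
    rw [show {s : BasisIx L → ℝ | ∀ i, s i ∈ Set.Ioc (0 : ℝ) 1} =
      Set.univ.pi fun _ : BasisIx L => Set.Ioc (0 : ℝ) 1 by ext s; simp,
      measureReal_def, volume_pi_pi]
    simp
  have hgc : g H.unitPair = fun _ => H.cTerm t p H.unitPair := by
    funext s
    simp [g, unitPair, archExp_zero_left]
  rw [hgc, cubeMean, setIntegral_const, hvol, one_smul, cTerm, mul_eq_zero] at hmean
  rcases hmean with h | h
  · simpa [h] using H.norm_psiDiv (-H.unitPair.1.1.2)
  · rw [whit, Finset.prod_eq_zero_iff] at h
    obtain ⟨w, -, hw⟩ := h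
    have hpos := besselK0_pos (t := 4 * Real.pi * ‖w.embedding ((1 : Lˣ) : L)‖ * 1) (by
      simp only [Units.val_one, map_one, norm_one]; positivity)
    simp only [whittaker, unitPair, p, heightPt, mul_eq_zero, Complex.ofReal_eq_zero,
      one_ne_zero, false_or] at hw
    rcases hw with hw | hw
    · linarith
    · have h2 := congrArg (‖·‖) hw
      simp only [norm_addCharC, norm_zero] at h2
      exact one_ne_zero h2

end HeckeChar

end Fermat.Agent.ResidualThree.ThetaInduction
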