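import Fermat.Agent.ResidualThree.Galois.Fields
import Fermat.Agent.ResidualThree.ThetaInduction.Cusp
import Fermat.Agent.ResidualThree.ThetaInduction.Hecke
import Fermat.Agent.ResidualThree.ThetaInduction.HeckeExist
import Fermat.Agent.ResidualThree.ThetaInduction.Nonzero

/-!
# Existence of the theta form over `L`

For a surjective representation `ρ` and a totally complex cubic-resolvent field `L`, the theta
function of the Hecke character attached to `ρ` is cuspidal, of spectral parameter zero, bounded,
nonzero and an unramified eigenform with eigenvalues given by the traces of Frobenius: this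
proves `ThetaExistence`.
-/

noncomputable section

open NumberField

namespace Fermat.Agent.ResidualThree.ThetaInduction

/-- **The theta lift exists.** -/
theorem thetaExistence : ThetaExistence := by
  intro ρ hρ hsurj hdet L _ hL
  have : IsTotallyComplex L := isTotallyComplex_cubicField hdet hL
  obtain ⟨M, _, _, _, _, H, hS, htr⟩ := heckeExistence ρ hρ hsurj hdet L hL
  refine ⟨H.thetaLevel, H.thetaPhi, H.isAutomorphic_thetaPhi, H.isCuspidal_thetaPhi,
    H.isSpectralZero_thetaPhi, H.exists_thetaPhi_ne_zero, H.bounded_thetaPhi, fun w hw => ?_⟩
  refine ⟨H.thetaLevel_J_of_notMem (hS w hw), fun A hA σ hσ hfrob => ?_⟩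
  rw [htr w (hS w hw) A hA σ hσ hfrob]
  exact H.hasEigenvalue_thetaPhi (hS w hw)

end Fermat.Agent.ResidualThree.ThetaInduction
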