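import Fermat.Agent.ResidualThree.Automorphic.Levels

/-!
# Congruence subgroups at one place: scalars times principal congruence matrices

The congruence subgroup of level `n` at a place is generated by the centre and the integral
matrices congruent to one modulo the `n`-th power of the maximal ideal (`princCong`); we show
that it is their product (`mem_congSubgroup_iff`) and is normal in the maximal compact subgroup
(`congSubgroup_normal`). These facts give the level of the adelic theta function.
-/

noncomputable section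

open IsDedekindDomain NumberField
open scoped WithZero

namespace Fermat.Agent.ResidualThree.ThetaInduction

variable {F : Type} [Field F] [NumberField F] (v : FPlace F)

/-- Integral matrices congruent to one modulo the `n`-th power of the maximal ideal. -/
def princCong (n : ℕ) : Subgroup (GLv v) where
  carrier := {g | g ∈ Tree.intGL (valv v) ∧ ∀ i j,
    valv v ((g : Matrix (Fin 2) (Fin 2) (v.adicCompletion F)) i j -
      (1 : Matrix (Fin 2) (Fin 2) (v.adicCompletion F)) i j) ≤ WithZero.exp (-(n : ℤ))}
  one_mem' := ⟨one_mem _, fun i j => by simp⟩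
  mul_mem' {a b} ha hb := by
    refine ⟨mul_mem ha.1 hb.1, fun i j => ?_⟩
    set A := ((a : GLv v) : Matrix (Fin 2) (Fin 2) (v.adicCompletion F)) with hA
    set B := ((b : GLv v) : Matrix (Fin 2) (Fin 2) (v.adicCompletion F)) with hB
    rw [← Matrix.sub_apply, Units.val_mul, show A * B - 1 = (A - 1) * B + (B - 1) by
      rw [Matrix.sub_mul, Matrix.one_mul]; abel, Matrix.add_apply]
    refine (valv v).map_add_le ?_ (by rw [Matrix.sub_apply]; exact hb.2 i j)
    rw [Matrix.mul_apply]
    refine (valv v).map_sum_le fun k _ => ?_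
    rw [map_mul, Matrix.sub_apply]
    exact (mul_le_mul' (ha.2 i k) (hb.1.1 k j)).trans (by rw [mul_one])
  inv_mem' {a} ha := by
    refine ⟨inv_mem ha.1, fun i j => ?_⟩
    set A := ((a : GLv v) : Matrix (Fin 2) (Fin 2) (v.adicCompletion F)) with hA
    rw [← Matrix.sub_apply, show ((a⁻¹ : GLv v) : Matrix (Fin 2) (Fin 2) (v.adicCompletion F)) - 1 =
      -(((a⁻¹ : GLv v) : Matrix (Fin 2) (Fin 2) (v.adicCompletion F)) * (A - 1)) by
        rw [Matrix.mul_sub, Matrix.mul_one, hA, ← Units.val_mul, inv_mul_cancel, Units.val_one,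
          neg_sub], Matrix.neg_apply, Valuation.map_neg, Matrix.mul_apply]
    refine (valv v).map_sum_le fun k _ => ?_
    rw [map_mul, Matrix.sub_apply]
    exact (mul_le_mul' ((inv_mem ha.1 : _ ∈ Tree.intGL (valv v)).1 i k) (ha.2 k j)).trans
      (by rw [one_mul])

theorem princCong_zero {g : GLv v} (hg : g ∈ Tree.intGL (valv v)) : g ∈ princCong v 0 := by
  refine ⟨hg, fun i j => ?_⟩
  rw [Nat.cast_zero, neg_zero, WithZero.exp_zero]
  refine ((valv v).map_sub _ _).trans (max_le (hg.1 i j) ?_)
  rw [Matrix.one_apply]; split_ifs <;> simp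

/-- The congruence subgroup is the product of the centre and the principal congruence
subgroup. -/
theorem mem_congSubgroup_iff {n : ℕ} {g : GLv v} :
    g ∈ congSubgroup v n ↔ ∃ s : (v.adicCompletion F)ˣ, ∃ k ∈ princCong v n,
      g = Matrix.GeneralLinearGroup.scalar (Fin 2) s * k := by
  constructor
  · intro h
    have hle : congSubgroup v n ≤ Subgroup.center (GLv v) ⊔ princCong v n := by
      refine (Subgroup.closure_le _).mpr ?_
      rintro x (⟨h1, h2⟩ | h1)
      · exact Subgroup.mem_sup_right ⟨h1, h2⟩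
      · exact Subgroup.mem_sup_left h1
    obtain ⟨c, hc, k, hk, rfl⟩ := Subgroup.mem_sup_of_normal_left.mp (hle h)
    rw [Matrix.GeneralLinearGroup.center_eq_range_scalar] at hc
    obtain ⟨s, rfl⟩ := hc
    exact ⟨s, k, hk, rfl⟩
  · rintro ⟨s, k, hk, rfl⟩
    exact mul_mem (Subgroup.subset_closure (Or.inr (Tree.scalar_mem_center s)))
      (Subgroup.subset_closure (Or.inl ⟨hk.1, hk.2⟩))

theorem congSubgroup_zero : congSubgroup v 0 = maxSubgroup v := by
  refine le_antisymm (congSubgroup_le_max v 0) ((Subgroup.closure_le _).mpr ?_)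
  rintro x (h1 | h1)
  · exact Subgroup.subset_closure (Or.inl ⟨h1, (princCong_zero v h1).2⟩)
  · exact Subgroup.subset_closure (Or.inr h1)

/-- Congruence subgroups are normal in the maximal compact subgroup. -/
theorem congSubgroup_normal {n : ℕ} {h j : GLv v} (hh : h ∈ maxSubgroup v)
    (hj : j ∈ congSubgroup v n) : h * j * h⁻¹ ∈ congSubgroup v n := by
  obtain ⟨s, k, hk, rfl⟩ := (mem_congSubgroup_iff v).mp hj
  rw [← congSubgroup_zero] at hh
  obtain ⟨r, u, hu, rfl⟩ := (mem_congSubgroup_iff v).mp hh
  refine (mem_congSubgroup_iff v).mpr ⟨s, u * k * u⁻¹, ⟨mul_mem (mul_mem hu.1 hk.1) (inv_mem hu.1),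
    fun i j => ?_⟩, ?_⟩
  · set U := ((u : GLv v) : Matrix (Fin 2) (Fin 2) (v.adicCompletion F)) with hU
    set U' := ((u⁻¹ : GLv v) : Matrix (Fin 2) (Fin 2) (v.adicCompletion F)) with hU'
    set K := ((k : GLv v) : Matrix (Fin 2) (Fin 2) (v.adicCompletion F)) with hK
    rw [← Matrix.sub_apply, Units.val_mul, Units.val_mul,
      show U * K * U' - 1 = U * (K - 1) * U' by
        rw [Matrix.mul_sub, Matrix.sub_mul, Matrix.mul_one, hU, hU', ← Units.val_mul u u⁻¹,
          mul_inv_cancel, Units.val_one]]
    rw [Matrix.mul_apply]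
    refine (valv v).map_sum_le fun b _ => ?_
    rw [map_mul, Matrix.mul_apply]
    refine (mul_le_mul' ((valv v).map_sum_le (g := WithZero.exp (-(n : ℤ))) fun a _ => ?_)
      ((inv_mem hu.1 : _ ∈ Tree.intGL (valv v)).1 b j)).trans (by rw [mul_one])
    rw [map_mul, Matrix.sub_apply]
    exact (mul_le_mul' (hu.1.1 i a) (hk.2 a b)).trans (by rw [one_mul])
  · have hr := Subgroup.mem_center_iff.mp (Tree.scalar_mem_center r)
    have hs := Subgroup.mem_center_iff.mp (Tree.scalar_mem_center s)
    rw [mul_inv_rev]
    calc Matrix.GeneralLinearGroup.scalar (Fin 2) r * u *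
          (Matrix.GeneralLinearGroup.scalar (Fin 2) s * k) *
          (u⁻¹ * (Matrix.GeneralLinearGroup.scalar (Fin 2) r)⁻¹)
        = Matrix.GeneralLinearGroup.scalar (Fin 2) r *
            ((u * Matrix.GeneralLinearGroup.scalar (Fin 2) s) * k * u⁻¹) *
            (Matrix.GeneralLinearGroup.scalar (Fin 2) r)⁻¹ := by group
      _ = _ := by
          rw [← hr, mul_inv_cancel_right, hs u]
          group

end Fermat.Agent.ResidualThree.ThetaInduction
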