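import Fermat.Agent.ResidualThree.Automorphic.Vanish
import Fermat.Agent.ResidualThree.ThetaInduction.Orbits

/-!
# Theta integrals at an arbitrary cusp and their growing terms

A matrix `γ` with nonzero lower left entry is, up to a scalar, upper triangular · inversion ·
upper triangular, so Poisson summation turns the theta sum at `γ • p` into a theta sum at `p` of
the Fourier transform of the phase-twisted function, provided that function is periodic modulo a
lattice (`CuspData`, moduli from `phaseMod`). Integrating over the torus gives a multiple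
`cuspA · ∏ y` plus a decaying integral (`torusInt_cusp`), and `cuspA` does not depend on the
modulus chosen (`cuspA_eq`). `qsum_move` compares the constant terms of neighbouring lattices.
-/

noncomputable section

open NumberField Module MeasureTheory IsDedekindDomain

namespace Fermat.Agent.ResidualThree.ThetaInduction

open Fermat.Agent.CFT (OrdGE ord below ram)

variable {L M : Type} [Field L] [NumberField L] [Field M] [NumberField M]
  [Algebra L M] [Algebra.IsQuadraticExtension L M]

/-! ### Moduli of the phase `gTerm l` -/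

theorem exists_mem_Lat {K : Type} [Field K] [NumberField K] (x : K) :
    ∃ n : FPlace K →₀ ℤ, x ∈ Lat n := by
  by_cases h : x = 0
  · exact ⟨0, h ▸ zero_mem _⟩
  · exact ⟨divisor (Units.mk0 x h), mem_Lat_divisor (Units.mk0 x h)⟩

/-- A modulus for the phase of coefficient `l` on the lattice `Lat o`. -/
def phaseMod (l : L) (o : FPlace M →₀ ℤ) : FPlace M →₀ ℤ :=
  0 ⊔ tauD L (-(o + tauD L o + (exists_mem_Lat (algebraMap L M l)).choose))

theorem phaseMod_nonneg (l : L) (o : FPlace M →₀ ℤ) : 0 ≤ phaseMod l o := le_sup_left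

theorem phaseMod_le (l : L) (o : FPlace M →₀ ℤ) (P : FPlace M) :
    0 ≤ (exists_mem_Lat (algebraMap L M l)).choose P + o P + o (tauP L P) +
      phaseMod l o (tauP L P) := by
  have h : -(o + tauD L o + (exists_mem_Lat (algebraMap L M l)).choose) P ≤
      phaseMod l o (tauP L P) := by
    have := (le_sup_right : tauD L (-(o + tauD L o + (exists_mem_Lat (algebraMap L M l)).choose)) ≤
      phaseMod l o) (tauP L P)
    rwa [tauD_apply, tauP_tauP] at this
  simp only [Finsupp.add_apply, tauD_apply] at h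
  omega

theorem phaseMod_twist (l : L) (o d : FPlace M →₀ ℤ) (hd : d + tauD L d = 0) :
    phaseMod l (o + d) = phaseMod l o := by
  have e : o + d + tauD L (o + d) = o + tauD L o := by
    ext P
    have h := DFunLike.congr_fun hd P
    simp only [Finsupp.add_apply, tauD_apply, Finsupp.coe_zero, Pi.zero_apply] at h ⊢
    omega
  rw [phaseMod, phaseMod, e]

/-- The phase is periodic for any finer modulus. -/
theorem gTerm_periodic_phaseMod {l : L} {o E : FPlace M →₀ ℤ} (hE : phaseMod l o ≤ E) {x a : M}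
    (hx : x ∈ Lat o) (ha : a ∈ Lat (o + E)) : gTerm l (x + a) = gTerm l x := by
  set n := (exists_mem_Lat (algebraMap L M l)).choose
  have hn : algebraMap L M l ∈ Lat n := (exists_mem_Lat (algebraMap L M l)).choose_spec
  have h0 : ∀ P, 0 ≤ phaseMod l o P := fun P => by simpa using phaseMod_nonneg l o P
  have hEle : ∀ P, phaseMod l o P ≤ E P := hE
  rw [gTerm_add]
  have h1 : gTerm l a = 1 := by
    refine traceExp_eq_one fun v => ?_
    obtain ⟨P, rfl⟩ := Fermat.Agent.CFT.exists_below_eq (L := M) v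
    refine ordGE_of_algebraMap ?_
    rw [map_mul, ← mul_conjM]
    refine ((hn P).mul ((ha P).mul (ordGE_conjM.mpr (ha (tauP L P))))).mono ?_
    have := phaseMod_le l o P
    have := h0 P
    have := hEle P
    have := hEle (tauP L P)
    have h3 := mul_nonneg (Int.natCast_nonneg (ram L P)) (cond_nonneg (below L P))
    simp only [Finsupp.add_apply]
    linarith
  have h2 : traceExp (l * Algebra.trace L M (x * conjM L M a)) = 1 := by
    rw [show l * Algebra.trace L M (x * conjM L M a) =
      Algebra.trace L M (algebraMap L M l * (x * conjM L M a)) by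
        rw [← Algebra.smul_def, map_smul, smul_eq_mul], ← traceExp_eq_trace]
    refine traceExp_cross_of_large (L := L) (e := tauD L (o + E)) (k := fun P => n P) hn hx ha
      (fun P => rfl) fun P => ?_
    have := phaseMod_le l o P
    have := hEle (tauP L P)
    have h3 := mul_nonneg (Int.natCast_nonneg (ram L P)) (cond_nonneg (below L P))
    simp only [tauD_apply, Finsupp.add_apply]
    linarith
  rw [h1, h2, mul_one, mul_one]

/-! ### Quotient sums at a place away from the modulus -/

/-- Moving lattice and modulus at a place away from the modulus. -/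
theorem qsum_move {o R : FPlace M →₀ ℤ} (hR : 0 ≤ R) {G : FPlace M} (hG : R G = 0) {f : M → ℂ}
    (hper : ∀ x ∈ Lat o, ∀ a ∈ Lat (o + R), f (x + a) = f x) :
    qsum (Lat o) (Lat (o + R + Finsupp.single G 1)) f =
      (Ideal.absNorm G.asIdeal : ℂ) *
        qsum (Lat (o + Finsupp.single G 1)) (Lat (o + R + Finsupp.single G 1)) f := by
  classical
  set u := o + Finsupp.single G (1 : ℤ)
  set W := o + R
  set W₁ := W + Finsupp.single G (1 : ℤ)
  have hs : (0 : FPlace M →₀ ℤ) ≤ Finsupp.single G 1 := Finsupp.single_nonneg.mpr zero_le_one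
  have houo : o ≤ u := le_add_of_nonneg_right hs
  have hoW : o ≤ W := le_add_of_nonneg_right hR
  have hWW : W ≤ W₁ := le_add_of_nonneg_right hs
  have huW : u ≤ W₁ := add_le_add hoW le_rfl
  rw [qsum_refine (Lat_anti hWW) (Lat_anti hoW) (relIndex_Lat_ne_zero hoW)
    (relIndex_Lat_ne_zero hWW) hper, relIndex_Lat_single]
  congr 1
  have hcard : (Lat W).relIndex (Lat o) = (Lat W₁).relIndex (Lat u) := by
    have h1 := AddSubgroup.relIndex_mul_relIndex _ _ _ (Lat_anti hWW) (Lat_anti hoW)
    have h2 := AddSubgroup.relIndex_mul_relIndex _ _ _ (Lat_anti huW) (Lat_anti houo)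
    rw [relIndex_Lat_single W G] at h1
    rw [relIndex_Lat_single o G, ← h1, mul_comm] at h2
    exact Nat.eq_of_mul_eq_mul_left
      (Nat.pos_of_ne_zero fun h0 => G.ne_bot (Ideal.absNorm_eq_zero_iff.mp h0)) h2.symm
  have := finite_latQuot (M := M) huW
  have := finite_latQuot (M := M) hoW
  let := Fintype.ofFinite (Lat u ⧸ (Lat W₁).addSubgroupOf (Lat u))
  let g : Lat u ⧸ (Lat W₁).addSubgroupOf (Lat u) → Lat o := fun q =>
    ⟨(q.out : M), Lat_anti houo q.out.2⟩
  have hinj : ∀ s t, (g s : M) - g t ∈ Lat W → s = t := by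
    intro s t h
    rw [← QuotientAddGroup.out_eq' s, ← QuotientAddGroup.out_eq' t, qmk_eq_iff]
    intro Q
    by_cases hQ : Q = G
    · subst hQ
      have h1 : OrdGE Q (u Q) ((t.out : M) - s.out) := (sub_mem t.out.2 s.out.2 : _ ∈ Lat u) Q
      simpa [W₁, W, u, hG] using h1
    · have h1 : OrdGE Q (W Q) ((t.out : M) - s.out) := by
        simpa [g] using (h Q).neg
      simpa [W₁, Finsupp.single_eq_of_ne hQ] using h1
  have hbij : Function.Bijective fun t =>
      (QuotientAddGroup.mk (g t) : Lat o ⧸ (Lat W).addSubgroupOf (Lat o)) := by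
    refine Function.Injective.bijective_of_nat_card_le (fun s t h => ?_) (le_of_eq ?_)
    · exact (hinj t s ((qmk_eq_iff _ _).mp h)).symm
    · rw [AddSubgroup.relIndex, AddSubgroup.relIndex, AddSubgroup.index_eq_card,
        AddSubgroup.index_eq_card] at hcard
      exact hcard
  rw [qsum_eq_sum g hinj (fun x => ?_) hper, qsum, finsum_eq_sum_of_fintype]
  obtain ⟨t, ht⟩ := hbij.2 (QuotientAddGroup.mk x)
  exact ⟨t, (qmk_eq_iff _ _).mp ht⟩

/-! ### The expansion at a cusp -/

variable [IsTotallyComplex L]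

/-- The diagonal point of height `r`. -/
def heightPt (L : Type) [Field L] (r : ℝ) (hr : 0 < r) : Hyp L := fun _ => ⟨0, r, hr⟩

omit [IsTotallyComplex L] in
/-- A multiple of `∏ y` bounded on `y ≥ 1` is zero. -/
theorem eq_zero_of_bounded {A : ℂ} {C : ℝ}
    (h : ∀ p : Hyp L, (∀ w, 1 ≤ (p w).y) → ‖A * ((∏ w, (p w).y : ℝ) : ℂ)‖ ≤ C) : A = 0 := by
  by_contra hA
  have hA' : 0 < ‖A‖ := norm_pos_iff.mpr hA
  set r := |C| / ‖A‖ + 1
  have h2 : (0 : ℝ) ≤ |C| / ‖A‖ := by positivity
  have hr1 : 1 ≤ r := by simp only [r]; linarith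
  have hr : 0 < r := by linarith
  have h1 := h (heightPt L r hr) fun _ => hr1
  rw [norm_mul, Complex.norm_real, Real.norm_eq_abs] at h1
  have h3 : r ≤ |∏ w : InfinitePlace L, (heightPt L r hr w).y| := by
    simp only [heightPt, Finset.prod_const, Finset.card_univ]
    rw [abs_of_pos (by positivity)]
    exact le_self_pow₀ hr1 Fintype.card_ne_zero
  have h4 : ‖A‖ * r = |C| + ‖A‖ := by simp only [r]; field_simp
  nlinarith [le_abs_self C, mul_le_mul_of_nonneg_left h3 hA'.le]

omit [NumberField L] [IsTotallyComplex L] in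
theorem invHyp_invHyp (p : Hyp L) : invHyp (invHyp p) = p := by
  funext w
  show invPoint (invPoint (p w)) = p w
  rw [invPoint_eq_smul, invPoint_eq_smul, ← mul_smul]
  refine H3.smul_of_scalar (c := -1) ?_ _
  simp [wGL, Matrix.one_fin_two]

variable (γ : GL (Fin 2) L) (β : L)

/-- The phase of the translation to the cusp. -/
def cuspPhase : L := β * (γ.val 0 0 / γ.val 1 0)

variable {γ} (hc : γ.val 1 0 ≠ 0)

/-- The upper diagonal entry of the cusp matrix: the lower left entry of `γ`. -/
def cuspU : Lˣ := Units.mk0 _ hc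

/-- The lower diagonal entry of the cusp matrix: `det γ` over the lower left entry. -/
def cuspE : Lˣ := Matrix.GeneralLinearGroup.det γ / cuspU hc

omit [IsTotallyComplex L] in
/-- The matrix to a cusp as upper triangular times inversion times upper triangular. -/
theorem smul_cusp (p : Hyp L) :
    γ • p = upGL 1 1 (γ.val 0 0 / γ.val 1 0) •
      invHyp (upGL (cuspU hc) (cuspE hc) (γ.val 1 1) • p) := by
  have hw : ∀ q : Hyp L, invHyp q = wGL L • q := fun q => funext fun w => by
    show invPoint (q w) = toComplex w (wGL L) • q w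
    rw [invPoint_eq_smul]
    congr 1
    refine Units.ext ?_
    ext i j
    fin_cases i <;> fin_cases j <;> simp [toComplex, wGL]
  rw [hw, ← mul_smul, ← mul_smul]
  congr 1
  have e : ((Matrix.GeneralLinearGroup.det γ : Lˣ) : L) =
      γ.val 0 0 * γ.val 1 1 - γ.val 0 1 * γ.val 1 0 := by
    rw [Matrix.GeneralLinearGroup.val_det_apply, Matrix.det_fin_two]
  refine Units.ext ?_
  ext i j
  fin_cases i <;> fin_cases j <;>
    simp [upGL, wGL, cuspU, cuspE, Units.val_div_eq_div_val, e] <;> field_simp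
  ring

/-- The coefficient at the cusp. -/
def cuspβ : L := β * ((cuspU hc : L) / cuspE hc)

omit [NumberField L] [IsTotallyComplex L] in
theorem cuspβ_ne_zero (hβ : β ≠ 0) : cuspβ β hc ≠ 0 :=
  mul_ne_zero hβ (div_ne_zero (Units.ne_zero _) (Units.ne_zero _))

/-- The constant of a cusp expansion. -/
def cuspK (W : FPlace M →₀ ℤ) : ℂ :=
  poissonConst β W * ∏ w : InfinitePlace L, (‖w.embedding ((cuspU hc : L) / cuspE hc)‖ : ℂ)

/-- The transformed function at the cusp. -/
def cuspFun (o W : FPlace M →₀ ℤ) (Φ : M → ℂ) (y : M) : ℂ :=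
  gTerm (β * (γ.val 1 1 / cuspE hc)) y *
    fourierQ β o W (fun x => gTerm (cuspPhase γ β) x * Φ x) y

/-- The coefficient of the growing term at the cusp. -/
def cuspA (o W : FPlace M →₀ ℤ) (Φ : M → ℂ) : ℂ :=
  cuspK β hc W * volume.real (torusDom L M) *
    qsum (Lat o) (Lat W) (fun x => gTerm (cuspPhase γ β) x * Φ x)

omit [IsTotallyComplex L] in
theorem cuspFun_zero (o W : FPlace M →₀ ℤ) (Φ : M → ℂ) :
    cuspFun β hc o W Φ 0 = qsum (Lat o) (Lat W) (fun x => gTerm (cuspPhase γ β) x * Φ x) := by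
  rw [cuspFun, fourierQ, if_pos fun x _ => by simp [traceExp_zero], qsum]
  simp [gTerm, traceExp_zero]

omit [IsTotallyComplex L] in
/-- The transformed function is bounded and supported on a lattice. -/
theorem cuspFun_bdd (hβ : β ≠ 0) {o W : FPlace M →₀ ℤ} (hle : o ≤ W) {Φ : M → ℂ}
    (hΦ : ∀ x, ‖Φ x‖ ≤ 1) :
    ∃ ω B, (∀ y, y ∉ Lat ω → cuspFun β hc o W Φ y = 0) ∧ ∀ y, ‖cuspFun β hc o W Φ y‖ ≤ B := by
  classical
  have := finite_latQuot hle
  let := Fintype.ofFinite (LatQuot o W)
  refine ⟨-(pullD M (divisor (Units.mk0 β hβ))) - tauD L W - tauD L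
    (Finsupp.ofSupportFinite (fun P => cond P) (by
      have h : ∀ᶠ P : FPlace M in Filter.cofinite, cond P = 0 := eventually_cond_eq_zero
      exact h)), Fintype.card (LatQuot o W), fun y hy => ?_, fun y => ?_⟩
  · rw [cuspFun, fourierQ_eq_zero fun h => hy fun P => ?_, mul_zero]
    simp only [Finsupp.sub_apply, Finsupp.neg_apply, pullD_apply, divisor_apply, tauD_apply,
      Finsupp.ofSupportFinite_coe]
    exact ordGE_of_dual hβ h P
  · rw [cuspFun, norm_mul, show ‖gTerm (β * (γ.val 1 1 / cuspE hc)) y‖ = 1 from norm_traceExp _,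
      one_mul, fourierQ]
    split_ifs
    · rw [finsum_eq_sum_of_fintype]
      refine (norm_sum_le_of_le _ (n := fun _ => (1 : ℝ)) fun q _ => ?_).trans (by simp)
      rw [norm_mul, norm_mul, norm_traceExp, gTerm, norm_traceExp, one_mul, mul_one]
      exact hΦ _
    · simp

/-- The conditions on a function and a modulus. -/
structure CuspData (γ : GL (Fin 2) L) (β : L) (o W : FPlace M →₀ ℤ) (Φ : M → ℂ) : Prop where
  le : o ≤ W
  supp : ∀ x, x ∉ Lat o → Φ x = 0
  bdd : ∀ x, ‖Φ x‖ ≤ 1
  per : ∀ x ∈ Lat o, ∀ a ∈ Lat W,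
    gTerm (cuspPhase γ β) (x + a) * Φ (x + a) = gTerm (cuspPhase γ β) x * Φ x

variable {β} (hβ : β ≠ 0) {o W : FPlace M →₀ ℤ} {Φ : M → ℂ}

include hβ in
/-- The theta sum at a cusp, by Poisson summation. -/
theorem thetaSum_cusp (h : CuspData γ β o W Φ) {s : InfinitePlace L → ℝ} (hs : ∀ w, 0 < s w)
    (p : Hyp L) :
    thetaSum β s (γ • p) Φ = cuspK β hc W * thetaSum (cuspβ β hc) s p (cuspFun β hc o W Φ) := by
  rw [smul_cusp hc, thetaSum_upper]
  simp only [Units.val_one, div_one, mul_one, map_one, norm_one, Complex.ofReal_one,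
    Finset.prod_const_one, one_mul]
  have hper : ∀ x a, a ∈ Lat W →
      gTerm (cuspPhase γ β) (x + a) * Φ (x + a) = gTerm (cuspPhase γ β) x * Φ x := by
    intro x a ha
    by_cases hx : x ∈ Lat o
    · exact h.per x hx a ha
    · have hxa : x + a ∉ Lat o := fun hh => hx (by
        simpa using sub_mem hh (Lat_anti h.le ha))
      rw [h.supp x hx, h.supp _ hxa, mul_zero, mul_zero]
  rw [show β * (γ.val 0 0 / γ.val 1 0) = cuspPhase γ β from rfl,
    thetaSum_poisson hβ hs _ h.le (fun x hx => by rw [h.supp x hx, mul_zero]) hper, invHyp_invHyp,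
    thetaSum_upper]
  rw [show (cuspFun β hc o W Φ) = fun y => gTerm (β * (γ.val 1 1 / cuspE hc)) y *
    fourierQ β o W (fun x => gTerm (cuspPhase γ β) x * Φ x) y from rfl, cuspK, cuspβ]
  ring

include hβ in
/-- **The expansion at a cusp.** -/
theorem torusInt_cusp (h : CuspData γ β o W Φ) (p : Hyp L) :
    torusInt β Φ (γ • p) = cuspA β hc o W Φ * ((∏ w, (p w).y : ℝ) : ℂ) +
      cuspK β hc W * torusRem (cuspβ β hc) (cuspFun β hc o W Φ) p := by
  obtain ⟨ω, B, hsupp, hB⟩ := cuspFun_bdd β hc hβ h.le h.bdd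
  have e : torusInt β Φ (γ • p) =
      cuspK β hc W * torusInt (cuspβ β hc) (cuspFun β hc o W Φ) p := by
    rw [torusInt, torusInt, ← integral_const_mul]
    exact setIntegral_congr_fun torusDom_measurableSet fun u _ =>
      thetaSum_cusp hc hβ h (sExp_pos u) p
  rw [e, torusInt_eq (cuspβ_ne_zero β hc hβ) hsupp hB, cuspFun_zero, cuspA]
  ring

include hβ in
/-- A torus integral at a cusp differs from its growing term by a bounded function. -/
theorem exists_cuspRem_bound (h : CuspData γ β o W Φ) {c : ℝ} (h0 : 0 < c) :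
    ∃ C, ∀ p : Hyp L, (∀ w, c ≤ (p w).y) →
      ‖torusInt β Φ (γ • p) - cuspA β hc o W Φ * ((∏ w, (p w).y : ℝ) : ℂ)‖ ≤ C := by
  obtain ⟨ω, B, hsupp, hB⟩ := cuspFun_bdd β hc hβ h.le h.bdd
  obtain ⟨C, hC⟩ := exists_torusRem_bound (cuspβ_ne_zero β hc hβ) hsupp hB h0
  refine ⟨‖cuspK β hc W‖ * C, fun p hp => ?_⟩
  rw [torusInt_cusp hc hβ h, add_sub_cancel_left, norm_mul]
  exact mul_le_mul_of_nonneg_left (hC p hp) (norm_nonneg _)

include hβ in
/-- The growing term does not depend on the modulus. -/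
theorem cuspA_eq {W' : FPlace M →₀ ℤ} (h : CuspData γ β o W Φ) (h' : CuspData γ β o W' Φ) :
    cuspA β hc o W Φ = cuspA β hc o W' Φ := by
  obtain ⟨C, hC⟩ := exists_cuspRem_bound hc hβ h one_pos
  obtain ⟨C', hC'⟩ := exists_cuspRem_bound hc hβ h' one_pos
  rw [← sub_eq_zero]
  refine eq_zero_of_bounded (L := L) (C := C + C') fun p hp => ?_
  rw [sub_mul]
  set T := torusInt β Φ (γ • p)
  set y := ((∏ w, (p w).y : ℝ) : ℂ)
  calc ‖cuspA β hc o W Φ * y - cuspA β hc o W' Φ * y‖
      = ‖(T - cuspA β hc o W' Φ * y) - (T - cuspA β hc o W Φ * y)‖ := by congr 1; ring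
    _ ≤ C' + C := (norm_sub_le _ _).trans (add_le_add (hC' p hp) (hC p hp))
    _ = C + C' := add_comm _ _

end Fermat.Agent.ResidualThree.ThetaInduction
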