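import Fermat.Agent.ResidualThree.ThetaInduction.GaussDef

/-!
# The Gauss sum of the norm form at one unramified place

Above an unramified place `v` the norm form on the residue ring of `M` is hyperbolic if `v` splits
and anisotropic if it is inert.  Hence the Gauss sum of `e(l N x)` modulo `v` is `+N v` resp.
`-N v`, the base case of the evaluation of all Gauss sums of the norm form.
-/

noncomputable section

open NumberField Module IsDedekindDomain

namespace Fermat.Agent.ResidualThree.ThetaInduction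

open Fermat.Agent.CFT (OrdGE ord below ram baseU)

variable {L M : Type} [Field L] [NumberField L] [Field M] [NumberField M]
  [Algebra L M] [Algebra.IsQuadraticExtension L M]

theorem ordGE_one_iff_mem {K : Type} [Field K] [NumberField K] (P : FPlace K) (a : 𝓞 K) :
    OrdGE P 1 (a : K) ↔ a ∈ P.asIdeal := by
  have := Fermat.Agent.CFT.ordGE_algebraMap_iff (v := P) a 1
  rw [pow_one] at this
  exact_mod_cast this

theorem coeO_sub {K : Type} [Field K] (a b : 𝓞 K) :
    ((a - b : 𝓞 K) : K) = (a : K) - (b : K) := map_sub (algebraMap (𝓞 K) K) a b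

theorem coeO_add {K : Type} [Field K] (a b : 𝓞 K) :
    ((a + b : 𝓞 K) : K) = (a : K) + (b : K) := map_add (algebraMap (𝓞 K) K) a b

theorem coeO_mul {K : Type} [Field K] (a b : 𝓞 K) :
    ((a * b : 𝓞 K) : K) = (a : K) * (b : K) := map_mul (algebraMap (𝓞 K) K) a b

theorem coeO_one {K : Type} [Field K] : ((1 : 𝓞 K) : K) = 1 :=
  map_one (algebraMap (𝓞 K) K)

omit [Algebra.IsQuadraticExtension L M] [NumberField L] [NumberField M] in
theorem coeO_algebraMap (a : 𝓞 L) :
    ((algebraMap (𝓞 L) (𝓞 M) a : 𝓞 M) : M) = algebraMap L M (a : L) := rfl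

/-- Approximation of a locally integral element at two places. -/
theorem exists_simul_approx {K : Type} [Field K] [NumberField K] (P Q : FPlace K) {q : K}
    (hP : OrdGE P 0 q) (hQ : OrdGE Q 0 q) :
    ∃ o : 𝓞 K, OrdGE P 1 (q - (o : K)) ∧ OrdGE Q 1 (q - (o : K)) := by
  classical
  have hl : ∀ R : FPlace K, OrdGE R 0 q → ∃ a : 𝓞 K, OrdGE R 1 (q - (a : K)) := fun R hR => by
    obtain ⟨a, ha⟩ := R.exists_valuation_sub_lt_of_integer (K := K) (x := q)
      (by simpa [OrdGE] using hR) (Units.mk0 (WithZero.exp (-(1 : ℤ))) WithZero.exp_ne_zero)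
    exact ⟨a, by rw [OrdGE, Valuation.map_sub_swap]; exact ha.le⟩
  obtain ⟨a, ha⟩ := hl P hP
  obtain ⟨b, hb⟩ := hl Q hQ
  by_cases hPQ : Q = P
  · subst hPQ; exact ⟨a, ha, ha⟩
  obtain ⟨y, hy⟩ := IsDedekindDomain.exists_forall_sub_mem_ideal
    (fun R : FPlace K => R.asIdeal) (fun _ => 1) (s := {P, Q}) (fun R _ => R.prime)
    (fun i _ j _ h he => h (HeightOneSpectrum.ext he)) (fun R => if R.1 = P then a else b)
  have h1 := hy P (by simp)
  rw [pow_one, if_pos rfl, ← ordGE_one_iff_mem] at h1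
  have h2 := hy Q (by simp)
  rw [pow_one, if_neg hPQ, ← ordGE_one_iff_mem] at h2
  rw [coeO_sub] at h1 h2
  refine ⟨y, ?_, ?_⟩
  · rw [show q - (y : K) = (q - a) - ((y : K) - a) by ring]; exact ha.sub h1
  · rw [show q - (y : K) = (q - b) - ((y : K) - b) by ring]; exact hb.sub h2

variable (L) in
/-- The ideal of integers of `M` vanishing at a place and at its conjugate. -/
def pairIdeal (P : FPlace M) : Ideal (𝓞 M) := P.asIdeal ⊓ (tauP L P).asIdeal

theorem mem_pairIdeal_iff {P : FPlace M} {x : 𝓞 M} :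
    x ∈ pairIdeal L P ↔ OrdGE P 1 (x : M) ∧ OrdGE (tauP L P) 1 (x : M) := by
  rw [pairIdeal, Ideal.mem_inf, ordGE_one_iff_mem, ordGE_one_iff_mem]

/-- Coordinates on the residue ring above an unramified place, and the norm form in them. -/
structure ResCoord (M : Type) [Field M] [NumberField M] [Algebra L M]
    [Algebra.IsQuadraticExtension L M] (v : FPlace L) (P : FPlace M) where
  /-- Representatives of the residue classes, indexed by coordinates. -/
  rep : (𝓞 L ⧸ v.asIdeal) × (𝓞 L ⧸ v.asIdeal) → 𝓞 M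
  inj : ∀ s t, rep s - rep t ∈ pairIdeal L P → s = t
  surj : ∀ x : 𝓞 M, ∃ t, x - rep t ∈ pairIdeal L P
  form : (SplitAt M v ∧ ∀ t, Ideal.Quotient.mk v.asIdeal (Algebra.intNorm (𝓞 L) (𝓞 M) (rep t)) =
      t.1 * t.2) ∨
    (¬ SplitAt M v ∧ ∃ T n : 𝓞 L ⧸ v.asIdeal,
      (∀ a b, a ^ 2 + a * b * T + b ^ 2 * n = 0 → a = 0 ∧ b = 0) ∧
      ∀ t, Ideal.Quotient.mk v.asIdeal (Algebra.intNorm (𝓞 L) (𝓞 M) (rep t)) =
        t.1 ^ 2 + t.1 * t.2 * T + t.2 ^ 2 * n)

omit [Algebra.IsQuadraticExtension L M] in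
theorem coe_intNorm (x : 𝓞 M) :
    ((Algebra.intNorm (𝓞 L) (𝓞 M) x : 𝓞 L) : L) = Algebra.norm L (x : M) :=
  Algebra.algebraMap_intNorm (A := 𝓞 L) (K := L) (L := M) (B := 𝓞 M) x

omit [Algebra.IsQuadraticExtension L M] in
theorem coe_intTrace (x : 𝓞 M) :
    ((Algebra.intTrace (𝓞 L) (𝓞 M) x : 𝓞 L) : L) = Algebra.trace L M (x : M) :=
  Algebra.algebraMap_intTrace (A := 𝓞 L) (K := L) (L := M) (B := 𝓞 M) x

omit [Algebra.IsQuadraticExtension L M] in
theorem mk_eq_mk_of_ordGE {v : FPlace L} {P : FPlace M} (hP : below L P = v) (a b : 𝓞 L)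
    (h : OrdGE P 1 (algebraMap L M (a : L) - algebraMap L M (b : L))) :
    Ideal.Quotient.mk v.asIdeal a = Ideal.Quotient.mk v.asIdeal b := by
  rw [Ideal.Quotient.eq, ← ordGE_one_iff_mem,
    show ((a - b : 𝓞 L) : L) = (a : L) - (b : L) from map_sub _ a b]
  subst hP
  rw [← map_sub] at h
  exact ordGE_of_algebraMap_of_lt h (by simp)

omit [Algebra.IsQuadraticExtension L M] in
theorem ordGE_lift {v : FPlace L} {P : FPlace M} (hv : Unram M v) (hP : below L P = v) {a : 𝓞 L}
    (h : a ∈ v.asIdeal) : OrdGE P 1 (algebraMap L M (a : L)) := by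
  have h1 := (ordGE_one_iff_mem v a).mpr h
  have := Fermat.Agent.CFT.ordGE_baseU P (hP.symm ▸ h1)
  rwa [hv P hP, Nat.cast_one, one_mul] at this
omit [NumberField L] [Algebra.IsQuadraticExtension L M] in
/-- The image in `M` of an integer of `L` is integral. -/
theorem ordGE_coe_base (R : FPlace M) (a : 𝓞 L) : OrdGE R 0 (algebraMap L M (a : L)) :=
  Fermat.Agent.CFT.ordGE_algebraMap (algebraMap (𝓞 L) (𝓞 M) a)

omit [Algebra.IsQuadraticExtension L M] in
/-- Congruent integers of `L` are congruent at every place above an unramified `v`. -/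
theorem ordGE_sub_of_mk_eq {v : FPlace L} (hv : Unram M v) {R : FPlace M} (hR : below L R = v)
    {a b : 𝓞 L} (h : Ideal.Quotient.mk v.asIdeal a = Ideal.Quotient.mk v.asIdeal b) :
    OrdGE R 1 (algebraMap L M (a : L) - algebraMap L M (b : L)) := by
  rw [← map_sub, ← show ((a - b : 𝓞 L) : L) = (a : L) - (b : L) from map_sub _ a b]
  exact ordGE_lift hv hR (Ideal.Quotient.eq.mp h)

omit [Algebra L M] [Algebra.IsQuadraticExtension L M] in
/-- If a product of two integral elements vanishes at a place, one of them does. -/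
theorem ordGE_one_or_of_mul {P : FPlace M} {x y : M} (hxy : OrdGE P 1 (x * y)) (hx : OrdGE P 0 x)
    (hy : OrdGE P 0 y) : OrdGE P 1 x ∨ OrdGE P 1 y := by
  rcases eq_or_ne x 0 with rfl | hx0
  · exact Or.inl (Fermat.Agent.CFT.ordGE_zero _)
  rcases eq_or_ne y 0 with rfl | hy0
  · exact Or.inr (Fermat.Agent.CFT.ordGE_zero _)
  have h1 := (Fermat.Agent.CFT.ordGE_iff P (Units.mk0 x hx0 * Units.mk0 y hy0) 1).mp hxy
  rw [Fermat.Agent.CFT.ord_mul] at h1
  have h2 := (Fermat.Agent.CFT.ordGE_iff P (Units.mk0 x hx0) 0).mp hx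
  have h3 := (Fermat.Agent.CFT.ordGE_iff P (Units.mk0 y hy0) 0).mp hy
  rcases le_or_gt 1 (ord P (Units.mk0 x hx0)) with h4 | h4
  · exact Or.inl ((Fermat.Agent.CFT.ordGE_iff P (Units.mk0 x hx0) 1).mpr h4)
  · exact Or.inr ((Fermat.Agent.CFT.ordGE_iff P (Units.mk0 y hy0) 1).mpr (by omega))

/-- Residue coordinates above an inert place: a basis `1, ξ` of the residue field. -/
theorem nonempty_resCoord_inert {v : FPlace L} (hv : Unram M v) {P : FPlace M}
    (hP : below L P = v) (hs : tauP L P = P) : Nonempty (ResCoord M v P) := by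
  classical
  let lft : 𝓞 L ⧸ v.asIdeal → 𝓞 L := Function.surjInv Ideal.Quotient.mk_surjective
  have hlft : ∀ r, Ideal.Quotient.mk v.asIdeal (lft r) = r := fun r =>
    Function.surjInv_eq Ideal.Quotient.mk_surjective r
  let e : 𝓞 L → M := fun a => algebraMap L M (a : L)
  have he : ∀ a, OrdGE P 0 (e a) ∧ OrdGE (tauP L P) 0 (e a) := fun a =>
    ⟨ordGE_coe_base P a, ordGE_coe_base _ a⟩
  have hns : ¬ SplitAt M v := fun h => h P hP hs
  obtain ⟨ξ, hξ⟩ := exists_not_congr hv hP
  let rep : (𝓞 L ⧸ v.asIdeal) × (𝓞 L ⧸ v.asIdeal) → 𝓞 M := fun t =>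
    algebraMap (𝓞 L) (𝓞 M) (lft t.1) + algebraMap (𝓞 L) (𝓞 M) (lft t.2) * ξ
  have hrep : ∀ t, (rep t : M) = e (lft t.1) + e (lft t.2) * (ξ : M) := fun t => by
    simp only [rep, coeO_add, coeO_mul, coeO_algebraMap]; rfl
  have hinj0 : ∀ a b : 𝓞 L, OrdGE P 1 (e a + e b * (ξ : M)) →
      OrdGE P 1 (e a) ∧ OrdGE P 1 (e b) := by
    intro a b h
    have h' : OrdGE P 1 (conjM L M (e a + e b * (ξ : M))) := ordGE_conjM.mpr (by rwa [hs])
    rw [map_add, map_mul, AlgEquiv.commutes, AlgEquiv.commutes] at h'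
    have hd := h.sub h'
    rw [show e a + e b * (ξ : M) - (e a + e b * conjM L M (ξ : M)) =
      e b * ((ξ : M) - conjM L M (ξ : M)) by ring] at hd
    have hb : OrdGE P 1 (e b) := (ordGE_one_or_of_mul hd (he b).1
      ((Fermat.Agent.CFT.ordGE_algebraMap ξ).sub
        (ordGE_conjM.mpr (Fermat.Agent.CFT.ordGE_algebraMap ξ)))).resolve_right hξ
    refine ⟨?_, hb⟩
    have := h.sub ((hb.mul (Fermat.Agent.CFT.ordGE_algebraMap ξ)).mono (m := 1) (by norm_num))
    rwa [show e a + e b * (ξ : M) - e b * algebraMap (𝓞 M) M ξ = e a by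
      rw [show algebraMap (𝓞 M) M ξ = (ξ : M) from rfl]; ring] at this
  have hzero : ∀ r : 𝓞 L ⧸ v.asIdeal, OrdGE P 1 (e (lft r)) → r = 0 := fun r h => by
    rw [← hlft r, ← map_zero (Ideal.Quotient.mk v.asIdeal)]
    exact mk_eq_mk_of_ordGE hP _ _ (by simpa using h)
  refine ⟨⟨rep, fun s t h => ?_, fun x => ?_, Or.inr ⟨hns, ?_⟩⟩⟩
  · rw [mem_pairIdeal_iff, coeO_sub, hrep, hrep] at h
    have h1 := hinj0 (lft s.1 - lft t.1) (lft s.2 - lft t.2) (by
      have := h.1
      simp only [e] at this ⊢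
      rw [coeO_sub, coeO_sub, map_sub, map_sub]
      convert this using 1
      ring)
    refine Prod.ext ?_ ?_
    · rw [← hlft s.1, ← hlft t.1]
      exact mk_eq_mk_of_ordGE hP _ _ (by simpa [e, coeO_sub, map_sub] using h1.1)
    · rw [← hlft s.2, ← hlft t.2]
      exact mk_eq_mk_of_ordGE hP _ _ (by simpa [e, coeO_sub, map_sub] using h1.2)
  · -- surjectivity
    set d : M := (ξ : M) - conjM L M (ξ : M) with hd
    have hd0 : d ≠ 0 := fun h => hξ (by rw [h]; exact Fermat.Agent.CFT.ordGE_zero _)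
    have hdint : OrdGE P 0 d := (Fermat.Agent.CFT.ordGE_algebraMap ξ).sub
      (ordGE_conjM.mpr (Fermat.Agent.CFT.ordGE_algebraMap ξ))
    have hdinv : OrdGE P 0 d⁻¹ := by
      have h1 := (Fermat.Agent.CFT.ordGE_iff P (Units.mk0 d hd0) 0).mp hdint
      have h2 : ¬ (1 : ℤ) ≤ ord P (Units.mk0 d hd0) := fun h =>
        hξ ((Fermat.Agent.CFT.ordGE_iff P (Units.mk0 d hd0) 1).mpr h)
      rw [show d⁻¹ = (((Units.mk0 d hd0)⁻¹ : Mˣ) : M) by rw [Units.val_inv_eq_inv_val]; rfl,
        Fermat.Agent.CFT.ordGE_iff, Fermat.Agent.CFT.ord_inv]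
      omega
    have hxd : OrdGE P 0 (((x : M) - conjM L M (x : M)) * d⁻¹) := by
      have := ((Fermat.Agent.CFT.ordGE_algebraMap (v := P) x).sub
        (ordGE_conjM (L := L).mpr (Fermat.Agent.CFT.ordGE_algebraMap x))).mul hdinv
      rwa [add_zero] at this
    obtain ⟨y, hy, -⟩ := exists_simul_approx P P hxd hxd
    have hyfix : OrdGE P 1 (conjM L M (y : M) - y) := by
      have h1 : OrdGE P 1 (conjM L M (((x : M) - conjM L M (x : M)) * d⁻¹ - (y : M))) :=
        ordGE_conjM.mpr (by rwa [hs])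
      have e1 : conjM L M (((x : M) - conjM L M (x : M)) * d⁻¹) =
          ((x : M) - conjM L M (x : M)) * d⁻¹ := by
        rw [map_mul, map_inv₀, hd, map_sub, map_sub, conjM_conjM, conjM_conjM,
          show conjM L M (x : M) - x = -((x : M) - conjM L M (x : M)) by ring,
          show conjM L M (ξ : M) - ξ = -((ξ : M) - conjM L M (ξ : M)) by ring, inv_neg,
          neg_mul_neg]
      rw [map_sub, e1] at h1
      convert hy.sub h1 using 1
      ring
    obtain ⟨b, hb⟩ := exists_lift hv hP y fun _ => hyfix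
    have hxb : OrdGE P 1 (conjM L M (((x - algebraMap (𝓞 L) (𝓞 M) b * ξ : 𝓞 M)) : M) -
        ((x - algebraMap (𝓞 L) (𝓞 M) b * ξ : 𝓞 M) : M)) := by
      rw [show (((x - algebraMap (𝓞 L) (𝓞 M) b * ξ : 𝓞 M)) : M) =
        (x : M) - e b * (ξ : M) by rw [coeO_sub, coeO_mul, coeO_algebraMap], map_sub, map_mul,
        AlgEquiv.commutes]
      have h1 : OrdGE P 1 (((x : M) - conjM L M (x : M)) * d⁻¹ - e b) := by
        convert hy.add hb using 1
        ring
      have h2 := (h1.mul hdint).neg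
      rw [sub_mul, mul_assoc, inv_mul_cancel₀ hd0, mul_one] at h2
      convert h2.mono (m := 1) (by norm_num) using 1
      rw [hd]
      ring
    obtain ⟨a, ha⟩ := exists_lift hv hP (x - algebraMap (𝓞 L) (𝓞 M) b * ξ) fun _ => hxb
    refine ⟨(Ideal.Quotient.mk _ a, Ideal.Quotient.mk _ b), ?_⟩
    have hx1 : OrdGE P 1 ((x - rep (Ideal.Quotient.mk _ a, Ideal.Quotient.mk _ b) : 𝓞 M) : M) := by
      rw [coeO_sub, hrep]
      have h3 := ordGE_sub_of_mk_eq hv (R := P) hP (hlft (Ideal.Quotient.mk v.asIdeal a))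
      have h4 := (ordGE_sub_of_mk_eq hv (R := P) hP (hlft (Ideal.Quotient.mk v.asIdeal b))).mul
        (Fermat.Agent.CFT.ordGE_algebraMap ξ)
      rw [add_zero] at h4
      rw [show ((x - algebraMap (𝓞 L) (𝓞 M) b * ξ : 𝓞 M) : M) =
        (x : M) - e b * (ξ : M) by rw [coeO_sub, coeO_mul, coeO_algebraMap]] at ha
      convert ((ha : OrdGE P 1 ((x : M) - e b * (ξ : M) - e a)).sub h3).sub h4 using 1
      simp only [e]
      ring
    exact mem_pairIdeal_iff.mpr ⟨hx1, by rw [hs]; exact hx1⟩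
  · refine ⟨Ideal.Quotient.mk _ (Algebra.intTrace (𝓞 L) (𝓞 M) ξ),
      Ideal.Quotient.mk _ (Algebra.intNorm (𝓞 L) (𝓞 M) ξ), fun a b hab => ?_, fun t => ?_⟩
    rotate_left
    · conv_rhs => rw [← hlft t.1, ← hlft t.2]
      simp only [← map_mul, ← map_add, ← map_pow]
      congr 1
      apply RingOfIntegers.ext
      simp only [coeO_add, coeO_mul, sq, coe_intNorm, coe_intTrace, hrep]
      apply (algebraMap L M).injective
      simp only [map_add, map_mul, ← mul_conjM, ← add_conjM, AlgEquiv.commutes, e]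
      ring
    · have hN : OrdGE P 1 ((e (lft a) + e (lft b) * (ξ : M)) *
          conjM L M (e (lft a) + e (lft b) * (ξ : M))) := by
        have h0 : (lft a) ^ 2 + lft a * lft b * Algebra.intTrace (𝓞 L) (𝓞 M) ξ +
            (lft b) ^ 2 * Algebra.intNorm (𝓞 L) (𝓞 M) ξ ∈ v.asIdeal := by
          rw [← Ideal.Quotient.eq_zero_iff_mem, map_add, map_add, map_mul, map_mul, map_mul,
            map_pow, map_pow, hlft, hlft]
          exact hab
        convert ordGE_lift hv hP h0 using 1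
        simp only [sq, map_add, map_mul, coe_intNorm, coe_intTrace, ← mul_conjM,
          ← add_conjM, AlgEquiv.commutes, e]
        ring
      have hint : OrdGE P 0 (e (lft a) + e (lft b) * (ξ : M)) := by
        have := (he (lft b)).1.mul (Fermat.Agent.CFT.ordGE_algebraMap (v := P) ξ)
        rw [add_zero] at this
        exact (he (lft a)).1.add this
      have hsum : OrdGE P 1 (e (lft a) + e (lft b) * (ξ : M)) := by
        rcases ordGE_one_or_of_mul hN hint (ordGE_conjM.mpr (by rwa [hs])) with h | h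
        · exact h
        · have := ordGE_conjM.mp h
          rwa [hs] at this
      obtain ⟨h1, h2⟩ := hinj0 _ _ hsum
      exact ⟨hzero a h1, hzero b h2⟩

/-- Residue coordinates above a split place: the two idempotents of the residue ring. -/
theorem nonempty_resCoord_split {v : FPlace L} (hv : Unram M v) {P : FPlace M}
    (hP : below L P = v) (hs : tauP L P ≠ P) : Nonempty (ResCoord M v P) := by
  classical
  let lft : 𝓞 L ⧸ v.asIdeal → 𝓞 L := Function.surjInv Ideal.Quotient.mk_surjective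
  have hlft : ∀ r, Ideal.Quotient.mk v.asIdeal (lft r) = r := fun r =>
    Function.surjInv_eq Ideal.Quotient.mk_surjective r
  let e : 𝓞 L → M := fun a => algebraMap L M (a : L)
  have he : ∀ a, OrdGE P 0 (e a) ∧ OrdGE (tauP L P) 0 (e a) := fun a =>
    ⟨ordGE_coe_base P a, ordGE_coe_base _ a⟩
  have hPT : below L (tauP L P) = v := by rw [below_tauP, hP]
  have hsp : SplitAt M v := fun Q hQ h => by
    rcases eq_or_eq_tauP (hQ.trans hP.symm) with rfl | rfl
    · exact hs h
    · exact hs (by rwa [tauP_tauP, eq_comm] at h)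
  obtain ⟨η, hη, hηT⟩ := exists_trace_one hv hP
  have hηT := hηT hs
  have hηP : OrdGE P 1 ((η : M) - 1) := by
    have h1 := Fermat.Agent.CFT.ordGE_baseU P (hP.symm ▸ hη)
    rw [hv P hP, Nat.cast_one, one_mul, map_sub, map_one, ← add_conjM] at h1
    convert h1.sub (ordGE_conjM.mpr hηT) using 1
    ring
  let rep : (𝓞 L ⧸ v.asIdeal) × (𝓞 L ⧸ v.asIdeal) → 𝓞 M := fun t =>
    algebraMap (𝓞 L) (𝓞 M) (lft t.1) * η + algebraMap (𝓞 L) (𝓞 M) (lft t.2) * (1 - η)
  have hrep : ∀ t, (rep t : M) = e (lft t.1) * (η : M) + e (lft t.2) * (1 - (η : M)) := fun t => by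
    simp only [rep, coeO_add, coeO_mul, coeO_sub, coeO_one, coeO_algebraMap]; rfl
  have hat : ∀ t, OrdGE P 1 ((rep t : M) - e (lft t.1)) ∧
      OrdGE (tauP L P) 1 ((rep t : M) - e (lft t.2)) := by
    intro t
    rw [hrep]
    constructor
    · convert (((he (lft t.1)).1.sub (he (lft t.2)).1).mul hηP).mono (zero_add (1 : ℤ)).ge using 1
      ring
    · convert (((he (lft t.1)).2.sub (he (lft t.2)).2).mul hηT).mono (zero_add (1 : ℤ)).ge using 1
      ring
  refine ⟨⟨rep, fun s t h => ?_, fun x => ?_, Or.inl ⟨hsp, fun t => ?_⟩⟩⟩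
  · rw [mem_pairIdeal_iff, coeO_sub] at h
    refine Prod.ext ?_ ?_
    · rw [← hlft s.1, ← hlft t.1]
      refine mk_eq_mk_of_ordGE hP _ _ ?_
      convert (h.1.sub (hat s).1).add (hat t).1 using 1
      simp only [e]
      ring
    · rw [← hlft s.2, ← hlft t.2]
      refine mk_eq_mk_of_ordGE hPT _ _ ?_
      convert (h.2.sub (hat s).2).add (hat t).2 using 1
      simp only [e]
      ring
  · obtain ⟨a, ha⟩ := exists_lift hv hP x fun h => absurd h hs
    obtain ⟨b, hb⟩ := exists_lift hv hPT x fun h => absurd (by rwa [tauP_tauP, eq_comm] at h) hs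
    refine ⟨(Ideal.Quotient.mk _ a, Ideal.Quotient.mk _ b), mem_pairIdeal_iff.mpr ⟨?_, ?_⟩⟩
    · rw [coeO_sub]
      have h3 := ordGE_sub_of_mk_eq hv (R := P) hP (hlft (Ideal.Quotient.mk v.asIdeal a))
      convert ((ha : OrdGE P 1 ((x : M) - e a)).sub h3).sub
        (hat (Ideal.Quotient.mk _ a, Ideal.Quotient.mk _ b)).1 using 1
      simp only
      ring
    · rw [coeO_sub]
      have h3 := ordGE_sub_of_mk_eq hv (R := tauP L P) hPT (hlft (Ideal.Quotient.mk v.asIdeal b))
      convert ((hb : OrdGE (tauP L P) 1 ((x : M) - e b)).sub h3).sub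
        (hat (Ideal.Quotient.mk _ a, Ideal.Quotient.mk _ b)).2 using 1
      simp only
      ring
  · conv_rhs => rw [← hlft t.1, ← hlft t.2, ← map_mul]
    refine mk_eq_mk_of_ordGE hP _ _ ?_
    rw [coe_intNorm, ← mul_conjM, coeO_mul, map_mul]
    have h1 := (hat t).1
    have h2 : OrdGE P 1 (conjM L M (rep t : M) - e (lft t.2)) := by
      have := ordGE_conjM (L := L) (P := P) (x := (rep t : M) - e (lft t.2)) |>.mpr (hat t).2
      rwa [map_sub, AlgEquiv.commutes] at this
    have hi : OrdGE P 0 (conjM L M (rep t : M)) :=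
      ordGE_conjM.mpr (Fermat.Agent.CFT.ordGE_algebraMap (rep t))
    convert ((h1.mul hi).mono (m := 1) (by norm_num)).add
      (((he (lft t.1)).1.mul h2).mono (m := 1) (by norm_num)) using 1
    simp only [e]
    ring

/-- Residue coordinates exist at every unramified place. -/
theorem nonempty_resCoord {v : FPlace L} (hv : Unram M v) {P : FPlace M} (hP : below L P = v) :
    Nonempty (ResCoord M v P) :=
  (em (tauP L P = P)).elim (nonempty_resCoord_inert hv hP) (nonempty_resCoord_split hv hP)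

omit [Field M] [NumberField M] [Algebra L M] [Algebra.IsQuadraticExtension L M] in
/-- With poles bounded by `cond` and one extra at `v`, `e(l' x)` is trivial on the ideal of `v`. -/
theorem traceExp_mul_of_mem {v : FPlace L} {l' : L}
    (hle : ∀ w : FPlace L, OrdGE w (-cond w - Finsupp.single v (1 : ℤ) w) l') {x : 𝓞 L}
    (hx : x ∈ v.asIdeal) : traceExp (l' * (x : L)) = 1 := by
  classical
  refine traceExp_eq_one fun w => ?_
  by_cases hw : w = v
  · subst hw
    exact ((hle w).mul ((ordGE_one_iff_mem w _).mpr hx)).mono (by simp)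
  · refine ((hle w).mul (Fermat.Agent.CFT.ordGE_algebraMap _)).mono ?_
    rw [Finsupp.single_eq_of_ne hw]
    omega

omit [Field M] [NumberField M] [Algebra L M] [Algebra.IsQuadraticExtension L M] in
/-- If moreover the pole at `v` is exact, `e(l' x)` is a nontrivial character modulo `v`. -/
theorem exists_addChar_traceExp {v : FPlace L} {l' : L}
    (hle : ∀ w : FPlace L, OrdGE w (-cond w - Finsupp.single v (1 : ℤ) w) l')
    (hex : ¬ OrdGE v (-cond v) l') :
    ∃ χ : AddChar (𝓞 L ⧸ v.asIdeal) ℂ, χ ≠ 1 ∧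
      ∀ s : 𝓞 L, traceExp (l' * (s : L)) = χ (Ideal.Quotient.mk v.asIdeal s) := by
  classical
  let lft : 𝓞 L ⧸ v.asIdeal → 𝓞 L := Function.surjInv Ideal.Quotient.mk_surjective
  have hlft : ∀ r, Ideal.Quotient.mk v.asIdeal (lft r) = r := fun r =>
    Function.surjInv_eq Ideal.Quotient.mk_surjective r
  have hcongr : ∀ a b : 𝓞 L, Ideal.Quotient.mk v.asIdeal a = Ideal.Quotient.mk v.asIdeal b →
      traceExp (l' * (a : L)) = traceExp (l' * (b : L)) := fun a b h => by
    rw [show l' * (a : L) = l' * (b : L) + l' * ((a - b : 𝓞 L) : L) by rw [coeO_sub]; ring,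
      traceExp_add, traceExp_mul_of_mem hle (Ideal.Quotient.eq.mp h), mul_one]
  let χ : AddChar (𝓞 L ⧸ v.asIdeal) ℂ :=
    { toFun := fun r => traceExp (l' * (lft r : L))
      map_zero_eq_one' :=
        traceExp_mul_of_mem hle (Ideal.Quotient.eq_zero_iff_mem.mp (hlft 0))
      map_add_eq_mul' := fun r s => by
        rw [← traceExp_add, ← mul_add, ← coeO_add]
        exact hcongr _ _ (by rw [map_add, hlft, hlft, hlft]) }
  have hχ : ∀ s : 𝓞 L, traceExp (l' * (s : L)) = χ (Ideal.Quotient.mk v.asIdeal s) := fun s =>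
    hcongr _ _ (hlft _).symm
  refine ⟨χ, fun hc => ?_, hχ⟩
  have hl0 : l' ≠ 0 := fun h0 => hex (by rw [h0]; exact Fermat.Agent.CFT.ordGE_zero _)
  set lu := Units.mk0 l' hl0
  have hlv : ord v lu = -cond v - 1 := by
    have h1 := (Fermat.Agent.CFT.ordGE_iff v lu _).mp (hle v)
    have h2 : ¬ (-cond v ≤ ord v lu) := fun h =>
      hex ((Fermat.Agent.CFT.ordGE_iff v lu _).mpr h)
    simp at h1
    omega
  obtain ⟨a, ha, hao, hne⟩ := exists_traceExp_ne_one v
    (Finsupp.mapRange Int.toNat rfl (divisor lu))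
  have hs : ∀ w : FPlace L, w.valuation L (a * l'⁻¹) ≤ 1 := by
    intro w
    have hlinv : OrdGE w (-ord w lu) ((lu⁻¹ : Lˣ) : L) := by
      rw [Fermat.Agent.CFT.ordGE_iff, Fermat.Agent.CFT.ord_inv]
    have hgoal : OrdGE w 0 (a * ((lu⁻¹ : Lˣ) : L)) := by
      by_cases hw : w = v
      · subst hw
        exact (ha.mul hlinv).mono (by omega)
      · refine ((hao w hw).mul hlinv).mono ?_
        rw [Finsupp.mapRange_apply, divisor_apply]
        omega
    simpa [OrdGE, lu] using hgoal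
  obtain ⟨s, hs'⟩ := HeightOneSpectrum.mem_integers_of_valuation_le_one L _ hs
  refine hne ?_
  have e : a = l' * (s : L) := by
    rw [show (s : L) = a * l'⁻¹ from hs', mul_comm a, ← mul_assoc, mul_inv_cancel₀ hl0, one_mul]
  rw [e, hχ, hc, AddChar.one_apply]

/-- The Gauss sum at one unramified place is `± N v`, on a quotient of order `(N v) ^ 2`. -/
theorem gaussSum_single {v : FPlace L} (hv : Unram M v) (l : L) (ω : FPlace M →₀ ℤ)
    (h : GaussRel l (Finsupp.single v 1) ω) :
    gaussSum l (Finsupp.single v 1) ω = vSign M v * (Ideal.absNorm v.asIdeal : ℂ) ∧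
      (Lat (ω + pullD M (Finsupp.single v 1))).relIndex (Lat ω) =
        Ideal.absNorm v.asIdeal ^ 2 := by
  classical
  have := v.isMaximal
  let := Ideal.Quotient.field v.asIdeal
  have : Finite (𝓞 L ⧸ v.asIdeal) := by
    have := Fermat.Agent.CFT.finite_quot v 1
    rwa [pow_one] at this
  let := Fintype.ofFinite (𝓞 L ⧸ v.asIdeal)
  obtain ⟨P, hP⟩ := Fermat.Agent.CFT.exists_below_eq (L := M) v
  obtain ⟨C⟩ := nonempty_resCoord hv hP
  obtain ⟨u, hu, huo⟩ := exists_unit_ord_eq_on ω {P, tauP L P}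
  have huP := huo P (by simp)
  have huT := huo (tauP L P) (by simp)
  have hω : ∀ Q : FPlace M, (ω + pullD M (Finsupp.single v 1)) Q =
      ω Q + if Q = P ∨ Q = tauP L P then 1 else 0 := by
    intro Q
    rw [Finsupp.add_apply, pullD_apply, Finsupp.single_apply]
    by_cases hQ : Q = P ∨ Q = tauP L P
    · have hb : below L Q = v := by rcases hQ with rfl | rfl <;> simp [below_tauP, hP]
      rw [if_pos hb.symm, if_pos hQ, hv Q hb]; simp
    · rw [if_neg hQ, if_neg fun hb => hQ (eq_or_eq_tauP (hb.symm.trans hP.symm)), mul_zero]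
  let g : (𝓞 L ⧸ v.asIdeal) × (𝓞 L ⧸ v.asIdeal) → Lat ω :=
    fun t => ⟨(C.rep t : M) * u, smul_mem_Lat hu _⟩
  have hinv : ∀ R : FPlace M, R = P ∨ R = tauP L P → OrdGE R (-ω R) ((u⁻¹ : Mˣ) : M) := by
    intro R hR
    rw [Fermat.Agent.CFT.ordGE_iff, Fermat.Agent.CFT.ord_inv]
    rcases hR with rfl | rfl
    · rw [huP]
    · rw [huT]
  have hginj : ∀ s t, (g s : M) - g t ∈ Lat (ω + pullD M (Finsupp.single v 1)) → s = t := by
    intro s t hst
    refine C.inj s t (mem_pairIdeal_iff.mpr ?_)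
    have key : ∀ R : FPlace M, R = P ∨ R = tauP L P →
        OrdGE R 1 (((C.rep s - C.rep t : 𝓞 M)) : M) := by
      intro R hR
      have h1 := hst R
      rw [hω, if_pos hR] at h1
      have h2 := (h1.mul (hinv R hR)).mono (m := 1) (by omega)
      convert h2 using 1
      simp only [g, coeO_sub]
      rw [← sub_mul, mul_assoc, Units.mul_inv, mul_one]
    exact ⟨key P (Or.inl rfl), key _ (Or.inr rfl)⟩
  have hgsurj : ∀ x : Lat ω, ∃ t, (x : M) - g t ∈ Lat (ω + pullD M (Finsupp.single v 1)) := by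
    intro x
    have hq : ∀ R : FPlace M, R = P ∨ R = tauP L P → OrdGE R 0 ((x : M) * ((u⁻¹ : Mˣ) : M)) :=
      fun R hR => ((x.2 R).mul (hinv R hR)).mono (by omega)
    obtain ⟨o, hoP, hoT⟩ :=
      exists_simul_approx P (tauP L P) (hq P (Or.inl rfl)) (hq _ (Or.inr rfl))
    obtain ⟨t, ht⟩ := C.surj o
    rw [mem_pairIdeal_iff, coeO_sub] at ht
    refine ⟨t, fun R => ?_⟩
    rw [hω]
    by_cases hR : R = P ∨ R = tauP L P
    · rw [if_pos hR]
      have h1 : OrdGE R 1 ((x : M) * ((u⁻¹ : Mˣ) : M) - (C.rep t : M)) := by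
        rcases hR with rfl | rfl
        · convert hoP.add ht.1 using 1; ring
        · convert hoT.add ht.2 using 1; ring
      convert (h1.mul (hu R)).mono (m := ω R + 1) (by omega) using 1
      simp only [g]
      rw [sub_mul, mul_assoc, Units.inv_mul, mul_one]
    · rw [if_neg hR, add_zero]
      exact sub_mem x.2 (g t).2 R
  refine ⟨?_, ?_⟩
  swap
  · rw [card_quot_eq g hginj hgsurj, Fintype.card_prod, ← Nat.card_eq_fintype_card,
      Ideal.absNorm_apply, Submodule.cardQuot_apply, sq]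
  rw [gaussSum, qsum_eq_sum g hginj hgsurj fun x hx a ha => gTerm_periodic h hx ha]
  set l' : L := l * Algebra.norm L (u : M) with hl'
  have hterm : ∀ t, gTerm l (g t : M) =
      traceExp (l' * ((Algebra.intNorm (𝓞 L) (𝓞 M) (C.rep t) : 𝓞 L) : L)) := fun t => by
    rw [gTerm, coe_intNorm, hl']
    simp only [g, map_mul]
    rw [mul_comm (Algebra.norm L (C.rep t : M)), mul_assoc]
  have hu_norm : ∀ Q : FPlace M, OrdGE Q (ω Q + ω (tauP L Q))
      (algebraMap L M (Algebra.norm L (u : M))) := fun Q => by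
    rw [← mul_conjM]
    exact (hu Q).mul (ordGE_conjM.mpr (hu (tauP L Q)))
  have hl'le : ∀ w : FPlace L, OrdGE w (-cond w - Finsupp.single v (1 : ℤ) w) l' := by
    intro w
    obtain ⟨Q, rfl⟩ := Fermat.Agent.CFT.exists_below_eq (L := M) w
    refine ordGE_of_algebraMap ?_
    rw [hl', map_mul]
    refine ((h.le Q).mul (hu_norm Q)).mono ?_
    simp only [gBound]
    ring_nf
    rfl
  have hl'ex : ¬ OrdGE v (-cond v) l' := by
    intro h1
    have h2 := Fermat.Agent.CFT.ordGE_baseU P (hP.symm ▸ h1)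
    rw [hv P hP, Nat.cast_one, one_mul, hP, hl', map_mul, ← mul_conjM] at h2
    refine h.exact_at P (by rw [hP]; simp) ?_
    have hN : OrdGE P (-ω P - ω (tauP L P))
        ((((u : Mˣ)⁻¹ : Mˣ) : M) * conjM L M ((u⁻¹ : Mˣ) : M)) :=
      ((hinv P (Or.inl rfl)).mul (ordGE_conjM.mpr (hinv _ (Or.inr rfl)))).mono (by omega)
    have h3 := h2.mul hN
    refine (show OrdGE P _ (algebraMap L M l) from ?_).mono
      (show gBound (Finsupp.single v 1) ω P + 1 ≤ -cond v + (-ω P - ω (tauP L P)) by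
        simp only [gBound, hP, hv P hP]; simp; omega)
    have e : (u : M) * conjM L M (u : M) * (((u⁻¹ : Mˣ) : M) * conjM L M ((u⁻¹ : Mˣ) : M)) = 1 := by
      rw [mul_mul_mul_comm, Units.mul_inv, ← map_mul, Units.mul_inv, map_one, mul_one]
    rw [mul_assoc, e, mul_one] at h3
    exact h3
  obtain ⟨χ, hχ1, hχ⟩ := exists_addChar_traceExp hl'le hl'ex
  simp only [hterm, hχ]
  rcases C.form with ⟨hsp, hform⟩ | ⟨hns, T, n, haniso, hform⟩
  · simp only [hform]
    rw [sum_char_hyperbolic χ hχ1, vSign, if_pos hsp, one_mul, ← Nat.card_eq_fintype_card,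
      Ideal.absNorm_apply, Submodule.cardQuot_apply]
  · simp only [hform]
    rw [sum_char_aniso χ hχ1 T n haniso, vSign, if_neg hns, neg_one_mul, ← Nat.card_eq_fintype_card,
      Ideal.absNorm_apply, Submodule.cardQuot_apply]

end Fermat.Agent.ResidualThree.ThetaInduction
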