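import Mathlib

/-!
# Finite sums over quotients of subgroups, and binary Gauss sums over a finite field

`qsum B C f` is the sum of a `C`-periodic function over `B/C`: it is invariant under translation,
multiplicative for product decompositions, and vanishes for nontrivial characters.  Over a finite
field, the sum of a nontrivial character over a binary form is `q` for a hyperbolic form and `-q`
for an anisotropic one.  These feed the Gauss sums in the transformation law of theta sums.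
-/

noncomputable section

open scoped BigOperators

namespace Fermat.Agent.ResidualThree.ThetaInduction

variable {A : Type*} [AddCommGroup A]

/-- The sum of a function over `B` modulo `C`. -/
def qsum (B C : AddSubgroup A) (f : A → ℂ) : ℂ :=
  ∑ᶠ q : B ⧸ C.addSubgroupOf B, f (q.out : A)

theorem finite_of_relIndex {B C : AddSubgroup A} (h : C.relIndex B ≠ 0) :
    Finite (B ⧸ C.addSubgroupOf B) :=
  Nat.finite_of_card_ne_zero h

theorem qmk_eq_iff {B C : AddSubgroup A} (x y : B) :
    (QuotientAddGroup.mk x : B ⧸ C.addSubgroupOf B) = QuotientAddGroup.mk y ↔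
      (y : A) - x ∈ C := by
  rw [QuotientAddGroup.eq, AddSubgroup.mem_addSubgroupOf]
  simp [neg_add_eq_sub]

theorem out_sub_mem {B C : AddSubgroup A} (x : B) :
    (x : A) - ((QuotientAddGroup.mk x : B ⧸ C.addSubgroupOf B).out : A) ∈ C :=
  (qmk_eq_iff _ _).mp (QuotientAddGroup.out_eq' _)

/-- A system of representatives maps bijectively onto the quotient. -/
theorem bijective_mk_of_reps {B C : AddSubgroup A} {T : Type*} (g : T → B)
    (hinj : ∀ s t, (g s : A) - g t ∈ C → s = t) (hsurj : ∀ x : B, ∃ t, (x : A) - g t ∈ C) :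
    Function.Bijective fun t => (QuotientAddGroup.mk (g t) : B ⧸ C.addSubgroupOf B) := by
  refine ⟨fun s t h => (hinj t s ((qmk_eq_iff _ _).mp h)).symm, fun q => ?_⟩
  obtain ⟨t, ht⟩ := hsurj q.out
  exact ⟨t, ((qmk_eq_iff _ _).mpr ht).trans (QuotientAddGroup.out_eq' q)⟩

/-- A sum over a system of representatives. -/
theorem qsum_eq_sum {B C : AddSubgroup A} {T : Type*} [Fintype T] (g : T → B)
    (hinj : ∀ s t, (g s : A) - g t ∈ C → s = t) (hsurj : ∀ x : B, ∃ t, (x : A) - g t ∈ C)
    {f : A → ℂ} (hper : ∀ x ∈ B, ∀ c ∈ C, f (x + c) = f x) :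
    qsum B C f = ∑ t, f (g t : A) := by
  have hbij := bijective_mk_of_reps g hinj hsurj
  rw [qsum, ← (finsum_comp_equiv (Equiv.ofBijective _ hbij)), finsum_eq_sum_of_fintype]
  refine Finset.sum_congr rfl fun t _ => ?_
  set q : B ⧸ C.addSubgroupOf B := QuotientAddGroup.mk (g t)
  have h : (g t : A) - (q.out : A) ∈ C := out_sub_mem (g t)
  show f (q.out : A) = _
  conv_rhs => rw [show (g t : A) = (q.out : A) + ((g t : A) - q.out) by abel]
  rw [hper _ q.out.2 _ h]

/-- The relative index is the number of representatives. -/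
theorem card_quot_eq {B C : AddSubgroup A} {T : Type*} [Fintype T] (g : T → B)
    (hinj : ∀ s t, (g s : A) - g t ∈ C → s = t) (hsurj : ∀ x : B, ∃ t, (x : A) - g t ∈ C) :
    C.relIndex B = Fintype.card T := by
  have hbij := bijective_mk_of_reps g hinj hsurj
  rw [AddSubgroup.relIndex, AddSubgroup.index_eq_card, ← Nat.card_eq_fintype_card]
  exact (Nat.card_congr (Equiv.ofBijective _ hbij)).symm

theorem qsum_congr {B C : AddSubgroup A} {f f' : A → ℂ} (h : ∀ x ∈ B, f x = f' x) :
    qsum B C f = qsum B C f' :=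
  finsum_congr fun q => h _ q.out.2

/-- The sum is invariant under translation by an element of `B`. -/
theorem qsum_translate {B C : AddSubgroup A} {f : A → ℂ}
    (hper : ∀ x ∈ B, ∀ c ∈ C, f (x + c) = f x) {a : A} (ha : a ∈ B) :
    qsum B C (fun x => f (x + a)) = qsum B C f := by
  let e : B ⧸ C.addSubgroupOf B ≃ B ⧸ C.addSubgroupOf B :=
    Equiv.addRight (QuotientAddGroup.mk ⟨a, ha⟩)
  conv_rhs => rw [qsum, ← finsum_comp_equiv e]
  refine finsum_congr fun q => ?_
  have he : e q = QuotientAddGroup.mk (q.out + ⟨a, ha⟩) := by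
    simp [e]
  rw [he]
  have h : ((q.out : A) + a) -
      ((QuotientAddGroup.mk (q.out + ⟨a, ha⟩) : B ⧸ C.addSubgroupOf B).out : A) ∈ C :=
    out_sub_mem (q.out + ⟨a, ha⟩)
  set r : B ⧸ C.addSubgroupOf B := QuotientAddGroup.mk (q.out + ⟨a, ha⟩)
  show f ((q.out : A) + a) = f (r.out : A)
  conv_lhs => rw [show (q.out : A) + a = (r.out : A) + (((q.out : A) + a) - r.out) by abel]
  rw [hper _ r.out.2 _ h]

/-- A nontrivial character sums to zero. -/
theorem qsum_char_eq_zero {B C : AddSubgroup A} {χ : A → ℂ}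
    (hadd : ∀ x ∈ B, ∀ y ∈ B, χ (x + y) = χ x * χ y) (htriv : ∀ c ∈ C, χ c = 1)
    {a : A} (ha : a ∈ B) (hne : χ a ≠ 1) (hCB : C ≤ B) : qsum B C χ = 0 := by
  have h := qsum_translate (f := χ) (fun x hx c hc => by rw [hadd x hx c (hCB hc), htriv c hc,
    mul_one]) ha
  rw [qsum_congr (f' := fun x => χ a * χ x) (fun x hx => by rw [hadd x hx a ha, mul_comm]),
    qsum, ← mul_finsum] at h
  change χ a * qsum B C χ = qsum B C χ at h
  by_contra h0
  exact hne ((mul_eq_right₀ h0).mp h)

/-- Refinement of the modulus. -/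
theorem qsum_refine {B C C' : AddSubgroup A} (hC' : C' ≤ C) (hC : C ≤ B)
    (h1 : C.relIndex B ≠ 0) (h2 : C'.relIndex C ≠ 0) {f : A → ℂ}
    (hper : ∀ x ∈ B, ∀ c ∈ C, f (x + c) = f x) :
    qsum B C' f = (C'.relIndex C : ℂ) * qsum B C f := by
  have := finite_of_relIndex h1
  have := finite_of_relIndex h2
  let := Fintype.ofFinite (B ⧸ C.addSubgroupOf B)
  let := Fintype.ofFinite (C ⧸ C'.addSubgroupOf C)
  let g : (B ⧸ C.addSubgroupOf B) × (C ⧸ C'.addSubgroupOf C) → B :=
    fun p => ⟨(p.1.out : A) + (p.2.out : A), add_mem p.1.out.2 (hC p.2.out.2)⟩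
  rw [qsum_eq_sum g ?_ ?_ fun x hx c hc => hper x hx c (hC' hc), Fintype.sum_prod_type]
  · simp only [g]
    rw [qsum, finsum_eq_sum_of_fintype, Finset.mul_sum]
    refine Finset.sum_congr rfl fun q _ => ?_
    rw [Finset.sum_congr rfl fun r _ => hper (q.out : A) q.out.2 (r.out : A) r.out.2]
    simp [AddSubgroup.relIndex, AddSubgroup.index_eq_card, Nat.card_eq_fintype_card]
  · rintro ⟨q, r⟩ ⟨q', r'⟩ h
    change ((q.out : A) + r.out) - ((q'.out : A) + r'.out) ∈ C' at h
    have hq : q = q' := by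
      rw [← QuotientAddGroup.out_eq' q, ← QuotientAddGroup.out_eq' q', qmk_eq_iff]
      have := sub_mem (sub_mem (r.out.2) (r'.out.2)) (hC' h)
      convert this using 1
      abel
    subst hq
    refine Prod.ext rfl ?_
    rw [← QuotientAddGroup.out_eq' r, ← QuotientAddGroup.out_eq' r', qmk_eq_iff]
    convert neg_mem h using 1
    abel
  · intro x
    let q : B ⧸ C.addSubgroupOf B := QuotientAddGroup.mk x
    have h := out_sub_mem (C := C) x
    let r : C ⧸ C'.addSubgroupOf C := QuotientAddGroup.mk ⟨_, h⟩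
    refine ⟨(q, r), ?_⟩
    convert out_sub_mem (C := C') (⟨_, h⟩ : C) using 1
    simp only [g, q, r]
    abel

/-- The sum of a function supported on a smaller subgroup. -/
theorem qsum_of_support {B B' C : AddSubgroup A} (hB : B' ≤ B) {f : A → ℂ}
    (hper : ∀ x ∈ B, ∀ c ∈ C, f (x + c) = f x) (hsupp : ∀ x ∈ B, x ∉ B' → f x = 0) :
    qsum B C f = qsum B' C f := by
  let i : B' ⧸ C.addSubgroupOf B' → B ⧸ C.addSubgroupOf B :=
    fun q => QuotientAddGroup.mk ⟨(q.out : A), hB q.out.2⟩
  have hi : Function.Injective i := by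
    intro q q' h
    rw [← QuotientAddGroup.out_eq' q, ← QuotientAddGroup.out_eq' q', qmk_eq_iff]
    exact (qmk_eq_iff (B := B) (C := C) ⟨_, hB q.out.2⟩ ⟨_, hB q'.out.2⟩).mp h
  rw [qsum, qsum, ← finsum_mem_univ (fun q : B ⧸ C.addSubgroupOf B => f (q.out : A)),
    finsum_mem_inter_support_eq _ Set.univ (Set.range i) ?_, finsum_mem_range hi]
  · refine finsum_congr fun q => ?_
    have h : (q.out : A) - ((i q).out : A) ∈ C := out_sub_mem (⟨(q.out : A), hB q.out.2⟩ : B)
    conv_rhs => rw [show (q.out : A) = ((i q).out : A) + ((q.out : A) - (i q).out) by abel]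
    rw [hper _ (i q).out.2 _ h]
  · ext q
    simp only [Set.mem_inter_iff, Set.mem_univ, true_and, Function.mem_support, Set.mem_range]
    refine ⟨fun hq => ⟨?_, hq⟩, fun h => h.2⟩
    have hmem : (q.out : A) ∈ B' := by_contra fun h => hq (hsupp _ q.out.2 h)
    refine ⟨QuotientAddGroup.mk ⟨_, hmem⟩, ?_⟩
    conv_rhs => rw [← QuotientAddGroup.out_eq' q]
    exact (qmk_eq_iff _ _).mpr (out_sub_mem (⟨_, hmem⟩ : B'))

/-- The sum is multiplicative for a product decomposition. -/
theorem qsum_prod {B B₁ B₂ C : AddSubgroup A} (h₁ : B₁ ≤ B) (h₂ : B₂ ≤ B)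
    (hC₂ : C ≤ B₂) (hinter : B₁ ⊓ B₂ ≤ C) (hsum : ∀ x ∈ B, ∃ y ∈ B₁, ∃ z ∈ B₂, x = y + z)
    (hf₁ : C.relIndex B₁ ≠ 0) (hf₂ : C.relIndex B₂ ≠ 0) {f f₁ f₂ : A → ℂ}
    (hper : ∀ x ∈ B, ∀ c ∈ C, f (x + c) = f x)
    (hmul : ∀ y ∈ B₁, ∀ z ∈ B₂, f (y + z) = f₁ y * f₂ z) :
    qsum B C f = qsum B₁ C f₁ * qsum B₂ C f₂ := by
  have := finite_of_relIndex hf₁
  have := finite_of_relIndex hf₂
  let := Fintype.ofFinite (B₁ ⧸ C.addSubgroupOf B₁)
  let := Fintype.ofFinite (B₂ ⧸ C.addSubgroupOf B₂)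
  let g : (B₁ ⧸ C.addSubgroupOf B₁) × (B₂ ⧸ C.addSubgroupOf B₂) → B :=
    fun p => ⟨(p.1.out : A) + (p.2.out : A), add_mem (h₁ p.1.out.2) (h₂ p.2.out.2)⟩
  rw [qsum_eq_sum g ?_ ?_ hper, Fintype.sum_prod_type, qsum, qsum, finsum_eq_sum_of_fintype,
    finsum_eq_sum_of_fintype, Finset.sum_mul_sum]
  · exact Finset.sum_congr rfl fun q _ => Finset.sum_congr rfl fun r _ =>
      hmul _ q.out.2 _ r.out.2
  · rintro ⟨q, r⟩ ⟨q', r'⟩ h
    change ((q.out : A) + r.out) - ((q'.out : A) + r'.out) ∈ C at h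
    have hy : (q'.out : A) - q.out ∈ C := by
      refine hinter (AddSubgroup.mem_inf.mpr ⟨sub_mem q'.out.2 q.out.2, ?_⟩)
      have := sub_mem (sub_mem r.out.2 r'.out.2) (hC₂ h)
      convert this using 1
      abel
    refine Prod.ext ?_ ?_
    · rw [← QuotientAddGroup.out_eq' q, ← QuotientAddGroup.out_eq' q', qmk_eq_iff]
      exact hy
    · rw [← QuotientAddGroup.out_eq' r, ← QuotientAddGroup.out_eq' r', qmk_eq_iff]
      convert sub_mem (neg_mem h) hy using 1
      abel
  · intro x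
    obtain ⟨y, hy, z, hz, hx⟩ := hsum x x.2
    refine ⟨(QuotientAddGroup.mk ⟨y, hy⟩, QuotientAddGroup.mk ⟨z, hz⟩), ?_⟩
    convert add_mem (out_sub_mem (C := C) (⟨y, hy⟩ : B₁)) (out_sub_mem (C := C) (⟨z, hz⟩ : B₂))
      using 1
    simp only [g, hx]
    abel

/-! ### Binary forms over a finite field -/

variable {k : Type*} [Field k] [Fintype k]

/-- A character sum over the hyperbolic plane equals `q`. -/
theorem sum_char_hyperbolic (χ : AddChar k ℂ) (hχ : χ ≠ 1) :
    ∑ p : k × k, χ (p.1 * p.2) = (Fintype.card k : ℂ) := by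
  classical
  rw [Fintype.sum_prod_type]
  have h : ∀ a : k, ∑ b : k, χ (a * b) = if a = 0 then (Fintype.card k : ℂ) else 0 := by
    intro a
    split_ifs with ha
    · simp [ha]
    · exact (AddChar.sum_eq_zero_iff_ne_zero (ψ := χ.mulShift a)).mpr
        (AddChar.IsPrimitive.of_ne_one hχ ha)
  simp only [h, Finset.sum_ite_eq', Finset.mem_univ, if_true]

/-- A binary form without nontrivial zeros takes all values. -/
theorem exists_binForm_eq (T n : k)
    (haniso : ∀ a b : k, a ^ 2 + a * b * T + b ^ 2 * n = 0 → a = 0 ∧ b = 0) (s : k) :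
    ∃ a b : k, a ^ 2 + a * b * T + b ^ 2 * n = s := by
  rcases eq_or_ne (ringChar k) 2 with h2 | h2
  · obtain ⟨a, ha⟩ := FiniteField.isSquare_of_char_two h2 s
    exact ⟨a, 0, by rw [ha]; ring⟩
  · have hodd : Fintype.card k % 2 = 1 := FiniteField.odd_card_of_char_ne_two h2
    have h20 : (2 : k) ≠ 0 := Ring.two_ne_zero h2
    have hd : n - T ^ 2 / 4 ≠ 0 := fun h => by
      have h' : (-T / 2) ^ 2 + -T / 2 * 1 * T + 1 ^ 2 * n = 0 := by
        rw [← h, show (4 : k) = 2 * 2 by norm_num]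
        field_simp
        ring
      have := (haniso (-T / 2) 1 h').2
      exact one_ne_zero this
    obtain ⟨a, b, hab⟩ := FiniteField.exists_root_sum_quadratic
      (f := (Polynomial.X ^ 2 - Polynomial.C s : Polynomial k))
      (g := (Polynomial.C (n - T ^ 2 / 4) * Polynomial.X ^ 2 : Polynomial k))
      (Polynomial.degree_X_pow_sub_C two_pos s)
      (by rw [Polynomial.degree_C_mul_X_pow 2 hd]; rfl) hodd
    simp only [Polynomial.eval_sub, Polynomial.eval_pow, Polynomial.eval_X, Polynomial.eval_C,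
      Polynomial.eval_mul] at hab
    refine ⟨a - b * T / 2, b, ?_⟩
    have h4 : (4 : k) ≠ 0 := by
      rw [show (4 : k) = 2 * 2 by norm_num]; exact mul_ne_zero h20 h20
    field_simp at hab ⊢
    linear_combination hab

/-- A character sum over an anisotropic binary form equals `-q`. -/
theorem sum_char_aniso (χ : AddChar k ℂ) (hχ : χ ≠ 1) (T n : k)
    (haniso : ∀ a b : k, a ^ 2 + a * b * T + b ^ 2 * n = 0 → a = 0 ∧ b = 0) :
    ∑ p : k × k, χ (p.1 ^ 2 + p.1 * p.2 * T + p.2 ^ 2 * n) = -(Fintype.card k : ℂ) := by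
  classical
  set Q : k × k → k := fun p => p.1 ^ 2 + p.1 * p.2 * T + p.2 ^ 2 * n with hQ
  set G : k → ℂ := fun s => ∑ p : k × k, χ (s * Q p) with hG
  have hscale : ∀ s : k, s ≠ 0 → G s = G 1 := by
    intro s hs
    obtain ⟨c, d, hcd⟩ := exists_binForm_eq T n haniso s
    let m : k × k → k × k := fun p => (c * p.1 - n * d * p.2, c * p.2 + d * p.1 + T * d * p.2)
    have hm : ∀ p, Q (m p) = s * Q p := fun p => by simp only [hQ, m, ← hcd]; ring
    have hinj : Function.Injective m := by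
      intro p p' h
      have h1 : m (p - p') = 0 := by
        simp only [m, Prod.ext_iff, Prod.fst_sub, Prod.snd_sub, Prod.fst_zero, Prod.snd_zero] at h ⊢
        exact ⟨by linear_combination h.1, by linear_combination h.2⟩
      have h2 : Q (p - p') = 0 := by
        have h3 := hm (p - p')
        rw [h1] at h3
        simp only [hQ, Prod.fst_zero, Prod.snd_zero] at h3 ⊢
        exact (mul_eq_zero.mp (h3.symm.trans (by ring))).resolve_left hs
      obtain ⟨ha, hb⟩ := haniso _ _ h2
      exact sub_eq_zero.mp (Prod.ext ha hb)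
    rw [hG]
    simp only [one_mul, ← hm]
    exact (Equiv.ofBijective m hinj.bijective_of_finite).sum_comp fun p => χ (Q p)
  have htot : ∑ s : k, G s = (Fintype.card k : ℂ) := by
    simp only [hG]
    rw [Finset.sum_comm, Finset.sum_eq_single (0 : k × k)]
    · simp [hQ]
    · intro p _ hp
      have hne : Q p ≠ 0 := fun h => hp (Prod.ext (haniso _ _ h).1 (haniso _ _ h).2)
      simp_rw [mul_comm _ (Q p)]
      exact (AddChar.sum_eq_zero_iff_ne_zero (ψ := χ.mulShift (Q p))).mpr
        (AddChar.IsPrimitive.of_ne_one hχ hne)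
    · simp
  have h0 : G 0 = (Fintype.card k : ℂ) ^ 2 := by simp [hG, sq]
  rw [← Finset.add_sum_erase _ _ (Finset.mem_univ (0 : k)), h0,
    Finset.sum_congr rfl fun s hs => hscale s (Finset.ne_of_mem_erase hs), Finset.sum_const,
    Finset.card_erase_of_mem (Finset.mem_univ _), Finset.card_univ, nsmul_eq_mul] at htot
  have hq : 1 < Fintype.card k := Fintype.one_lt_card
  rw [Nat.cast_sub hq.le, Nat.cast_one] at htot
  have hne : (Fintype.card k : ℂ) - 1 ≠ 0 := by
    rw [sub_ne_zero]; exact_mod_cast hq.ne'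
  have e : ∑ p : k × k, χ (p.1 ^ 2 + p.1 * p.2 * T + p.2 ^ 2 * n) = G 1 := by
    simp [hG, hQ]
  rw [e]
  refine mul_left_cancel₀ hne ?_
  linear_combination htot

end Fermat.Agent.ResidualThree.ThetaInduction
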